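/-
Lib/FFL/FB (R4-FB, Fontaine's bound in function language), file 1 (helper50):
the binomial identity `(1 + z)^p = 1 + p z + p z² T(z) + z^p` with `T ∈ ℤ[X]`.
-/
import Mathlib

set_option autoImplicit false

namespace Fermat.Agent.FFL.FB

open Polynomial

/-- `(1 + X)^p = 1 + p X + p X² T + X^p` in `ℤ[X]`, for a prime `p`. -/
theorem fb_exists_binom_poly (p : ℕ) (hp : p.Prime) :
    ∃ T : ℤ[X], (1 + X : ℤ[X]) ^ p = 1 + C (p : ℤ) * X + C (p : ℤ) * X ^ 2 * T + X ^ p := by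
  obtain ⟨r, hr⟩ := exists_add_pow_prime_eq hp (1 : ℤ[X]) X
  have hp1 : p ≠ 1 := hp.ne_one
  have h1 : (r.coeff 0 : ℤ) = 1 := by
    have h := congrArg (fun q : ℤ[X] => q.coeff 1) hr
    simp only [coeff_one_add_X_pow, one_pow, coeff_add, coeff_X_pow] at h
    have h2 : ((p : ℤ[X]) * 1 * X * r).coeff 1 = (p : ℤ) * r.coeff 0 := by
      have : (p : ℤ[X]) * 1 * X * r = C (p : ℤ) * (r * X) := by
        rw [mul_one, mul_assoc, mul_comm X r]; simp
      rw [this, coeff_C_mul, coeff_mul_X]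
    rw [h2] at h
    have h3 : ((1 : ℤ[X]).coeff 1 : ℤ) = 0 := by
      rw [coeff_one]; simp
    rw [h3] at h
    simp only [Nat.choose_one_right, zero_add] at h
    have h4 : (if 1 = p then (1 : ℤ) else 0) = 0 := if_neg (fun h => hp1 h.symm)
    rw [h4, zero_add] at h
    have hp0 : (p : ℤ) ≠ 0 := by exact_mod_cast hp.ne_zero
    have : (p : ℤ) * 1 = (p : ℤ) * r.coeff 0 := by rw [mul_one]; exact_mod_cast h
    exact (mul_left_cancel₀ hp0 this).symm
  refine ⟨r.divX, ?_⟩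
  have hr2 : r = r.divX * X + C (r.coeff 0) := (divX_mul_X_add r).symm
  rw [h1] at hr2
  rw [hr, one_pow]
  have hC : (p : ℤ[X]) = C (p : ℤ) := by simp
  rw [hC]
  conv_lhs => rw [hr2]
  simp only [map_one]
  ring

/-- The binomial identity in every commutative ring. -/
theorem fb_exists_binom.{u} (p : ℕ) (hp : p.Prime) :
    ∃ T : ℤ[X], ∀ (A : Type u) [CommRing A] (z : A),
      (1 + z) ^ p = 1 + (p : A) * z + (p : A) * z ^ 2 * (aeval z T) + z ^ p := by
  obtain ⟨T, hT⟩ := fb_exists_binom_poly p hp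
  refine ⟨T, fun A _ z => ?_⟩
  have h := congrArg (aeval z) hT
  simpa using h

end Fermat.Agent.FFL.FB
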