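/-
Lib/FFL/FB (R4-FB, Fontaine's bound in function language), file 2 (helper50):
congruences in a `P`-stable subring `B` of a commutative `ℚ̄`-algebra `A`:
* `FBCg B c u` : `u ∈ c • B`;
* `fb_newton`  : if `b ^ p ≡ 1 mod p λ` then `b` can be corrected inside `b (1 + λ B)` to a
  `p`-th root of `1` modulo `p λ ν ^ n`, for every `n`;
* `fb_rigid`   : two approximate `p`-th roots of `1` (mod `p λ ν ^ n`) which are congruent mod `λ`
  are congruent mod `λ ν ^ n`.
Here `λ, λ^(p-1)/p ∈ ν P`.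
-/
import Fermat.Agent.Lib.FFL.FB.Binom

set_option autoImplicit false

namespace Fermat.Agent.FFL.FB

open Polynomial

local notation "Kb" => AlgebraicClosure ℚ

section Cg

variable {A : Type*} [CommRing A] [Algebra Kb A]

/-- `u ∈ c • B`. -/
def FBCg (B : Subring A) (c : Kb) (u : A) : Prop := ∃ r ∈ B, u = algebraMap Kb A c * r

variable {P : ValuationSubring Kb} {B : Subring A}

theorem FBCg.zero (c : Kb) : FBCg B c (0 : A) := ⟨0, B.zero_mem, by simp⟩

theorem FBCg.add {c : Kb} {u v : A} (hu : FBCg B c u) (hv : FBCg B c v) : FBCg B c (u + v) := by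
  obtain ⟨r, hr, rfl⟩ := hu
  obtain ⟨s, hs, rfl⟩ := hv
  exact ⟨r + s, B.add_mem hr hs, by ring⟩

theorem FBCg.neg {c : Kb} {u : A} (hu : FBCg B c u) : FBCg B c (-u) := by
  obtain ⟨r, hr, rfl⟩ := hu
  exact ⟨-r, B.neg_mem hr, by ring⟩

theorem FBCg.sub {c : Kb} {u v : A} (hu : FBCg B c u) (hv : FBCg B c v) : FBCg B c (u - v) := by
  obtain ⟨r, hr, rfl⟩ := hu
  obtain ⟨s, hs, rfl⟩ := hv
  exact ⟨r - s, B.sub_mem hr hs, by ring⟩

theorem FBCg.mul_right {c : Kb} {u t : A} (hu : FBCg B c u) (ht : t ∈ B) : FBCg B c (u * t) := by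
  obtain ⟨r, hr, rfl⟩ := hu
  exact ⟨r * t, B.mul_mem hr ht, by ring⟩

theorem FBCg.mul_left {c : Kb} {u t : A} (hu : FBCg B c u) (ht : t ∈ B) : FBCg B c (t * u) := by
  rw [mul_comm]; exact hu.mul_right ht

theorem FBCg.mul {c c' : Kb} {u v : A} (hu : FBCg B c u) (hv : FBCg B c' v) :
    FBCg B (c * c') (u * v) := by
  obtain ⟨r, hr, rfl⟩ := hu
  obtain ⟨s, hs, rfl⟩ := hv
  exact ⟨r * s, B.mul_mem hr hs, by rw [map_mul]; ring⟩

theorem FBCg.of_mem {u : A} (hu : u ∈ B) : FBCg B 1 u := ⟨u, hu, by simp⟩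

theorem FBCg.congr {c c' : Kb} {u : A} (hu : FBCg B c u) (h : c = c') : FBCg B c' u := h ▸ hu

/-- `B` is stable under multiplication by the elements of `P`. -/
def FBStable (P : ValuationSubring Kb) (B : Subring A) : Prop :=
  ∀ a ∈ P, ∀ u ∈ B, algebraMap Kb A a * u ∈ B

theorem FBCg.mono (hB : FBStable P B) {c a : Kb} (ha : a ∈ P) {u : A} (hu : FBCg B (c * a) u) :
    FBCg B c u := by
  obtain ⟨r, hr, rfl⟩ := hu
  exact ⟨algebraMap Kb A a * r, hB a ha r hr, by rw [map_mul]; ring⟩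

theorem FBCg.mono' (hB : FBStable P B) {c c' a : Kb} (ha : a ∈ P) (h : c' = c * a) {u : A}
    (hu : FBCg B c' u) : FBCg B c u := FBCg.mono hB ha (h ▸ hu)

theorem FBCg.mem (hB : FBStable P B) {c : Kb} (hc : c ∈ P) {u : A} (hu : FBCg B c u) :
    u ∈ B := by
  obtain ⟨r, hr, rfl⟩ := hu
  exact hB c hc r hr

theorem FBCg.smul {c : Kb} (a : Kb) {u : A} (hu : FBCg B c u) :
    FBCg B (a * c) (algebraMap Kb A a * u) := by
  obtain ⟨r, hr, rfl⟩ := hu
  exact ⟨r, hr, by rw [map_mul]; ring⟩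

theorem FBCg.of_smul {c a : Kb} (ha : a ≠ 0) {u : A}
    (hu : FBCg B (a * c) (algebraMap Kb A a * u)) : FBCg B c u := by
  obtain ⟨r, hr, h⟩ := hu
  refine ⟨r, hr, ?_⟩
  have hinv : algebraMap Kb A a⁻¹ * algebraMap Kb A a = 1 := by
    rw [← map_mul, inv_mul_cancel₀ ha, map_one]
  calc u = (algebraMap Kb A a⁻¹ * algebraMap Kb A a) * u := by rw [hinv, one_mul]
    _ = algebraMap Kb A a⁻¹ * (algebraMap Kb A a * u) := by ring
    _ = algebraMap Kb A a⁻¹ * (algebraMap Kb A (a * c) * r) := by rw [h]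
    _ = (algebraMap Kb A a⁻¹ * algebraMap Kb A a) * (algebraMap Kb A c * r) := by
        rw [map_mul]; ring
    _ = algebraMap Kb A c * r := by rw [hinv, one_mul]

theorem FBCg.mul_sub_one {c : Kb} {u v : A} (hu : FBCg B c (u - 1)) (hv : FBCg B c (v - 1))
    (hvB : v ∈ B) : FBCg B c (u * v - 1) := by
  have : u * v - 1 = (u - 1) * v + (v - 1) := by ring
  rw [this]
  exact (hu.mul_right hvB).add hv

theorem FBCg.pow_sub_one {c : Kb} {u : A} (hu : FBCg B c (u - 1)) (huB : u ∈ B) (n : ℕ) :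
    FBCg B c (u ^ n - 1) := by
  induction n with
  | zero => simp [FBCg.zero c]
  | succ n ih =>
    rw [pow_succ]
    exact ih.mul_sub_one hu huB

omit [Algebra Kb A] in
theorem fb_aeval_mem (B : Subring A) {z : A} (hz : z ∈ B) (T : ℤ[X]) : aeval z T ∈ B := by
  induction T using Polynomial.induction_on' with
  | add q r hq hr => rw [map_add]; exact B.add_mem hq hr
  | monomial n a =>
    rw [aeval_monomial]
    exact B.mul_mem (by simpa using B.intCast_mem a) (B.pow_mem hz n)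

end Cg

section Newton

variable {A : Type} [CommRing A] [Algebra Kb A] {P : ValuationSubring Kb} {B : Subring A}
  {p : ℕ}

/-- The scalars of the lifting lemma: `λ, λ^(p-1)/p ∈ ν P`. -/
structure FBScal (P : ValuationSubring Kb) (p : ℕ) (lam nu : Kb) : Prop where
  prime : p.Prime
  nu_mem : nu ∈ P
  lam_eq : ∃ a ∈ P, lam = nu * a
  mu_eq : ∃ a ∈ P, lam ^ (p - 1) = p * nu * a

theorem FBScal.lam_mem {lam nu : Kb} (h : FBScal P p lam nu) : lam ∈ P := by
  obtain ⟨a, ha, rfl⟩ := h.lam_eq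
  exact P.mul_mem _ _ h.nu_mem ha

theorem FBScal.p_ne_zero {lam nu : Kb} (h : FBScal P p lam nu) : (p : Kb) ≠ 0 := by
  exact_mod_cast h.prime.ne_zero

theorem FBScal.lam_pow {lam nu : Kb} (h : FBScal P p lam nu) :
    ∃ a ∈ P, lam ^ p = p * lam * nu * a := by
  obtain ⟨a, ha, h1⟩ := h.mu_eq
  refine ⟨a, ha, ?_⟩
  have hp : p = (p - 1) + 1 := (Nat.sub_add_cancel h.prime.one_le).symm
  calc lam ^ p = lam ^ (p - 1) * lam := by rw [← pow_succ, ← hp]
    _ = p * lam * nu * a := by rw [h1]; ring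

/-- Key expansion: for `z ∈ λ ν^n B`, `(1 + z)^p - 1 - p z ∈ p λ ν^(n+1) B`. -/
theorem fb_expand (hB : FBStable P B) {lam nu : Kb} (h : FBScal P p lam nu) (n : ℕ) {z : A}
    (hz : FBCg B (lam * nu ^ n) z) :
    FBCg B (p * lam * nu ^ (n + 1)) ((1 + z) ^ p - 1 - (p : A) * z) := by
  obtain ⟨T, hT⟩ := fb_exists_binom.{0} p h.prime
  have hT' := hT A z
  have hnun : nu ^ n ∈ P := P.pow_mem h.nu_mem n
  have hzB : z ∈ B := hz.mem hB (P.mul_mem _ _ h.lam_mem hnun)
  have hTB : aeval z T ∈ B := fb_aeval_mem B hzB T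
  have e1 : (1 + z) ^ p - 1 - (p : A) * z = (p : A) * z ^ 2 * (aeval z T) + z ^ p := by
    rw [hT']; ring
  rw [e1]
  obtain ⟨r, hr, rfl⟩ := hz
  obtain ⟨a, ha, hla⟩ := h.lam_eq
  obtain ⟨a', ha', hlp⟩ := h.lam_pow
  have hpA : (p : A) = algebraMap Kb A (p : Kb) := by simp
  refine FBCg.add ?_ ?_
  · -- p z² T
    refine ⟨algebraMap Kb A (a * nu ^ n) * (r ^ 2 * aeval (algebraMap Kb A (lam * nu ^ n) * r) T),
      hB _ (P.mul_mem _ _ ha hnun) _ (B.mul_mem (B.pow_mem hr 2) hTB), ?_⟩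
    rw [hpA]
    have : algebraMap Kb A (p * lam * nu ^ (n + 1)) * algebraMap Kb A (a * nu ^ n)
        = algebraMap Kb A (p : Kb) * (algebraMap Kb A (lam * nu ^ n)) ^ 2 := by
      rw [← map_mul, ← map_pow, ← map_mul]
      congr 1
      rw [hla]; ring
    calc algebraMap Kb A (p : Kb) * (algebraMap Kb A (lam * nu ^ n) * r) ^ 2 *
          aeval (algebraMap Kb A (lam * nu ^ n) * r) T
        = (algebraMap Kb A (p : Kb) * (algebraMap Kb A (lam * nu ^ n)) ^ 2) *
            (r ^ 2 * aeval (algebraMap Kb A (lam * nu ^ n) * r) T) := by ring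
      _ = _ := by rw [← this]; ring
  · -- z ^ p
    refine ⟨algebraMap Kb A (a' * nu ^ (n * p - n)) * r ^ p,
      hB _ (P.mul_mem _ _ ha' (P.pow_mem h.nu_mem _)) _ (B.pow_mem hr p), ?_⟩
    have hnp : n * p = n + (n * p - n) := by
      have : n ≤ n * p := Nat.le_mul_of_pos_right n h.prime.pos
      omega
    have : algebraMap Kb A (p * lam * nu ^ (n + 1)) * algebraMap Kb A (a' * nu ^ (n * p - n))
        = (algebraMap Kb A (lam * nu ^ n)) ^ p := by
      rw [← map_mul, ← map_pow]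
      congr 1
      rw [mul_pow, hlp, ← pow_mul]
      conv_rhs => rw [hnp]
      ring
    rw [mul_pow, ← this]; ring

/-- Products of elements `≡ 1`. -/
theorem fb_newton (hB : FBStable P B) {lam nu : Kb} (h : FBScal P p lam nu) {b : A} (hb : b ∈ B)
    (hbp : FBCg B (p * lam) (b ^ p - 1)) (n : ℕ) :
    ∃ y ∈ B, FBCg B (p * lam * nu ^ n) ((b * (1 + algebraMap Kb A lam * y)) ^ p - 1) := by
  induction n with
  | zero =>
    refine ⟨0, B.zero_mem, ?_⟩
    simpa using hbp
  | succ n ih =>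
    obtain ⟨y, hy, r, hr, hE⟩ := ih
    have hnun : nu ^ n ∈ P := P.pow_mem h.nu_mem n
    have hlamP := h.lam_mem
    obtain ⟨a, ha, hla⟩ := h.lam_eq
    set b' : A := b * (1 + algebraMap Kb A lam * y) with hb'
    have hb'B : b' ∈ B := B.mul_mem hb (B.add_mem B.one_mem (hB _ hlamP _ hy))
    set z : A := algebraMap Kb A (lam * nu ^ n) * (-r) with hz
    have hzC : FBCg B (lam * nu ^ n) z := ⟨-r, B.neg_mem hr, rfl⟩
    have hzB : z ∈ B := hzC.mem hB (P.mul_mem _ _ hlamP hnun)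
    refine ⟨y + algebraMap Kb A (nu ^ n) * (-r) +
        algebraMap Kb A (lam * nu ^ n) * (y * (-r)), ?_, ?_⟩
    · exact B.add_mem (B.add_mem hy (hB _ hnun _ (B.neg_mem hr)))
        (hB _ (P.mul_mem _ _ hlamP hnun) _ (B.mul_mem hy (B.neg_mem hr)))
    · have e0 : b * (1 + algebraMap Kb A lam * (y + algebraMap Kb A (nu ^ n) * (-r) +
          algebraMap Kb A (lam * nu ^ n) * (y * (-r)))) = b' * (1 + z) := by
        rw [hb', hz, map_mul]; ring
      rw [e0, mul_pow]
      have hF := fb_expand hB h n hzC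
      have hpA : (p : A) = algebraMap Kb A (p : Kb) := by simp
      -- E := b'^p - 1 = (p λ ν^n) r ;  F := (1+z)^p - 1 = p z + F'
      have hEz : (b' ^ p - 1) + (p : A) * z = 0 := by
        rw [hE, hz, hpA, map_mul, map_mul, map_mul]; ring
      have e1 : b' ^ p * (1 + z) ^ p - 1 =
          ((1 + z) ^ p - 1 - (p : A) * z) + (b' ^ p - 1) * ((1 + z) ^ p - 1) := by
        have : b' ^ p * (1 + z) ^ p - 1 = ((1 + z) ^ p - 1 - (p : A) * z) +
            ((b' ^ p - 1) + (p : A) * z) + (b' ^ p - 1) * ((1 + z) ^ p - 1) := by ring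
        rw [this, hEz, add_zero]
      rw [e1]
      refine hF.add ?_
      -- (b'^p - 1) ∈ p λ ν^n B, ((1+z)^p - 1) ∈ ν B
      have hE' : FBCg B (p * lam * nu ^ n) (b' ^ p - 1) := ⟨r, hr, hE⟩
      have hF2 : FBCg B nu ((1 + z) ^ p - 1) := by
        have h1 : (1 + z) ^ p - 1 = ((1 + z) ^ p - 1 - (p : A) * z) + (p : A) * z := by ring
        rw [h1]
        refine FBCg.add ?_ ?_
        · refine FBCg.mono' hB (P.mul_mem _ _ (P.mul_mem _ _ (natCast_mem P p) hlamP) hnun) ?_ hF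
          ring
        · refine ⟨algebraMap Kb A (p * a * nu ^ n) * (-r),
            hB _ (P.mul_mem _ _ (P.mul_mem _ _ (natCast_mem P p) ha) hnun) _ (B.neg_mem hr), ?_⟩
          rw [hz, hpA, ← mul_assoc, ← mul_assoc, ← map_mul, ← map_mul]
          congr 2
          rw [hla]; ring
      exact (hE'.mul hF2).congr (by ring)

end Newton

section Rigid

variable {A : Type} [CommRing A] [Algebra Kb A] {P : ValuationSubring Kb} {B : Subring A}
  {p : ℕ}

/-- Rigidity, one-variable form: an approximate `p`-th root of `1` which is `≡ 1 mod λ` is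
`≡ 1 mod λ ν^n`. -/
theorem fb_rigid_one (hB : FBStable P B) {lam nu : Kb} (h : FBScal P p lam nu) (n : ℕ) {z : A}
    (hz : FBCg B lam z) (hzp : FBCg B (p * lam * nu ^ n) ((1 + z) ^ p - 1)) :
    FBCg B (lam * nu ^ n) z := by
  have key : ∀ k, k ≤ n → FBCg B (lam * nu ^ k) z := by
    intro k
    induction k with
    | zero => intro _; simpa using hz
    | succ k ih =>
      intro hk
      have hzk := ih (Nat.le_of_succ_le hk)
      have hF := fb_expand hB h k hzk
      -- p z = ((1+z)^p - 1) - F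
      have hpz : FBCg B (p * lam * nu ^ (k + 1)) ((p : A) * z) := by
        have e : (p : A) * z = ((1 + z) ^ p - 1) - ((1 + z) ^ p - 1 - (p : A) * z) := by ring
        rw [e]
        refine FBCg.sub ?_ hF
        refine FBCg.mono' hB (P.pow_mem h.nu_mem (n - (k + 1))) ?_ hzp
        have : n = (k + 1) + (n - (k + 1)) := by omega
        conv_lhs => rw [this, pow_add]
        ring
      have hpA : (p : A) = algebraMap Kb A (p : Kb) := by simp
      rw [hpA] at hpz
      exact FBCg.of_smul h.p_ne_zero (hpz.congr (by ring))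
  exact key n le_rfl

/-- Rigidity: two approximate `p`-th roots of `1` which are congruent mod `λ` are congruent
mod `λ ν^n`. -/
theorem fb_rigid (hB : FBStable P B) {lam nu : Kb} (h : FBScal P p lam nu) (n : ℕ) {a b : A}
    (ha : a ∈ B) (hb : b ∈ B) (hab : FBCg B lam (b - a))
    (hap : FBCg B (p * lam * nu ^ n) (a ^ p - 1)) (hbp : FBCg B (p * lam * nu ^ n) (b ^ p - 1)) :
    FBCg B (lam * nu ^ n) (b - a) := by
  have hnun : nu ^ n ∈ P := P.pow_mem h.nu_mem n
  have hpP : (p : Kb) ∈ P := natCast_mem P p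
  have hp1 : p = (p - 1) + 1 := (Nat.sub_add_cancel h.prime.one_le).symm
  have hap1 : a ^ (p - 1) * a = a ^ p := by rw [← pow_succ, ← hp1]
  -- weaker forms of hap
  have hap' : FBCg B (lam * nu ^ n) (a ^ p - 1) :=
    FBCg.mono' hB hpP (by ring) hap
  have hap'' : FBCg B lam (a ^ p - 1) := FBCg.mono hB hnun hap'
  set c : A := b * a ^ (p - 1) with hc
  have hcB : c ∈ B := B.mul_mem hb (B.pow_mem ha _)
  have hz : FBCg B lam (c - 1) := by
    have : c - 1 = (b - a) * a ^ (p - 1) + (a ^ p - 1) := by rw [hc, ← hap1]; ring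
    rw [this]
    exact (hab.mul_right (B.pow_mem ha _)).add hap''
  have hcp : FBCg B (p * lam * nu ^ n) ((1 + (c - 1)) ^ p - 1) := by
    have : (1 + (c - 1)) ^ p = b ^ p * (a ^ p) ^ (p - 1) := by
      have e : 1 + (c - 1) = b * a ^ (p - 1) := by rw [hc]; ring
      rw [e, mul_pow, ← pow_mul, ← pow_mul, mul_comm (p - 1) p]
    rw [this]
    exact hbp.mul_sub_one (hap.pow_sub_one (B.pow_mem ha _) _) (B.pow_mem (B.pow_mem ha _) _)
  have hz' := fb_rigid_one hB h n hz hcp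
  -- (b - a) a^(p-1) = (c - 1) - (a^p - 1)
  have h1 : FBCg B (lam * nu ^ n) ((b - a) * a ^ (p - 1)) := by
    have : (b - a) * a ^ (p - 1) = (c - 1) - (a ^ p - 1) := by rw [hc, ← hap1]; ring
    rw [this]
    exact hz'.sub hap'
  have h2 : FBCg B (lam * nu ^ n) ((b - a) * a ^ p) := by
    rw [← hap1, ← mul_assoc]
    exact h1.mul_right ha
  have h3 : FBCg B (lam * nu ^ n) ((b - a) * (a ^ p - 1)) :=
    hap'.mul_left (B.sub_mem hb ha)
  have : b - a = (b - a) * a ^ p - (b - a) * (a ^ p - 1) := by ring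
  rw [this]
  exact h2.sub h3

end Rigid

end Fermat.Agent.FFL.FB
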