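/-
Lib/FFL/FB/Unit (block KT of S56-W4 case C, seat UNIT; helper91): the unit filtration of
`O1 = P ∩ K1`, `K1 = ℚ̄^N`.  Statements: `Lib/FFL/FB/UnitDefs.lean`.

Everything is done in WITNESS FORM: `InU i u ↔ ∃ y ∈ P, u = 1 + π1^i y`,
`LcAt i u a ↔ ∃ y ∈ P, u = 1 + a π1^i + π1^(i+1) y`.
-/
import Fermat.Agent.Lib.FFL.FB.UnitDefs
import Fermat.Agent.Lib.FFL.FB.FieldTeich
import Fermat.Agent.Lib.FFL.FB.Filt
import Fermat.Agent.Lib.FFL.Unr

set_option autoImplicit false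
set_option linter.unusedSectionVars false
set_option linter.unusedVariables false

namespace Fermat.Agent.FFL.FB

open Fermat.Agent.FFL Polynomial

local notation "Kb" => AlgebraicClosure ℚ
local notation "GK" => (AlgebraicClosure ℚ ≃ₐ[ℚ] AlgebraicClosure ℚ)

variable {p : ℕ} {P : ValuationSubring Kb} {π1 : Kb} {N : Subgroup GK}

/-! ### Basic facts -/

theorem un_p_ne_zero (S : UnitSetting p P π1 N) : (p : Kb) ≠ 0 :=
  Nat.cast_ne_zero.2 S.hp.ne_zero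

theorem un_two_le (S : UnitSetting p P π1 N) : 2 ≤ p := S.hp.two_le

theorem un_e1_pos (S : UnitSetting p P π1 N) : 0 < p ^ 2 - 1 := by
  have := S.hp.two_le
  have h : 2 * 2 ≤ p * p := Nat.mul_le_mul this this
  have : p ^ 2 = p * p := by ring
  omega

theorem un_pi_ne_zero (S : UnitSetting p P π1 N) : π1 ≠ 0 := by
  intro h
  have h1 := S.hπ
  rw [h, zero_pow (un_e1_pos S).ne'] at h1
  exact un_p_ne_zero S (neg_eq_zero.1 h1.symm)

theorem un_pi_pow_ne_zero (S : UnitSetting p P π1 N) (i : ℕ) : π1 ^ i ≠ 0 :=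
  pow_ne_zero i (un_pi_ne_zero S)

theorem un_pi_mem_nonunits (S : UnitSetting p P π1 N) : π1 ∈ P.nonunits := by
  rw [P.mem_nonunits_iff]
  have h1 : P.valuation (π1 ^ (p ^ 2 - 1)) < 1 := by
    rw [S.hπ, Valuation.map_neg]
    exact ar_val_p_lt S.hP
  rw [map_pow] at h1
  by_contra h
  rw [not_lt] at h
  exact absurd h1 (not_lt.2 (one_le_pow₀ h))

theorem un_pi_mem (S : UnitSetting p P π1 N) : π1 ∈ P :=
  P.nonunits_subset (un_pi_mem_nonunits S)

theorem un_pi_pow_mem (S : UnitSetting p P π1 N) (i : ℕ) : π1 ^ i ∈ P :=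
  pow_mem (un_pi_mem S) i

theorem un_mul_mem_nonunits {x y : Kb} (hx : x ∈ P.nonunits) (hy : y ∈ P) : x * y ∈ P.nonunits := by
  rw [P.mem_nonunits_iff] at hx ⊢
  rw [map_mul]
  calc P.valuation x * P.valuation y ≤ P.valuation x * 1 :=
        mul_le_mul_right ((P.valuation_le_one_iff y).2 hy) _
    _ = P.valuation x := mul_one _
    _ < 1 := hx

theorem un_mul_mem_nonunits' {x y : Kb} (hx : x ∈ P) (hy : y ∈ P.nonunits) :
    x * y ∈ P.nonunits := by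
  rw [mul_comm]; exact un_mul_mem_nonunits hy hx

theorem un_add_mem_nonunits {x y : Kb} (hx : x ∈ P.nonunits) (hy : y ∈ P.nonunits) :
    x + y ∈ P.nonunits := by
  rw [P.mem_nonunits_iff] at hx hy ⊢
  exact lt_of_le_of_lt (P.valuation.map_add x y) (max_lt hx hy)

theorem un_neg_mem_nonunits {x : Kb} (hx : x ∈ P.nonunits) : -x ∈ P.nonunits := by
  rw [P.mem_nonunits_iff] at hx ⊢
  rwa [Valuation.map_neg]

theorem un_sub_mem_nonunits {x y : Kb} (hx : x ∈ P.nonunits) (hy : y ∈ P.nonunits) :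
    x - y ∈ P.nonunits := by
  rw [sub_eq_add_neg]; exact un_add_mem_nonunits hx (un_neg_mem_nonunits hy)

theorem un_pi_mul_mem_nonunits (S : UnitSetting p P π1 N) {y : Kb} (hy : y ∈ P) :
    π1 * y ∈ P.nonunits :=
  un_mul_mem_nonunits (un_pi_mem_nonunits S) hy

theorem un_mem_nonunits_of_pow {x : Kb} {n : ℕ} (h : x ^ n ∈ P.nonunits) : x ∈ P.nonunits := by
  rw [P.mem_nonunits_iff] at h ⊢
  rw [map_pow] at h
  by_contra hx
  rw [not_lt] at hx
  exact absurd h (not_lt.2 (one_le_pow₀ hx))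

theorem un_mem_of_pow {x : Kb} {n : ℕ} (hn : n ≠ 0) (h : x ^ n ∈ P) : x ∈ P := by
  rw [← P.valuation_le_one_iff] at h ⊢
  rw [map_pow] at h
  by_contra hx
  rw [not_le] at hx
  exact absurd h (not_le.2 (one_lt_pow₀ hx hn))

/-- `1 + x` is a unit of `P` for `x` in the maximal ideal. -/
theorem un_one_add_inv_mem {x : Kb} (hx : x ∈ P.nonunits) : (1 + x)⁻¹ ∈ P := by
  have h1 : P.valuation (1 + x) = 1 := by
    rw [P.mem_nonunits_iff] at hx
    have := P.valuation.map_add_eq_of_lt_left (x := (1 : Kb)) (y := x) (by rwa [map_one])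
    rw [this, map_one]
  rw [← P.valuation_le_one_iff, map_inv₀, h1, inv_one]

theorem un_one_add_ne_zero {x : Kb} (hx : x ∈ P.nonunits) : (1 + x) ≠ 0 := by
  intro h
  have h1 : x = -1 := by linear_combination h
  rw [h1, P.mem_nonunits_iff, Valuation.map_neg, map_one] at hx
  exact lt_irrefl _ hx

/-- `p = - π1 ^ (p² - 1)`. -/
theorem un_p_eq (S : UnitSetting p P π1 N) : (p : Kb) = -π1 ^ (p ^ 2 - 1) := by
  rw [S.hπ, neg_neg]

/-- The inertia ring is fixed by `N`. -/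
theorem un_fixed_of_inertiaRing (S : UnitSetting p P π1 N) {a : Kb} (ha : a ∈ inertiaRing P) :
    FixedBy N a :=
  fun σ hσ => ha.2 σ (S.hNI hσ)

theorem FixedBy.add {x y : Kb} (hx : FixedBy N x) (hy : FixedBy N y) : FixedBy N (x + y) :=
  fun σ hσ => by rw [map_add, hx σ hσ, hy σ hσ]

theorem FixedBy.sub {x y : Kb} (hx : FixedBy N x) (hy : FixedBy N y) : FixedBy N (x - y) :=
  fun σ hσ => by rw [map_sub, hx σ hσ, hy σ hσ]

theorem FixedBy.mul {x y : Kb} (hx : FixedBy N x) (hy : FixedBy N y) : FixedBy N (x * y) :=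
  fun σ hσ => by rw [map_mul, hx σ hσ, hy σ hσ]

theorem FixedBy.div {x y : Kb} (hx : FixedBy N x) (hy : FixedBy N y) : FixedBy N (x / y) :=
  fun σ hσ => by rw [map_div₀, hx σ hσ, hy σ hσ]

theorem FixedBy.inv {x : Kb} (hx : FixedBy N x) : FixedBy N x⁻¹ :=
  fun σ hσ => by rw [map_inv₀, hx σ hσ]

theorem FixedBy.pow {x : Kb} (hx : FixedBy N x) (n : ℕ) : FixedBy N (x ^ n) :=
  fun σ hσ => by rw [map_pow, hx σ hσ]

theorem FixedBy.one : FixedBy N (1 : Kb) := fun σ _ => map_one σ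

theorem FixedBy.zero : FixedBy N (0 : Kb) := fun σ _ => map_zero σ

theorem FixedBy.natCast (n : ℕ) : FixedBy N (n : Kb) := fun σ _ => map_natCast σ n

/-- Iterated `unif`: an `N`-fixed element of `π1^i 𝔪` lies in `π1^(i+1) P`. -/
theorem un_unif_pow (S : UnitSetting p P π1 N) {x : Kb} (hx : FixedBy N x) :
    x ∈ P.nonunits → x / π1 ∈ P := fun h => S.unif x h hx

/-- A nonunit of the inertia ring is divisible by `π1 ^ (p² - 1)`. -/
theorem un_inertia_nonunit (S : UnitSetting p P π1 N) {r : Kb} (hr : r ∈ inertiaRing P)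
    (hm : r ∈ P.nonunits) : ∃ y ∈ P, r = π1 ^ (p ^ 2 - 1) * y := by
  obtain ⟨y, hy, rfl⟩ := exists_eq_p_mul_of_mem_nonunits S.hp.ne_zero
    (unrProp p S.hp P S.hP) hr hm
  refine ⟨-y, P.neg_mem _ hy.1, ?_⟩
  rw [un_p_eq S]; ring

/-! ### Witness forms -/

theorem inU_iff (S : UnitSetting p P π1 N) {i : ℕ} {u : Kb} :
    InU P π1 i u ↔ ∃ y ∈ P, u = 1 + π1 ^ i * y := by
  have h0 := un_pi_pow_ne_zero S i
  constructor
  · intro h
    exact ⟨_, h, by field_simp; ring⟩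
  · rintro ⟨y, hy, rfl⟩
    show (1 + π1 ^ i * y - 1) / π1 ^ i ∈ P
    have : (1 + π1 ^ i * y - 1) / π1 ^ i = y := by field_simp; ring
    rwa [this]

theorem lcAt_iff (S : UnitSetting p P π1 N) {i : ℕ} {u a : Kb} :
    LcAt P π1 i u a ↔ ∃ y ∈ P, u = 1 + a * π1 ^ i + π1 ^ (i + 1) * y := by
  have h0 := un_pi_pow_ne_zero S (i + 1)
  constructor
  · intro h
    exact ⟨_, h, by field_simp; ring⟩
  · rintro ⟨y, hy, rfl⟩
    show (1 + a * π1 ^ i + π1 ^ (i + 1) * y - 1 - a * π1 ^ i) / π1 ^ (i + 1) ∈ P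
    have : (1 + a * π1 ^ i + π1 ^ (i + 1) * y - 1 - a * π1 ^ i) / π1 ^ (i + 1) = y := by
      field_simp; ring
    rwa [this]

theorem inU_mono (S : UnitSetting p P π1 N) {i j : ℕ} (hij : i ≤ j) {u : Kb}
    (h : InU P π1 j u) : InU P π1 i u := by
  rw [inU_iff S] at h ⊢
  obtain ⟨y, hy, rfl⟩ := h
  refine ⟨π1 ^ (j - i) * y, P.mul_mem _ _ (un_pi_pow_mem S _) hy, ?_⟩
  rw [← mul_assoc, ← pow_add, Nat.add_sub_cancel' hij]

theorem inU_one (S : UnitSetting p P π1 N) (i : ℕ) : InU P π1 i (1 : Kb) := by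
  rw [inU_iff S]; exact ⟨0, P.zero_mem, by ring⟩

/-! ### U1 : leading coefficients exist -/

theorem u1 (S : UnitSetting p P π1 N) : U1Statement P π1 N := by
  intro i u hu hin
  have h0 := un_pi_pow_ne_zero S i
  have hπ0 := un_pi_ne_zero S
  obtain ⟨t, ht, hxt⟩ := S.teich _ hin
  have hfix : FixedBy N ((u - 1) / π1 ^ i - t) :=
    ((hu.sub FixedBy.one).div (S.hπN.pow i)).sub (un_fixed_of_inertiaRing S ht)
  have h1 := S.unif _ hxt hfix
  refine ⟨t, ht, ?_⟩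
  show (u - 1 - t * π1 ^ i) / π1 ^ (i + 1) ∈ P
  have : (u - 1 - t * π1 ^ i) / π1 ^ (i + 1) = ((u - 1) / π1 ^ i - t) / π1 := by
    field_simp
    ring
  rwa [this]

/-! ### U1a : calculus of leading coefficients -/

theorem lcAt_unique (S : UnitSetting p P π1 N) {i : ℕ} {u a a' : Kb}
    (h : LcAt P π1 i u a) (h' : LcAt P π1 i u a') : a - a' ∈ P.nonunits := by
  rw [lcAt_iff S] at h h'
  obtain ⟨y, hy, e⟩ := h
  obtain ⟨y', hy', e'⟩ := h'
  have h0 := un_pi_pow_ne_zero S i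
  have h1 : a - a' = π1 * (y' - y) := by
    have h2 : (a - a') * π1 ^ i = π1 * (y' - y) * π1 ^ i := by
      have := e.symm.trans e'
      rw [pow_succ] at this
      linear_combination this
    exact mul_right_cancel₀ h0 h2
  rw [h1]
  exact un_pi_mul_mem_nonunits S (sub_mem hy' hy)

theorem lcAt_congr (S : UnitSetting p P π1 N) {i : ℕ} {u a a' : Kb}
    (ha : a ∈ inertiaRing P) (ha' : a' ∈ inertiaRing P)
    (h : LcAt P π1 i u a) (hd : a - a' ∈ P.nonunits) : LcAt P π1 i u a' := by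
  rw [lcAt_iff S] at h ⊢
  obtain ⟨y, hy, e⟩ := h
  obtain ⟨z, hz, ez⟩ := un_inertia_nonunit S ((inertiaRing P).sub_mem ha ha') hd
  have he := un_e1_pos S
  refine ⟨y + π1 ^ (p ^ 2 - 1 - 1) * z, P.add_mem _ _ hy (P.mul_mem _ _ (un_pi_pow_mem S _) hz), ?_⟩
  have h3 : π1 ^ (p ^ 2 - 1) = π1 ^ (p ^ 2 - 1 - 1) * π1 := by
    rw [← pow_succ, Nat.sub_add_cancel he]
  rw [h3] at ez
  rw [e, pow_succ]
  linear_combination (π1 ^ i) * ez

theorem lcAt_inU (S : UnitSetting p P π1 N) {i : ℕ} {u a : Kb} (ha : a ∈ P)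
    (h : LcAt P π1 i u a) : InU P π1 i u := by
  rw [lcAt_iff S] at h
  rw [inU_iff S]
  obtain ⟨y, hy, e⟩ := h
  refine ⟨a + π1 * y, P.add_mem _ _ ha (P.mul_mem _ _ (un_pi_mem S) hy), ?_⟩
  rw [e, pow_succ]; ring

theorem inU_succ_iff (i : ℕ) (u : Kb) : InU P π1 (i + 1) u ↔ LcAt P π1 i u 0 := by
  unfold InU LcAt
  rw [zero_mul, sub_zero]

theorem lcAt_mul (S : UnitSetting p P π1 N) {i : ℕ} {u u' a a' : Kb} (hi : 0 < i)
    (ha : a ∈ P) (ha' : a' ∈ P) (h : LcAt P π1 i u a) (h' : LcAt P π1 i u' a') :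
    LcAt P π1 i (u * u') (a + a') := by
  rw [lcAt_iff S] at h h' ⊢
  obtain ⟨y, hy, e⟩ := h
  obtain ⟨y', hy', e'⟩ := h'
  obtain ⟨j, rfl⟩ : ∃ j, i = j + 1 := ⟨i - 1, by omega⟩
  have hπ := un_pi_mem S
  have hj := un_pi_pow_mem S j
  have hj1 := un_pi_pow_mem S (j + 1)
  refine ⟨y + y' + a * a' * π1 ^ j + a * π1 ^ (j + 1) * y' + a' * π1 ^ (j + 1) * y
      + π1 ^ (j + 1 + 1) * y * y', ?_, ?_⟩
  · refine P.add_mem _ _ (P.add_mem _ _ (P.add_mem _ _ (P.add_mem _ _ (P.add_mem _ _ hy hy') ?_) ?_)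
      ?_) ?_
    · exact P.mul_mem _ _ (P.mul_mem _ _ ha ha') hj
    · exact P.mul_mem _ _ (P.mul_mem _ _ ha hj1) hy'
    · exact P.mul_mem _ _ (P.mul_mem _ _ ha' hj1) hy
    · exact P.mul_mem _ _ (P.mul_mem _ _ (un_pi_pow_mem S _) hy) hy'
  · rw [e, e']; ring

theorem lcAt_inv (S : UnitSetting p P π1 N) {i : ℕ} {u a : Kb} (hi : 0 < i)
    (ha : a ∈ P) (h : LcAt P π1 i u a) : LcAt P π1 i u⁻¹ (-a) := by
  rw [lcAt_iff S] at h ⊢
  obtain ⟨y, hy, e⟩ := h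
  obtain ⟨j, rfl⟩ : ∃ j, i = j + 1 := ⟨i - 1, by omega⟩
  have hπ := un_pi_mem S
  have hj := un_pi_pow_mem S j
  have hj1 := un_pi_pow_mem S (j + 1)
  have hx : a * π1 ^ (j + 1) + π1 ^ (j + 1 + 1) * y ∈ P.nonunits := by
    have : a * π1 ^ (j + 1) + π1 ^ (j + 1 + 1) * y = π1 * (a * π1 ^ j + π1 ^ (j + 1) * y) := by
      ring
    rw [this]
    exact un_pi_mul_mem_nonunits S (P.add_mem _ _ (P.mul_mem _ _ ha hj) (P.mul_mem _ _ hj1 hy))
  have hu : u = 1 + (a * π1 ^ (j + 1) + π1 ^ (j + 1 + 1) * y) := by rw [e]; ring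
  have huinv : u⁻¹ ∈ P := by rw [hu]; exact un_one_add_inv_mem hx
  have hu0 : u ≠ 0 := by rw [hu]; exact un_one_add_ne_zero hx
  refine ⟨(-y + a * a * π1 ^ j + a * π1 ^ (j + 1) * y) * u⁻¹, ?_, ?_⟩
  · refine P.mul_mem _ _ (P.add_mem _ _ (P.add_mem _ _ (P.neg_mem _ hy) ?_) ?_) huinv
    · exact P.mul_mem _ _ (P.mul_mem _ _ ha ha) hj
    · exact P.mul_mem _ _ (P.mul_mem _ _ ha hj1) hy
  · field_simp
    rw [e]; ring

theorem lcAt_div (S : UnitSetting p P π1 N) {i : ℕ} {u u' a a' : Kb} (hi : 0 < i)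
    (ha : a ∈ P) (ha' : a' ∈ P) (h : LcAt P π1 i u a) (h' : LcAt P π1 i u' a') :
    LcAt P π1 i (u / u') (a - a') := by
  rw [div_eq_mul_inv, sub_eq_add_neg]
  exact lcAt_mul S hi ha (P.neg_mem _ ha') h (lcAt_inv S hi ha' h')

theorem lcAt_pow (S : UnitSetting p P π1 N) {i : ℕ} {u a : Kb} (hi : 0 < i)
    (ha : a ∈ P) (h : LcAt P π1 i u a) (n : ℕ) : LcAt P π1 i (u ^ n) ((n : Kb) * a) := by
  induction n with
  | zero =>
    rw [pow_zero, Nat.cast_zero, zero_mul, ← inU_succ_iff]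
    exact inU_one S _
  | succ n ih =>
    rw [pow_succ, Nat.cast_succ, add_mul, one_mul]
    exact lcAt_mul S hi (P.mul_mem _ _ (natCast_mem P n) ha) ha ih h

theorem u1a (S : UnitSetting p P π1 N) : U1aStatement P π1 :=
  ⟨fun _ _ _ _ h h' => lcAt_unique S h h',
   fun _ _ _ _ ha ha' h hd => lcAt_congr S ha ha' h hd,
   fun _ _ _ ha h => lcAt_inU S ha h,
   fun i u => inU_succ_iff i u,
   fun _ _ _ _ _ hi ha ha' h h' => lcAt_mul S hi ha ha' h h',
   fun _ _ _ hi ha h => lcAt_inv S hi ha h⟩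

/-! ### U5 : Galois action -/

theorem un_theta_mem (S : UnitSetting p P π1 N) (σ : GK) : σ π1 / π1 ∈ P := by
  have h0 := un_pi_ne_zero S
  have h1 : (σ π1 / π1) ^ (p ^ 2 - 1) = 1 := by
    rw [div_pow, ← map_pow, S.hπ, map_neg, map_natCast]
    exact div_self (by rw [neg_ne_zero]; exact un_p_ne_zero S)
  exact un_mem_of_pow (un_e1_pos S).ne' (by rw [h1]; exact P.one_mem)

theorem u5 (S : UnitSetting p P π1 N) : U5Statement P π1 := by
  intro σ hσ i u a h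
  rw [lcAt_iff S] at h ⊢
  obtain ⟨y, hy, e⟩ := h
  have h0 := un_pi_ne_zero S
  refine ⟨(σ π1 / π1) ^ (i + 1) * σ y, P.mul_mem _ _ (pow_mem (un_theta_mem S σ) _) (hσ y hy), ?_⟩
  rw [e]
  simp only [map_add, map_mul, map_pow, map_one, div_pow]
  have hi := un_pi_pow_ne_zero S i
  have hi1 := un_pi_pow_ne_zero S (i + 1)
  field_simp

/-! ### Levels of nonzero elements -/

theorem un_pi_pow_inv_not_mem (S : UnitSetting p P π1 N) {k : ℕ} (hk : 0 < k) :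
    (π1 ^ k)⁻¹ ∉ P := by
  intro h
  obtain ⟨j, rfl⟩ : ∃ j, k = j + 1 := ⟨k - 1, by omega⟩
  have h1 : π1 * (π1 ^ j * (π1 ^ (j + 1))⁻¹) ∈ P.nonunits :=
    un_pi_mul_mem_nonunits S (P.mul_mem _ _ (un_pi_pow_mem S j) h)
  have h2 : π1 * (π1 ^ j * (π1 ^ (j + 1))⁻¹) = 1 := by
    have := un_pi_pow_ne_zero S (j + 1)
    field_simp
    ring
  rw [h2, P.mem_nonunits_iff, map_one] at h1
  exact lt_irrefl _ h1

/-- If `π1 ^ a * e = π1 ^ b * y` with `e` a unit of `P` and `y ∈ P` then `b ≤ a`. -/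
theorem un_le_of_eq (S : UnitSetting p P π1 N) {a b : ℕ} {e y : Kb} (he : e⁻¹ ∈ P) (he0 : e ≠ 0)
    (hy : y ∈ P) (h : π1 ^ a * e = π1 ^ b * y) : b ≤ a := by
  by_contra hlt
  rw [not_le] at hlt
  obtain ⟨k, rfl⟩ : ∃ k, b = a + (k + 1) := ⟨b - a - 1, by omega⟩
  have ha := un_pi_pow_ne_zero S a
  have h1 : e = π1 ^ (k + 1) * y := by
    have h2 : π1 ^ a * e = π1 ^ a * (π1 ^ (k + 1) * y) := by rw [h, pow_add]; ring
    exact mul_left_cancel₀ ha h2
  have h3 : π1 * (π1 ^ k * y * e⁻¹) ∈ P.nonunits :=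
    un_pi_mul_mem_nonunits S (P.mul_mem _ _ (P.mul_mem _ _ (un_pi_pow_mem S k) hy) he)
  have h4 : π1 * (π1 ^ k * y * e⁻¹) = 1 := by
    have : π1 * (π1 ^ k * y * e⁻¹) = (π1 ^ (k + 1) * y) * e⁻¹ := by ring
    rw [this, ← h1, mul_inv_cancel₀ he0]
  rw [h4, P.mem_nonunits_iff, map_one] at h3
  exact lt_irrefl _ h3

/-- An `N`-fixed element of `P` which is not in the maximal ideal is a unit. -/
theorem un_inv_mem {x : Kb} (hx : x ∈ P) (hnu : x ∉ P.nonunits) : x⁻¹ ∈ P :=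
  base_inv_mem_of_not_mem_nonunits hx hnu

/-- Every nonzero `N`-fixed element of `P` is `π1 ^ j · unit`. -/
theorem un_exists_level (S : UnitSetting p P π1 N) {w : Kb} (hw : w ∈ P) (hw0 : w ≠ 0)
    (hfix : FixedBy N w) :
    ∃ (j : ℕ) (w₀ : Kb), w = π1 ^ j * w₀ ∧ w₀ ∈ P ∧ w₀⁻¹ ∈ P ∧ w₀ ≠ 0 ∧ FixedBy N w₀ := by
  classical
  obtain ⟨m, hm⟩ := dvdProp S.hp S.hP w hw0
  have hp0 := un_p_ne_zero S
  -- `p ^ m = ± π1 ^ (e m)`
  have hpm : (p : Kb) ^ m = (-1) ^ m * π1 ^ ((p ^ 2 - 1) * m) := by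
    rw [un_p_eq S, neg_pow, pow_mul]
  let Q : ℕ → Prop := fun k => w / π1 ^ k ∈ P
  have hQ0 : Q 0 := by
    show w / π1 ^ 0 ∈ P
    rwa [pow_zero, div_one]
  have hbound : ∀ k, Q k → k ≤ (p ^ 2 - 1) * m := by
    intro k hk
    have h1 : (-1 : Kb) ^ m * (p : Kb) ^ m / w * (w / π1 ^ k) ∈ P :=
      P.mul_mem _ _ (by
        have : (-1 : Kb) ^ m * (p : Kb) ^ m / w = (-1) ^ m * ((p : Kb) ^ m / w) := by ring
        rw [this]
        exact P.mul_mem _ _ (pow_mem (P.neg_mem _ P.one_mem) m) hm) hk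
    have hk0 := un_pi_pow_ne_zero S k
    have h2 : π1 ^ ((p ^ 2 - 1) * m) * (1 : Kb) =
        π1 ^ k * ((-1 : Kb) ^ m * (p : Kb) ^ m / w * (w / π1 ^ k)) := by
      have h3 : ((-1 : Kb) ^ m) * ((-1 : Kb) ^ m) = 1 := by
        rw [← mul_pow]; norm_num
      have hrhs : π1 ^ k * ((-1 : Kb) ^ m * (p : Kb) ^ m / w * (w / π1 ^ k)) =
          (-1 : Kb) ^ m * (p : Kb) ^ m := by
        field_simp
      rw [hrhs, hpm, ← mul_assoc, h3, one_mul, mul_one]
    exact un_le_of_eq S (by rw [inv_one]; exact P.one_mem) one_ne_zero h1 h2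
  set j := Nat.findGreatest Q ((p ^ 2 - 1) * m) with hj
  have hQj : Q j := Nat.findGreatest_spec (P := Q) (Nat.zero_le _) hQ0
  have hQj1 : ¬ Q (j + 1) := by
    intro h
    have hle := hbound _ h
    have := Nat.le_findGreatest (P := Q) hle h
    omega
  have hj0 := un_pi_pow_ne_zero S j
  have hfix0 : FixedBy N (w / π1 ^ j) := hfix.div (S.hπN.pow j)
  have hnu : w / π1 ^ j ∉ P.nonunits := by
    intro h
    apply hQj1
    have := S.unif _ h hfix0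
    show w / π1 ^ (j + 1) ∈ P
    rw [pow_succ, ← div_div]
    exact this
  refine ⟨j, w / π1 ^ j, by field_simp, hQj, un_inv_mem hQj hnu, ?_, hfix0⟩
  exact div_ne_zero hw0 hj0

/-! ### U3 (a) : `p`-th powers have levels divisible by `p` -/

/-- The binomial expansion `z ^ p = 1 + w ^ p + p w g`, `w = z - 1`, `g ∈ P`. -/
theorem un_binom (S : UnitSetting p P π1 N) {w : Kb} (hw : w ∈ P) :
    ∃ g ∈ P, (1 + w) ^ p = 1 + w ^ p + (p : Kb) * w * g ∧ g - 1 = w * ((g - 1) / w) ∧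
      ∃ T ∈ P, g = 1 + w * T := by
  obtain ⟨T, hT⟩ := fb_exists_binom p S.hp
  have hTm : aeval w T ∈ P := fb_aeval_mem P.toSubring hw T
  have h : (1 + w) ^ p = 1 + (p : Kb) * w + (p : Kb) * w ^ 2 * (aeval w T) + w ^ p := by
    convert hT Kb w using 4
    rw [aeval_def, aeval_def]
    congr 1
  generalize aeval w T = A at h hTm
  refine ⟨1 + w * A, P.add_mem _ _ P.one_mem (P.mul_mem _ _ hw hTm), ?_, ?_,
    A, hTm, rfl⟩
  · rw [h]; ring
  · by_cases h0 : w = 0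
    · rw [h0]; simp
    · field_simp

theorem un_e1_succ (S : UnitSetting p P π1 N) : p ^ 2 - 1 + 1 = p ^ 2 := by
  have := un_e1_pos S
  have h2 : 1 ≤ p ^ 2 := Nat.one_le_pow _ _ S.hp.pos
  omega

theorem u3a (S : UnitSetting p P π1 N) {i : ℕ} {z : Kb} (hpi : ¬ p ∣ i) (hi : i < p ^ 2 + p)
    (hz : FixedBy N z) (h : InU P π1 i (z ^ p)) : InU P π1 (i + 1) (z ^ p) := by
  have hi0 : 0 < i := Nat.pos_of_ne_zero (fun h0 => hpi (h0 ▸ dvd_zero p))
  have hp2 := S.hp.two_le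
  have hpp := S.hp.pos
  rw [inU_iff S] at h
  obtain ⟨y, hy, e⟩ := h
  have hπi : π1 ^ i * y ∈ P.nonunits := by
    obtain ⟨j, rfl⟩ : ∃ j, i = j + 1 := ⟨i - 1, by omega⟩
    rw [pow_succ, mul_comm (π1 ^ j), mul_assoc]
    exact un_pi_mul_mem_nonunits S (P.mul_mem _ _ (un_pi_pow_mem S j) hy)
  have hzp : z ^ p ∈ P := by
    rw [e]; exact P.add_mem _ _ P.one_mem (P.nonunits_subset hπi)
  have hzP : z ∈ P := un_mem_of_pow S.hp.ne_zero hzp
  -- `w = z - 1` is in the maximal ideal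
  set w := z - 1 with hwdef
  have hwP : w ∈ P := sub_mem hzP P.one_mem
  have hz1 : z = 1 + w := by rw [hwdef]; ring
  obtain ⟨g, hg, hbin, -, T, hT, hgT⟩ := un_binom S hwP
  rw [← hz1] at hbin
  have hpm : (p : Kb) ∈ P.nonunits := S.hP
  have hwpm : w ^ p ∈ P.nonunits := by
    have : w ^ p = π1 ^ i * y - (p : Kb) * (w * g) := by
      have := e.symm.trans hbin
      linear_combination (-1 : Kb) * this
    rw [this]
    exact un_sub_mem_nonunits hπi (un_mul_mem_nonunits hpm (P.mul_mem _ _ hwP hg))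
  have hwm : w ∈ P.nonunits := un_mem_nonunits_of_pow hwpm
  have hwfix : FixedBy N w := hz.sub FixedBy.one
  by_cases hw0 : w = 0
  · have : z = 1 := by rw [hz1, hw0, add_zero]
    rw [this, one_pow]
    exact inU_one S _
  obtain ⟨j, w₀, hw, hw₀, hw₀inv, hw₀0, -⟩ := un_exists_level S hwP hw0 hwfix
  have hj0 : 0 < j := by
    rcases Nat.eq_zero_or_pos j with h0 | h0
    · exfalso
      rw [h0, pow_zero, one_mul] at hw
      rw [hw, P.mem_nonunits_iff] at hwm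
      have h1 : P.valuation (w₀ * w₀⁻¹) < 1 := by
        rw [map_mul]
        calc P.valuation w₀ * P.valuation w₀⁻¹ ≤ P.valuation w₀ * 1 :=
              mul_le_mul_right ((P.valuation_le_one_iff _).2 hw₀inv) _
          _ = P.valuation w₀ := mul_one _
          _ < 1 := hwm
      rw [mul_inv_cancel₀ hw₀0, map_one] at h1
      exact lt_irrefl _ h1
    · exact h0
  have hN := un_e1_succ S
  -- `z ^ p - 1 = π1 ^ (p j) w₀ ^ p - π1 ^ (e + j) w₀ g`
  have hexp : z ^ p = 1 + π1 ^ (p * j) * w₀ ^ p - π1 ^ (p ^ 2 - 1 + j) * (w₀ * g) := by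
    rw [hbin, hw, un_p_eq S, mul_pow, ← pow_mul, pow_add, mul_comm j p]
    ring
  rw [inU_iff S]
  rcases Nat.lt_or_ge p j with hjp | hjp
  · -- `j ≥ p + 1`
    have h1 : i + 1 ≤ p * j := by
      have : p * (p + 1) ≤ p * j := Nat.mul_le_mul_left p hjp
      have h2 : p * (p + 1) = p ^ 2 + p := by ring
      omega
    have h2 : i + 1 ≤ p ^ 2 - 1 + j := by omega
    refine ⟨π1 ^ (p * j - (i + 1)) * w₀ ^ p - π1 ^ (p ^ 2 - 1 + j - (i + 1)) * (w₀ * g), ?_, ?_⟩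
    · exact sub_mem (P.mul_mem _ _ (un_pi_pow_mem S _) (pow_mem hw₀ _))
        (P.mul_mem _ _ (un_pi_pow_mem S _) (P.mul_mem _ _ hw₀ hg))
    · rw [hexp]
      have e1 : π1 ^ (p * j) = π1 ^ (i + 1) * π1 ^ (p * j - (i + 1)) := by
        rw [← pow_add, Nat.add_sub_cancel' h1]
      have e2 : π1 ^ (p ^ 2 - 1 + j) = π1 ^ (i + 1) * π1 ^ (p ^ 2 - 1 + j - (i + 1)) := by
        rw [← pow_add, Nat.add_sub_cancel' h2]
      rw [e1, e2]; ring
  · -- `j ≤ p`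
    have hk : p * j + 1 ≤ p ^ 2 - 1 + j := by
      have h3 : (p - 1) * j ≤ (p - 1) * p := Nat.mul_le_mul_left _ hjp
      obtain ⟨q, rfl⟩ : ∃ q, p = q + 1 := ⟨p - 1, by omega⟩
      have h4 : (q + 1) ^ 2 = q * (q + 1) + q + 1 := by ring
      have h5 : (q + 1) * j = q * j + j := by ring
      simp only [Nat.add_sub_cancel] at h3
      have hq : 1 ≤ q := by omega
      omega
    -- the unit `E`
    set x := -(π1 ^ (p ^ 2 - 1 + j - (p * j + 1)) * (w₀ * g) * (w₀⁻¹) ^ p) with hxdef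
    have hxm : π1 * x ∈ P.nonunits :=
      un_pi_mul_mem_nonunits S (P.neg_mem _ (P.mul_mem _ _ (P.mul_mem _ _ (un_pi_pow_mem S _)
        (P.mul_mem _ _ hw₀ hg)) (pow_mem hw₀inv _)))
    have hE : z ^ p = 1 + π1 ^ (p * j) * (w₀ ^ p * (1 + π1 * x)) := by
      rw [hexp, hxdef]
      have e2 : π1 ^ (p ^ 2 - 1 + j) = π1 ^ (p * j) * π1 * π1 ^ (p ^ 2 - 1 + j - (p * j + 1)) := by
        rw [← pow_succ, ← pow_add, Nat.add_sub_cancel' hk]
      rw [e2]
      have hwp : w₀ ^ p * (w₀⁻¹) ^ p = 1 := by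
        rw [← mul_pow, mul_inv_cancel₀ hw₀0, one_pow]
      linear_combination (π1 ^ (p * j) * π1 * π1 ^ (p ^ 2 - 1 + j - (p * j + 1)) * (w₀ * g)) * hwp
    have hEinv : (w₀ ^ p * (1 + π1 * x))⁻¹ ∈ P := by
      rw [mul_inv, ← inv_pow]
      exact P.mul_mem _ _ (pow_mem hw₀inv _) (un_one_add_inv_mem hxm)
    have hE0 : w₀ ^ p * (1 + π1 * x) ≠ 0 :=
      mul_ne_zero (pow_ne_zero _ hw₀0) (un_one_add_ne_zero hxm)
    have hEP : w₀ ^ p * (1 + π1 * x) ∈ P :=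
      P.mul_mem _ _ (pow_mem hw₀ _) (P.add_mem _ _ P.one_mem (P.nonunits_subset hxm))
    have hle : i ≤ p * j := by
      refine un_le_of_eq S hEinv hE0 hy ?_
      have := hE.symm.trans e
      linear_combination this
    have hne : i ≠ p * j := fun h => hpi (h ▸ dvd_mul_right p j)
    have hlt : i + 1 ≤ p * j := by omega
    refine ⟨π1 ^ (p * j - (i + 1)) * (w₀ ^ p * (1 + π1 * x)),
      P.mul_mem _ _ (un_pi_pow_mem S _) hEP, ?_⟩
    rw [hE]
    have e1 : π1 ^ (p * j) = π1 ^ (i + 1) * π1 ^ (p * j - (i + 1)) := by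
      rw [← pow_add, Nat.add_sub_cancel' hlt]
    rw [e1]; ring

/-! ### U3 (b) : levels divisible by `p` move up -/

theorem un_inertia_mem {a : Kb} (ha : a ∈ inertiaRing P) : a ∈ P := ha.1

theorem un_pi_pow_mul_mem_nonunits (S : UnitSetting p P π1 N) {j : ℕ} (hj : 0 < j) {y : Kb}
    (hy : y ∈ P) : π1 ^ j * y ∈ P.nonunits := by
  obtain ⟨k, rfl⟩ : ∃ k, j = k + 1 := ⟨j - 1, by omega⟩
  rw [pow_succ, mul_comm (π1 ^ k), mul_assoc]
  exact un_pi_mul_mem_nonunits S (P.mul_mem _ _ (un_pi_pow_mem S k) hy)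

/-- `(p - 1) j + 1 ≤ p² - 1` for `j ≤ p`: `p j + 1 ≤ p² - 1 + j`. -/
theorem un_arith (S : UnitSetting p P π1 N) {j : ℕ} (hjp : j ≤ p) :
    p * j + 1 ≤ p ^ 2 - 1 + j := by
  have hp2 := S.hp.two_le
  have hN := un_e1_succ S
  have h3 : (p - 1) * j ≤ (p - 1) * p := Nat.mul_le_mul_left _ hjp
  obtain ⟨q, rfl⟩ : ∃ q, p = q + 1 := ⟨p - 1, by omega⟩
  have h4 : (q + 1) ^ 2 = q * (q + 1) + q + 1 := by ring
  have h5 : (q + 1) * j = q * j + j := by ring
  simp only [Nat.add_sub_cancel] at h3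
  have hq : 1 ≤ q := by omega
  omega

theorem u3b (S : UnitSetting p P π1 N) {i : ℕ} {u : Kb} (hpi : p ∣ i) (hi0 : 0 < i)
    (hi : i < p ^ 2 + p) (hu : FixedBy N u) (h : InU P π1 i u) :
    ∃ z : Kb, FixedBy N z ∧ z ≠ 0 ∧ InU P π1 (i + 1) (u / z ^ p) := by
  obtain ⟨j, rfl⟩ := hpi
  have hpp := S.hp.pos
  have hj0 : 0 < j := Nat.pos_of_ne_zero (fun h0 => by rw [h0] at hi0; simp at hi0)
  have hjp : j ≤ p := by
    by_contra hlt
    rw [not_le] at hlt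
    have : p * (p + 1) ≤ p * j := Nat.mul_le_mul_left p hlt
    have h2 : p * (p + 1) = p ^ 2 + p := by ring
    omega
  obtain ⟨a, ha, hlc⟩ := u1 S (p * j) u hu h
  obtain ⟨b, hb, hab⟩ := exists_inertiaRing_pow_sub_mem S.hp S.hP ha.1
  have hw : b * π1 ^ j ∈ P := P.mul_mem _ _ hb.1 (un_pi_pow_mem S j)
  have hwm : b * π1 ^ j ∈ P.nonunits := by
    rw [mul_comm]; exact un_pi_pow_mul_mem_nonunits S hj0 hb.1
  obtain ⟨g, hg, hbin, -, -⟩ := un_binom S hw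
  have hk := un_arith S hjp
  have hz0 : (1 + b * π1 ^ j) ≠ 0 := un_one_add_ne_zero hwm
  have hzfix : FixedBy N (1 + b * π1 ^ j) :=
    FixedBy.one.add ((un_fixed_of_inertiaRing S hb).mul (S.hπN.pow j))
  -- the leading coefficient of `z ^ p`
  have hlcz : LcAt P π1 (p * j) ((1 + b * π1 ^ j) ^ p) (b ^ p) := by
    rw [lcAt_iff S]
    refine ⟨-(π1 ^ (p ^ 2 - 1 + j - (p * j + 1)) * (b * g)),
      P.neg_mem _ (P.mul_mem _ _ (un_pi_pow_mem S _) (P.mul_mem _ _ hb.1 hg)), ?_⟩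
    rw [hbin, un_p_eq S]
    have e2 : π1 ^ (p ^ 2 - 1 + j) = π1 ^ (p * j + 1) * π1 ^ (p ^ 2 - 1 + j - (p * j + 1)) := by
      rw [← pow_add, Nat.add_sub_cancel' hk]
    have e3 : π1 ^ (p ^ 2 - 1) * π1 ^ j = π1 ^ (p ^ 2 - 1 + j) := by rw [pow_add]
    rw [mul_pow, ← pow_mul, mul_comm j p]
    linear_combination (-(b * g)) * e3 + (-(b * g)) * e2
  have hbp : b ^ p ∈ inertiaRing P := pow_mem hb p
  have hlcz' : LcAt P π1 (p * j) ((1 + b * π1 ^ j) ^ p) a := by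
    refine lcAt_congr S hbp ha hlcz ?_
    have : b ^ p - a = -(a - b ^ p) := by ring
    rw [this]
    exact un_neg_mem_nonunits hab
  refine ⟨1 + b * π1 ^ j, hzfix, hz0, ?_⟩
  rw [inU_succ_iff]
  have := lcAt_div S hi0 ha.1 ha.1 hlc hlcz'
  rwa [sub_self] at this

theorem u3 (S : UnitSetting p P π1 N) : U3Statement p P π1 N :=
  ⟨fun _ _ hpi hi hz h => u3a S hpi hi hz h, fun _ _ hpi hi0 hi hu h => u3b S hpi hi0 hi hu h⟩

/-! ### U2 : `U(p² + p)` consists of `p`-th powers -/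

/-- Artin–Schreier: `b ^ p - b ≡ a` has a solution in the inertia ring. -/
theorem un_artinSchreier (S : UnitSetting p P π1 N) {a : Kb} (ha : a ∈ P) :
    ∃ b ∈ inertiaRing P, b ^ p - b - a ∈ P.nonunits := by
  have hp1 : 1 < p := S.hp.one_lt
  have hdeg : (X ^ p - X - C a : Kb[X]).degree ≠ 0 := by
    have h1 : (X ^ p - X - C a : Kb[X]) = X ^ p - (X + C a) := by ring
    rw [h1, degree_sub_eq_left_of_degree_lt]
    · rw [degree_X_pow]; exact_mod_cast S.hp.ne_zero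
    · rw [degree_X_pow]
      calc (X + C a : Kb[X]).degree ≤ 1 := by
            refine (degree_add_le _ _).trans (max_le degree_X_le ?_)
            exact degree_C_le.trans (by norm_num)
        _ < (p : WithBot ℕ) := by exact_mod_cast hp1
  obtain ⟨β, hβ⟩ := IsAlgClosed.exists_root (X ^ p - X - C a : Kb[X]) hdeg
  have hβ' : β ^ p - β = a := by
    have : β ^ p - β - a = 0 := by simpa using hβ
    linear_combination this
  have hβP : β ∈ P := by
    rw [← P.valuation_le_one_iff]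
    by_contra hgt
    rw [not_le] at hgt
    have h1 : P.valuation β < P.valuation (β ^ p) := by
      rw [map_pow]
      calc P.valuation β = P.valuation β ^ 1 := (pow_one _).symm
        _ < P.valuation β ^ p := pow_lt_pow_right₀ hgt hp1
    have h2 : P.valuation (β ^ p - β) = P.valuation (β ^ p) :=
      P.valuation.map_sub_eq_of_lt_left h1
    rw [hβ'] at h2
    have h3 : P.valuation a ≤ 1 := (P.valuation_le_one_iff a).2 ha
    rw [h2] at h3
    exact absurd (hgt.trans h1) (not_lt.2 h3)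
  obtain ⟨b, hb, hβb⟩ := S.teich β hβP
  refine ⟨b, hb, ?_⟩
  have h4 : b ^ p - b - a = -((β ^ p - b ^ p) - (β - b)) := by rw [← hβ']; ring
  rw [h4]
  exact un_neg_mem_nonunits
    (un_sub_mem_nonunits (pow_sub_pow_mem_nonunits hβP hb.1 hβb p) hβb)

theorem u2 (S : UnitSetting p P π1 N) : U2Statement p P π1 N := by
  intro u hu h
  have hp2 := S.hp.two_le
  have hpp := S.hp.pos
  have hN := un_e1_succ S
  have hi0 : 0 < p ^ 2 + p := by positivity
  obtain ⟨a, ha, hlc⟩ := u1 S (p ^ 2 + p) u hu h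
  obtain ⟨b, hb, hab⟩ := un_artinSchreier S ha.1
  have hw : b * π1 ^ (p + 1) ∈ P := P.mul_mem _ _ hb.1 (un_pi_pow_mem S _)
  have hwm : b * π1 ^ (p + 1) ∈ P.nonunits := by
    rw [mul_comm]; exact un_pi_pow_mul_mem_nonunits S (by omega) hb.1
  obtain ⟨g, hg, hbin, -, T, hT, hgT⟩ := un_binom S hw
  have hy0 : (1 + b * π1 ^ (p + 1)) ≠ 0 := un_one_add_ne_zero hwm
  have hy0fix : FixedBy N (1 + b * π1 ^ (p + 1)) :=
    FixedBy.one.add ((un_fixed_of_inertiaRing S hb).mul (S.hπN.pow _))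
  have hbpb : b ^ p - b ∈ inertiaRing P := sub_mem (pow_mem hb p) hb
  have hlc0 : LcAt P π1 (p ^ 2 + p) ((1 + b * π1 ^ (p + 1)) ^ p) (b ^ p - b) := by
    rw [lcAt_iff S]
    refine ⟨-(b * b * π1 ^ p * T), P.neg_mem _ (P.mul_mem _ _ (P.mul_mem _ _
      (P.mul_mem _ _ hb.1 hb.1) (un_pi_pow_mem S _)) hT), ?_⟩
    rw [hbin, hgT, un_p_eq S, mul_pow, ← pow_mul]
    have e1 : (p + 1) * p = p ^ 2 + p := by ring
    have e2 : π1 ^ (p ^ 2 - 1) * π1 ^ (p + 1) = π1 ^ (p ^ 2 + p) := by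
      rw [← pow_add]; congr 1; omega
    have e3 : π1 ^ (p ^ 2 + p + 1) = π1 ^ (p ^ 2 + p) * π1 := pow_succ _ _
    have e4 : π1 ^ (p + 1) = π1 ^ p * π1 := pow_succ _ _
    rw [e1, e3]
    linear_combination (-(b * (1 + b * π1 ^ (p + 1) * T))) * e2 +
      (-(b * b * T * π1 ^ (p ^ 2 + p))) * e4
  have hlc1 : LcAt P π1 (p ^ 2 + p) ((1 + b * π1 ^ (p + 1)) ^ p) a :=
    lcAt_congr S hbpb ha hlc0 hab
  have hdiv : InU P π1 (p ^ 2 + p + 1) (u / (1 + b * π1 ^ (p + 1)) ^ p) := by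
    rw [inU_succ_iff]
    have := lcAt_div S hi0 ha.1 ha.1 hlc hlc1
    rwa [sub_self] at this
  rw [inU_iff S] at hdiv
  obtain ⟨y', hy', e⟩ := hdiv
  have hxP : π1 ^ (p ^ 2 + p + 1) * y' ∈ P := P.mul_mem _ _ (un_pi_pow_mem S _) hy'
  have hxfix : FixedBy N (π1 ^ (p ^ 2 + p + 1) * y') := by
    have : π1 ^ (p ^ 2 + p + 1) * y' = u / (1 + b * π1 ^ (p + 1)) ^ p - 1 := by rw [e]; ring
    rw [this]
    exact (hu.div (hy0fix.pow p)).sub FixedBy.one
  have hsmall : (π1 ^ (p ^ 2 + p + 1) * y') ^ (p - 1) / (p : Kb) ^ p ∈ P.nonunits := by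
    have hpk : (p : Kb) ^ p = (-1) ^ p * π1 ^ ((p ^ 2 - 1) * p) := by
      rw [un_p_eq S, neg_pow, pow_mul]
    have hexp : (p ^ 2 + p + 1) * (p - 1) = (p ^ 2 - 1) * p + (p - 1) := by
      obtain ⟨q, rfl⟩ : ∃ q, p = q + 1 := ⟨p - 1, by omega⟩
      simp only [Nat.add_sub_cancel]
      have h1 : (q + 1) ^ 2 - 1 = q * q + 2 * q := by
        have : (q + 1) ^ 2 = q * q + 2 * q + 1 := by ring
        omega
      rw [h1]; ring
    have h1 : (π1 ^ (p ^ 2 + p + 1) * y') ^ (p - 1) / (p : Kb) ^ p =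
        π1 ^ (p - 1) * ((-1) ^ p * y' ^ (p - 1)) := by
      rw [hpk, mul_pow, ← pow_mul, hexp, pow_add]
      have h3 : ((-1 : Kb) ^ p) * ((-1 : Kb) ^ p) = 1 := by
        rw [← mul_pow]; norm_num
      have hne : π1 ^ ((p ^ 2 - 1) * p) ≠ 0 := un_pi_pow_ne_zero S _
      have hne1 : ((-1 : Kb) ^ p) ≠ 0 := pow_ne_zero _ (by norm_num)
      field_simp
      linear_combination (-(π1 ^ (p - 1) * y' ^ (p - 1))) * h3
    rw [h1]
    exact un_pi_pow_mul_mem_nonunits S (by omega)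
      (P.mul_mem _ _ (pow_mem (P.neg_mem _ P.one_mem) _) (pow_mem hy' _))
  obtain ⟨y1, hy1fix, hy1⟩ := S.root _ hxP hxfix hsmall
  refine ⟨(1 + b * π1 ^ (p + 1)) * y1, hy0fix.mul hy1fix, ?_⟩
  rw [mul_pow, hy1, ← e]
  field_simp

/-! ### U6 : the normal form -/

/-- Climbing the levels: an element of `U(i)`, `i ≥ 1`, is a `p`-th power or, up to a `p`-th
power, in unit normal form. -/
theorem un_climb (S : UnitSetting p P π1 N) : ∀ (n i : ℕ), i + n = p ^ 2 + p → 0 < i →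
    ∀ u : Kb, u ≠ 0 → FixedBy N u → InU P π1 i u →
    ∃ z : Kb, FixedBy N z ∧ z ≠ 0 ∧ (u = z ^ p ∨
      ∃ (i' : ℕ) (a : Kb), 0 < i' ∧ i' < p ^ 2 + p ∧ ¬ p ∣ i' ∧ a ∈ inertiaRing P ∧
        a ∉ P.nonunits ∧ LcAt P π1 i' (u / z ^ p) a) := by
  intro n
  induction n with
  | zero =>
    intro i hi hi0 u hu0 hu h
    have hi' : i = p ^ 2 + p := by omega
    subst hi'
    obtain ⟨y, hy, e⟩ := u2 S u hu h
    refine ⟨y, hy, ?_, Or.inl e.symm⟩
    intro h0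
    rw [h0, zero_pow S.hp.ne_zero] at e
    exact hu0 e.symm
  | succ n ih =>
    intro i hi hi0 u hu0 hu h
    have hilt : i < p ^ 2 + p := by omega
    by_cases hpi : p ∣ i
    · obtain ⟨z, hz, hz0, hin⟩ := u3b S hpi hi0 hilt hu h
      have hzp0 : z ^ p ≠ 0 := pow_ne_zero _ hz0
      obtain ⟨z', hz', hz'0, hcase⟩ := ih (i + 1) (by omega) (by omega) (u / z ^ p)
        (div_ne_zero hu0 hzp0) (hu.div (hz.pow p)) hin
      refine ⟨z * z', hz.mul hz', mul_ne_zero hz0 hz'0, ?_⟩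
      rcases hcase with hc | ⟨i', a, h1, h2, h3, h4, h5, h6⟩
      · left
        rw [mul_pow, ← hc]
        field_simp
      · right
        refine ⟨i', a, h1, h2, h3, h4, h5, ?_⟩
        have : u / (z * z') ^ p = u / z ^ p / z' ^ p := by
          rw [mul_pow, div_div]
        rwa [this]
    · obtain ⟨a, ha, hlc⟩ := u1 S i u hu h
      by_cases ham : a ∈ P.nonunits
      · have hlc0 : LcAt P π1 i u 0 :=
          lcAt_congr S ha (inertiaRing P).zero_mem hlc (by rwa [sub_zero])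
        rw [← inU_succ_iff] at hlc0
        exact ih (i + 1) (by omega) (by omega) u hu0 hu hlc0
      · refine ⟨1, FixedBy.one, one_ne_zero, Or.inr ⟨i, a, hi0, hilt, hpi, ha, ham, ?_⟩⟩
        rwa [one_pow, div_one]

theorem un_zpow_fixed {x : Kb} (hx : FixedBy N x) (n : ℤ) : FixedBy N (x ^ n) :=
  fun σ hσ => by rw [map_zpow₀, hx σ hσ]

/-- The normal form for elements of `P`. -/
theorem un_normal_form_int (S : UnitSetting p P π1 N) {u : Kb} (huP : u ∈ P) (hu0 : u ≠ 0)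
    (hu : FixedBy N u) :
    ∃ z : Kb, FixedBy N z ∧ z ≠ 0 ∧
    ((∃ m : ℕ, 0 < m ∧ m < p ∧ u / z ^ p / π1 ^ m ∈ P ∧ π1 ^ m / (u / z ^ p) ∈ P) ∨
      u = z ^ p ∨
      ∃ (i : ℕ) (a : Kb), 0 < i ∧ i < p ^ 2 + p ∧ ¬ p ∣ i ∧ a ∈ inertiaRing P ∧
        a ∉ P.nonunits ∧ LcAt P π1 i (u / z ^ p) a) := by
  have hpp := S.hp.pos
  have hπ0 := un_pi_ne_zero S
  obtain ⟨k, u₀, hk, hu₀, hu₀inv, hu₀0, hu₀fix⟩ := un_exists_level S huP hu0 hu
  have hkdiv : k = p * (k / p) + k % p := (Nat.div_add_mod k p).symm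
  have hz1 : π1 ^ (k / p) ≠ 0 := un_pi_pow_ne_zero S _
  have hz1p : (π1 ^ (k / p)) ^ p ≠ 0 := pow_ne_zero _ hz1
  have hpow : π1 ^ k = (π1 ^ (k / p)) ^ p * π1 ^ (k % p) := by
    rw [← pow_mul, ← pow_add, mul_comm (k / p) p, Nat.div_add_mod]
  have hdiv : u / (π1 ^ (k / p)) ^ p = π1 ^ (k % p) * u₀ := by
    rw [hk, hpow]
    field_simp
  rcases Nat.eq_zero_or_pos (k % p) with hm | hm
  · -- a unit, up to a `p`-th power
    rw [hm, pow_zero, one_mul] at hdiv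
    obtain ⟨b, hb, hub⟩ := exists_inertiaRing_pow_sub_mem S.hp S.hP hu₀
    have hbm : b ∉ P.nonunits := by
      intro hbm
      have h1 : b ^ p ∈ P.nonunits := by
        obtain ⟨q, hq⟩ : ∃ q, p = q + 1 := ⟨p - 1, by omega⟩
        rw [hq, pow_succ]
        exact un_mul_mem_nonunits' (pow_mem hb.1 _) hbm
      have h2 : u₀ ∈ P.nonunits := by
        have : u₀ = (u₀ - b ^ p) + b ^ p := by ring
        rw [this]
        exact un_add_mem_nonunits hub h1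
      have h3 := un_mul_mem_nonunits h2 hu₀inv
      rw [mul_inv_cancel₀ hu₀0, P.mem_nonunits_iff, map_one] at h3
      exact lt_irrefl _ h3
    have hbinv : b⁻¹ ∈ P := un_inv_mem hb.1 hbm
    have hb0 : b ≠ 0 := by
      intro h0
      apply hbm
      rw [h0, P.mem_nonunits_iff, map_zero]
      exact zero_lt_one
    have hbp0 : b ^ p ≠ 0 := pow_ne_zero _ hb0
    have hbfix : FixedBy N b := un_fixed_of_inertiaRing S hb
    -- `u₁ = u₀ / b ^ p ∈ U(1)`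
    have hu1fix : FixedBy N (u₀ / b ^ p) := hu₀fix.div (hbfix.pow p)
    have hu1m : u₀ / b ^ p - 1 ∈ P.nonunits := by
      have : u₀ / b ^ p - 1 = (u₀ - b ^ p) * (b⁻¹) ^ p := by
        rw [inv_pow]
        field_simp
      rw [this]
      exact un_mul_mem_nonunits hub (pow_mem hbinv _)
    have hin : InU P π1 1 (u₀ / b ^ p) := by
      have := S.unif _ hu1m (hu1fix.sub FixedBy.one)
      show (u₀ / b ^ p - 1) / π1 ^ 1 ∈ P
      rwa [pow_one]
    have hN := un_e1_succ S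
    obtain ⟨z, hz, hz0, hcase⟩ := un_climb S (p ^ 2 + p - 1) 1
      (by have : 1 ≤ p ^ 2 + p := by
            have := Nat.one_le_pow 2 p hpp
            omega
          omega) Nat.one_pos (u₀ / b ^ p)
      (div_ne_zero hu₀0 hbp0) hu1fix hin
    refine ⟨π1 ^ (k / p) * b * z, ((S.hπN.pow _).mul hbfix).mul hz,
      mul_ne_zero (mul_ne_zero hz1 hb0) hz0, Or.inr ?_⟩
    have hzp0 : z ^ p ≠ 0 := pow_ne_zero _ hz0
    have hu_eq : u = (π1 ^ (k / p)) ^ p * u₀ := by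
      rw [← hdiv]; field_simp
    rcases hcase with hc | ⟨i', a, h1, h2, h3, h4, h5, h6⟩
    · left
      rw [mul_pow, mul_pow, ← hc, hu_eq]
      field_simp
    · right
      refine ⟨i', a, h1, h2, h3, h4, h5, ?_⟩
      have : u / (π1 ^ (k / p) * b * z) ^ p = u₀ / b ^ p / z ^ p := by
        rw [hu_eq, mul_pow, mul_pow]
        field_simp
      rwa [this]
  · -- a non-unit
    refine ⟨π1 ^ (k / p), S.hπN.pow _, hz1, Or.inl ⟨k % p, hm, Nat.mod_lt _ hpp, ?_, ?_⟩⟩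
    · rw [hdiv]
      have : π1 ^ (k % p) * u₀ / π1 ^ (k % p) = u₀ := by
        have := un_pi_pow_ne_zero S (k % p)
        field_simp
      rwa [this]
    · rw [hdiv]
      have : π1 ^ (k % p) / (π1 ^ (k % p) * u₀) = u₀⁻¹ := by
        have := un_pi_pow_ne_zero S (k % p)
        field_simp
      rwa [this]

theorem u6 (S : UnitSetting p P π1 N) : U6Statement p P π1 N := by
  intro u hu0 hu
  have hp0 := un_p_ne_zero S
  obtain ⟨m, hm⟩ := dvdProp S.hp S.hP u⁻¹ (inv_ne_zero hu0)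
  have hm' : (p : Kb) ^ m * u ∈ P := by
    have : (p : Kb) ^ m / u⁻¹ = (p : Kb) ^ m * u := by rw [div_inv_eq_mul]
    rwa [this] at hm
  have hpm0 : ((p : Kb) ^ m) ≠ 0 := pow_ne_zero _ hp0
  have hpmfix : FixedBy N ((p : Kb) ^ m) := (FixedBy.natCast p).pow m
  set c := (p : Kb) ^ m with hc
  have hu'P : c ^ p * u ∈ P := by
    obtain ⟨q, hq⟩ : ∃ q, p = q + 1 := ⟨p - 1, by have := S.hp.pos; omega⟩
    have : c ^ p * u = c ^ q * (c * u) := by rw [hq, pow_succ]; ring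
    rw [this]
    exact P.mul_mem _ _ (pow_mem (pow_mem (natCast_mem P p) m) q) hm'
  have hu'0 : c ^ p * u ≠ 0 := mul_ne_zero (pow_ne_zero _ hpm0) hu0
  obtain ⟨z, hz, hz0, hcase⟩ := un_normal_form_int S hu'P hu'0 ((hpmfix.pow p).mul hu)
  refine ⟨z / c, hz.div hpmfix, div_ne_zero hz0 hpm0, ?_⟩
  have hzp0 : z ^ p ≠ 0 := pow_ne_zero _ hz0
  have hcp0 : c ^ p ≠ 0 := pow_ne_zero _ hpm0
  have key : u / (z / c) ^ p = c ^ p * u / z ^ p := by
    rw [div_pow]; field_simp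
  rw [key]
  rcases hcase with h1 | h1 | h1
  · exact Or.inl h1
  · refine Or.inr (Or.inl ?_)
    rw [div_pow, ← h1]; field_simp
  · exact Or.inr (Or.inr h1)

end Fermat.Agent.FFL.FB
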