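/-
Lib/FFL/FB/PeuMono (row 38, wall (d), seat (d0); helper91): the peu ramifiée Kummer extension
`M = K0(ζ, α)`, `α ^ p = 1 + p z` (`z` a unit of `K0 = ℚ̄^I`), is totally ramified of degree
`p (p - 1)` over `K0`, with uniformiser `ϖ = (ζ - 1) / (α - 1)`.

Deliverable: `peuMonoSetting : MonoSetting p P I (peuStab P ζ α) (p * (p - 1)) p (peuUnif ζ α)`
(`Lib/FFL/FB/FieldMono.lean`: basis `1, ϖ, …, ϖ^(d-1)` of the integers of `M` over those of `K0`,
`unif`, `depth`, `stab`), and the BREAK: `s ϖ / ϖ ≡ 1 - ϖ` modulo `ϖ²` for `s ∈ I` with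
`s ζ = ζ`, `s α = ζ α`.
-/
import Fermat.Agent.Lib.FFL.FB.FieldMono
import Fermat.Agent.Lib.FFL.FB.Unit

set_option autoImplicit false
set_option linter.unusedSectionVars false
set_option linter.unusedVariables false

namespace Fermat.Agent.FFL.FB

open Fermat.Agent.FFL Polynomial

local notation "Kb" => AlgebraicClosure ℚ
local notation "GK" => (AlgebraicClosure ℚ ≃ₐ[ℚ] AlgebraicClosure ℚ)

variable {p : ℕ} {P : ValuationSubring Kb}

/-- The stabiliser of `ζ` and `α` in the inertia group: the group of `M = K0(ζ, α)`. -/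
noncomputable def peuStab (P : ValuationSubring Kb) (ζ α : Kb) : Subgroup GK :=
  stabI P ζ ⊓ stabI P α

theorem mem_peuStab {ζ α : Kb} {σ : GK} :
    σ ∈ peuStab P ζ α ↔ σ ∈ P.inertiaSubgroupIn ℚ ∧ σ ζ = ζ ∧ σ α = α := by
  rw [peuStab, Subgroup.mem_inf, mem_stabI, mem_stabI]
  tauto

theorem peuStab_le (P : ValuationSubring Kb) (ζ α : Kb) :
    peuStab P ζ α ≤ P.inertiaSubgroupIn ℚ := fun _ h => (mem_peuStab.1 h).1

/-- The uniformiser of `M`. -/
noncomputable def peuUnif (ζ α : Kb) : Kb := (ζ - 1) / (α - 1)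

/-! ### Valuations -/

theorem pm_binom (hp : p.Prime) {w : Kb} (hw : w ∈ P) :
    ∃ T ∈ P, (1 + w) ^ p = 1 + w ^ p + (p : Kb) * w * (1 + w * T) := by
  obtain ⟨T, hT⟩ := fb_exists_binom p hp
  have hTm : aeval w T ∈ P := fb_aeval_mem P.toSubring hw T
  have h : (1 + w) ^ p = 1 + (p : Kb) * w + (p : Kb) * w ^ 2 * (aeval w T) + w ^ p := by
    convert hT Kb w using 4
    rw [aeval_def, aeval_def]
    congr 1
  exact ⟨aeval w T, hTm, by rw [h]; ring⟩

theorem pm_p_mem_nonunits (hP : P.LiesOverPrime p) : (p : Kb) ∈ P.nonunits :=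
  (P.mem_nonunits_iff).2 (ar_val_p_lt hP)

/-- `α ^ p = 1 + p z` with `z` integral: `α - 1` is in the maximal ideal, and
`(α - 1) ^ p = p (z - (α - 1) c)` with `c` integral. -/
theorem pm_alpha_aux (hp : p.Prime) (hP : P.LiesOverPrime p) {α z : Kb} (hz : z ∈ P)
    (hα : α ^ p = 1 + (p : Kb) * z) :
    α ∈ P ∧ α - 1 ∈ P.nonunits ∧
      ∃ c ∈ P, (α - 1) ^ p = (p : Kb) * (z - (α - 1) * c) := by
  have hpm := pm_p_mem_nonunits hP
  have hαP : α ∈ P := by
    apply un_mem_of_pow hp.ne_zero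
    rw [hα]
    exact P.add_mem _ _ P.one_mem (P.mul_mem _ _ (P.nonunits_subset hpm) hz)
  have hyP : α - 1 ∈ P := sub_mem hαP P.one_mem
  obtain ⟨T, hT, hb⟩ := pm_binom hp hyP
  have hcP : 1 + (α - 1) * T ∈ P := P.add_mem _ _ P.one_mem (P.mul_mem _ _ hyP hT)
  have h1 : (α - 1) ^ p = (p : Kb) * (z - (α - 1) * (1 + (α - 1) * T)) := by
    have h2 : (1 + (α - 1)) ^ p = α ^ p := by ring_nf
    rw [hb, hα] at h2
    linear_combination h2
  refine ⟨hαP, ?_, _, hcP, h1⟩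
  apply un_mem_nonunits_of_pow (n := p)
  rw [h1]
  exact un_mul_mem_nonunits hpm (sub_mem hz (P.mul_mem _ _ hyP hcP))

/-- `v (α - 1) ^ p = v p` for `α ^ p = 1 + p z`, `z` a unit. -/
theorem pm_val_alpha (hp : p.Prime) (hP : P.LiesOverPrime p) {α z : Kb} (hz : z ∈ P)
    (hzu : z ∉ P.nonunits) (hα : α ^ p = 1 + (p : Kb) * z) :
    P.valuation (α - 1) ^ p = P.valuation (p : Kb) := by
  obtain ⟨hαP, hym, c, hc, h1⟩ := pm_alpha_aux hp hP hz hα
  have hu : P.valuation (z - (α - 1) * c) = 1 := by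
    have hzv : P.valuation z = 1 := fm_val_eq_one hz hzu
    have hlt : P.valuation ((α - 1) * c) < P.valuation z := by
      rw [hzv, ← P.mem_nonunits_iff]
      exact un_mul_mem_nonunits hym hc
    rw [Valuation.map_sub_eq_of_lt_left _ hlt, hzv]
  rw [← map_pow, h1, map_mul, hu, mul_one]

theorem pm_alpha_ne_one (hp : p.Prime) (hP : P.LiesOverPrime p) {α z : Kb} (hz : z ∈ P)
    (hzu : z ∉ P.nonunits) (hα : α ^ p = 1 + (p : Kb) * z) : α - 1 ≠ 0 := by
  intro h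
  have h1 := pm_val_alpha hp hP hz hzu hα
  rw [h, map_zero, zero_pow hp.ne_zero] at h1
  exact (Valuation.ne_zero_iff _).2 (ar_p_ne_zero hp) h1.symm

theorem pm_two_le_mul (hp : p.Prime) (hp2 : p ≠ 2) : 2 ≤ p - 1 := by
  have := hp.two_le
  omega

/-- `v ϖ ^ (p (p - 1)) = v p`. -/
theorem pm_val_unif (hp : p.Prime) (hP : P.LiesOverPrime p) {ζ α z : Kb}
    (hζ : IsPrimitiveRoot ζ p) (hz : z ∈ P) (hzu : z ∉ P.nonunits)
    (hα : α ^ p = 1 + (p : Kb) * z) :
    P.valuation (peuUnif ζ α) ^ (p * (p - 1)) = P.valuation (p : Kb) := by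
  have h1 : P.valuation (ζ - 1) ^ (p - 1) = P.valuation (p : Kb) :=
    val_root_sub_one_pow hp hζ.pow_eq_one (hζ.ne_one hp.one_lt)
  have h2 := pm_val_alpha hp hP hz hzu hα
  have hv0 : P.valuation (p : Kb) ≠ 0 := (Valuation.ne_zero_iff _).2 (ar_p_ne_zero hp)
  have hp1 : p - 1 + 1 = p := Nat.sub_add_cancel hp.pos
  rw [peuUnif, map_div₀, div_pow]
  have e1 : P.valuation (ζ - 1) ^ (p * (p - 1)) = P.valuation (p : Kb) ^ p := by
    rw [mul_comm, pow_mul, h1]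
  have e2 : P.valuation (α - 1) ^ (p * (p - 1)) = P.valuation (p : Kb) ^ (p - 1) := by
    rw [pow_mul, h2]
  rw [e1, e2, div_eq_iff (pow_ne_zero _ hv0), ← pow_succ', hp1]

/-! ### The index of `peuStab` in the inertia group -/

theorem pm_mem_decomp {σ : GK} (hσ : σ ∈ P.inertiaSubgroupIn ℚ) :
    σ ∈ P.decompositionSubgroup ℚ := by
  obtain ⟨τ, _, rfl⟩ := hσ
  exact τ.2

theorem pm_subgroupOf_eq_stabilizer (ζ α : Kb) :
    (peuStab P ζ α).subgroupOf (P.inertiaSubgroupIn ℚ) =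
      MulAction.stabilizer ↥(P.inertiaSubgroupIn ℚ) ((ζ, α) : Kb × Kb) := by
  ext σ
  rw [Subgroup.mem_subgroupOf, MulAction.mem_stabilizer_iff, mem_peuStab]
  constructor
  · rintro ⟨_, h1, h2⟩
    exact Prod.ext h1 h2
  · intro h
    exact ⟨σ.2, congrArg Prod.fst h, congrArg Prod.snd h⟩

theorem pm_orbit_subset (hp : p.Prime) {ζ α a : Kb} (hζ : IsPrimitiveRoot ζ p) (hα : α ^ p = a)
    (ha : ∀ σ ∈ P.inertiaSubgroupIn ℚ, σ a = a) :
    MulAction.orbit ↥(P.inertiaSubgroupIn ℚ) ((ζ, α) : Kb × Kb) ⊆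
      ↑((primitiveRoots p Kb) ×ˢ (nthRootsFinset p a)) := by
  rintro _ ⟨σ, rfl⟩
  rw [Finset.mem_coe, Finset.mem_product]
  constructor
  · rw [mem_primitiveRoots hp.pos]
    exact hζ.map_of_injective σ.1.injective
  · rw [mem_nthRootsFinset hp.pos]
    show (σ.1 α) ^ p = a
    rw [← map_pow, hα, ha σ.1 σ.2]

/-- `[I : H] ≤ p (p - 1)` and `[I : H] ≠ 0`. -/
theorem pm_relIndex_le (hp : p.Prime) {ζ α a : Kb} (hζ : IsPrimitiveRoot ζ p) (hα : α ^ p = a)
    (ha : ∀ σ ∈ P.inertiaSubgroupIn ℚ, σ a = a) :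
    (peuStab P ζ α).relIndex (P.inertiaSubgroupIn ℚ) ≠ 0 ∧
      (peuStab P ζ α).relIndex (P.inertiaSubgroupIn ℚ) ≤ p * (p - 1) := by
  classical
  have hsub := pm_orbit_subset (P := P) hp hζ hα ha
  have hfin : (MulAction.orbit ↥(P.inertiaSubgroupIn ℚ) ((ζ, α) : Kb × Kb)).Finite :=
    Set.Finite.subset (Finset.finite_toSet _) hsub
  have hidx : (peuStab P ζ α).relIndex (P.inertiaSubgroupIn ℚ) =
      (MulAction.orbit ↥(P.inertiaSubgroupIn ℚ) ((ζ, α) : Kb × Kb)).ncard := by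
    rw [Subgroup.relIndex, pm_subgroupOf_eq_stabilizer, MulAction.index_stabilizer]
  rw [hidx]
  refine ⟨Set.ncard_ne_zero_of_mem (MulAction.mem_orbit_self _) hfin, ?_⟩
  refine (Set.ncard_le_ncard hsub (Finset.finite_toSet _)).trans ?_
  rw [Set.ncard_coe_finset, Finset.card_product, hζ.card_primitiveRoots, Nat.totient_prime hp,
    mul_comm]
  refine Nat.mul_le_mul_right _ ?_
  exact (Multiset.toFinset_card_le _).trans (card_nthRoots p a)

/-! ### Orbits and the value group of the base -/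

/-- The valuation of an element with finite orbit under `Γ0`, raised to the cardinality of the
orbit, is in the value group of the fixed field of `Γ0` (valuation of the norm). -/
theorem pm_orbit_val (hp : p.Prime) (hP : P.LiesOverPrime p) (Γ0 : Subgroup GK)
    (hΓ0 : Γ0 ≤ P.decompositionSubgroup ℚ) {π0 : Kb} (hπ0 : π0 ≠ 0) (hπ0m : π0 ∈ P.nonunits)
    (hπ0fix : ∀ σ ∈ Γ0, σ π0 = π0)
    (hunif : ∀ x ∈ P.nonunits, (∀ σ ∈ Γ0, σ x = x) → x / π0 ∈ P)
    {x : Kb} (hxP : x ∈ P) (hx0 : x ≠ 0) (hfin : (MulAction.orbit ↥Γ0 x).Finite) :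
    ∃ m : ℕ, P.valuation x ^ (MulAction.orbit ↥Γ0 x).ncard = P.valuation π0 ^ m := by
  classical
  set T : Finset Kb := hfin.toFinset with hT
  have hmemT : ∀ y, y ∈ T ↔ ∃ σ ∈ Γ0, σ x = y := by
    intro y
    rw [hT, Set.Finite.mem_toFinset, MulAction.mem_orbit_iff]
    constructor
    · rintro ⟨σ, rfl⟩
      exact ⟨σ.1, σ.2, rfl⟩
    · rintro ⟨σ, hσ, rfl⟩
      exact ⟨⟨σ, hσ⟩, rfl⟩
  have hval : ∀ y ∈ T, P.valuation y = P.valuation x := by
    intro y hy
    obtain ⟨σ, hσ, rfl⟩ := (hmemT y).1 hy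
    exact val_decomp (hΓ0 hσ) x
  have hNval : P.valuation (∏ y ∈ T, y) = P.valuation x ^ (MulAction.orbit ↥Γ0 x).ncard := by
    rw [map_prod, Finset.prod_congr rfl hval, Finset.prod_const,
      Set.ncard_eq_toFinset_card _ hfin]
  have hN0 : (∏ y ∈ T, y) ≠ 0 := by
    rw [Finset.prod_ne_zero_iff]
    intro y hy h0
    have := hval y hy
    rw [h0, map_zero] at this
    exact (Valuation.ne_zero_iff _).2 hx0 this.symm
  have hNP : (∏ y ∈ T, y) ∈ P := by
    refine prod_mem fun y hy => ?_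
    rw [← P.valuation_le_one_iff, hval y hy]
    exact (P.valuation_le_one_iff _).2 hxP
  have hNfix : ∀ σ ∈ Γ0, σ (∏ y ∈ T, y) = ∏ y ∈ T, y := by
    intro σ hσ
    rw [map_prod]
    refine Finset.prod_bij (fun y _ => σ y) ?_ (fun y _ y' _ h => σ.injective h) ?_
      (fun y _ => rfl)
    · intro y hy
      obtain ⟨τ, hτ, rfl⟩ := (hmemT y).1 hy
      exact (hmemT _).2 ⟨σ * τ, mul_mem hσ hτ, rfl⟩
    · intro y hy
      obtain ⟨τ, hτ, rfl⟩ := (hmemT y).1 hy
      refine ⟨(σ⁻¹ * τ) x, (hmemT _).2 ⟨σ⁻¹ * τ, mul_mem (inv_mem hσ) hτ, rfl⟩, ?_⟩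
      show σ ((σ⁻¹ * τ) x) = τ x
      rw [← AlgEquiv.mul_apply, mul_inv_cancel_left]
  obtain ⟨m, hm⟩ := fm_val_eq_pow hp hP Γ0 hπ0 hπ0m hπ0fix hunif hN0 hNP hNfix
  exact ⟨m, by rw [← hNval, hm]⟩

/-! ### The setting and the main statement -/

/-- The peu ramifiée setting: `ζ` a primitive `p`-th root of unity, `α ^ p = 1 + p z` with `z` a
unit of the inertia ring (`p` odd). -/
structure PeuSetting (p : ℕ) (P : ValuationSubring Kb) (ζ α z : Kb) : Prop where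
  hp : p.Prime
  hp2 : p ≠ 2
  hP : P.LiesOverPrime p
  hζ : IsPrimitiveRoot ζ p
  hz : z ∈ inertiaRing P
  hzu : z ∉ P.nonunits
  hα : α ^ p = 1 + (p : Kb) * z

namespace PeuSetting

variable {ζ α z : Kb} (S : PeuSetting p P ζ α z)
include S

theorem d_ne_zero : p * (p - 1) ≠ 0 := by
  have := S.hp.two_le
  exact Nat.mul_ne_zero (by omega) (by omega)

theorem val_unif : P.valuation (peuUnif ζ α) ^ (p * (p - 1)) = P.valuation (p : Kb) :=
  pm_val_unif S.hp S.hP S.hζ S.hz.1 S.hzu S.hα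

theorem val_p_ne_zero : P.valuation (p : Kb) ≠ 0 :=
  (Valuation.ne_zero_iff _).2 (ar_p_ne_zero S.hp)

theorem val_unif_ne_zero : P.valuation (peuUnif ζ α) ≠ 0 := by
  intro h
  have := S.val_unif
  rw [h, zero_pow S.d_ne_zero] at this
  exact S.val_p_ne_zero this.symm

theorem unif_ne_zero : peuUnif ζ α ≠ 0 := (Valuation.ne_zero_iff _).1 S.val_unif_ne_zero

theorem val_unif_lt : P.valuation (peuUnif ζ α) < 1 := by
  by_contra h
  rw [not_lt] at h
  have h1 : 1 ≤ P.valuation (peuUnif ζ α) ^ (p * (p - 1)) := one_le_pow₀ h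
  rw [S.val_unif] at h1
  exact absurd (ar_val_p_lt S.hP) (not_lt.2 h1)

theorem unif_mem_nonunits : peuUnif ζ α ∈ P.nonunits := (P.mem_nonunits_iff).2 S.val_unif_lt

theorem unif_mem : peuUnif ζ α ∈ P := P.nonunits_subset S.unif_mem_nonunits

theorem a_fixed : ∀ σ ∈ P.inertiaSubgroupIn ℚ, σ (1 + (p : Kb) * z) = 1 + (p : Kb) * z := by
  intro σ hσ
  rw [map_add, map_one, map_mul, map_natCast, S.hz.2 σ hσ]

theorem unif_fixed : ∀ σ ∈ peuStab P ζ α, σ (peuUnif ζ α) = peuUnif ζ α := by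
  intro σ hσ
  obtain ⟨_, h1, h2⟩ := mem_peuStab.1 hσ
  rw [peuUnif, map_div₀, map_sub, map_sub, map_one, h1, h2]

/-- `[I : H] = p (p - 1)`. -/
theorem relIndex_eq :
    (peuStab P ζ α).relIndex (P.inertiaSubgroupIn ℚ) = p * (p - 1) := by
  obtain ⟨hD0, hDle⟩ := pm_relIndex_le (P := P) S.hp S.hζ S.hα S.a_fixed
  -- the stabiliser of `ϖ`
  have hle : (peuStab P ζ α).subgroupOf (P.inertiaSubgroupIn ℚ) ≤
      MulAction.stabilizer ↥(P.inertiaSubgroupIn ℚ) (peuUnif ζ α) := by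
    intro σ hσ
    rw [MulAction.mem_stabilizer_iff]
    exact S.unif_fixed σ.1 (Subgroup.mem_subgroupOf.1 hσ)
  have hdvd := Subgroup.index_dvd_of_le hle
  rw [MulAction.index_stabilizer] at hdvd
  have hD : ((peuStab P ζ α).subgroupOf (P.inertiaSubgroupIn ℚ)).index =
      (peuStab P ζ α).relIndex (P.inertiaSubgroupIn ℚ) := rfl
  rw [hD] at hdvd
  have hn0 : (MulAction.orbit ↥(P.inertiaSubgroupIn ℚ) (peuUnif ζ α)).ncard ≠ 0 := by
    intro h
    rw [h, zero_dvd_iff] at hdvd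
    exact hD0 hdvd
  have hfin := Set.finite_of_ncard_ne_zero hn0
  obtain ⟨m, hm⟩ := pm_orbit_val S.hp S.hP (P.inertiaSubgroupIn ℚ)
    (fun σ hσ => pm_mem_decomp hσ) (ar_p_ne_zero S.hp) (pm_p_mem_nonunits S.hP)
    (fun σ _ => map_natCast σ p) (unrProp p S.hp P S.hP) S.unif_mem S.unif_ne_zero hfin
  rw [← S.val_unif, ← pow_mul] at hm
  have hinj := pow_right_injective₀ (zero_lt_iff.2 S.val_unif_ne_zero) S.val_unif_lt.ne
  have hnm : (MulAction.orbit ↥(P.inertiaSubgroupIn ℚ) (peuUnif ζ α)).ncard =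
      p * (p - 1) * m := hinj hm
  have hdD : p * (p - 1) ∣ (peuStab P ζ α).relIndex (P.inertiaSubgroupIn ℚ) :=
    (Dvd.intro m hnm.symm).trans hdvd
  exact le_antisymm hDle (Nat.le_of_dvd (Nat.pos_of_ne_zero hD0) hdD)

/-- **(d0)**: `M = K0(ζ, α)` is totally ramified over `K0` of degree `p (p - 1)` with
uniformiser `ϖ = (ζ - 1) / (α - 1)`. -/
theorem monoSetting :
    MonoSetting p P (P.inertiaSubgroupIn ℚ) (peuStab P ζ α) (p * (p - 1)) (p : Kb)
      (peuUnif ζ α) where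
  hp := S.hp
  hP := S.hP
  hΓ0 := fun σ hσ => pm_mem_decomp hσ
  hΓ := peuStab_le P ζ α
  hd := S.relIndex_eq
  hd0 := S.d_ne_zero
  hπ0 := ar_p_ne_zero S.hp
  hπ0m := pm_p_mem_nonunits S.hP
  hπ0fix := fun σ _ => map_natCast σ p
  hunif := unrProp p S.hp P S.hP
  hϖfix := S.unif_fixed
  hϖ1 := by
    rw [← P.valuation_le_one_iff, map_div₀, map_pow, S.val_unif, div_self S.val_p_ne_zero]
  hϖ2 := by
    rw [P.mem_nonunits_iff, map_div₀, map_pow, S.val_unif, div_self S.val_p_ne_zero]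
    exact lt_irrefl _

/-! ### The cyclotomic layer `K1 = K0(ζ)` and the relative layer `M / K1` -/

theorem stab_subgroupOf_eq_stabilizer :
    (stabI P ζ).subgroupOf (P.inertiaSubgroupIn ℚ) =
      MulAction.stabilizer ↥(P.inertiaSubgroupIn ℚ) (ζ - 1) := by
  ext σ
  rw [Subgroup.mem_subgroupOf, MulAction.mem_stabilizer_iff, mem_stabI]
  constructor
  · rintro ⟨_, h1⟩
    show σ.1 (ζ - 1) = ζ - 1
    rw [map_sub, map_one, h1]
  · intro h
    have h1 : σ.1 (ζ - 1) = ζ - 1 := h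
    rw [map_sub, map_one] at h1
    exact ⟨σ.2, sub_left_injective h1⟩

theorem zeta_sub_one_ne_zero : ζ - 1 ≠ 0 := sub_ne_zero.2 (S.hζ.ne_one S.hp.one_lt)

theorem val_zeta : P.valuation (ζ - 1) ^ (p - 1) = P.valuation (p : Kb) :=
  val_root_sub_one_pow S.hp S.hζ.pow_eq_one (S.hζ.ne_one S.hp.one_lt)

theorem val_zeta_ne_zero : P.valuation (ζ - 1) ≠ 0 :=
  (Valuation.ne_zero_iff _).2 S.zeta_sub_one_ne_zero

theorem p_sub_one_ne_zero : p - 1 ≠ 0 := by
  have := S.hp.two_le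
  omega

theorem val_zeta_lt : P.valuation (ζ - 1) < 1 := by
  by_contra h
  rw [not_lt] at h
  have h1 : 1 ≤ P.valuation (ζ - 1) ^ (p - 1) := one_le_pow₀ h
  rw [S.val_zeta] at h1
  exact absurd (ar_val_p_lt S.hP) (not_lt.2 h1)

theorem zeta_sub_one_mem_nonunits : ζ - 1 ∈ P.nonunits := (P.mem_nonunits_iff).2 S.val_zeta_lt

/-- `[I : I₁] = p - 1`, `I₁ = stabI P ζ`. -/
theorem relIndex_cyc : (stabI P ζ).relIndex (P.inertiaSubgroupIn ℚ) = p - 1 := by
  classical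
  have hsub : MulAction.orbit ↥(P.inertiaSubgroupIn ℚ) (ζ - 1) ⊆
      ↑((primitiveRoots p Kb).image (fun y => y - 1)) := by
    rintro _ ⟨σ, rfl⟩
    rw [Finset.mem_coe, Finset.mem_image]
    refine ⟨σ.1 ζ, ?_, ?_⟩
    · rw [mem_primitiveRoots S.hp.pos]
      exact S.hζ.map_of_injective σ.1.injective
    · show σ.1 ζ - 1 = σ.1 (ζ - 1)
      rw [map_sub, map_one]
  have hfin : (MulAction.orbit ↥(P.inertiaSubgroupIn ℚ) (ζ - 1)).Finite :=
    Set.Finite.subset (Finset.finite_toSet _) hsub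
  have hidx : (stabI P ζ).relIndex (P.inertiaSubgroupIn ℚ) =
      (MulAction.orbit ↥(P.inertiaSubgroupIn ℚ) (ζ - 1)).ncard := by
    rw [Subgroup.relIndex, S.stab_subgroupOf_eq_stabilizer, MulAction.index_stabilizer]
  have hle : (MulAction.orbit ↥(P.inertiaSubgroupIn ℚ) (ζ - 1)).ncard ≤ p - 1 := by
    refine (Set.ncard_le_ncard hsub (Finset.finite_toSet _)).trans ?_
    rw [Set.ncard_coe_finset]
    refine Finset.card_image_le.trans ?_
    rw [S.hζ.card_primitiveRoots, Nat.totient_prime S.hp]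
  have hn0 : (MulAction.orbit ↥(P.inertiaSubgroupIn ℚ) (ζ - 1)).ncard ≠ 0 :=
    Set.ncard_ne_zero_of_mem (MulAction.mem_orbit_self _) hfin
  obtain ⟨m, hm⟩ := pm_orbit_val S.hp S.hP (P.inertiaSubgroupIn ℚ)
    (fun σ hσ => pm_mem_decomp hσ) (ar_p_ne_zero S.hp) (pm_p_mem_nonunits S.hP)
    (fun σ _ => map_natCast σ p) (unrProp p S.hp P S.hP)
    (P.nonunits_subset S.zeta_sub_one_mem_nonunits) S.zeta_sub_one_ne_zero hfin
  rw [← S.val_zeta, ← pow_mul] at hm
  have hinj := pow_right_injective₀ (zero_lt_iff.2 S.val_zeta_ne_zero) S.val_zeta_lt.ne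
  have hnm : (MulAction.orbit ↥(P.inertiaSubgroupIn ℚ) (ζ - 1)).ncard = (p - 1) * m :=
    hinj hm
  rw [hidx]
  exact le_antisymm hle (Nat.le_of_dvd (Nat.pos_of_ne_zero hn0) (Dvd.intro m hnm.symm))

/-- The cyclotomic layer: `K1 = K0(ζ)` is totally ramified of degree `p - 1` over `K0` with
uniformiser `ζ - 1`. -/
theorem monoSetting_cyc :
    MonoSetting p P (P.inertiaSubgroupIn ℚ) (stabI P ζ) (p - 1) (p : Kb) (ζ - 1) where
  hp := S.hp
  hP := S.hP
  hΓ0 := fun σ hσ => pm_mem_decomp hσ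
  hΓ := stabI_le P ζ
  hd := S.relIndex_cyc
  hd0 := S.p_sub_one_ne_zero
  hπ0 := ar_p_ne_zero S.hp
  hπ0m := pm_p_mem_nonunits S.hP
  hπ0fix := fun σ _ => map_natCast σ p
  hunif := unrProp p S.hp P S.hP
  hϖfix := fun σ hσ => by rw [map_sub, map_one, (mem_stabI.1 hσ).2]
  hϖ1 := by
    rw [← P.valuation_le_one_iff, map_div₀, map_pow, S.val_zeta, div_self S.val_p_ne_zero]
  hϖ2 := by
    rw [P.mem_nonunits_iff, map_div₀, map_pow, S.val_zeta, div_self S.val_p_ne_zero]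
    exact lt_irrefl _

theorem peuStab_le_stab : peuStab P ζ α ≤ stabI P ζ := inf_le_left

/-- `[I₁ : H] = p`. -/
theorem relIndex_rel : (peuStab P ζ α).relIndex (stabI P ζ) = p := by
  have h := Subgroup.relIndex_mul_relIndex (peuStab P ζ α) (stabI P ζ) (P.inertiaSubgroupIn ℚ)
    S.peuStab_le_stab (stabI_le P ζ)
  rw [S.relIndex_cyc, S.relIndex_eq] at h
  exact Nat.eq_of_mul_eq_mul_right (Nat.pos_of_ne_zero S.p_sub_one_ne_zero) h

/-- `v ϖ ^ p = v (ζ - 1)`. -/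
theorem val_unif_pow_p : P.valuation (peuUnif ζ α) ^ p = P.valuation (ζ - 1) := by
  have h2 := pm_val_alpha S.hp S.hP S.hz.1 S.hzu S.hα
  have hp1 : p - 1 + 1 = p := Nat.sub_add_cancel S.hp.pos
  rw [peuUnif, map_div₀, div_pow, h2, ← S.val_zeta, div_eq_iff (pow_ne_zero _ S.val_zeta_ne_zero),
    ← pow_succ', hp1]

/-- The relative layer: `M = K1(α)` is totally ramified of degree `p` over `K1 = K0(ζ)` with
uniformiser `ϖ = (ζ - 1) / (α - 1)`. -/
theorem monoSetting_rel :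
    MonoSetting p P (stabI P ζ) (peuStab P ζ α) p (ζ - 1) (peuUnif ζ α) where
  hp := S.hp
  hP := S.hP
  hΓ0 := fun σ hσ => pm_mem_decomp (stabI_le P ζ hσ)
  hΓ := S.peuStab_le_stab
  hd := S.relIndex_rel
  hd0 := S.hp.ne_zero
  hπ0 := S.zeta_sub_one_ne_zero
  hπ0m := S.zeta_sub_one_mem_nonunits
  hπ0fix := fun σ hσ => by rw [map_sub, map_one, (mem_stabI.1 hσ).2]
  hunif := fun x hx hxfix => S.monoSetting_cyc.unif hx hxfix
  hϖfix := S.unif_fixed
  hϖ1 := by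
    rw [← P.valuation_le_one_iff, map_div₀, map_pow, S.val_unif_pow_p,
      div_self S.val_zeta_ne_zero]
  hϖ2 := by
    rw [P.mem_nonunits_iff, map_div₀, map_pow, S.val_unif_pow_p, div_self S.val_zeta_ne_zero]
    exact lt_irrefl _

/-! ### The break -/

/-- `s ϖ = ϖ / (ϖ + ζ)` for `s ζ = ζ`, `s α = ζ α`. -/
theorem smul_unif {s : GK} (hsζ : s ζ = ζ) (hsα : s α = ζ * α) :
    s (peuUnif ζ α) = peuUnif ζ α / (peuUnif ζ α + ζ) := by
  have h1 := pm_alpha_ne_one S.hp S.hP S.hz.1 S.hzu S.hα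
  have h2 := S.zeta_sub_one_ne_zero
  have h3 : ζ * α - 1 ≠ 0 := by
    intro h
    have h4 : s (α - 1) = 0 := by rw [map_sub, map_one, hsα, h]
    exact h1 ((map_eq_zero_iff s s.injective).1 h4)
  have h5 : peuUnif ζ α + ζ ≠ 0 := by
    have : peuUnif ζ α + ζ = (ζ * α - 1) / (α - 1) := by
      rw [peuUnif]; field_simp; ring
    rw [this]
    exact div_ne_zero h3 h1
  rw [eq_div_iff h5]
  rw [peuUnif, map_div₀, map_sub, map_sub, map_one, hsζ, hsα]
  field_simp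
  ring

/-- `ϖ + ζ` is a unit of `P`. -/
theorem val_unif_add_zeta : P.valuation (peuUnif ζ α + ζ) = 1 := by
  have hζv : P.valuation ζ = 1 := by
    have h := congrArg P.valuation S.hζ.pow_eq_one
    rw [map_pow, map_one] at h
    exact (pow_eq_one_iff_of_nonneg zero_le S.hp.ne_zero).1 h
  rw [Valuation.map_add_eq_of_lt_right _ (by rw [hζv]; exact S.val_unif_lt), hζv]

/-- **BREAK** for the uniformiser: `v (s ϖ - ϖ) = v ϖ ^ 2` (ramification break `1`). -/
theorem val_smul_unif_sub {s : GK} (hsζ : s ζ = ζ) (hsα : s α = ζ * α) :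
    P.valuation (s (peuUnif ζ α) - peuUnif ζ α) = P.valuation (peuUnif ζ α) ^ 2 := by
  have h5 : peuUnif ζ α + ζ ≠ 0 := by
    intro h
    have := S.val_unif_add_zeta
    rw [h, map_zero] at this
    exact zero_ne_one this
  have h1 : s (peuUnif ζ α) - peuUnif ζ α =
      -(peuUnif ζ α ^ 2 * (1 + (ζ - 1) / peuUnif ζ α) / (peuUnif ζ α + ζ)) := by
    rw [S.smul_unif hsζ hsα]
    have := S.unif_ne_zero
    field_simp
    ring
  have h2 : P.valuation (1 + (ζ - 1) / peuUnif ζ α) = 1 := by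
    have hlt : P.valuation ((ζ - 1) / peuUnif ζ α) < P.valuation (1 : Kb) := by
      rw [map_one, map_div₀, div_lt_iff₀ (zero_lt_iff.2 S.val_unif_ne_zero), one_mul,
        ← S.val_unif_pow_p]
      have hp1 : p = (p - 1) + 1 := (Nat.sub_add_cancel S.hp.pos).symm
      calc P.valuation (peuUnif ζ α) ^ p
          = P.valuation (peuUnif ζ α) ^ (p - 1) * P.valuation (peuUnif ζ α) := by
            rw [← pow_succ, ← hp1]
        _ < 1 * P.valuation (peuUnif ζ α) := by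
            refine mul_lt_mul_of_pos_right ?_ (zero_lt_iff.2 S.val_unif_ne_zero)
            exact pow_lt_one₀ zero_le S.val_unif_lt S.p_sub_one_ne_zero
        _ = P.valuation (peuUnif ζ α) := one_mul _
    rw [Valuation.map_add_eq_of_lt_left _ hlt, map_one]
  rw [h1, Valuation.map_neg, map_div₀, map_mul, map_pow, h2, S.val_unif_add_zeta, mul_one,
    div_one]

/-- `v p ≤ v ϖ ^ (p + 1)`: `v_M(p) = p (p - 1) ≥ p + 1`. -/
theorem val_p_le : P.valuation (p : Kb) ≤ P.valuation (peuUnif ζ α) ^ (p + 1) := by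
  rw [← S.val_unif]
  refine pow_le_pow_of_le_one zero_le S.val_unif_lt.le ?_
  have h3 : 3 ≤ p := by
    have := S.hp.two_le
    have := S.hp2
    omega
  obtain ⟨q, rfl⟩ : ∃ q, p = q + 3 := ⟨p - 3, by omega⟩
  have : (q + 3) * (q + 3 - 1) = q * q + 5 * q + 6 := by
    have : q + 3 - 1 = q + 2 := by omega
    rw [this]; ring
  rw [this]
  nlinarith

/-- A generator of `Gal(M / K1)`: `s ∈ I₁` with `s α = ζ α`. -/
theorem exists_gen : ∃ s ∈ stabI P ζ, s α = ζ * α := by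
  have hα0 : α ≠ 0 := by
    intro h
    have h1 := S.val_unif_add_zeta
    have h2 := pm_alpha_aux S.hp S.hP S.hz.1 S.hα
    have h3 : (1 : Kb) ∈ P.nonunits := by
      have := h2.2.1
      rw [h, zero_sub] at this
      simpa using un_neg_mem_nonunits this
    rw [P.mem_nonunits_iff, map_one] at h3
    exact lt_irrefl _ h3
  -- an element of `I₁` outside `H`
  have hne : ¬ stabI P ζ ≤ peuStab P ζ α := by
    intro h
    have h1 := Subgroup.relIndex_eq_one.2 h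
    rw [S.relIndex_rel] at h1
    exact S.hp.one_lt.ne' h1
  obtain ⟨s, hs, hsH⟩ := Set.not_subset.1 hne
  have hsI := (mem_stabI.1 hs).1
  have hsζ := (mem_stabI.1 hs).2
  have hsα : s α ≠ α := fun h => hsH (mem_peuStab.2 ⟨hsI, hsζ, h⟩)
  have hξp : (s α / α) ^ p = 1 := by
    rw [div_pow, ← map_pow, S.hα, S.a_fixed s hsI, div_self]
    rw [← S.hα]
    exact pow_ne_zero _ hα0
  have : NeZero p := ⟨S.hp.ne_zero⟩
  obtain ⟨j, hjp, hj⟩ := S.hζ.eq_pow_of_pow_eq_one hξp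
  have hj0 : j ≠ 0 := by
    rintro rfl
    rw [pow_zero] at hj
    exact hsα ((div_eq_one_iff_eq hα0).1 hj.symm)
  have hsα' : s α = ζ ^ j * α := by
    rw [hj]; field_simp
  have hcop : Nat.Coprime j p :=
    ((Nat.Prime.coprime_iff_not_dvd S.hp).2
      (Nat.not_dvd_of_pos_of_lt (Nat.pos_of_ne_zero hj0) hjp)).symm
  obtain ⟨m, -, hm⟩ := Nat.exists_mul_mod_eq_one_of_coprime hcop S.hp.one_lt
  have hpow : ∀ n : ℕ, (s ^ n) α = (ζ ^ j) ^ n * α := by
    intro n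
    induction n with
    | zero => simp
    | succ n ih =>
      have hsn : (s ^ n) ζ = ζ := (mem_stabI.1 (pow_mem hs n)).2
      rw [pow_succ, AlgEquiv.mul_apply, hsα', map_mul, map_pow, hsn, ih]
      ring
  refine ⟨s ^ m, pow_mem hs m, ?_⟩
  rw [hpow m, ← pow_mul]
  have h1 : j * m = p * (j * m / p) + 1 := by
    have := Nat.div_add_mod (j * m) p
    rw [hm] at this
    exact this.symm
  rw [h1, pow_add, pow_mul, S.hζ.pow_eq_one, one_pow, one_mul, pow_one]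

end PeuSetting

end Fermat.Agent.FFL.FB
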