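/-
Lib/FFL/FB (R4-FB / S56-W4 case C, the COUNT): fixed points of a Frobenius-semilinear map.
Owner: helper73.

`semiFix_ncard_le`: `κ` a field, `E` a `κ`-vector space of dimension `n`, `q ≥ 2`,
`T : E → E` additive with `T (a • e) = a ^ q • T e`.  Then `T` has at most `q ^ n` fixed points.
(No hypothesis on the characteristic: the coefficients of a fixed vector in a basis of fixed
vectors are roots of `X ^ q - X`.)  `semiFix_ncard_le_eq`: the same for the solutions of
`T e = S e` with `S` a `κ`-linear bijection (`X ^ q = M X` systems).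

Proof: take `b ⊆ Fix T` linearly independent over `κ` with the same span.  For `f ∈ Fix T` write
`f = ∑ c_e e`; applying `T` gives `∑ (c_e ^ q - c_e) e = 0`, so `c_e ^ q = c_e`.  So `Fix T` is
contained in the image of `(b → {x | x ^ q = x}) → E`.
-/
import Mathlib

set_option autoImplicit false

namespace Fermat.Agent.FFL.FB

open Polynomial

/-- The solutions of `x ^ q = x` in a field: at most `q` of them. -/
theorem semiFix_roots_finite {κ : Type*} [Field κ] (q : ℕ) (hq : 2 ≤ q) :
    {x : κ | x ^ q = x}.Finite ∧ {x : κ | x ^ q = x}.ncard ≤ q := by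
  classical
  have hne : (X ^ q - X : κ[X]) ≠ 0 := by
    intro h
    have h1 := congrArg (fun f : κ[X] => f.coeff q) h
    simp only [coeff_sub, coeff_X_pow, coeff_X, coeff_zero] at h1
    rw [if_pos trivial, if_neg (by omega)] at h1
    simp at h1
  have hdeg : (X ^ q - X : κ[X]).natDegree ≤ q := by
    refine (natDegree_sub_le _ _).trans ?_
    rw [natDegree_X_pow, natDegree_X]
    exact max_le le_rfl (by omega)
  have hsub : {x : κ | x ^ q = x} ⊆ ((X ^ q - X : κ[X]).roots.toFinset : Set κ) := by
    intro x hx
    rw [Finset.mem_coe, Multiset.mem_toFinset, mem_roots hne]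
    simp only [IsRoot, eval_sub, eval_pow, eval_X]
    have hx' : x ^ q = x := hx
    rw [hx', sub_self]
  refine ⟨(Finset.finite_toSet _).subset hsub, ?_⟩
  calc {x : κ | x ^ q = x}.ncard
      ≤ ((X ^ q - X : κ[X]).roots.toFinset : Set κ).ncard :=
        Set.ncard_le_ncard hsub (Finset.finite_toSet _)
    _ = (X ^ q - X : κ[X]).roots.toFinset.card := Set.ncard_coe_finset _
    _ ≤ Multiset.card (X ^ q - X : κ[X]).roots := Multiset.toFinset_card_le _
    _ ≤ (X ^ q - X : κ[X]).natDegree := card_roots' _
    _ ≤ q := hdeg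

variable {κ E : Type*} [Field κ] [AddCommGroup E] [Module κ E]

theorem semiFix_map_sum (q : ℕ) (T : E → E) (hadd : ∀ x y, T (x + y) = T x + T y)
    (hsemi : ∀ (a : κ) (e : E), T (a • e) = a ^ q • T e) {ι : Type*} (s : Finset ι) (c : ι → κ)
    (v : ι → E) : T (∑ i ∈ s, c i • v i) = ∑ i ∈ s, c i ^ q • T (v i) := by
  classical
  have h0 : T 0 = 0 := by
    have := hadd 0 0
    rw [add_zero] at this
    exact left_eq_add.mp this
  induction s using Finset.induction_on with
  | empty => simpa using h0
  | insert a s ha ih =>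
    rw [Finset.sum_insert ha, Finset.sum_insert ha, hadd, ih, hsemi]

/-- **Fixed points of a `q`-semilinear map**: at most `q ^ dim` of them. -/
theorem semiFix_ncard_le [FiniteDimensional κ E] (q : ℕ) (hq : 2 ≤ q) (T : E → E)
    (hadd : ∀ x y, T (x + y) = T x + T y)
    (hsemi : ∀ (a : κ) (e : E), T (a • e) = a ^ q • T e) :
    {e : E | T e = e}.Finite ∧ {e : E | T e = e}.ncard ≤ q ^ Module.finrank κ E := by
  classical
  obtain ⟨b, hbF, hspan, hli⟩ := exists_linearIndependent κ {e : E | T e = e}
  have hbfin : b.Finite := hli.setFinite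
  have : Fintype b := hbfin.fintype
  have hcard : Fintype.card b ≤ Module.finrank κ E := hli.fintype_card_le_finrank
  obtain ⟨hRfin, hRcard⟩ := semiFix_roots_finite (κ := κ) q hq
  have : Fintype {x : κ | x ^ q = x} := hRfin.fintype
  have hRcard' : Fintype.card {x : κ | x ^ q = x} ≤ q := by
    rw [← Nat.card_eq_fintype_card, Nat.card_coe_set_eq]
    exact hRcard
  let Φ : (b → {x : κ | x ^ q = x}) → E := fun c => ∑ e : b, ((c e : κ)) • (e : E)
  have hsub : {e : E | T e = e} ⊆ Set.range Φ := by
    intro f hf
    have hfspan : f ∈ Submodule.span κ (Set.range ((↑) : b → E)) := by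
      rw [Subtype.range_coe, hspan]
      exact Submodule.subset_span hf
    obtain ⟨c, hc⟩ := (Submodule.mem_span_range_iff_exists_fun κ).1 hfspan
    have hTf : T f = ∑ e : b, c e ^ q • (e : E) := by
      rw [← hc, semiFix_map_sum q T hadd hsemi]
      refine Finset.sum_congr rfl fun e _ => ?_
      rw [show T (e : E) = e from hbF e.2]
    have hzero : ∑ e : b, (c e ^ q - c e) • (e : E) = 0 := by
      simp only [sub_smul, Finset.sum_sub_distrib]
      rw [← hTf, hc, hf, sub_self]
    have hall := (Fintype.linearIndependent_iff.1 hli) (fun e => c e ^ q - c e) hzero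
    refine ⟨fun e => ⟨c e, sub_eq_zero.1 (hall e)⟩, ?_⟩
    show ∑ e : b, c e • (e : E) = f
    exact hc
  have hfinR : (Set.range Φ).Finite := Set.finite_range Φ
  refine ⟨hfinR.subset hsub, ?_⟩
  calc {e : E | T e = e}.ncard ≤ (Set.range Φ).ncard := Set.ncard_le_ncard hsub hfinR
    _ ≤ Nat.card (b → {x : κ | x ^ q = x}) := by
        rw [← Set.image_univ]
        calc (Φ '' Set.univ).ncard ≤ (Set.univ : Set (b → {x : κ | x ^ q = x})).ncard :=
              Set.ncard_image_le Set.finite_univ
          _ = Nat.card (b → {x : κ | x ^ q = x}) := Set.ncard_univ _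
    _ = Fintype.card {x : κ | x ^ q = x} ^ Fintype.card b := by
        rw [Nat.card_eq_fintype_card, Fintype.card_fun]
    _ ≤ q ^ Fintype.card b := Nat.pow_le_pow_left hRcard' _
    _ ≤ q ^ Module.finrank κ E := Nat.pow_le_pow_right (by omega) hcard

/-- **Solutions of a semilinear system** `T e = S e` (`T` `q`-semilinear, `S` linear and
bijective): at most `q ^ dim` of them. -/
theorem semiFix_ncard_le_eq [FiniteDimensional κ E] (q : ℕ) (hq : 2 ≤ q) (T : E → E)
    (hadd : ∀ x y, T (x + y) = T x + T y)
    (hsemi : ∀ (a : κ) (e : E), T (a • e) = a ^ q • T e) (S : E ≃ₗ[κ] E) :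
    {e : E | T e = S e}.Finite ∧ {e : E | T e = S e}.ncard ≤ q ^ Module.finrank κ E := by
  have h := semiFix_ncard_le q hq (fun e => S.symm (T e))
    (fun x y => by rw [hadd, map_add])
    (fun a e => by rw [hsemi, map_smul])
  have heq : {e : E | T e = S e} = {e : E | S.symm (T e) = e} := by
    ext e
    show T e = S e ↔ S.symm (T e) = e
    constructor
    · intro h1
      rw [h1, LinearEquiv.symm_apply_apply]
    · intro h1
      have := congrArg S h1
      rwa [LinearEquiv.apply_symm_apply] at this
  rw [heq]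
  exact h

end Fermat.Agent.FFL.FB
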