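/-
Lib/FFL/FB (R4-FB / S56-W4 case C): the algebraic core of the COUNT.  Owner: helper73.

`k` a finite field, `κ` a field of characteristic `p`, `q = p ^ d`.  For `ν β : k`, `z c : κ`:
  `semiSol ν β z c q := {h : k → κ additive | h (ν x) = z h x, h (β x) = c (h x) ^ q}`.
If `z ^ q = z`, `β ≠ 0`, and `k` is generated as an abelian group by the `ν ^ n * x j`
(`j : Fin g`), then `#semiSol ≤ q ^ g`  (`countCore_ncard_le`).

In the application `h = Φ(c)` restricted to an inertia eigenline of `ad⁰(1)^*`, `ν` is the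
eigenvalue of the tame generator, `z = θ̄ ^ i₀`, `β`, `c` come from `φ ^ d` (Frobenius), and
`q ^ g = #k`.
-/
import Fermat.Agent.Lib.FFL.FB.SemiFix

set_option autoImplicit false

namespace Fermat.Agent.FFL.FB

variable {k κ : Type*} [Field k] [Field κ]

/-- The additive maps `h : k → κ` with `h (ν x) = z h x`. -/
def eigSpace (ν : k) (z : κ) : Submodule κ (k → κ) where
  carrier := {h | (∀ x y, h (x + y) = h x + h y) ∧ ∀ x, h (ν * x) = z * h x}
  add_mem' := by
    rintro h h' ⟨h1, h2⟩ ⟨h1', h2'⟩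
    refine ⟨fun x y => ?_, fun x => ?_⟩
    · simp only [Pi.add_apply, h1, h1']; ring
    · simp only [Pi.add_apply, h2, h2']; ring
  zero_mem' := ⟨fun _ _ => by simp, fun _ => by simp⟩
  smul_mem' := by
    rintro a h ⟨h1, h2⟩
    refine ⟨fun x y => ?_, fun x => ?_⟩
    · simp only [Pi.smul_apply, smul_eq_mul, h1]; ring
    · simp only [Pi.smul_apply, smul_eq_mul, h2]; ring

theorem mem_eigSpace {ν : k} {z : κ} {h : k → κ} :
    h ∈ eigSpace ν z ↔ (∀ x y, h (x + y) = h x + h y) ∧ ∀ x, h (ν * x) = z * h x := Iff.rfl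

/-- The solutions of the semilinear system. -/
def semiSol (ν β : k) (z c : κ) (q : ℕ) : Set (k → κ) :=
  {h | (∀ x y, h (x + y) = h x + h y) ∧ (∀ x, h (ν * x) = z * h x) ∧
    ∀ x, h (β * x) = c * h x ^ q}

theorem eigSpace_apply_zero {ν : k} {z : κ} {h : k → κ} (hh : h ∈ eigSpace ν z) : h 0 = 0 := by
  have := hh.1 0 0
  rw [add_zero] at this
  exact left_eq_add.mp this

theorem eigSpace_apply_pow {ν : k} {z : κ} {h : k → κ} (hh : h ∈ eigSpace ν z) (n : ℕ) (x : k) :
    h (ν ^ n * x) = z ^ n * h x := by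
  induction n with
  | zero => simp
  | succ n ih => rw [pow_succ, mul_assoc, mul_comm ν x, ← mul_assoc, mul_comm _ ν, hh.2, ih]; ring

theorem eigSpace_apply_neg {ν : k} {z : κ} {h : k → κ} (hh : h ∈ eigSpace ν z) (x : k) :
    h (-x) = -h x := by
  have := hh.1 x (-x)
  rw [add_neg_cancel, eigSpace_apply_zero hh] at this
  exact eq_neg_of_add_eq_zero_right this.symm

/-- An element of `eigSpace` which vanishes on the `x j` vanishes on the subgroup generated by
the `ν ^ n * x j`. -/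
theorem eigSpace_eq_zero_of_gen {ν : k} {z : κ} {g : ℕ} (x : Fin g → k)
    (hgen : AddSubgroup.closure {y : k | ∃ (n : ℕ) (j : Fin g), y = ν ^ n * x j} = ⊤)
    {h : k → κ} (hh : h ∈ eigSpace ν z) (h0 : ∀ j, h (x j) = 0) : h = 0 := by
  funext y
  have hy : y ∈ AddSubgroup.closure {y : k | ∃ (n : ℕ) (j : Fin g), y = ν ^ n * x j} := by
    rw [hgen]; trivial
  show h y = 0
  induction hy using AddSubgroup.closure_induction with
  | mem y hy =>
    obtain ⟨n, j, rfl⟩ := hy
    rw [eigSpace_apply_pow hh, h0, mul_zero]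
  | zero => exact eigSpace_apply_zero hh
  | add a b _ _ ha hb => rw [hh.1, ha, hb, add_zero]
  | neg a _ ha => rw [eigSpace_apply_neg hh, ha, neg_zero]

/-- `dim eigSpace ≤ g` if `k` is generated by the `ν ^ n * x j`, `j : Fin g`. -/
theorem finrank_eigSpace_le [Finite k] {ν : k} {z : κ} {g : ℕ} (x : Fin g → k)
    (hgen : AddSubgroup.closure {y : k | ∃ (n : ℕ) (j : Fin g), y = ν ^ n * x j} = ⊤) :
    Module.finrank κ (eigSpace ν z) ≤ g := by
  classical
  have : Fintype k := Fintype.ofFinite k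
  let ev : eigSpace ν z →ₗ[κ] (Fin g → κ) :=
    { toFun := fun h j => (h : k → κ) (x j)
      map_add' := fun h h' => by funext j; rfl
      map_smul' := fun a h => by funext j; rfl }
  have hinj : Function.Injective ev := by
    rw [← LinearMap.ker_eq_bot, LinearMap.ker_eq_bot']
    intro h hh
    apply Subtype.ext
    exact eigSpace_eq_zero_of_gen x hgen h.2 (fun j => congrFun hh j)
  calc Module.finrank κ (eigSpace ν z) ≤ Module.finrank κ (Fin g → κ) :=
        LinearMap.finrank_le_finrank_of_injective hinj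
    _ = g := by simp

/-- **The count**: the semilinear system has at most `q ^ g` solutions. -/
theorem countCore_ncard_le [Finite k] (p : ℕ) [Fact p.Prime] [CharP κ p] (d : ℕ) (hd : d ≠ 0)
    (ν β : k) (hβ : β ≠ 0) (z c : κ) (hz : z ^ (p ^ d) = z) {g : ℕ} (x : Fin g → k)
    (hgen : AddSubgroup.closure {y : k | ∃ (n : ℕ) (j : Fin g), y = ν ^ n * x j} = ⊤) :
    (semiSol ν β z c (p ^ d)).Finite ∧ (semiSol ν β z c (p ^ d)).ncard ≤ (p ^ d) ^ g := by
  classical
  have : Fintype k := Fintype.ofFinite k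
  have hq2 : 2 ≤ p ^ d := by
    have h1 : 2 ≤ p := (Fact.out : p.Prime).two_le
    calc 2 ≤ p := h1
      _ = p ^ 1 := (pow_one p).symm
      _ ≤ p ^ d := Nat.pow_le_pow_right (by omega) (Nat.one_le_iff_ne_zero.2 hd)
  -- the semilinear operator on `eigSpace`
  have hTmem : ∀ h : eigSpace ν z, (fun y => c * (h : k → κ) (β⁻¹ * y) ^ (p ^ d)) ∈ eigSpace ν z := by
    intro h
    refine ⟨fun a b => ?_, fun a => ?_⟩
    · show c * (h : k → κ) (β⁻¹ * (a + b)) ^ (p ^ d) = _
      rw [mul_add, h.2.1, add_pow_char_pow, mul_add]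
    · show c * (h : k → κ) (β⁻¹ * (ν * a)) ^ (p ^ d) = _
      rw [← mul_assoc, mul_comm β⁻¹ ν, mul_assoc, h.2.2, mul_pow, hz]
      ring
  let T : eigSpace ν z → eigSpace ν z := fun h => ⟨_, hTmem h⟩
  have hTadd : ∀ h h' : eigSpace ν z, T (h + h') = T h + T h' := by
    intro h h'
    apply Subtype.ext
    funext y
    show c * ((h : k → κ) (β⁻¹ * y) + (h' : k → κ) (β⁻¹ * y)) ^ (p ^ d) = _
    rw [add_pow_char_pow, mul_add]
    rfl
  have hTsemi : ∀ (a : κ) (h : eigSpace ν z), T (a • h) = a ^ (p ^ d) • T h := by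
    intro a h
    apply Subtype.ext
    funext y
    show c * (a * (h : k → κ) (β⁻¹ * y)) ^ (p ^ d) = a ^ (p ^ d) * (c * _)
    rw [mul_pow]; ring
  obtain ⟨hfin, hcard⟩ := semiFix_ncard_le (κ := κ) (E := eigSpace ν z) (p ^ d) hq2 T hTadd hTsemi
  -- `semiSol` is the image of the fixed points
  have hsub : semiSol ν β z c (p ^ d) ⊆ (fun h : eigSpace ν z => (h : k → κ)) '' {e | T e = e} := by
    intro h hh
    refine ⟨⟨h, hh.1, hh.2.1⟩, ?_, rfl⟩
    apply Subtype.ext
    funext y
    show c * h (β⁻¹ * y) ^ (p ^ d) = h y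
    rw [← hh.2.2, ← mul_assoc, mul_inv_cancel₀ hβ, one_mul]
  have hfin' : ((fun h : eigSpace ν z => (h : k → κ)) '' {e | T e = e}).Finite := hfin.image _
  refine ⟨hfin'.subset hsub, ?_⟩
  calc (semiSol ν β z c (p ^ d)).ncard
      ≤ ((fun h : eigSpace ν z => (h : k → κ)) '' {e | T e = e}).ncard :=
        Set.ncard_le_ncard hsub hfin'
    _ ≤ {e | T e = e}.ncard := Set.ncard_image_le hfin
    _ ≤ (p ^ d) ^ Module.finrank κ (eigSpace ν z) := hcard
    _ ≤ (p ^ d) ^ g := Nat.pow_le_pow_right (by omega) (finrank_eigSpace_le x hgen)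

end Fermat.Agent.FFL.FB
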