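/-
Lib/FFL/FB, block KT of S56-W4 case C (sub-architect helper91): exact statements of the field-side
leaves which do not mention `ρbar`.  Setting: `P` over `p`, `π1 ^ (p² - 1) = -p`,
`N1 = stabI P π1`, `K1 = ℚ̄^{N1}`, `ζ` a primitive `p`-th root of unity, `χ : N1 → ℤ/p` a
character with Kummer generator `β` (`g β = ζ ^ χ(g) · β`), `u = β ^ p ∈ K1`, `θ(σ) = σ π1 / π1`.

Leaves (each: `theorem xxx (hp : p.Prime) (hp2 : p ≠ 2) (hP : P.LiesOverPrime p) (hπ : IsPi1 p π1) :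
XxxStatement p P π1`; F1-F4 of FIELD and the `U*Statement`s of UnitDefs may be used):
* `KumExistStatement`  : a smooth character of `N1` has a Kummer generator in normal form;
* `KumUniqueStatement` : the level of the unit normal form does not depend on the generator;
* `KumConjStatement`   : `σ β` is a Kummer generator of the twisted conjugate character;
* `KumRelStatement`    : a linear relation between twisted conjugates of `χ` gives a congruence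
                         between the `θ(σ_j)^s σ_j(a)`  (`a` the leading coefficient, `s` the level);
* `GoodOfLevelStatement`: level `≥ p² + 1` gives `v(β - 1) ≥ (p² + 1)/(p (p² - 1))`;
* `CycTameStatement`   : the cyclotomic character on inertia is `θ^(p+1)`;
* `DepthStatement`, `DepthNUStatement` : the depth lemma;
* `EStatement`         : (off-diagonal lines) CHEAP + the quadratic `τ`-relation ⟹ good;
* `EtaStatement`       : (diagonal line) CHEAP + SHARP + `τ`-invariance + Frobenius anti-invariance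
                         ⟹ the characters vanish on `N1`.
-/
import Fermat.Agent.Lib.FFL.FB.Defs
import Fermat.Agent.Lib.FFL.FB.UnitDefs

set_option autoImplicit false

namespace Fermat.Agent.FFL.FB

open Fermat.Agent.FFL

local notation "Kb" => AlgebraicClosure ℚ
local notation "GK" => (AlgebraicClosure ℚ ≃ₐ[ℚ] AlgebraicClosure ℚ)

/-- `χ` is additive on `N`. -/
def IsCharOn (p : ℕ) (N : Subgroup GK) (χ : GK → ZMod p) : Prop :=
  ∀ g ∈ N, ∀ h ∈ N, χ (g * h) = χ g + χ h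

/-- `χ` is smooth: it vanishes on the fixing subgroup of a finite extension of `ℚ`. -/
def IsSmoothChar (p : ℕ) (χ : GK → ZMod p) : Prop :=
  ∃ F : IntermediateField ℚ Kb, FiniteDimensional ℚ F ∧ ∀ h ∈ F.fixingSubgroup, χ h = 0

/-- `u` is in unit normal form: level `s`, `0 < s < p² + p`, `p ∤ s`, leading coefficient `a` a
unit of `R'`. -/
def UnitNF (p : ℕ) (P : ValuationSubring Kb) (π1 : Kb) (s : ℕ) (a u : Kb) : Prop :=
  0 < s ∧ s < p ^ 2 + p ∧ ¬ p ∣ s ∧ a ∈ inertiaRing P ∧ a ∉ P.nonunits ∧ LcAt P π1 s u a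

/-- `u` is in non-unit normal form: `u = π1 ^ m · unit`, `0 < m < p`. -/
def NonunitNF (p : ℕ) (P : ValuationSubring Kb) (π1 : Kb) (m : ℕ) (u : Kb) : Prop :=
  0 < m ∧ m < p ∧ u / π1 ^ m ∈ P ∧ π1 ^ m / u ∈ P

/-- **KUM-EXIST**: a smooth character of `N1` has a Kummer generator `β` with `β ^ p` in normal
form (or the character is trivial on `N1`). -/
def KumExistStatement (p : ℕ) (P : ValuationSubring Kb) (π1 : Kb) : Prop :=
  ∀ (ζ : Kb) (χ : GK → ZMod p), IsPrimitiveRoot ζ p → IsCharOn p (stabI P π1) χ →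
    IsSmoothChar p χ →
    ∃ β : Kb, IsKummerGen p (stabI P π1 : Set GK) ζ χ β ∧
      ((∀ g ∈ stabI P π1, χ g = 0) ∨ (∃ m : ℕ, NonunitNF p P π1 m (β ^ p)) ∨
        ∃ (s : ℕ) (a : Kb), UnitNF p P π1 s a (β ^ p))

/-- **KUM-UNIQUE**: if one generator of `χ` is in unit normal form of level `s`, no generator of
`χ` has level `≥ s + 1`. -/
def KumUniqueStatement (p : ℕ) (P : ValuationSubring Kb) (π1 : Kb) : Prop :=
  ∀ (ζ : Kb) (χ : GK → ZMod p) (β β' a : Kb) (s : ℕ), IsPrimitiveRoot ζ p →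
    IsKummerGen p (stabI P π1 : Set GK) ζ χ β → IsKummerGen p (stabI P π1 : Set GK) ζ χ β' →
    UnitNF p P π1 s a (β ^ p) → ¬ InU P π1 (s + 1) (β' ^ p)

/-- **KUM-CONJ**: for `σ` in the decomposition group with `σ ζ = ζ ^ w`, `σ β` is a Kummer
generator of `g ↦ w · χ(σ⁻¹ g σ)`. -/
def KumConjStatement (p : ℕ) (P : ValuationSubring Kb) (π1 : Kb) : Prop :=
  ∀ (ζ : Kb) (χ : GK → ZMod p) (β : Kb) (σ : GK) (w : ℕ), IsPrimitiveRoot ζ p →
    σ ∈ P.decompositionSubgroup ℚ → σ ζ = ζ ^ w →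
    IsKummerGen p (stabI P π1 : Set GK) ζ χ β →
    IsKummerGen p (stabI P π1 : Set GK) ζ (fun g => (w : ZMod p) * χ (σ⁻¹ * g * σ)) (σ β)

/-- **KUM-REL**: if `∑_j n_j · w_j · χ(σ_j⁻¹ g σ_j) = 0` on `N1` (`σ_j` in the decomposition
group, `σ_j ζ = ζ ^ w_j`) and `β ^ p` is in unit normal form of level `s` with leading coefficient
`a`, then `∑_j n_j θ(σ_j)^s σ_j(a) ≡ 0` modulo the maximal ideal. -/
def KumRelStatement (p : ℕ) (P : ValuationSubring Kb) (π1 : Kb) : Prop :=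
  ∀ (ζ : Kb) (χ : GK → ZMod p) (β a : Kb) (s : ℕ), IsPrimitiveRoot ζ p →
    IsCharOn p (stabI P π1) χ → IsKummerGen p (stabI P π1 : Set GK) ζ χ β →
    UnitNF p P π1 s a (β ^ p) →
    ∀ (r : ℕ) (σ : Fin r → GK) (w : Fin r → ℕ) (n : Fin r → ℤ),
      (∀ j, σ j ∈ P.decompositionSubgroup ℚ) → (∀ j, σ j ζ = ζ ^ w j) →
      (∀ g ∈ stabI P π1, ∑ j, n j • ((w j : ZMod p) * χ ((σ j)⁻¹ * g * σ j)) = 0) →
      ∑ j, (n j : Kb) * ((σ j π1 / π1) ^ s * σ j a) ∈ P.nonunits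

/-- **GOOD**: level `≥ p² + 1` gives `v(β - 1) ≥ (p² + 1)/(p (p² - 1))`. -/
def GoodOfLevelStatement (p : ℕ) (P : ValuationSubring Kb) (π1 : Kb) : Prop :=
  ∀ (β a : Kb) (s : ℕ), UnitNF p P π1 s a (β ^ p) → p ^ 2 + 1 ≤ s →
    (β - 1) ^ (p * (p ^ 2 - 1)) / (p : Kb) ^ (p ^ 2 + 1) ∈ P

/-- **CYC-TAME**: on inertia the cyclotomic character is `θ ^ (p + 1)` modulo the maximal
ideal. -/
def CycTameStatement (p : ℕ) (P : ValuationSubring Kb) (π1 : Kb) : Prop :=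
  ∀ (ζ : Kb) (τ : GK) (w : ℕ), IsPrimitiveRoot ζ p → τ ∈ P.inertiaSubgroupIn ℚ → τ ζ = ζ ^ w →
    (w : Kb) - (τ π1 / π1) ^ (p + 1) ∈ P.nonunits

/-- **DEPTH** (unit case). -/
def DepthStatement (p : ℕ) (P : ValuationSubring Kb) (π1 : Kb) : Prop :=
  ∀ (ζ : Kb) (χ : GK → ZMod p) (β a : Kb) (s : ℕ),
    IsPrimitiveRoot ζ p → IsCharOn p (stabI P π1) χ →
    IsKummerGen p (stabI P π1 : Set GK) ζ χ β →
    0 < s → s < p ^ 2 + p → ¬ p ∣ s → a ∈ inertiaRing P → a ∉ P.nonunits →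
    LcAt P π1 s (β ^ p) a →
    ∀ x ∈ P, (∀ h ∈ stabI P π1, χ h = 0 → h x = x) →
      ∀ g ∈ stabI P π1,
        (g x - x) ^ (p * (p ^ 2 - 1)) / (p : Kb) ^ (p ^ 2 + p + 1 - s) ∈ P

/-- **DEPTH** (non-unit case). -/
def DepthNUStatement (p : ℕ) (P : ValuationSubring Kb) (π1 : Kb) : Prop :=
  ∀ (ζ : Kb) (χ : GK → ZMod p) (β : Kb) (m : ℕ),
    IsPrimitiveRoot ζ p → IsCharOn p (stabI P π1) χ →
    IsKummerGen p (stabI P π1 : Set GK) ζ χ β →
    0 < m → m < p → β ^ p / π1 ^ m ∈ P → π1 ^ m / β ^ p ∈ P →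
    ∀ x ∈ P, (∀ h ∈ stabI P π1, χ h = 0 → h x = x) →
      ∀ g ∈ stabI P π1,
        (g x - x) ^ (p * (p ^ 2 - 1)) / (p : Kb) ^ (p ^ 2 + p + 1) ∈ P

/-! ### The two line analyses (abstract form) -/

/-- CHEAP for one character: `v(g x - x) ≤ p/(p² - 1)` for some `x ∈ P` fixed by `ker χ`. -/
def CheapAt (p : ℕ) (P : ValuationSubring Kb) (π1 : Kb) (χ : GK → ZMod p) : Prop :=
  ∀ g ∈ stabI P π1, χ g ≠ 0 → ∃ x ∈ P, (∀ h ∈ stabI P π1, χ h = 0 → h x = x) ∧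
    g x - x ≠ 0 ∧ (p : Kb) ^ p / (g x - x) ^ (p ^ 2 - 1) ∈ P

/-- SHARP for one character: `v(g x - x) ≤ 1/(p² - 1)` for some `x ∈ P` fixed by `ker χ`. -/
def SharpAt (p : ℕ) (P : ValuationSubring Kb) (π1 : Kb) (χ : GK → ZMod p) : Prop :=
  ∀ g ∈ stabI P π1, χ g ≠ 0 → ∃ x ∈ P, (∀ h ∈ stabI P π1, χ h = 0 → h x = x) ∧
    g x - x ≠ 0 ∧ (p : Kb) / (g x - x) ^ (p ^ 2 - 1) ∈ P

/-- `θ(τ) = τ π1 / π1` has exact order `p² - 1` modulo the maximal ideal. -/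
def TameGen (p : ℕ) (P : ValuationSubring Kb) (π1 : Kb) (τ : GK) : Prop :=
  τ ∈ P.inertiaSubgroupIn ℚ ∧
    ∀ n : ℕ, (τ π1 / π1) ^ n - 1 ∈ P.nonunits → (p ^ 2 - 1) ∣ n

/-- **E-LINE**: a smooth character `χ` of `N1` with CHEAP and with
`w² χ(τ⁻² g τ²) - t w χ(τ⁻¹ g τ) + n χ(g) = 0` on `N1`, where `X² - t X + n` has the roots
`θ(τ)²`, `θ(τ)^(2p)` modulo the maximal ideal, has a Kummer generator `β` with
`v(β - 1) ≥ (p² + 1)/(p (p² - 1))`. -/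
def EStatement (p : ℕ) (P : ValuationSubring Kb) (π1 : Kb) : Prop :=
  ∀ (ζ : Kb) (χ : GK → ZMod p) (τ : GK) (w : ℕ) (t n : ℤ), IsPrimitiveRoot ζ p →
    IsCharOn p (stabI P π1) χ → IsSmoothChar p χ → TameGen p P π1 τ → τ ζ = ζ ^ w →
    (∀ g ∈ stabI P π1, (w : ZMod p) * ((w : ZMod p) * χ (τ⁻¹ * (τ⁻¹ * g * τ) * τ)) -
      t • ((w : ZMod p) * χ (τ⁻¹ * g * τ)) + n • χ g = 0) →
    (t : Kb) - ((τ π1 / π1) ^ 2 + (τ π1 / π1) ^ (2 * p)) ∈ P.nonunits →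
    (n : Kb) - (τ π1 / π1) ^ (2 * p + 2) ∈ P.nonunits →
    CheapAt p P π1 χ →
    ∃ β : Kb, IsKummerGen p (stabI P π1 : Set GK) ζ χ β ∧
      (β - 1) ^ (p * (p ^ 2 - 1)) / (p : Kb) ^ (p ^ 2 + 1) ∈ P

/-- **ETA-LINE**: a family `X` of smooth characters of `N1`, closed under `χ' - n χ`, invariant
under conjugation by `τ` and anti-invariant under conjugation by a Frobenius `φ`, with CHEAP for
all members and SHARP for a member generating the family on `N1`: all members vanish on `N1`. -/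
def EtaStatement (p : ℕ) (P : ValuationSubring Kb) (π1 : Kb) : Prop :=
  ∀ (ζ : Kb) (X : Set (GK → ZMod p)) (τ φ : GK), IsPrimitiveRoot ζ p →
    (∀ χ ∈ X, IsCharOn p (stabI P π1) χ ∧ IsSmoothChar p χ) →
    (∀ χ ∈ X, ∀ χ' ∈ X, ∀ n : ℤ, (fun g => χ' g - n • χ g) ∈ X) →
    TameGen p P π1 τ →
    (∀ χ ∈ X, ∀ g ∈ stabI P π1, χ (τ⁻¹ * g * τ) = χ g) →
    φ ∈ P.decompositionSubgroup ℚ → (∀ a ∈ inertiaRing P, φ a - a ^ p ∈ P.nonunits) →
    (∀ χ ∈ X, ∀ g ∈ stabI P π1, χ (φ⁻¹ * g * φ) = -χ g) →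
    (∀ χ ∈ X, CheapAt p P π1 χ) →
    (∀ χ₁ ∈ X, (∀ χ ∈ X, ∃ n : ℤ, ∀ g ∈ stabI P π1, χ g = n • χ₁ g) → SharpAt p P π1 χ₁) →
    ∀ χ ∈ X, ∀ g ∈ stabI P π1, χ g = 0

end Fermat.Agent.FFL.FB
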