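/-
Lib/FFL/FB/CycTame (S56 W4-C block KT, leaf KT-CYC; helper78):
**on inertia the mod-`p` cyclotomic character is `θ ^ (p + 1)`**, `θ σ = σ π1 / π1`,
`π1 ^ (p² - 1) = -p`.

`λ = π1 ^ (p+1)` has `λ ^ (p-1) = -p`, so `y = (ζ - 1) / λ` is a unit of `P`
(`val_root_sub_one_pow`).  For `τ` in the inertia group, `τ y ≡ y` modulo the maximal ideal, and
`τ y = y · (1 + ζ + ⋯ + ζ^(w-1)) / θ(τ)^(p+1)` if `τ ζ = ζ ^ w`; as `ζ ≡ 1`:  `w ≡ θ(τ)^(p+1)`.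

* `cycTame hp hP hπ : CycTameStatement p P π1`;
* `zeta_fixed_of_stabI` : a `p`-th root of unity is fixed by `N1 = stabI P π1`  (`ζ ∈ K1`);
* `val_zeta_sub_one` : `(ζ - 1) / π1 ^ (p+1)` and its inverse are in `P`.
-/
import Fermat.Agent.Lib.FFL.FB.FieldTame
import Fermat.Agent.Lib.FFL.FB.KTDefs

set_option autoImplicit false
set_option linter.style.haveILetI false
set_option linter.unusedSectionVars false

namespace Fermat.Agent.FFL.FB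

open Fermat.Agent.FFL Fermat.Agent.Cyclo Polynomial

local notation "Kb" => AlgebraicClosure ℚ
local notation "GK" => (AlgebraicClosure ℚ ≃ₐ[ℚ] AlgebraicClosure ℚ)

variable {p : ℕ} {P : ValuationSubring Kb} {π1 : Kb}

theorem succ_mul_pred_eq (hp : p.Prime) : (p + 1) * (p - 1) = p ^ 2 - 1 := by
  obtain ⟨q, rfl⟩ : ∃ q, p = q + 1 := ⟨p - 1, (Nat.sub_add_cancel hp.one_le).symm⟩
  have h1 : (q + 1) ^ 2 = (q + 1 + 1) * q + 1 := by ring
  rw [h1]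
  simp

/-- `λ = π1 ^ (p+1)` satisfies `λ ^ (p-1) = -p`. -/
theorem pi1_pow_succ_pow (hp : p.Prime) (hπ : IsPi1 p π1) :
    (π1 ^ (p + 1)) ^ (p - 1) = -(p : Kb) := by
  rw [← pow_mul, succ_mul_pred_eq hp]
  exact hπ

/-- `(ζ - 1) / π1 ^ (p+1)` is a unit of `P`. -/
theorem val_zeta_div (hp : p.Prime) (hP : P.LiesOverPrime p) (hπ : IsPi1 p π1) {ζ : Kb}
    (hζ : IsPrimitiveRoot ζ p) : P.valuation ((ζ - 1) / π1 ^ (p + 1)) = 1 := by
  have S := tameSetting_of_isPi1 hp hP hπ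
  have hv1 : P.valuation (ζ - 1) ^ (p - 1) = P.valuation (p : Kb) :=
    val_root_sub_one_pow hp hζ.pow_eq_one (hζ.ne_one hp.one_lt)
  have hvl : P.valuation (π1 ^ (p + 1)) ^ (p - 1) = P.valuation (p : Kb) := by
    rw [← map_pow, pi1_pow_succ_pow hp hπ, Valuation.map_neg]
  have h1 : P.valuation ((ζ - 1) / π1 ^ (p + 1)) ^ (p - 1) = 1 := by
    rw [map_div₀, div_pow, hv1, hvl, div_self S.val_p_ne_zero]
  exact (pow_eq_one_iff_of_nonneg zero_le (Nat.sub_ne_zero_of_lt hp.one_lt)).1 h1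

theorem val_zeta_sub_one (hp : p.Prime) (hP : P.LiesOverPrime p) (hπ : IsPi1 p π1) {ζ : Kb}
    (hζ : IsPrimitiveRoot ζ p) :
    (ζ - 1) / π1 ^ (p + 1) ∈ P ∧ π1 ^ (p + 1) / (ζ - 1) ∈ P := by
  have h := val_zeta_div hp hP hπ hζ
  refine ⟨(P.valuation_le_one_iff _).1 h.le, ?_⟩
  rw [← inv_div, ← P.valuation_le_one_iff, map_inv₀, h, inv_one]

theorem zeta_sub_one_mem_nonunits (hp : p.Prime) (hP : P.LiesOverPrime p) {ζ : Kb}
    (hζ : ζ ^ p = 1) : ζ - 1 ∈ P.nonunits := by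
  by_cases hζ1 : ζ = 1
  · rw [hζ1, sub_self]
    exact red_zero_mem_nonunits P
  have hv1 : P.valuation (ζ - 1) ^ (p - 1) = P.valuation (p : Kb) :=
    val_root_sub_one_pow hp hζ hζ1
  rw [ValuationSubring.mem_nonunits_iff]
  by_contra h
  rw [not_lt] at h
  have h1 : (1 : _) ≤ P.valuation (ζ - 1) ^ (p - 1) := one_le_pow₀ h
  rw [hv1] at h1
  exact absurd (lt_of_le_of_lt h1 (ar_val_p_lt hP)) (lt_irrefl _)

/-- `1 + ζ + ⋯ + ζ^(w-1) ≡ w` modulo the maximal ideal. -/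
theorem geom_sum_zeta_sub_mem (hp : p.Prime) (hP : P.LiesOverPrime p) {ζ : Kb}
    (hζ : ζ ^ p = 1) (w : ℕ) :
    (∑ i ∈ Finset.range w, ζ ^ i) - (w : Kb) ∈ P.nonunits := by
  have hζP : ζ ∈ P := pow_eq_one_mem P hp.ne_zero hζ
  have h1 : (∑ i ∈ Finset.range w, ζ ^ i) - (w : Kb) = ∑ i ∈ Finset.range w, (ζ ^ i - 1) := by
    rw [Finset.sum_sub_distrib, Finset.sum_const, Finset.card_range, nsmul_eq_mul, mul_one]
  rw [h1, ValuationSubring.mem_nonunits_iff]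
  refine Valuation.map_sum_lt _ one_ne_zero fun i _ => ?_
  rw [← ValuationSubring.mem_nonunits_iff]
  have h2 := pow_sub_pow_mem_nonunits hζP P.one_mem (zeta_sub_one_mem_nonunits hp hP hζ) i
  rwa [one_pow] at h2

/-- **KT-CYC**: on inertia the cyclotomic character is `θ ^ (p + 1)` modulo the maximal
ideal. -/
theorem cycTame (hp : p.Prime) (hP : P.LiesOverPrime p) (hπ : IsPi1 p π1) :
    CycTameStatement p P π1 := by
  intro ζ τ w hζ hτ hτζ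
  have S := tameSetting_of_isPi1 hp hP hπ
  have hζp : ζ ^ p = 1 := hζ.pow_eq_one
  have hζ1 : ζ - 1 ≠ 0 := sub_ne_zero.2 (hζ.ne_one hp.one_lt)
  have hlam0 : π1 ^ (p + 1) ≠ 0 := pow_ne_zero _ S.hπ0
  obtain ⟨hy, hyinv⟩ := val_zeta_sub_one hp hP hπ hζ
  set θ := τ π1 / π1 with hθ
  have hθ0 : θ ≠ 0 := S.tame_ne_zero τ
  have hΘP : θ ^ (p + 1) ∈ P := pow_mem (pow_eq_one_mem P S.e_ne_zero (S.tame_pow_eq_one hτ)) _
  set g := ∑ i ∈ Finset.range w, ζ ^ i with hg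
  have hgw : g - (w : Kb) ∈ P.nonunits := geom_sum_zeta_sub_mem hp hP hζp w
  have hτy : τ ((ζ - 1) / π1 ^ (p + 1)) - (ζ - 1) / π1 ^ (p + 1) ∈ P.nonunits :=
    inertia_sub_mem_nonunits P hτ hy
  have hτy' : τ ((ζ - 1) / π1 ^ (p + 1)) = (ζ - 1) * g / (θ ^ (p + 1) * π1 ^ (p + 1)) := by
    rw [map_div₀, map_sub, map_one, map_pow, hτζ, S.smul_π (σ := τ), mul_pow, ← mul_geom_sum]
  have hkey : g - θ ^ (p + 1) =
      (τ ((ζ - 1) / π1 ^ (p + 1)) - (ζ - 1) / π1 ^ (p + 1)) *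
        (θ ^ (p + 1) * (π1 ^ (p + 1) / (ζ - 1))) := by
    rw [hτy']
    have hΘ0 : θ ^ (p + 1) ≠ 0 := pow_ne_zero _ hθ0
    field_simp
  have h1 : g - θ ^ (p + 1) ∈ P.nonunits := by
    rw [hkey]
    exact red_mul_mem_nonunits_right P hτy (P.mul_mem _ _ hΘP hyinv)
  have h2 : (w : Kb) - θ ^ (p + 1) = (g - θ ^ (p + 1)) - (g - (w : Kb)) := by ring
  rw [h2]
  exact red_sub_mem_nonunits P h1 hgw

/-- A `p`-th root of unity is fixed by `N1 = stabI P π1`: `ζ ∈ K1`. -/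
theorem zeta_fixed_of_stabI (hp : p.Prime) (hP : P.LiesOverPrime p) (hπ : IsPi1 p π1)
    {ζ : Kb} (hζ : ζ ^ p = 1) {τ : GK} (hτ : τ ∈ stabI P π1) : τ ζ = ζ := by
  by_cases hζ1 : ζ = 1
  · rw [hζ1, map_one]
  have hprim : IsPrimitiveRoot ζ p :=
    isPrimitiveRoot_of_mem_nthRootsFinset hp ((mem_nthRootsFinset hp.pos 1).2 hζ) hζ1
  haveI : NeZero p := ⟨hp.ne_zero⟩
  have S := tameSetting_of_isPi1 hp hP hπ
  -- `τ ζ = ζ ^ w`
  have hτζp : (τ ζ) ^ p = 1 := by rw [← map_pow, hζ, map_one]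
  obtain ⟨w, hw, hwζ⟩ := hprim.eq_pow_of_pow_eq_one hτζp
  have h1 := cycTame hp hP hπ ζ τ w hprim hτ.1 hwζ.symm
  rw [hτ.2, div_self S.hπ0, one_pow] at h1
  -- `w ≡ 1` modulo `p`
  have hdvd : (p : ℤ) ∣ (w : ℤ) - 1 := by
    by_contra hnd
    have h3 := ar_val_int_eq_one hp hP hnd
    have h4 : P.valuation (((w : ℤ) - 1 : ℤ) : Kb) < 1 := by
      have := (ValuationSubring.mem_nonunits_iff P).1 h1
      push_cast
      exact this
    rw [h3] at h4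
    exact lt_irrefl _ h4
  have h2 : (w : ℤ) - 1 = 0 := by
    refine Int.eq_zero_of_abs_lt_dvd hdvd (abs_lt.2 ⟨?_, ?_⟩)
    · have : 2 ≤ p := hp.two_le
      omega
    · omega
  have hw1 : w = 1 := by omega
  rw [← hwζ, hw1, pow_one]

end Fermat.Agent.FFL.FB
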