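/-
Lib/FFL/FB/Depth (block KT of S56-W4 case C, seat DEPTH; helper70): the Kummer DEPTH lemma.

Setting: `P | p`, `π1 ^ (p² - 1) = -p`, `N1 = stabI P π1`, `K1 = ℚ̄^{N1}`, `χ : N1 → ℤ/p` a character
with Kummer generator `β` (`g β = ζ ^ χ(g) · β`).  Statements: `DepthStatement`, `DepthNUStatement`
(Lib/FFL/FB/KTDefs.lean, helper91).

* `depth`   : `β ^ p` of level `s` (`p ∤ s`, `0 < s < p² + p`, unit leading coefficient): every
  `x ∈ P` fixed by `ker χ` has `v(g x - x) ≥ (p² + p + 1 - s) / (p (p² - 1))` for `g ∈ N1`;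
* `depthNU` : `β ^ p = π1 ^ m · unit`, `0 < m < p`: `v(g x - x) ≥ (p² + p + 1) / (p (p² - 1))`.

Both are UNCONDITIONAL (all primes `p`, also `p = 2`); the only input is F3 of FIELD
(`unitSetting_stabI`, helper78: an `N1`-fixed nonunit of `P` is divisible by `π1`); the versions
`depth_of_unif`, `depthNU_of_unif` take it as a hypothesis.

Proof.  `x = ∑_{i<p} c_i β^i` with `c_i ∈ K1` (`depth_expand`: eigencomponents of `x` under a
generator `g` of `N1 / ker χ`), re-expanded in powers of `B = β - 1` (`B = β` in the non-unit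
case).  `v(B)^p = v(π1)^s` with `p ∤ s` (`depth_rootlevel`), the value group of `K1` is
`v(π1)^ℤ` (`depth_hval`), so the terms `d_m B^m` have pairwise distinct valuations: each of them
is in `P`, and for `m ≥ 1` its valuation is at least the quantum `1 / (p (p² - 1))`.  Finally
`g B = B (1 + y)` with `v(y) = (p² + p - s) / (p (p² - 1))` and `g x - x = y ∑ d_m B^m q_m`,
`q_m ∈ P` (`depth_core`).  `ζ ∈ K1` is proved in `depth_zeta_fixed`.
-/
import Fermat.Agent.Lib.FFL.FB.FieldRoot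
import Fermat.Agent.Lib.FFL.FB.KTDefs
import Fermat.Agent.Lib.FFL.FB.Binom
import Fermat.Agent.Lib.FFL.FB.FieldTame

set_option autoImplicit false
set_option linter.unusedSectionVars false
set_option linter.unusedVariables false

namespace Fermat.Agent.FFL.FB

open Fermat.Agent.FFL

local notation "Kb" => AlgebraicClosure ℚ
local notation "GK" => (AlgebraicClosure ℚ ≃ₐ[ℚ] AlgebraicClosure ℚ)

section valuation

variable {K : Type*} [Field K] {Γ₀ : Type*} [LinearOrderedCommGroupWithZero Γ₀]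
  (v : Valuation K Γ₀)

/-- Ultrametric with pairwise distinct valuations: the valuation of the sum is the largest one.
Form: every term is bounded by the valuation of the sum. -/
theorem depth_val_le_sum {ι : Type*} [DecidableEq ι] (S : Finset ι) (t : ι → K)
    (hdist : ∀ i ∈ S, ∀ j ∈ S, i ≠ j → t i ≠ 0 → v (t i) ≠ v (t j)) :
    ∀ i ∈ S, v (t i) ≤ v (∑ j ∈ S, t j) := by
  induction S using Finset.induction_on with
  | empty => intro i hi; simp at hi
  | insert a S ha ih =>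
    have ih' := ih (fun i hi j hj hij h0 =>
      hdist i (Finset.mem_insert_of_mem hi) j (Finset.mem_insert_of_mem hj) hij h0)
    rw [Finset.sum_insert ha]
    by_cases hta : t a = 0
    · intro i hi
      rw [hta, zero_add]
      rcases Finset.mem_insert.1 hi with rfl | hi
      · rw [hta, map_zero]; exact zero_le'
      · exact ih' i hi
    · -- `v (t a)` differs from `v (∑ S)`
      have hne : v (t a) ≠ v (∑ j ∈ S, t j) := by
        intro heq
        -- the sum over `S` is nonzero, so some term of `S` has the valuation of the sum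
        have hsum0 : v (∑ j ∈ S, t j) ≠ 0 := by
          rw [← heq]; exact (Valuation.ne_zero_iff v).2 hta
        obtain ⟨j, hj, hjv⟩ : ∃ j ∈ S, v (∑ j ∈ S, t j) ≤ v (t j) := by
          by_contra hcon
          push_neg at hcon
          have := Valuation.map_sum_lt v hsum0 hcon
          exact lt_irrefl _ this
        have hjeq : v (t j) = v (∑ j ∈ S, t j) := le_antisymm (ih' j hj) hjv
        have haj : a ≠ j := fun h => ha (h ▸ hj)
        exact hdist a (Finset.mem_insert_self a S) j (Finset.mem_insert_of_mem hj) haj hta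
          (heq.trans hjeq.symm)
      rw [Valuation.map_add_of_distinct_val v hne]
      intro i hi
      rcases Finset.mem_insert.1 hi with rfl | hi
      · exact le_max_left _ _
      · exact (ih' i hi).trans (le_max_right _ _)

/-- Some term dominates the sum. -/
theorem depth_exists_sum_le {ι : Type*} (S : Finset ι) (t : ι → K) (hS : S.Nonempty) :
    ∃ i ∈ S, v (∑ j ∈ S, t j) ≤ v (t i) := by
  classical
  by_cases h0 : v (∑ j ∈ S, t j) = 0
  · obtain ⟨i, hi⟩ := hS
    exact ⟨i, hi, by rw [h0]; exact zero_le'⟩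
  · by_contra hcon
    push_neg at hcon
    exact lt_irrefl _ (Valuation.map_sum_lt v h0 hcon)

end valuation

section basics

variable {p : ℕ} {P : ValuationSubring Kb}

theorem depth_fixedBy_div {N : Subgroup GK} {a b : Kb} (ha : FixedBy N a) (hb : FixedBy N b) :
    FixedBy N (a / b) := fun σ hσ => by rw [map_div₀, ha σ hσ, hb σ hσ]

theorem depth_fixedBy_mul {N : Subgroup GK} {a b : Kb} (ha : FixedBy N a) (hb : FixedBy N b) :
    FixedBy N (a * b) := fun σ hσ => by rw [map_mul, ha σ hσ, hb σ hσ]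

theorem depth_fixedBy_pow {N : Subgroup GK} {a : Kb} (ha : FixedBy N a) (n : ℕ) :
    FixedBy N (a ^ n) := fun σ hσ => by rw [map_pow, ha σ hσ]

theorem depth_fixedBy_inv {N : Subgroup GK} {a : Kb} (ha : FixedBy N a) :
    FixedBy N a⁻¹ := fun σ hσ => by rw [map_inv₀, ha σ hσ]

theorem depth_fixedBy_natCast (N : Subgroup GK) (n : ℕ) : FixedBy N (n : Kb) :=
  fun σ _ => map_natCast σ n

theorem depth_fixedBy_sum {N : Subgroup GK} {ι : Type*} (S : Finset ι) (f : ι → Kb)
    (hf : ∀ i ∈ S, FixedBy N (f i)) : FixedBy N (∑ i ∈ S, f i) := fun σ hσ => by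
  rw [map_sum]
  exact Finset.sum_congr rfl fun i hi => hf i hi σ hσ

/-- `π1 ≠ 0`. -/
theorem depth_pi_ne_zero (hp : p.Prime) {π1 : Kb} (hπ : π1 ^ (p ^ 2 - 1) = -(p : Kb)) :
    π1 ≠ 0 := by
  rintro rfl
  have h2 : 2 ≤ p := hp.two_le
  have hN : p ^ 2 - 1 ≠ 0 := by
    have : 4 ≤ p ^ 2 := by nlinarith
    omega
  rw [zero_pow hN] at hπ
  exact ar_p_ne_zero hp (neg_eq_zero.1 hπ.symm)

/-- `v(π1)^(p²-1) = v(p)`. -/
theorem depth_val_pi_pow {π1 : Kb} (hπ : π1 ^ (p ^ 2 - 1) = -(p : Kb)) :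
    P.valuation π1 ^ (p ^ 2 - 1) = P.valuation (p : Kb) := by
  rw [← map_pow, hπ, Valuation.map_neg]

theorem depth_val_p_pos (hp : p.Prime) : 0 < P.valuation (p : Kb) :=
  zero_lt_iff.2 ((Valuation.ne_zero_iff _).2 (ar_p_ne_zero hp))

theorem depth_val_pi_pos (hp : p.Prime) {π1 : Kb} (hπ : π1 ^ (p ^ 2 - 1) = -(p : Kb)) :
    0 < P.valuation π1 :=
  zero_lt_iff.2 ((Valuation.ne_zero_iff _).2 (depth_pi_ne_zero hp hπ))

theorem depth_val_pi_lt (hp : p.Prime) (hP : P.LiesOverPrime p) {π1 : Kb}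
    (hπ : π1 ^ (p ^ 2 - 1) = -(p : Kb)) : P.valuation π1 < 1 := by
  by_contra h
  rw [not_lt] at h
  have h1 : (1 : P.ValueGroup) ≤ P.valuation π1 ^ (p ^ 2 - 1) := one_le_pow₀ h
  rw [depth_val_pi_pow hπ] at h1
  exact absurd (ar_val_p_lt hP) (not_lt.2 h1)

/-- In the value group, `a ^ n = 1` with `n ≠ 0` forces `a = 1`. -/
theorem depth_eq_one_of_pow_eq_one {a : P.ValueGroup} {n : ℕ} (hn : n ≠ 0) (h : a ^ n = 1) :
    a = 1 := by
  rcases lt_trichotomy a 1 with h1 | h1 | h1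
  · exact absurd h (ne_of_lt (pow_lt_one₀ zero_le' h1 hn))
  · exact h1
  · exact absurd h (ne_of_gt (one_lt_pow₀ h1 hn))

/-- The value group of the `N`-fixed field is generated by `v(π1)`. -/
theorem depth_hval (hp : p.Prime) (hP : P.LiesOverPrime p) {π1 : Kb}
    (hπ : π1 ^ (p ^ 2 - 1) = -(p : Kb)) (N : Subgroup GK) (hπN : FixedBy N π1)
    (hunif : ∀ x ∈ P.nonunits, FixedBy N x → x / π1 ∈ P) :
    ∀ d : Kb, d ≠ 0 → FixedBy N d → ∃ k : ℤ, P.valuation d = P.valuation π1 ^ k := by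
  have hπ0 := depth_pi_ne_zero hp hπ
  have hvπ0 : P.valuation π1 ≠ 0 := (Valuation.ne_zero_iff _).2 hπ0
  have key : ∀ n : ℕ, ∀ d : Kb, d ∈ P → FixedBy N d → P.valuation π1 ^ n ≤ P.valuation d →
      ∃ k : ℕ, P.valuation d = P.valuation π1 ^ k := by
    intro n
    induction n with
    | zero =>
      intro d hd _ hle
      rw [pow_zero] at hle
      exact ⟨0, by rw [pow_zero]; exact le_antisymm ((P.valuation_le_one_iff _).2 hd) hle⟩
    | succ n ih =>
      intro d hd hfix hle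
      by_cases h1 : P.valuation d = 1
      · exact ⟨0, by rw [pow_zero]; exact h1⟩
      · have hlt : P.valuation d < 1 :=
          lt_of_le_of_ne ((P.valuation_le_one_iff _).2 hd) h1
        have hdn : d ∈ P.nonunits := (P.mem_nonunits_iff).2 hlt
        have hq := hunif d hdn hfix
        have hle' : P.valuation π1 ^ n ≤ P.valuation (d / π1) := by
          rw [map_div₀, le_div_iff₀ (zero_lt_iff.2 hvπ0), ← pow_succ]
          exact hle
        obtain ⟨k, hk⟩ := ih (d / π1) hq (depth_fixedBy_div hfix hπN) hle'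
        refine ⟨k + 1, ?_⟩
        rw [map_div₀, div_eq_iff hvπ0] at hk
        rw [hk, pow_succ]
  have key2 : ∀ d : Kb, d ≠ 0 → d ∈ P → FixedBy N d →
      ∃ k : ℕ, P.valuation d = P.valuation π1 ^ k := by
    intro d hd0 hd hfix
    obtain ⟨m, hm⟩ := dvdProp hp hP d hd0
    have hvd0 : P.valuation d ≠ 0 := (Valuation.ne_zero_iff _).2 hd0
    have h1 : P.valuation (p : Kb) ^ m ≤ P.valuation d := by
      have := (P.valuation_le_one_iff _).2 hm
      rwa [map_div₀, map_pow, div_le_iff₀ (zero_lt_iff.2 hvd0), one_mul] at this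
    rw [← depth_val_pi_pow hπ, ← pow_mul] at h1
    exact key _ d hd hfix h1
  intro d hd0 hfix
  rcases P.mem_or_inv_mem d with hd | hd
  · obtain ⟨k, hk⟩ := key2 d hd0 hd hfix
    exact ⟨k, by rw [zpow_natCast]; exact hk⟩
  · obtain ⟨k, hk⟩ := key2 d⁻¹ (inv_ne_zero hd0) hd (depth_fixedBy_inv hfix)
    refine ⟨-(k : ℤ), ?_⟩
    rw [map_inv₀] at hk
    rw [zpow_neg, zpow_natCast, ← hk, inv_inv]

/-- `ζ_p` is fixed by the stabiliser of `π1` in the inertia group. -/
theorem depth_zeta_fixed (hp : p.Prime) (hP : P.LiesOverPrime p) {π1 : Kb}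
    (hπ : π1 ^ (p ^ 2 - 1) = -(p : Kb)) {ζ : Kb} (hζ : IsPrimitiveRoot ζ p) :
    ∀ σ ∈ stabI P π1, σ ζ = ζ := by
  intro σ hσ
  by_contra hne
  have hπ0 := depth_pi_ne_zero hp hπ
  have hζ0 : ζ ≠ 0 := hζ.ne_zero hp.ne_zero
  have hζ1 : ζ ≠ 1 := hζ.ne_one hp.one_lt
  -- ξ = σ ζ / ζ is a nontrivial p-th root of unity
  have hξp : (σ ζ / ζ) ^ p = 1 := by
    rw [div_pow, ← map_pow, hζ.pow_eq_one, map_one, div_one]
  have hξ1 : σ ζ / ζ ≠ 1 := fun h => hne (by rwa [div_eq_one_iff_eq hζ0] at h)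
  have hvξ := val_root_sub_one_pow (P := P) hp hξp hξ1
  have hvζ : P.valuation ζ = 1 :=
    depth_eq_one_of_pow_eq_one hp.ne_zero (by rw [← map_pow, hζ.pow_eq_one, map_one])
  have hdiff : σ ζ - ζ = ζ * (σ ζ / ζ - 1) := by field_simp
  have hvdiff : P.valuation (σ ζ - ζ) ^ (p - 1) = P.valuation (p : Kb) := by
    rw [hdiff, map_mul, hvζ, one_mul, hvξ]
  have hpN : (p + 1) * (p - 1) = p ^ 2 - 1 := by
    have h1 : 1 ≤ p := hp.one_lt.le
    obtain ⟨q, rfl⟩ : ∃ q, p = q + 1 := ⟨p - 1, by omega⟩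
    have : (q + 1) ^ 2 = (q + 1 + 1) * q + 1 := by ring
    rw [this]
    simp
  have hvπ : (P.valuation (π1 ^ (p + 1))) ^ (p - 1) = P.valuation (p : Kb) := by
    rw [map_pow, ← pow_mul, hpN, depth_val_pi_pow hπ]
  set θ : Kb := (ζ - 1) / π1 ^ (p + 1) with hθ
  have hvθ : P.valuation θ = 1 := by
    apply depth_eq_one_of_pow_eq_one (Nat.sub_ne_zero_of_lt hp.one_lt)
    rw [hθ, map_div₀, div_pow, hvπ, val_root_sub_one_pow hp hζ.pow_eq_one hζ1]
    exact div_self (ne_of_gt (depth_val_p_pos hp))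
  have hθP : θ ∈ P := (P.valuation_le_one_iff _).1 hvθ.le
  have hin := Fermat.Agent.Cyclo.inertia_sub_mem_nonunits P hσ.1 hθP
  have hσθ : σ θ - θ = (σ ζ - ζ) / π1 ^ (p + 1) := by
    rw [hθ, map_div₀, map_pow, hσ.2, map_sub, map_one]
    ring
  rw [hσθ] at hin
  have hv1 : P.valuation ((σ ζ - ζ) / π1 ^ (p + 1)) = 1 := by
    apply depth_eq_one_of_pow_eq_one (Nat.sub_ne_zero_of_lt hp.one_lt)
    rw [map_div₀, div_pow, hvπ, hvdiff]
    exact div_self (ne_of_gt (depth_val_p_pos hp))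
  have := (P.mem_nonunits_iff).1 hin
  rw [hv1] at this
  exact lt_irrefl _ this


/-- `v(u - 1) = v(π1)^s` for `u` of level `s` with unit leading coefficient. -/
theorem depth_val_of_lcAt (hp : p.Prime) (hP : P.LiesOverPrime p) {π1 : Kb}
    (hπ : π1 ^ (p ^ 2 - 1) = -(p : Kb)) {s : ℕ} {u a : Kb} (ha : a ∈ P)
    (hau : a ∉ P.nonunits) (hlc : LcAt P π1 s u a) :
    P.valuation (u - 1) = P.valuation π1 ^ s := by
  have hπ0 := depth_pi_ne_zero hp hπ
  have hva : P.valuation a = 1 := by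
    apply le_antisymm ((P.valuation_le_one_iff _).2 ha)
    by_contra h
    exact hau ((P.mem_nonunits_iff).2 (not_le.1 h))
  set t : Kb := (u - 1 - a * π1 ^ s) / π1 ^ (s + 1) with ht
  have htP : t ∈ P := hlc
  have hu : u - 1 = a * π1 ^ s + π1 ^ (s + 1) * t := by
    rw [ht]
    field_simp
    ring
  have hv1 : P.valuation (a * π1 ^ s) = P.valuation π1 ^ s := by
    rw [map_mul, hva, one_mul, map_pow]
  have hv2 : P.valuation (π1 ^ (s + 1) * t) < P.valuation (a * π1 ^ s) := by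
    rw [hv1, map_mul, map_pow]
    calc P.valuation π1 ^ (s + 1) * P.valuation t ≤ P.valuation π1 ^ (s + 1) * 1 :=
          mul_le_mul_right ((P.valuation_le_one_iff _).2 htP) _
      _ = P.valuation π1 ^ (s + 1) := mul_one _
      _ < P.valuation π1 ^ s :=
          pow_lt_pow_right_of_lt_one₀ (depth_val_pi_pos hp hπ) (depth_val_pi_lt hp hP hπ)
            (Nat.lt_succ_self s)
  rw [hu, Valuation.map_add_eq_of_lt_left _ hv2, hv1]

/-- **Root level**: if `β ^ p - 1` has valuation `v(π1)^s` with `0 < s < p² + p`, then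
`v(β - 1)^p = v(π1)^s`. -/
theorem depth_rootlevel (hp : p.Prime) (hP : P.LiesOverPrime p) {π1 : Kb}
    (hπ : π1 ^ (p ^ 2 - 1) = -(p : Kb)) {s : ℕ} (hs0 : 0 < s) (hsp : s < p ^ 2 + p) {β : Kb}
    (hu : P.valuation (β ^ p - 1) = P.valuation π1 ^ s) :
    P.valuation (β - 1) ^ p = P.valuation π1 ^ s := by
  have hvπ0 := depth_val_pi_pos (P := P) hp hπ
  have hvπ1 := depth_val_pi_lt hp hP hπ
  have hvp0 := depth_val_p_pos (P := P) hp
  have hL1 : P.valuation π1 ^ s < 1 := pow_lt_one₀ zero_le' hvπ1 (Nat.pos_iff_ne_zero.1 hs0)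
  set b : Kb := β - 1 with hb
  have hβ : β = 1 + b := by rw [hb]; ring
  by_cases hbP : b ∈ P
  · obtain ⟨T, hT⟩ := fb_exists_binom p hp
    have hT' := hT Kb b
    rw [← hβ] at hT'
    obtain ⟨tb, htb, hT''⟩ : ∃ tb ∈ P,
        β ^ p = 1 + (p : Kb) * b + (p : Kb) * b ^ 2 * tb + b ^ p :=
      ⟨_, ar_aeval_mem P T hbP, hT'⟩
    set w : Kb := (p : Kb) * b * (1 + b * tb) with hw
    have hsplit : β ^ p - 1 = b ^ p + w := by
      rw [hw]
      linear_combination hT''
    have hwv : P.valuation w ≤ P.valuation (p : Kb) * P.valuation b := by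
      rw [hw, map_mul, map_mul]
      have h1 : (1 + b * tb) ∈ P :=
        P.add_mem _ _ P.one_mem (P.mul_mem _ _ hbP htb)
      calc P.valuation (p : Kb) * P.valuation b * P.valuation (1 + b * tb)
          ≤ P.valuation (p : Kb) * P.valuation b * 1 :=
            mul_le_mul_right ((P.valuation_le_one_iff _).2 h1) _
        _ = P.valuation (p : Kb) * P.valuation b := mul_one _
    by_cases hcmp : P.valuation (p : Kb) < P.valuation b ^ (p - 1)
    · -- the good case
      have hvb0 : 0 < P.valuation b := by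
        rcases eq_or_lt_of_le (zero_le' (a := P.valuation b)) with h | h
        · rw [← h, zero_pow (Nat.sub_ne_zero_of_lt hp.one_lt)] at hcmp
          exact absurd hcmp (not_lt.2 zero_le')
        · exact h
      have hlt : P.valuation w < P.valuation (b ^ p) := by
        refine lt_of_le_of_lt hwv ?_
        rw [map_pow]
        have : P.valuation b ^ p = P.valuation b ^ (p - 1) * P.valuation b := by
          rw [← pow_succ, Nat.sub_add_cancel hp.one_lt.le]
        rw [this]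
        exact mul_lt_mul_of_pos_right hcmp hvb0
      rw [← hu, hsplit, Valuation.map_add_eq_of_lt_left _ hlt, map_pow]
    · -- the bad case: contradiction
      exfalso
      rw [not_lt] at hcmp
      have h1 : P.valuation (β ^ p - 1) ≤ P.valuation (p : Kb) * P.valuation b := by
        rw [hsplit]
        refine (P.valuation.map_add _ _).trans (max_le ?_ hwv)
        rw [map_pow]
        have : P.valuation b ^ p = P.valuation b ^ (p - 1) * P.valuation b := by
          rw [← pow_succ, Nat.sub_add_cancel hp.one_lt.le]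
        rw [this]
        exact mul_le_mul_left hcmp _
      rw [hu] at h1
      have h2 : (P.valuation π1 ^ s) ^ (p - 1) ≤ P.valuation (p : Kb) ^ p := by
        calc (P.valuation π1 ^ s) ^ (p - 1)
            ≤ (P.valuation (p : Kb) * P.valuation b) ^ (p - 1) := pow_le_pow_left₀ zero_le' h1 _
          _ = P.valuation (p : Kb) ^ (p - 1) * P.valuation b ^ (p - 1) := mul_pow _ _ _
          _ ≤ P.valuation (p : Kb) ^ (p - 1) * P.valuation (p : Kb) := mul_le_mul_right hcmp _
          _ = P.valuation (p : Kb) ^ p := by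
              rw [← pow_succ, Nat.sub_add_cancel hp.one_lt.le]
      have hpN : (p - 1) * (p + 1) = p ^ 2 - 1 := by
        obtain ⟨q, rfl⟩ : ∃ q, p = q + 1 := ⟨p - 1, by have := hp.one_lt; omega⟩
        have : (q + 1) ^ 2 = q * (q + 1 + 1) + 1 := by ring
        rw [this]
        simp
      have h3 : P.valuation (p : Kb) ^ s ≤ P.valuation (p : Kb) ^ (p * (p + 1)) := by
        calc P.valuation (p : Kb) ^ s = (P.valuation π1 ^ (p ^ 2 - 1)) ^ s := by
              rw [depth_val_pi_pow hπ]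
          _ = ((P.valuation π1 ^ s) ^ (p - 1)) ^ (p + 1) := by
              rw [← pow_mul, ← pow_mul, ← pow_mul, ← hpN]
              congr 1
              ring
          _ ≤ (P.valuation (p : Kb) ^ p) ^ (p + 1) := pow_le_pow_left₀ zero_le' h2 _
          _ = P.valuation (p : Kb) ^ (p * (p + 1)) := by rw [← pow_mul]
      have h4 : P.valuation (p : Kb) ^ (p * (p + 1)) < P.valuation (p : Kb) ^ s :=
        pow_lt_pow_right_of_lt_one₀ hvp0 (ar_val_p_lt hP) (by
          have : p * (p + 1) = p ^ 2 + p := by ring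
          omega)
      exact absurd h3 (not_le.2 h4)
  · -- `b ∉ P`: then `v(β^p - 1) > 1`
    exfalso
    have hvb : 1 < P.valuation b := by
      by_contra h
      exact hbP ((P.valuation_le_one_iff _).1 (not_lt.1 h))
    have hvβ : P.valuation β = P.valuation b := by
      rw [hβ, add_comm]
      exact Valuation.map_add_eq_of_lt_left _ (by rw [map_one]; exact hvb)
    have hvβp : 1 < P.valuation (β ^ p) := by
      rw [map_pow, hvβ]
      exact one_lt_pow₀ hvb hp.ne_zero
    have : P.valuation (β ^ p - 1) = P.valuation (β ^ p) := by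
      rw [sub_eq_add_neg]
      exact Valuation.map_add_eq_of_lt_left _ (by rw [Valuation.map_neg, map_one]; exact hvβp)
    rw [this] at hu
    rw [hu] at hvβp
    exact absurd hL1 (not_lt.2 hvβp.le)

end basics

section expand

variable {p : ℕ}

theorem depth_char_one {N : Subgroup GK} {χ : GK → ZMod p} (hχ : IsCharOn p N χ) : χ 1 = 0 := by
  have h := hχ 1 N.one_mem 1 N.one_mem
  rw [mul_one] at h
  have : χ 1 + 0 = χ 1 + χ 1 := by rw [add_zero]; exact h
  exact (add_left_cancel this).symm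

theorem depth_char_pow {N : Subgroup GK} {χ : GK → ZMod p} (hχ : IsCharOn p N χ) {g : GK}
    (hg : g ∈ N) (n : ℕ) : χ (g ^ n) = (n : ZMod p) * χ g := by
  induction n with
  | zero => rw [pow_zero, depth_char_one hχ, Nat.cast_zero, zero_mul]
  | succ n ih =>
    rw [pow_succ, hχ _ (N.pow_mem hg n) _ hg, ih, Nat.cast_succ]
    ring

theorem depth_char_inv {N : Subgroup GK} {χ : GK → ZMod p} (hχ : IsCharOn p N χ) {g : GK}
    (hg : g ∈ N) : χ g⁻¹ = -χ g := by
  have h := hχ g hg g⁻¹ (N.inv_mem hg)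
  rw [mul_inv_cancel, depth_char_one hχ] at h
  exact eq_neg_of_add_eq_zero_right h.symm

/-- The `i`-th eigencomponent of `x` with respect to `g` (`ξ = g β / β`). -/
noncomputable def depthE (p : ℕ) (ξ : Kb) (g : GK) (x : Kb) (i : ℕ) : Kb :=
  (p : Kb)⁻¹ * ∑ j ∈ Finset.range p, (ξ⁻¹) ^ (i * j) * (g ^ j) x

theorem depthE_sum (hp : p.Prime) {ξ : Kb} (hξ : IsPrimitiveRoot ξ p) (g : GK) (x : Kb) :
    ∑ i ∈ Finset.range p, depthE p ξ g x i = x := by
  have hp0 : (p : Kb) ≠ 0 := Nat.cast_ne_zero.2 hp.ne_zero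
  unfold depthE
  rw [← Finset.mul_sum, Finset.sum_comm]
  have hinner : ∀ j ∈ Finset.range p,
      ∑ i ∈ Finset.range p, (ξ⁻¹) ^ (i * j) * (g ^ j) x =
        if j = 0 then (p : Kb) * x else 0 := by
    intro j hj
    rw [← Finset.sum_mul]
    by_cases hj0 : j = 0
    · subst hj0
      simp
    · rw [if_neg hj0]
      have hcop : j.Coprime p := by
        apply Nat.Coprime.symm
        rw [Nat.Prime.coprime_iff_not_dvd hp]
        intro hdvd
        have := Nat.le_of_dvd (Nat.pos_of_ne_zero hj0) hdvd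
        exact absurd (Finset.mem_range.1 hj) (not_lt.2 this)
      have hη : IsPrimitiveRoot ((ξ⁻¹) ^ j) p := (hξ.inv).pow_of_coprime j hcop
      have hsum := hη.geom_sum_eq_zero hp.one_lt
      have : ∑ i ∈ Finset.range p, (ξ⁻¹) ^ (i * j) = ∑ i ∈ Finset.range p, ((ξ⁻¹) ^ j) ^ i :=
        Finset.sum_congr rfl fun i _ => by rw [pow_mul']
      rw [this, hsum, zero_mul]
  rw [Finset.sum_congr rfl hinner, Finset.sum_ite_eq' (Finset.range p) 0,
    if_pos (Finset.mem_range.2 hp.pos)]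
  field_simp

theorem depthE_apply_gen (hp : p.Prime) {ξ : Kb} (hξ : IsPrimitiveRoot ξ p) (g : GK) (x : Kb)
    (hgξ : g ξ = ξ) (hgp : (g ^ p) x = x) (i : ℕ) :
    g (depthE p ξ g x i) = ξ ^ i * depthE p ξ g x i := by
  have hξ0 : ξ ≠ 0 := hξ.ne_zero hp.ne_zero
  unfold depthE
  rw [map_mul, map_inv₀, map_natCast, map_sum, mul_left_comm (ξ ^ i)]
  congr 1
  rw [Finset.mul_sum]
  set φ : ℕ → Kb := fun j => ξ ^ i * ((ξ⁻¹) ^ (i * j) * (g ^ j) x) with hφ
  have h1 : ∀ j, g ((ξ⁻¹) ^ (i * j) * (g ^ j) x) = φ (j + 1) := by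
    intro j
    show g ((ξ⁻¹) ^ (i * j) * (g ^ j) x) = ξ ^ i * ((ξ⁻¹) ^ (i * (j + 1)) * (g ^ (j + 1)) x)
    rw [map_mul, map_pow, map_inv₀, hgξ]
    have e1 : (g ^ (j + 1)) x = g ((g ^ j) x) := by
      rw [pow_succ', AlgEquiv.mul_apply]
    rw [e1, mul_add, mul_one, pow_add, ← mul_assoc, ← mul_assoc]
    congr 1
    rw [mul_comm (ξ ^ i), mul_assoc, inv_pow ξ i, mul_inv_cancel₀ (pow_ne_zero i hξ0), mul_one]
  have h2 : φ p = φ 0 := by
    show ξ ^ i * ((ξ⁻¹) ^ (i * p) * (g ^ p) x) = ξ ^ i * ((ξ⁻¹) ^ (i * 0) * (g ^ 0) x)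
    rw [hgp, pow_mul', inv_pow, hξ.pow_eq_one, inv_one, one_pow, mul_zero, pow_zero, pow_zero,
      AlgEquiv.one_apply]
  have h3 : ∑ j ∈ Finset.range p, φ (j + 1) = ∑ j ∈ Finset.range p, φ j := by
    have e1 := Finset.sum_range_succ' φ p
    have e2 := Finset.sum_range_succ φ p
    rw [e2, h2] at e1
    exact (add_right_cancel e1).symm
  rw [Finset.sum_congr rfl (fun j _ => h1 j), h3]

theorem depthE_apply_fix (ξ : Kb) (g h : GK) (x : Kb) (hhξ : h ξ = ξ)
    (hhx : ∀ j : ℕ, h ((g ^ j) x) = (g ^ j) x) (i : ℕ) :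
    h (depthE p ξ g x i) = depthE p ξ g x i := by
  unfold depthE
  rw [map_mul, map_inv₀, map_natCast, map_sum]
  congr 1
  refine Finset.sum_congr rfl fun j _ => ?_
  rw [map_mul, map_pow, map_inv₀, hhξ, hhx]

/-- **Kummer expansion**: an element fixed by `ker χ` is a combination of the powers of the
Kummer generator `β` with `N`-fixed coefficients. -/
theorem depth_expand (hp : p.Prime) (N : Subgroup GK) {ζ : Kb} (hζ : IsPrimitiveRoot ζ p)
    (hζN : FixedBy N ζ) (χ : GK → ZMod p) (hχ : IsCharOn p N χ) {β : Kb} (hβ0 : β ≠ 0)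
    (hβ : ∀ γ ∈ N, γ β = ζ ^ (χ γ).val * β) (x : Kb) (hx : ∀ h ∈ N, χ h = 0 → h x = x)
    (g : GK) (hg : g ∈ N) (hc : χ g ≠ 0) :
    ∃ c : ℕ → Kb, (∀ i, FixedBy N (c i)) ∧ x = ∑ i ∈ Finset.range p, c i * β ^ i := by
  have hfact : Fact p.Prime := ⟨hp⟩
  set ξ : Kb := ζ ^ (χ g).val with hξdef
  have hcop : (χ g).val.Coprime p := by
    apply Nat.Coprime.symm
    rw [Nat.Prime.coprime_iff_not_dvd hp]
    intro hdvd
    have hpos : 0 < (χ g).val := Nat.pos_of_ne_zero (fun h => hc ((ZMod.val_eq_zero _).1 h))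
    exact absurd (ZMod.val_lt (χ g)) (not_lt.2 (Nat.le_of_dvd hpos hdvd))
  have hξ : IsPrimitiveRoot ξ p := hζ.pow_of_coprime _ hcop
  have hξ0 : ξ ≠ 0 := hξ.ne_zero hp.ne_zero
  have hξN : FixedBy N ξ := depth_fixedBy_pow hζN _
  have hgβ : g β = ξ * β := hβ g hg
  have hgp : (g ^ p) x = x := by
    apply hx _ (N.pow_mem hg p)
    rw [depth_char_pow hχ hg, ZMod.natCast_self, zero_mul]
  -- elements of `N` with `χ = 0` fix all `g ^ j x`
  have hfixj : ∀ h ∈ N, χ h = 0 → ∀ j : ℕ, h ((g ^ j) x) = (g ^ j) x := by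
    intro h hh hχh j
    have hgj : g ^ j ∈ N := N.pow_mem hg j
    have hconj : (g ^ j)⁻¹ * h * g ^ j ∈ N := N.mul_mem (N.mul_mem (N.inv_mem hgj) hh) hgj
    have hχc : χ ((g ^ j)⁻¹ * h * g ^ j) = 0 := by
      rw [hχ _ (N.mul_mem (N.inv_mem hgj) hh) _ hgj, hχ _ (N.inv_mem hgj) _ hh,
        depth_char_inv hχ hgj, hχh]
      ring
    have h1 := hx _ hconj hχc
    rw [AlgEquiv.mul_apply, AlgEquiv.mul_apply] at h1
    have h2 := congrArg (g ^ j) h1
    rw [← AlgEquiv.mul_apply (g ^ j) (g ^ j)⁻¹, mul_inv_cancel, AlgEquiv.one_apply] at h2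
    exact h2
  set E : ℕ → Kb := depthE p ξ g x with hE
  have hEg : ∀ i, g (E i) = ξ ^ i * E i := fun i =>
    depthE_apply_gen hp hξ g x (hξN g hg) hgp i
  have hEh : ∀ h ∈ N, χ h = 0 → ∀ i, h (E i) = E i := fun h hh hχh i =>
    depthE_apply_fix ξ g h x (hξN h hh) (hfixj h hh hχh) i
  refine ⟨fun i => E i / β ^ i, fun i => ?_, ?_⟩
  · -- fixed by `N`
    have hcg : g (E i / β ^ i) = E i / β ^ i := by
      rw [map_div₀, map_pow, hEg, hgβ, mul_pow]
      field_simp
    have hcgk : ∀ k : ℕ, (g ^ k) (E i / β ^ i) = E i / β ^ i := by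
      intro k
      induction k with
      | zero => rw [pow_zero, AlgEquiv.one_apply]
      | succ k ih => rw [pow_succ, AlgEquiv.mul_apply, hcg, ih]
    have hch : ∀ h ∈ N, χ h = 0 → h (E i / β ^ i) = E i / β ^ i := by
      intro h hh hχh
      have hhβ : h β = β := by
        rw [hβ h hh, hχh, ZMod.val_zero, pow_zero, one_mul]
      rw [map_div₀, map_pow, hEh h hh hχh, hhβ]
    intro σ hσ
    set k : ℕ := (χ σ * (χ g)⁻¹).val with hk
    have hgk : g ^ k ∈ N := N.pow_mem hg k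
    have hhN : σ * (g ^ k)⁻¹ ∈ N := N.mul_mem hσ (N.inv_mem hgk)
    have hχh : χ (σ * (g ^ k)⁻¹) = 0 := by
      rw [hχ _ hσ _ (N.inv_mem hgk), depth_char_inv hχ hgk, depth_char_pow hχ hg, hk,
        ZMod.natCast_zmod_val, mul_assoc, inv_mul_cancel₀ hc, mul_one, add_neg_cancel]
    have hσeq : σ = (σ * (g ^ k)⁻¹) * g ^ k := by
      rw [mul_assoc, inv_mul_cancel, mul_one]
    rw [hσeq, AlgEquiv.mul_apply, hcgk k, hch _ hhN hχh]
  · rw [← depthE_sum hp hξ g x]
    refine Finset.sum_congr rfl fun i _ => ?_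
    have : β ^ i ≠ 0 := pow_ne_zero i hβ0
    show depthE p ξ g x i = E i / β ^ i * β ^ i
    rw [div_mul_cancel₀ _ this]

end expand

section core

variable {p : ℕ} {P : ValuationSubring Kb}

/-- `a ^ e ≤ 1` forces `0 ≤ e` for `0 < a < 1`. -/
theorem depth_zpow_le_one {a : P.ValueGroup} (h0 : 0 < a) (h1 : a < 1) {e : ℤ}
    (h : a ^ e ≤ 1) : 0 ≤ e := by
  by_contra hneg
  rw [not_le] at hneg
  have := zpow_lt_zpow_right_of_lt_one₀ h0 h1 hneg
  rw [zpow_zero] at this
  exact absurd h (not_le.2 this)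

/-- **Core of DEPTH.**  `x = ∑_{m<p} d m · B^m ∈ P`, `v(B)^p = v(π1)^s` with `p ∤ s`, the nonzero
`d m` have valuations in `v(π1)^ℤ`, `g` fixes the `d m` and `g B = B (1 + y)` with `y ∈ P`.
Then `v(g x - x)^p ≤ v(y)^p · v(π1)`. -/
theorem depth_core (hp : p.Prime) (hP : P.LiesOverPrime p) {π1 : Kb}
    (hπ : π1 ^ (p ^ 2 - 1) = -(p : Kb)) (B y : Kb) (s : ℕ) (hs : ¬ p ∣ s)
    (hB : P.valuation B ^ p = P.valuation π1 ^ s) (hy : y ∈ P) (d : ℕ → Kb)
    (hd : ∀ m, d m ≠ 0 → ∃ k : ℤ, P.valuation (d m) = P.valuation π1 ^ k)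
    (x : Kb) (hx : x ∈ P) (hxe : x = ∑ m ∈ Finset.range p, d m * B ^ m)
    (g : GK) (hgd : ∀ m, g (d m) = d m) (hgB : g B = B * (1 + y)) :
    P.valuation (g x - x) ^ p ≤ P.valuation y ^ p * P.valuation π1 := by
  classical
  have hvπ0 := depth_val_pi_pos (P := P) hp hπ
  have hvπ1 := depth_val_pi_lt hp hP hπ
  have hvπne : P.valuation π1 ≠ 0 := ne_of_gt hvπ0
  have hvπne1 : P.valuation π1 ≠ 1 := ne_of_lt hvπ1
  set t : ℕ → Kb := fun m => d m * B ^ m with ht
  -- valuations of the terms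
  have hval_t : ∀ m, t m ≠ 0 → ∃ k : ℤ,
      P.valuation (t m) ^ p = P.valuation π1 ^ ((p : ℤ) * k + (s : ℤ) * (m : ℤ)) := by
    intro m hm
    have hdm : d m ≠ 0 := fun h => hm (by show d m * B ^ m = 0; rw [h, zero_mul])
    obtain ⟨k, hk⟩ := hd m hdm
    refine ⟨k, ?_⟩
    show P.valuation (d m * B ^ m) ^ p = _
    rw [map_mul, map_pow, mul_pow, ← pow_mul, mul_comm m p, pow_mul, hB, hk, ← zpow_natCast,
      ← zpow_mul, ← zpow_natCast (P.valuation π1) s, ← zpow_natCast, ← zpow_mul,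
      ← zpow_add₀ hvπne]
    congr 1
    ring
  have hinj := zpow_right_injective₀ hvπ0 hvπne1
  have hnotdvd : ∀ m : ℕ, m < p → m ≠ 0 → ∀ k : ℤ, (p : ℤ) * k + (s : ℤ) * (m : ℤ) ≠ 0 := by
    intro m hm hm0 k h0
    have h1 : (p : ℤ) ∣ (s : ℤ) * (m : ℤ) := ⟨-k, by linarith⟩
    have h2 : p ∣ s * m := by exact_mod_cast h1
    rcases (Nat.Prime.dvd_mul hp).1 h2 with h | h
    · exact hs h
    · exact absurd (Nat.le_of_dvd (Nat.pos_of_ne_zero hm0) h) (not_le.2 hm)
  -- distinctness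
  have hdist : ∀ m ∈ Finset.range p, ∀ m' ∈ Finset.range p, m ≠ m' → t m ≠ 0 →
      P.valuation (t m) ≠ P.valuation (t m') := by
    intro m hm m' hm' hne h0 heq
    have h0' : t m' ≠ 0 := by
      intro h
      rw [h, map_zero] at heq
      exact h0 ((Valuation.zero_iff _).1 heq)
    obtain ⟨k, hk⟩ := hval_t m h0
    obtain ⟨k', hk'⟩ := hval_t m' h0'
    rw [heq, hk'] at hk
    have hexp := hinj hk
    have hm1 := Finset.mem_range.1 hm
    have hm1' := Finset.mem_range.1 hm'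
    have h1 : (p : ℤ) ∣ (s : ℤ) * ((m : ℤ) - (m' : ℤ)) := ⟨k' - k, by
      linarith⟩
    rcases (Int.Prime.dvd_mul' hp h1) with h | h
    · exact hs (by exact_mod_cast h)
    · have h2 : ((m : ℤ) - (m' : ℤ)).natAbs < p := by omega
      have h3 : (m : ℤ) - (m' : ℤ) ≠ 0 := by
        intro h4
        apply hne
        omega
      have h4 := Int.natAbs_dvd_natAbs.2 h
      rw [Int.natAbs_natCast] at h4
      have h5 := Nat.le_of_dvd (Int.natAbs_pos.2 h3) h4
      omega
  -- each term is in `P`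
  have hsum_le := depth_val_le_sum P.valuation (Finset.range p) t hdist
  have hvx : P.valuation x ≤ 1 := (P.valuation_le_one_iff _).2 hx
  have hmem : ∀ m ∈ Finset.range p, P.valuation (t m) ≤ 1 := fun m hm =>
    (hsum_le m hm).trans (by rw [← hxe]; exact hvx)
  -- the quantum
  have hquant : ∀ m ∈ Finset.range p, m ≠ 0 → P.valuation (t m) ^ p ≤ P.valuation π1 := by
    intro m hm hm0
    by_cases h0 : t m = 0
    · rw [h0, map_zero, zero_pow hp.ne_zero]
      exact zero_le'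
    · obtain ⟨k, hk⟩ := hval_t m h0
      have hle : P.valuation π1 ^ ((p : ℤ) * k + (s : ℤ) * (m : ℤ)) ≤ 1 := by
        rw [← hk]
        exact pow_le_one₀ zero_le' (hmem m hm)
      have he0 := depth_zpow_le_one hvπ0 hvπ1 hle
      have hene := hnotdvd m (Finset.mem_range.1 hm) hm0 k
      have he1 : (1 : ℤ) ≤ (p : ℤ) * k + (s : ℤ) * (m : ℤ) := by omega
      rw [hk]
      have := zpow_le_zpow_right_of_le_one₀ hvπ0 hvπ1.le he1
      rwa [zpow_one] at this
  -- the difference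
  set q : ℕ → Kb := fun m => ∑ l ∈ Finset.range m, (1 + y) ^ l with hq
  have hqP : ∀ m, q m ∈ P := fun m =>
    sum_mem fun l _ => pow_mem (P.add_mem _ _ P.one_mem hy) l
  have hdiff : g x - x = y * ∑ m ∈ Finset.range p, t m * q m := by
    rw [hxe, map_sum, ← Finset.sum_sub_distrib, Finset.mul_sum]
    refine Finset.sum_congr rfl fun m _ => ?_
    rw [map_mul, map_pow, hgd, hgB, mul_pow]
    have hgeom := mul_geom_sum (1 + y) m
    rw [add_sub_cancel_left] at hgeom
    show d m * (B ^ m * (1 + y) ^ m) - d m * B ^ m = y * (d m * B ^ m * q m)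
    rw [hq]
    linear_combination (d m * B ^ m) * (-hgeom)
  have hp0 : 0 < p := hp.pos
  obtain ⟨m0, hm0, hm0le⟩ := depth_exists_sum_le P.valuation (Finset.range p)
    (fun m => t m * q m) ⟨0, Finset.mem_range.2 hp0⟩
  have hbound : P.valuation (∑ m ∈ Finset.range p, t m * q m) ^ p ≤ P.valuation π1 := by
    by_cases hm00 : m0 = 0
    · subst hm00
      have hq0 : q 0 = 0 := by rw [hq]; simp
      have : P.valuation (t 0 * q 0) = 0 := by rw [hq0, mul_zero, map_zero]
      rw [this] at hm0le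
      have h0 : P.valuation (∑ m ∈ Finset.range p, t m * q m) = 0 :=
        le_antisymm hm0le zero_le'
      rw [h0, zero_pow hp.ne_zero]
      exact zero_le'
    · calc P.valuation (∑ m ∈ Finset.range p, t m * q m) ^ p
          ≤ P.valuation (t m0 * q m0) ^ p := pow_le_pow_left₀ zero_le' hm0le _
        _ ≤ P.valuation (t m0) ^ p := by
            apply pow_le_pow_left₀ zero_le'
            rw [map_mul]
            calc P.valuation (t m0) * P.valuation (q m0) ≤ P.valuation (t m0) * 1 :=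
                  mul_le_mul_right ((P.valuation_le_one_iff _).2 (hqP m0)) _
              _ = P.valuation (t m0) := mul_one _
        _ ≤ P.valuation π1 := hquant m0 hm0 hm00
  rw [hdiff, map_mul, mul_pow]
  exact mul_le_mul_right hbound _

end core

section main

variable {p : ℕ} {P : ValuationSubring Kb}

theorem depth_arith1 (hp : p.Prime) : (p - 1) * (p * (p + 1)) = p * (p ^ 2 - 1) := by
  obtain ⟨q, rfl⟩ : ∃ q, p = q + 1 := ⟨p - 1, by have := hp.one_lt; omega⟩
  have h1 : (q + 1) ^ 2 - 1 = q * (q + 2) := by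
    have : (q + 1) ^ 2 = q * (q + 2) + 1 := by ring
    rw [this]; simp
  rw [h1]
  simp only [Nat.add_sub_cancel]
  ring

/-- `v(ξ - 1)^(p(p²-1)) = v(p)^(p²+p)` for a nontrivial `p`-th root of unity `ξ`. -/
theorem depth_val_root (hp : p.Prime) {ξ : Kb} (hξ : ξ ^ p = 1) (hξ1 : ξ ≠ 1) :
    P.valuation (ξ - 1) ^ (p * (p ^ 2 - 1)) = P.valuation (p : Kb) ^ (p ^ 2 + p) := by
  rw [← depth_arith1 hp, pow_mul, val_root_sub_one_pow hp hξ hξ1]
  congr 1
  ring

/-- Division form of a valuation inequality. -/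
theorem depth_div_mem (hp : p.Prime) {z : Kb} {n e : ℕ}
    (h : P.valuation z ^ n ≤ P.valuation (p : Kb) ^ e) : z ^ n / (p : Kb) ^ e ∈ P := by
  rw [← P.valuation_le_one_iff, map_div₀, map_pow, map_pow,
    div_le_iff₀ (pow_pos (depth_val_p_pos hp) e), one_mul]
  exact h

/-- Binomial re-expansion of `∑ c i β^i` in powers of `β - 1`. -/
theorem depth_reexpand (p : ℕ) (c : ℕ → Kb) (β : Kb) :
    ∑ i ∈ Finset.range p, c i * β ^ i =
      ∑ m ∈ Finset.range p, (∑ i ∈ Finset.range p, c i * (i.choose m : Kb)) * (β - 1) ^ m := by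
  have hpow : ∀ i ∈ Finset.range p,
      β ^ i = ∑ m ∈ Finset.range p, (β - 1) ^ m * (i.choose m : Kb) := by
    intro i hi
    have h1 : β ^ i = ((β - 1) + 1) ^ i := by rw [sub_add_cancel]
    rw [h1, add_pow]
    have hsub : Finset.range (i + 1) ⊆ Finset.range p :=
      Finset.range_subset_range.2 (Finset.mem_range.1 hi)
    rw [← Finset.sum_subset hsub]
    · refine Finset.sum_congr rfl fun m _ => ?_
      rw [one_pow, mul_one]
    · intro m _ hm
      have : i < m := by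
        rw [Finset.mem_range] at hm
        omega
      rw [Nat.choose_eq_zero_of_lt this, Nat.cast_zero, mul_zero]
  calc ∑ i ∈ Finset.range p, c i * β ^ i
      = ∑ i ∈ Finset.range p, ∑ m ∈ Finset.range p, c i * (i.choose m : Kb) * (β - 1) ^ m := by
        refine Finset.sum_congr rfl fun i hi => ?_
        rw [hpow i hi, Finset.mul_sum]
        refine Finset.sum_congr rfl fun m _ => ?_
        ring
    _ = ∑ m ∈ Finset.range p, ∑ i ∈ Finset.range p, c i * (i.choose m : Kb) * (β - 1) ^ m :=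
        Finset.sum_comm
    _ = _ := by
        refine Finset.sum_congr rfl fun m _ => ?_
        rw [Finset.sum_mul]

/-- **DEPTH**, unit case, from `unif` (F3: `π1` is a uniformiser of `K1`). -/
theorem depth_of_unif (hp : p.Prime) (hP : P.LiesOverPrime p) {π1 : Kb} (hπ : IsPi1 p π1)
    (hunif : ∀ x ∈ P.nonunits, FixedBy (stabI P π1) x → x / π1 ∈ P) :
    DepthStatement p P π1 := by
  intro ζ χ β a s hζ hχ hβ hs0 hsp hps ha hau hlc x hx hxfix g hg
  have hfact : Fact p.Prime := ⟨hp⟩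
  have hπ' : π1 ^ (p ^ 2 - 1) = -(p : Kb) := hπ
  have hN0 : p * (p ^ 2 - 1) ≠ 0 := by
    have h2 : 2 ≤ p := hp.two_le
    have : 4 ≤ p ^ 2 := by nlinarith
    have : 0 < p * (p ^ 2 - 1) := Nat.mul_pos hp.pos (by omega)
    omega
  by_cases hc : χ g = 0
  · rw [hxfix g hg hc, sub_self, zero_pow hN0, zero_div]
    exact P.zero_mem
  obtain ⟨hβ0, hβK⟩ := hβ
  have hπN : FixedBy (stabI P π1) π1 := fun σ hσ => hσ.2
  have hζN : FixedBy (stabI P π1) ζ := depth_zeta_fixed hp hP hπ' hζ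
  obtain ⟨c, hcfix, hxc⟩ := depth_expand hp (stabI P π1) hζ hζN χ hχ hβ0 hβK x hxfix g hg hc
  -- the level of `β - 1`
  have hvu := depth_val_of_lcAt hp hP hπ' ha.1 hau hlc
  have hB := depth_rootlevel hp hP hπ' hs0 hsp hvu
  have hvπ0 := depth_val_pi_pos (P := P) hp hπ'
  have hvπ1 := depth_val_pi_lt hp hP hπ'
  have hvp0 := depth_val_p_pos (P := P) hp
  have hB0 : β - 1 ≠ 0 := by
    intro h
    rw [h, map_zero, zero_pow hp.ne_zero] at hB
    exact absurd hB.symm (ne_of_gt (pow_pos hvπ0 s))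
  have hvB1 : P.valuation (β - 1) < 1 := by
    by_contra h
    rw [not_lt] at h
    have h1 : (1 : P.ValueGroup) ≤ P.valuation (β - 1) ^ p := one_le_pow₀ h
    rw [hB] at h1
    exact absurd (pow_lt_one₀ zero_le' hvπ1 (Nat.pos_iff_ne_zero.1 hs0)) (not_lt.2 h1)
  have hvβ : P.valuation β = 1 := by
    have : β = 1 + (β - 1) := by ring
    rw [this]
    have := Valuation.map_add_eq_of_lt_left P.valuation (x := (1 : Kb)) (y := β - 1)
      (by rw [map_one]; exact hvB1)
    rw [this, map_one]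
  -- the root of unity
  set ξ : Kb := ζ ^ (χ g).val with hξdef
  have hξp : ξ ^ p = 1 := by rw [hξdef, ← pow_mul, mul_comm, pow_mul, hζ.pow_eq_one, one_pow]
  have hξ1 : ξ ≠ 1 := by
    intro h
    have h1 := hζ.pow_inj (ZMod.val_lt (χ g)) hp.pos (by rw [pow_zero]; exact h)
    exact hc ((ZMod.val_eq_zero _).1 h1)
  have hgβ : g β = ξ * β := hβK g hg
  set y : Kb := (ξ - 1) * β / (β - 1) with hy
  have hgB : g (β - 1) = (β - 1) * (1 + y) := by
    rw [map_sub, map_one, hgβ, hy]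
    field_simp
    ring
  have hvy : P.valuation y ^ (p * (p ^ 2 - 1)) * P.valuation (p : Kb) ^ s =
      P.valuation (p : Kb) ^ (p ^ 2 + p) := by
    have hBN : P.valuation (β - 1) ^ (p * (p ^ 2 - 1)) = P.valuation (p : Kb) ^ s := by
      rw [pow_mul, hB, ← pow_mul, mul_comm, pow_mul, depth_val_pi_pow hπ']
    rw [hy, map_div₀, map_mul, hvβ, mul_one, div_pow, hBN, depth_val_root hp hξp hξ1]
    exact div_mul_cancel₀ _ (ne_of_gt (pow_pos hvp0 s))
  have hvy' : P.valuation y ^ (p * (p ^ 2 - 1)) = P.valuation (p : Kb) ^ (p ^ 2 + p - s) := by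
    have h1 : P.valuation (p : Kb) ^ (p ^ 2 + p) =
        P.valuation (p : Kb) ^ (p ^ 2 + p - s) * P.valuation (p : Kb) ^ s := by
      rw [← pow_add, Nat.sub_add_cancel hsp.le]
    rw [h1] at hvy
    exact mul_right_cancel₀ (ne_of_gt (pow_pos hvp0 s)) hvy
  have hyP : y ∈ P := by
    rw [← P.valuation_le_one_iff]
    by_contra h
    rw [not_le] at h
    have h1 := one_lt_pow₀ h hN0
    rw [hvy'] at h1
    exact absurd (pow_le_one₀ zero_le' (ar_val_p_lt hP).le) (not_le.2 h1)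
  -- the expansion in powers of `β - 1`
  set d : ℕ → Kb := fun m => ∑ i ∈ Finset.range p, c i * (i.choose m : Kb) with hd
  have hdfix : ∀ m, FixedBy (stabI P π1) (d m) := fun m =>
    depth_fixedBy_sum _ _ fun i _ => depth_fixedBy_mul (hcfix i) (depth_fixedBy_natCast _ _)
  have hdval : ∀ m, d m ≠ 0 → ∃ k : ℤ, P.valuation (d m) = P.valuation π1 ^ k := fun m hm =>
    depth_hval hp hP hπ' (stabI P π1) hπN hunif (d m) hm (hdfix m)
  have hxd : x = ∑ m ∈ Finset.range p, d m * (β - 1) ^ m := by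
    rw [hxc]
    exact depth_reexpand p c β
  have hcore := depth_core hp hP hπ' (β - 1) y s hps hB hyP d hdval x hx hxd g
    (fun m => hdfix m g hg) hgB
  -- raise to the power `p² - 1`
  apply depth_div_mem hp
  calc P.valuation (g x - x) ^ (p * (p ^ 2 - 1))
      = (P.valuation (g x - x) ^ p) ^ (p ^ 2 - 1) := pow_mul _ _ _
    _ ≤ (P.valuation y ^ p * P.valuation π1) ^ (p ^ 2 - 1) := pow_le_pow_left₀ zero_le' hcore _
    _ = P.valuation y ^ (p * (p ^ 2 - 1)) * P.valuation (p : Kb) := by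
        rw [mul_pow, ← pow_mul, depth_val_pi_pow hπ']
    _ = P.valuation (p : Kb) ^ (p ^ 2 + p + 1 - s) := by
        rw [hvy', ← pow_succ]
        congr 1
        omega

/-- **DEPTH**, non-unit case, from `unif`. -/
theorem depthNU_of_unif (hp : p.Prime) (hP : P.LiesOverPrime p) {π1 : Kb} (hπ : IsPi1 p π1)
    (hunif : ∀ x ∈ P.nonunits, FixedBy (stabI P π1) x → x / π1 ∈ P) :
    DepthNUStatement p P π1 := by
  intro ζ χ β m hζ hχ hβ hm0 hmp hge hle x hx hxfix g hg
  have hfact : Fact p.Prime := ⟨hp⟩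
  have hπ' : π1 ^ (p ^ 2 - 1) = -(p : Kb) := hπ
  have hN0 : p * (p ^ 2 - 1) ≠ 0 := by
    have h2 : 2 ≤ p := hp.two_le
    have : 4 ≤ p ^ 2 := by nlinarith
    have : 0 < p * (p ^ 2 - 1) := Nat.mul_pos hp.pos (by omega)
    omega
  by_cases hc : χ g = 0
  · rw [hxfix g hg hc, sub_self, zero_pow hN0, zero_div]
    exact P.zero_mem
  obtain ⟨hβ0, hβK⟩ := hβ
  have hπN : FixedBy (stabI P π1) π1 := fun σ hσ => hσ.2
  have hζN : FixedBy (stabI P π1) ζ := depth_zeta_fixed hp hP hπ' hζ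
  obtain ⟨c, hcfix, hxc⟩ := depth_expand hp (stabI P π1) hζ hζN χ hχ hβ0 hβK x hxfix g hg hc
  have hvπ0 := depth_val_pi_pos (P := P) hp hπ'
  have hvp0 := depth_val_p_pos (P := P) hp
  have hπ0 := depth_pi_ne_zero hp hπ'
  have hB : P.valuation β ^ p = P.valuation π1 ^ m := by
    have h1 := (P.valuation_le_one_iff _).2 hge
    have h2 := (P.valuation_le_one_iff _).2 hle
    rw [map_div₀, map_pow, map_pow, div_le_iff₀ (pow_pos hvπ0 m), one_mul] at h1
    have hvβ0 : 0 < P.valuation β ^ p :=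
      pow_pos (zero_lt_iff.2 ((Valuation.ne_zero_iff _).2 hβ0)) p
    rw [map_div₀, map_pow, map_pow, div_le_iff₀ hvβ0, one_mul] at h2
    exact le_antisymm h1 h2
  have hpm : ¬ p ∣ m := fun h => absurd (Nat.le_of_dvd hm0 h) (not_le.2 hmp)
  set ξ : Kb := ζ ^ (χ g).val with hξdef
  have hξp : ξ ^ p = 1 := by rw [hξdef, ← pow_mul, mul_comm, pow_mul, hζ.pow_eq_one, one_pow]
  have hξ1 : ξ ≠ 1 := by
    intro h
    have h1 := hζ.pow_inj (ZMod.val_lt (χ g)) hp.pos (by rw [pow_zero]; exact h)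
    exact hc ((ZMod.val_eq_zero _).1 h1)
  have hgβ : g β = ξ * β := hβK g hg
  have hξP : ξ ∈ P := Fermat.Agent.Cyclo.pow_eq_one_mem P hp.ne_zero hξp
  have hyP : ξ - 1 ∈ P := sub_mem hξP P.one_mem
  have hgB : g β = β * (1 + (ξ - 1)) := by rw [hgβ]; ring
  have hcval : ∀ i, c i ≠ 0 → ∃ k : ℤ, P.valuation (c i) = P.valuation π1 ^ k := fun i hi =>
    depth_hval hp hP hπ' (stabI P π1) hπN hunif (c i) hi (hcfix i)
  have hcore := depth_core hp hP hπ' β (ξ - 1) m hpm hB hyP c hcval x hx hxc g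
    (fun i => hcfix i g hg) hgB
  apply depth_div_mem hp
  calc P.valuation (g x - x) ^ (p * (p ^ 2 - 1))
      = (P.valuation (g x - x) ^ p) ^ (p ^ 2 - 1) := pow_mul _ _ _
    _ ≤ (P.valuation (ξ - 1) ^ p * P.valuation π1) ^ (p ^ 2 - 1) :=
        pow_le_pow_left₀ zero_le' hcore _
    _ = P.valuation (ξ - 1) ^ (p * (p ^ 2 - 1)) * P.valuation (p : Kb) := by
        rw [mul_pow, ← pow_mul, depth_val_pi_pow hπ']
    _ = P.valuation (p : Kb) ^ (p ^ 2 + p + 1) := by
        rw [depth_val_root hp hξp hξ1, ← pow_succ]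

/-- **DEPTH** (unit case), unconditional. -/
theorem depth (hp : p.Prime) (hP : P.LiesOverPrime p) {π1 : Kb} (hπ : IsPi1 p π1) :
    DepthStatement p P π1 :=
  depth_of_unif hp hP hπ (unitSetting_stabI hp hP hπ).unif

/-- **DEPTH** (non-unit case), unconditional. -/
theorem depthNU (hp : p.Prime) (hP : P.LiesOverPrime p) {π1 : Kb} (hπ : IsPi1 p π1) :
    DepthNUStatement p P π1 :=
  depthNU_of_unif hp hP hπ (unitSetting_stabI hp hP hπ).unif

end main

end Fermat.Agent.FFL.FB
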