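/-
Lib/FFL/FB/DiscVal (R4-FB, block DISC, part 1; helper26): valuation-theoretic lemmas on
eigenvectors of an inertia element.

Setting: `P` a valuation subring of `ℚ̄` over `p`, `I = P.inertiaSubgroupIn ℚ`, `g ∈ I`,
`d` prime to `p`.
* `IsPUnit P x` : `x` is a unit of `P` (valuation `1`);
* `disc_inertia_mem`, `disc_inertia_mem_nonunits`, `disc_inertia_isPUnit` : `I` preserves `P`,
  its maximal ideal and its units;
* `disc_root_fixed` : roots of unity of order prime to `p` are fixed by `I`;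
* `disc_exists_pow_eq` : an element `y ≠ 0` of the maximal ideal whose `d`-th power is fixed by `I`
  satisfies `y ^ d = p ^ k * u`, `k ≥ 1`, `u` a unit of `P`;
* `disc_eigenvalue_eq` : the eigenvalue of an eigenvector of `g` is determined by the class of
  `k` modulo `d`.
-/
import Fermat.Agent.Lib.FFL.Base
import Fermat.Agent.Lib.FFL.Arith
import Fermat.Agent.Lib.FFL.Unr
import Fermat.Agent.Lib.Cyclo.RootsReduce

set_option autoImplicit false

namespace Fermat.Agent.FFL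

local notation "Kb" => AlgebraicClosure ℚ
local notation "GK" => (AlgebraicClosure ℚ ≃ₐ[ℚ] AlgebraicClosure ℚ)

variable {p : ℕ} {P : ValuationSubring Kb}

/-- `x` is a unit of `P`. -/
def IsPUnit (P : ValuationSubring Kb) (x : Kb) : Prop := P.valuation x = 1

theorem IsPUnit.mem {x : Kb} (h : IsPUnit P x) : x ∈ P :=
  (P.valuation_le_one_iff x).1 (le_of_eq h)

theorem IsPUnit.ne_zero {x : Kb} (h : IsPUnit P x) : x ≠ 0 := by
  intro h0
  have h1 : P.valuation x = 1 := h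
  rw [h0, map_zero] at h1
  exact zero_ne_one h1

theorem IsPUnit.not_mem_nonunits {x : Kb} (h : IsPUnit P x) : x ∉ P.nonunits := by
  intro hx
  have h1 := (P.mem_nonunits_iff).1 hx
  rw [show P.valuation x = 1 from h] at h1
  exact lt_irrefl _ h1

theorem isPUnit_of_mem_of_not_mem_nonunits {x : Kb} (h1 : x ∈ P) (h2 : x ∉ P.nonunits) :
    IsPUnit P x := by
  have h1' : P.valuation x ≤ 1 := (P.valuation_le_one_iff x).2 h1
  have h2' : ¬ P.valuation x < 1 := fun h => h2 ((P.mem_nonunits_iff).2 h)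
  exact le_antisymm h1' (not_lt.1 h2')

theorem IsPUnit.mul {x y : Kb} (hx : IsPUnit P x) (hy : IsPUnit P y) : IsPUnit P (x * y) := by
  unfold IsPUnit at *
  rw [map_mul, hx, hy, one_mul]

theorem IsPUnit.inv {x : Kb} (hx : IsPUnit P x) : IsPUnit P x⁻¹ := by
  unfold IsPUnit at *
  rw [map_inv₀, hx, inv_one]

theorem IsPUnit.div {x y : Kb} (hx : IsPUnit P x) (hy : IsPUnit P y) : IsPUnit P (x / y) := by
  rw [div_eq_mul_inv]
  exact hx.mul hy.inv

theorem IsPUnit.pow {x : Kb} (hx : IsPUnit P x) (n : ℕ) : IsPUnit P (x ^ n) := by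
  unfold IsPUnit at *
  rw [map_pow, hx, one_pow]

theorem isPUnit_one : IsPUnit P (1 : Kb) := by
  unfold IsPUnit
  rw [map_one]

theorem isPUnit_of_pow {x : Kb} {n : ℕ} (hn : n ≠ 0) (hx : IsPUnit P (x ^ n)) : IsPUnit P x := by
  unfold IsPUnit at *
  rw [map_pow] at hx
  exact (pow_eq_one_iff.1 hx).resolve_right hn

theorem isPUnit_of_pow_eq_one {x : Kb} {n : ℕ} (hn : n ≠ 0) (hx : x ^ n = 1) : IsPUnit P x :=
  isPUnit_of_pow hn (by rw [hx]; exact isPUnit_one)

/-- Adding an element of the maximal ideal to a unit gives a unit. -/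
theorem IsPUnit.add_nonunit {x y : Kb} (hx : IsPUnit P x) (hy : y ∈ P.nonunits) :
    IsPUnit P (x + y) := by
  apply isPUnit_of_mem_of_not_mem_nonunits
  · exact P.add_mem _ _ hx.mem ((P.valuation_le_one_iff y).1 ((P.mem_nonunits_iff).1 hy).le)
  · intro h
    apply hx.not_mem_nonunits
    have h1 : P.valuation (x + y) < 1 := (P.mem_nonunits_iff).1 h
    have h2 : P.valuation y < 1 := (P.mem_nonunits_iff).1 hy
    have h3 : x = (x + y) - y := by ring
    rw [h3]
    exact (P.mem_nonunits_iff).2 (lt_of_le_of_lt (Valuation.map_sub _ _ _) (max_lt h1 h2))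

theorem disc_nonunit_mem {x : Kb} (hx : x ∈ P.nonunits) : x ∈ P :=
  (P.valuation_le_one_iff x).1 ((P.mem_nonunits_iff).1 hx).le

theorem disc_mul_nonunit {x y : Kb} (hx : x ∈ P) (hy : y ∈ P.nonunits) : x * y ∈ P.nonunits := by
  rw [P.mem_nonunits_iff] at hy ⊢
  rw [map_mul]
  have hx' : P.valuation x ≤ 1 := (P.valuation_le_one_iff x).2 hx
  calc P.valuation x * P.valuation y ≤ 1 * P.valuation y := mul_le_mul_left hx' _
    _ = P.valuation y := one_mul _
    _ < 1 := hy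

theorem disc_add_nonunit {x y : Kb} (hx : x ∈ P.nonunits) (hy : y ∈ P.nonunits) :
    x + y ∈ P.nonunits := by
  rw [P.mem_nonunits_iff] at *
  exact lt_of_le_of_lt (Valuation.map_add _ _ _) (max_lt hx hy)

theorem disc_sum_nonunit {ι : Type*} (s : Finset ι) (f : ι → Kb)
    (h : ∀ i ∈ s, f i ∈ P.nonunits) : ∑ i ∈ s, f i ∈ P.nonunits := by
  classical
  induction s using Finset.induction_on with
  | empty =>
    rw [Finset.sum_empty, P.mem_nonunits_iff, map_zero]
    exact zero_lt_one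
  | insert a s ha ih =>
    rw [Finset.sum_insert ha]
    exact disc_add_nonunit (h a (Finset.mem_insert_self a s))
      (ih fun i hi => h i (Finset.mem_insert_of_mem hi))

/-! ### The inertia group preserves `P` -/

theorem disc_inertia_mem {σ : GK} (hσ : σ ∈ P.inertiaSubgroupIn ℚ) {x : Kb} (hx : x ∈ P) :
    σ x ∈ P := by
  have h1 := Fermat.Agent.Cyclo.inertia_sub_mem_nonunits P hσ hx
  have h2 : σ x = (σ x - x) + x := by ring
  rw [h2]
  exact P.add_mem _ _ (disc_nonunit_mem h1) hx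

theorem disc_inertia_mem_nonunits {σ : GK} (hσ : σ ∈ P.inertiaSubgroupIn ℚ) {x : Kb}
    (hx : x ∈ P.nonunits) : σ x ∈ P.nonunits := by
  have h1 := Fermat.Agent.Cyclo.inertia_sub_mem_nonunits P hσ (disc_nonunit_mem hx)
  have h2 : σ x = (σ x - x) + x := by ring
  rw [h2]
  exact disc_add_nonunit h1 hx

theorem disc_inertia_isPUnit {σ : GK} (hσ : σ ∈ P.inertiaSubgroupIn ℚ) {x : Kb}
    (hx : IsPUnit P x) : IsPUnit P (σ x) := by
  have h1 := Fermat.Agent.Cyclo.inertia_sub_mem_nonunits P hσ hx.mem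
  have h2 : σ x = x + (σ x - x) := by ring
  rw [h2]
  exact hx.add_nonunit h1

theorem disc_inertia_pow_mem {g : GK} (hg : g ∈ P.inertiaSubgroupIn ℚ) (t : ℕ) :
    g ^ t ∈ P.inertiaSubgroupIn ℚ :=
  Subgroup.pow_mem _ hg t

/-! ### Roots of unity of order prime to `p` -/

/-- Roots of unity of order prime to `p` are fixed by the inertia group. -/
theorem disc_root_fixed (hp : p.Prime) (hP : P.LiesOverPrime p) {d : ℕ} (hd0 : d ≠ 0)
    (hd : ¬ p ∣ d) {σ : GK} (hσ : σ ∈ P.inertiaSubgroupIn ℚ) {ζ : Kb} (hζ : ζ ^ d = 1) :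
    σ ζ = ζ := by
  have hu : IsPUnit P ζ := isPUnit_of_pow_eq_one hd0 hζ
  have h1 := Fermat.Agent.Cyclo.inertia_sub_mem_nonunits P hσ hu.mem
  have h2 : (σ ζ * ζ⁻¹) ^ d = 1 := by
    rw [mul_pow, ← map_pow, hζ, map_one, one_mul, inv_pow, hζ, inv_one]
  have h3 : σ ζ * ζ⁻¹ - 1 ∈ P.nonunits := by
    have : σ ζ * ζ⁻¹ - 1 = ζ⁻¹ * (σ ζ - ζ) := by
      field_simp [hu.ne_zero]
    rw [this]
    exact disc_mul_nonunit hu.inv.mem h1
  have h4 := Fermat.Agent.Cyclo.eq_one_of_sub_one_mem_nonunits P hd0 h2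
    (Fermat.Agent.Cyclo.natCast_not_mem_nonunits P hp hP hd) h3
  have h5 : σ ζ = (σ ζ * ζ⁻¹) * ζ := by
    field_simp [hu.ne_zero]
  rw [h5, h4, one_mul]

/-! ### Valuations of eigenvectors -/

/-- An element `y ≠ 0` of the maximal ideal with `y ^ d` fixed by inertia satisfies
`y ^ d = p ^ k * u` with `k ≥ 1` and `u` a unit of `P` fixed by inertia. -/
theorem disc_exists_pow_eq (hp : p.Prime) (hP : P.LiesOverPrime p) {d : ℕ} (hd0 : d ≠ 0)
    {y : Kb} (hy0 : y ≠ 0) (hy : y ∈ P.nonunits)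
    (hfix : ∀ σ ∈ P.inertiaSubgroupIn ℚ, σ (y ^ d) = y ^ d) :
    ∃ (k : ℕ) (u : Kb), 1 ≤ k ∧ IsPUnit P u ∧ y ^ d = (p : Kb) ^ k * u := by
  have hyd : y ^ d ∈ inertiaRing P :=
    ⟨pow_mem (disc_nonunit_mem hy) d, hfix⟩
  obtain ⟨k, u, hu, hu', hk⟩ := exists_eq_pow_mul_unit hp.ne_zero hP (unrProp p hp P hP)
    (dvdProp hp hP) hyd (pow_ne_zero d hy0)
  have hu0 : u ≠ 0 := by
    rintro rfl
    rw [mul_zero] at hk
    exact pow_ne_zero d hy0 hk
  have huU : IsPUnit P u := by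
    have h1 : P.valuation u ≤ 1 := (P.valuation_le_one_iff u).2 hu.1
    have h2 : P.valuation u⁻¹ ≤ 1 := (P.valuation_le_one_iff _).2 hu'.1
    rw [map_inv₀] at h2
    have h3 : P.valuation u ≠ 0 := (Valuation.ne_zero_iff _).2 hu0
    have h4 : 1 ≤ P.valuation u := (inv_le_one₀ (zero_lt_iff.2 h3)).1 h2
    exact le_antisymm h1 h4
  refine ⟨k, u, ?_, huU, hk⟩
  by_contra hk0
  have hk0' : k = 0 := by omega
  rw [hk0', pow_zero, one_mul] at hk
  have h1 : IsPUnit P y := isPUnit_of_pow hd0 (by rw [hk]; exact huU)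
  exact h1.not_mem_nonunits hy

/-- The exponent `k` in `y ^ d = p ^ k * u` is unique. -/
theorem disc_exponent_unique (hp : p.Prime) (hP : P.LiesOverPrime p) {z : Kb} {k k' : ℕ}
    {u u' : Kb} (hu : IsPUnit P u) (hu' : IsPUnit P u') (h : z = (p : Kb) ^ k * u)
    (h' : z = (p : Kb) ^ k' * u') : k = k' := by
  have hv : P.valuation (p : Kb) < 1 := (P.mem_nonunits_iff).1 hP
  have hp0 : (p : Kb) ≠ 0 := Nat.cast_ne_zero.2 hp.ne_zero
  have hv0 : P.valuation (p : Kb) ≠ 0 := (Valuation.ne_zero_iff _).2 hp0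
  have h1 : P.valuation (p : Kb) ^ k = P.valuation (p : Kb) ^ k' := by
    have e1 : P.valuation z = P.valuation (p : Kb) ^ k := by
      rw [h, map_mul, map_pow, show P.valuation u = 1 from hu, mul_one]
    have e2 : P.valuation z = P.valuation (p : Kb) ^ k' := by
      rw [h', map_mul, map_pow, show P.valuation u' = 1 from hu', mul_one]
    rw [← e1, e2]
  by_contra hne
  rcases Nat.lt_or_gt_of_ne hne with hlt | hlt
  · have := pow_lt_pow_right_of_lt_one₀ (zero_lt_iff.2 hv0) hv hlt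
    rw [h1] at this
    exact lt_irrefl _ this
  · have := pow_lt_pow_right_of_lt_one₀ (zero_lt_iff.2 hv0) hv hlt
    rw [h1] at this
    exact lt_irrefl _ this

/-- **The eigenvalue is determined by the class of the exponent modulo `d`.**  Let `g ∈ I`,
`g y = a y`, `g y' = a' y'` with `a ^ d = a' ^ d = 1` (`p ∤ d`), `y ^ d = p ^ k u`,
`y' ^ d = p ^ (k + d l) u'`.  Then `a = a'`. -/
theorem disc_eigenvalue_eq_aux (hp : p.Prime) (hP : P.LiesOverPrime p) {d : ℕ} (hd0 : d ≠ 0)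
    (hd : ¬ p ∣ d) {g : GK} (hg : g ∈ P.inertiaSubgroupIn ℚ) {y y' a a' u u' : Kb} {k l : ℕ}
    (ha : a ^ d = 1) (ha' : a' ^ d = 1) (hy : g y = a * y) (hy' : g y' = a' * y')
    (hu : IsPUnit P u) (hu' : IsPUnit P u') (hk : y ^ d = (p : Kb) ^ k * u)
    (hk' : y' ^ d = (p : Kb) ^ (k + d * l) * u') : a = a' := by
  have hp0 : (p : Kb) ≠ 0 := Nat.cast_ne_zero.2 hp.ne_zero
  have hy0 : y ≠ 0 := by
    rintro rfl
    rw [zero_pow hd0] at hk
    exact (mul_ne_zero (pow_ne_zero k hp0) hu.ne_zero) hk.symm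
  have ha0 : a ≠ 0 := by
    rintro rfl
    rw [zero_pow hd0] at ha
    exact zero_ne_one ha
  set w : Kb := y' / (y * (p : Kb) ^ l) with hw
  have hwd : w ^ d = u' / u := by
    rw [hw, div_pow, mul_pow, hk, hk', ← pow_mul, pow_add, mul_comm l d]
    field_simp [hu.ne_zero]
  have hwU : IsPUnit P w := isPUnit_of_pow hd0 (by rw [hwd]; exact hu'.div hu)
  have hgw : g w = (a' / a) * w := by
    rw [hw, map_div₀, map_mul, hy, hy', map_pow, map_natCast]
    field_simp
  have h1 := Fermat.Agent.Cyclo.inertia_sub_mem_nonunits P hg hwU.mem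
  have h2 : a' / a - 1 ∈ P.nonunits := by
    have : a' / a - 1 = w⁻¹ * (g w - w) := by
      rw [hgw]
      field_simp [hwU.ne_zero]
    rw [this]
    exact disc_mul_nonunit hwU.inv.mem h1
  have h3 : (a' / a) ^ d = 1 := by rw [div_pow, ha, ha', div_one]
  have h4 := Fermat.Agent.Cyclo.eq_one_of_sub_one_mem_nonunits P hd0 h3
    (Fermat.Agent.Cyclo.natCast_not_mem_nonunits P hp hP hd) h2
  have h5 : a' = (a' / a) * a := by field_simp
  rw [h5, h4, one_mul]

/-- Symmetric form: exponents congruent modulo `d` force equal eigenvalues. -/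
theorem disc_eigenvalue_eq (hp : p.Prime) (hP : P.LiesOverPrime p) {d : ℕ} (hd0 : d ≠ 0)
    (hd : ¬ p ∣ d) {g : GK} (hg : g ∈ P.inertiaSubgroupIn ℚ) {y y' a a' u u' : Kb} {k k' : ℕ}
    (ha : a ^ d = 1) (ha' : a' ^ d = 1) (hy : g y = a * y) (hy' : g y' = a' * y')
    (hu : IsPUnit P u) (hu' : IsPUnit P u') (hk : y ^ d = (p : Kb) ^ k * u)
    (hk' : y' ^ d = (p : Kb) ^ k' * u') (hmod : k % d = k' % d) : a = a' := by
  rcases le_total k k' with hle | hle
  · obtain ⟨l, hl⟩ : ∃ l, k' = k + d * l := by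
      have h1 : (k' - k) % d = 0 := Nat.sub_mod_eq_zero_of_mod_eq hmod.symm
      obtain ⟨l, hl⟩ := Nat.dvd_of_mod_eq_zero h1
      exact ⟨l, by omega⟩
    rw [hl] at hk'
    exact disc_eigenvalue_eq_aux hp hP hd0 hd hg ha ha' hy hy' hu hu' hk hk'
  · obtain ⟨l, hl⟩ : ∃ l, k = k' + d * l := by
      have h1 : (k - k') % d = 0 := Nat.sub_mod_eq_zero_of_mod_eq hmod
      obtain ⟨l, hl⟩ := Nat.dvd_of_mod_eq_zero h1
      exact ⟨l, by omega⟩
    rw [hl] at hk
    exact (disc_eigenvalue_eq_aux hp hP hd0 hd hg ha' ha hy' hy hu' hu hk' hk).symm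

end Fermat.Agent.FFL
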