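/-
Lib/FFL/FB/DiscEig (R4-FB, block DISC, part 2; helper26): eigen-components with respect to an
element `g` acting with finite order `d` on `x`.

`eigComp g ζ d r x = d⁻¹ ∑_{t < d} ζ^{-r t} g^t x`.
* `eigComp_mem_nonunits` : the eigen-components of an element of the maximal ideal are in the
  maximal ideal (`p ∤ d`, `g ∈ I`);
* `eigComp_map`  : `σ (eigComp r x) = ζ ^ (r s) eigComp r x` if `σ` acts as `g ^ s` on the orbit;
* `sum_eigComp`  : `∑_{r < d} ζ ^ (r s) eigComp r x = g ^ s x` (inverse Fourier transform);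
* `disc_sum_ge`, `disc_sum_eq` : `d` positive integers, pairwise incongruent modulo `d`, have sum
  at least `1 + 2 + ⋯ + d`, with equality only if one of them is `1`.
-/
import Fermat.Agent.Lib.FFL.FB.DiscVal

set_option autoImplicit false

namespace Fermat.Agent.FFL

local notation "Kb" => AlgebraicClosure ℚ
local notation "GK" => (AlgebraicClosure ℚ ≃ₐ[ℚ] AlgebraicClosure ℚ)

variable {p : ℕ} {P : ValuationSubring Kb}

/-- The `ζ ^ r`-eigen-component of `x` with respect to `g` (of order `d` on `x`). -/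
noncomputable def eigComp (g : GK) (ζ : Kb) (d r : ℕ) (x : Kb) : Kb :=
  (d : Kb)⁻¹ * ∑ t ∈ Finset.range d, (ζ⁻¹) ^ (r * t) * (g ^ t) x

theorem disc_sum_mem {ι : Type*} (s : Finset ι) (f : ι → Kb) (h : ∀ i ∈ s, f i ∈ P) :
    ∑ i ∈ s, f i ∈ P :=
  sum_mem h

theorem disc_natCast_isPUnit (hp : p.Prime) (hP : P.LiesOverPrime p) {d : ℕ} (hd : ¬ p ∣ d) :
    IsPUnit P (d : Kb) :=
  isPUnit_of_mem_of_not_mem_nonunits (natCast_mem P d)
    (Fermat.Agent.Cyclo.natCast_not_mem_nonunits P hp hP hd)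

theorem eigComp_mem_nonunits (hp : p.Prime) (hP : P.LiesOverPrime p) {d : ℕ} (hd0 : d ≠ 0)
    (hd : ¬ p ∣ d) {g : GK} (hg : g ∈ P.inertiaSubgroupIn ℚ) {ζ : Kb} (hζ : ζ ^ d = 1) (r : ℕ)
    {x : Kb} (hx : x ∈ P.nonunits) : eigComp g ζ d r x ∈ P.nonunits := by
  unfold eigComp
  refine disc_mul_nonunit (disc_natCast_isPUnit hp hP hd).inv.mem ?_
  refine disc_sum_nonunit _ _ (fun t _ => ?_)
  refine disc_mul_nonunit ?_ (disc_inertia_mem_nonunits (disc_inertia_pow_mem hg t) hx)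
  exact ((isPUnit_of_pow_eq_one hd0 hζ).inv.pow _).mem

theorem eigComp_mem (hp : p.Prime) (hP : P.LiesOverPrime p) {d : ℕ} (hd0 : d ≠ 0)
    (hd : ¬ p ∣ d) {g : GK} (hg : g ∈ P.inertiaSubgroupIn ℚ) {ζ : Kb} (hζ : ζ ^ d = 1) (r : ℕ)
    {x : Kb} (hx : x ∈ P) : eigComp g ζ d r x ∈ P := by
  unfold eigComp
  refine P.mul_mem _ _ (disc_natCast_isPUnit hp hP hd).inv.mem ?_
  refine disc_sum_mem _ _ (fun t _ => ?_)
  refine P.mul_mem _ _ ?_ (disc_inertia_mem (disc_inertia_pow_mem hg t) hx)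
  exact ((isPUnit_of_pow_eq_one hd0 hζ).inv.pow _).mem

/-- A `d`-periodic function has the same sum over every window of length `d`. -/
theorem disc_sum_range_shift {M : Type*} [AddCommGroup M] (f : ℕ → M) (d : ℕ)
    (hper : ∀ t, f (t + d) = f t) (s : ℕ) :
    ∑ t ∈ Finset.range d, f (s + t) = ∑ t ∈ Finset.range d, f t := by
  induction s with
  | zero => simp
  | succ s ih =>
    rw [← ih]
    have h1 : ∑ t ∈ Finset.range (d + 1), f (s + t) =
        ∑ t ∈ Finset.range d, f (s + 1 + t) + f s := by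
      rw [Finset.sum_range_succ']
      congr 1
      refine Finset.sum_congr rfl (fun t _ => ?_)
      congr 1
      omega
    have h2 : ∑ t ∈ Finset.range (d + 1), f (s + t) =
        ∑ t ∈ Finset.range d, f (s + t) + f (s + d) := Finset.sum_range_succ _ _
    have h3 : f (s + d) = f s := hper s
    rw [h3] at h2
    exact add_right_cancel (h1.symm.trans h2)

theorem disc_pow_apply_add (g : GK) (a b : ℕ) (x : Kb) : (g ^ (a + b)) x = (g ^ a) ((g ^ b) x) := by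
  rw [pow_add]
  rfl

/-- If `σ` acts as `g ^ s` on the orbit of `x`, it multiplies the `r`-th eigen-component
by `ζ ^ (r s)`. -/
theorem eigComp_map {d : ℕ} {g σ : GK} {ζ : Kb} (hζ : ζ ^ d = 1) (hσζ : σ ζ = ζ) (r : ℕ)
    {x : Kb} (hgd : (g ^ d) x = x) {s : ℕ} (hσ : ∀ t, σ ((g ^ t) x) = (g ^ (s + t)) x) :
    σ (eigComp g ζ d r x) = ζ ^ (r * s) * eigComp g ζ d r x := by
  by_cases hd : d = 0
  · subst hd
    unfold eigComp
    rw [Finset.range_zero, Finset.sum_empty, mul_zero, map_zero, mul_zero]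
  have hζ0 : ζ ≠ 0 := by
    rintro rfl
    rw [zero_pow hd] at hζ
    exact zero_ne_one hζ
  unfold eigComp
  rw [map_mul, map_inv₀, map_natCast, map_sum]
  have hinv : σ ζ⁻¹ = ζ⁻¹ := by rw [map_inv₀, hσζ]
  have h1 : ∀ t, σ ((ζ⁻¹) ^ (r * t) * (g ^ t) x) = (ζ⁻¹) ^ (r * t) * (g ^ (s + t)) x := by
    intro t
    rw [map_mul, map_pow, hinv, hσ]
  simp only [h1]
  -- the function `t ↦ ζ^{-r t} g^t x` is `d`-periodic
  have hz : (ζ⁻¹) ^ d = 1 := by rw [inv_pow, hζ, inv_one]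
  have hper : ∀ t, (fun t => (ζ⁻¹) ^ (r * t) * (g ^ t) x) (t + d) =
      (fun t => (ζ⁻¹) ^ (r * t) * (g ^ t) x) t := by
    intro t
    show (ζ⁻¹) ^ (r * (t + d)) * (g ^ (t + d)) x = (ζ⁻¹) ^ (r * t) * (g ^ t) x
    have hz3 : (ζ⁻¹) ^ (r * d) = 1 := by rw [mul_comm, pow_mul, hz, one_pow]
    rw [disc_pow_apply_add, hgd, mul_add, pow_add, hz3, mul_one]
  have hz2 : ζ ^ (r * s) * (ζ⁻¹) ^ (r * s) = 1 := by
    rw [← mul_pow, mul_inv_cancel₀ hζ0, one_pow]
  have h2 : ∀ t, (ζ⁻¹) ^ (r * t) * (g ^ (s + t)) x =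
      ζ ^ (r * s) * (fun t => (ζ⁻¹) ^ (r * t) * (g ^ t) x) (s + t) := by
    intro t
    show (ζ⁻¹) ^ (r * t) * (g ^ (s + t)) x =
      ζ ^ (r * s) * ((ζ⁻¹) ^ (r * (s + t)) * (g ^ (s + t)) x)
    have h3 : ζ ^ (r * s) * ((ζ⁻¹) ^ (r * (s + t)) * (g ^ (s + t)) x) =
        (ζ ^ (r * s) * (ζ⁻¹) ^ (r * s)) * ((ζ⁻¹) ^ (r * t) * (g ^ (s + t)) x) := by
      rw [mul_add r s t, pow_add (ζ⁻¹)]
      ring
    rw [h3, hz2, one_mul]
  have key := disc_sum_range_shift (fun t => (ζ⁻¹) ^ (r * t) * (g ^ t) x) d hper s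
  beta_reduce at key
  rw [Finset.sum_congr rfl (fun t _ => h2 t)]
  beta_reduce
  rw [← Finset.mul_sum, key]
  ring

/-- The eigen-component is an eigenvector of `g`. -/
theorem eigComp_map_self {d : ℕ} {g : GK} {ζ : Kb} (hζ : ζ ^ d = 1) (hgζ : g ζ = ζ) (r : ℕ)
    {x : Kb} (hgd : (g ^ d) x = x) :
    g (eigComp g ζ d r x) = ζ ^ r * eigComp g ζ d r x := by
  have h := eigComp_map (σ := g) hζ hgζ r hgd (s := 1) (fun t => by
    rw [disc_pow_apply_add, pow_one])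
  rwa [mul_one] at h

/-- Geometric sum of a root of unity. -/
theorem disc_geom_sum {d : ℕ} {η : Kb} (hη : η ^ d = 1) (hη1 : η ≠ 1) :
    ∑ r ∈ Finset.range d, η ^ r = 0 := by
  have h := mul_neg_geom_sum η d
  rw [hη, sub_self] at h
  rcases mul_eq_zero.1 h with h1 | h1
  · exact absurd (sub_eq_zero.1 h1).symm hη1
  · exact h1

/-- **Inverse Fourier transform.** -/
theorem sum_eigComp {d : ℕ} (g : GK) {ζ : Kb} (hζ : IsPrimitiveRoot ζ d) (hd0 : d ≠ 0)
    (x : Kb) {s : ℕ} (hs : s < d) :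
    ∑ r ∈ Finset.range d, ζ ^ (r * s) * eigComp g ζ d r x = (g ^ s) x := by
  have hζ0 : ζ ≠ 0 := hζ.ne_zero hd0
  have hd0' : (d : Kb) ≠ 0 := Nat.cast_ne_zero.2 hd0
  unfold eigComp
  have h1 : ∀ r ∈ Finset.range d, ζ ^ (r * s) * ((d : Kb)⁻¹ *
      ∑ t ∈ Finset.range d, (ζ⁻¹) ^ (r * t) * (g ^ t) x) =
      ∑ t ∈ Finset.range d, (d : Kb)⁻¹ * (g ^ t) x * (ζ ^ s * (ζ⁻¹) ^ t) ^ r := by
    intro r _
    rw [Finset.mul_sum, Finset.mul_sum]
    refine Finset.sum_congr rfl (fun t _ => ?_)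
    rw [mul_pow, ← pow_mul, ← pow_mul, mul_comm s r, mul_comm t r]
    ring
  rw [Finset.sum_congr rfl h1, Finset.sum_comm]
  have h2 : ∀ t ∈ Finset.range d, ∑ r ∈ Finset.range d,
      (d : Kb)⁻¹ * (g ^ t) x * (ζ ^ s * (ζ⁻¹) ^ t) ^ r =
      if t = s then (g ^ s) x else 0 := by
    intro t ht
    rw [← Finset.mul_sum]
    split_ifs with hts
    · subst hts
      have : ζ ^ t * (ζ⁻¹) ^ t = 1 := by
        rw [← mul_pow, mul_inv_cancel₀ hζ0, one_pow]
      rw [this]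
      simp only [one_pow, Finset.sum_const, Finset.card_range, nsmul_eq_mul, mul_one]
      field_simp
    · have hη : (ζ ^ s * (ζ⁻¹) ^ t) ^ d = 1 := by
        rw [mul_pow, ← pow_mul, ← pow_mul, mul_comm s d, mul_comm t d, pow_mul, pow_mul,
          hζ.pow_eq_one, inv_pow, hζ.pow_eq_one, one_pow, inv_one, one_pow, one_mul]
      have hη1 : ζ ^ s * (ζ⁻¹) ^ t ≠ 1 := by
        intro h
        apply hts
        have h3 : ζ ^ s = ζ ^ t := by
          have h4 : ζ ^ s * (ζ⁻¹) ^ t * ζ ^ t = ζ ^ t := by rw [h, one_mul]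
          rw [mul_assoc, ← mul_pow, inv_mul_cancel₀ hζ0, one_pow, mul_one] at h4
          exact h4
        exact (hζ.pow_inj hs (Finset.mem_range.1 ht) h3).symm
      rw [disc_geom_sum hη hη1, mul_zero]
  rw [Finset.sum_congr rfl h2, Finset.sum_ite_eq' (Finset.range d) s]
  rw [if_pos (Finset.mem_range.2 hs)]

/-! ### The combinatorial lemma -/

/-- `d` positive integers which are pairwise incongruent modulo `d` have sum at least
`1 + 2 + ⋯ + d`. -/
theorem disc_sum_ge {d : ℕ} (m : Fin d → ℕ) (h1 : ∀ r, 1 ≤ m r)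
    (hinj : ∀ r r', m r % d = m r' % d → r = r') :
    ∑ r : Fin d, ((r : ℕ) + 1) ≤ ∑ r, m r ∧
    ((∑ r, m r = ∑ r : Fin d, ((r : ℕ) + 1)) → 0 < d → ∃ r₁, m r₁ = 1) := by
  rcases Nat.eq_zero_or_pos d with hd | hd
  · subst hd
    exact ⟨by simp, fun _ h => absurd h (lt_irrefl 0)⟩
  let ρ : Fin d → Fin d := fun r => ⟨(m r - 1) % d, Nat.mod_lt _ hd⟩
  have hρinj : Function.Injective ρ := by
    intro r r' h
    apply hinj
    have h2 : (m r - 1) % d = (m r' - 1) % d := congrArg Fin.val h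
    have e1 : m r = (m r - 1) + 1 := by have := h1 r; omega
    have e2 : m r' = (m r' - 1) + 1 := by have := h1 r'; omega
    rw [e1, e2, Nat.add_mod, h2, ← Nat.add_mod]
  have hρbij : Function.Bijective ρ := Finite.injective_iff_bijective.1 hρinj
  have hsum : ∑ r : Fin d, ((ρ r : ℕ) + 1) = ∑ r : Fin d, ((r : ℕ) + 1) :=
    Function.Bijective.sum_comp hρbij (fun r : Fin d => ((r : ℕ) + 1))
  have hle : ∀ r, ((ρ r : ℕ) + 1) ≤ m r := by
    intro r
    have : (m r - 1) % d ≤ m r - 1 := Nat.mod_le _ _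
    have := h1 r
    show (m r - 1) % d + 1 ≤ m r
    omega
  refine ⟨?_, fun heq _ => ?_⟩
  · rw [← hsum]
    exact Finset.sum_le_sum (fun r _ => hle r)
  · obtain ⟨r₁, hr₁⟩ := hρbij.2 ⟨0, hd⟩
    refine ⟨r₁, ?_⟩
    have h3 : ∀ r ∈ Finset.univ, ((ρ r : ℕ) + 1) = m r := by
      have := (Finset.sum_eq_sum_iff_of_le (fun r _ => hle r)).1 (by rw [hsum, heq])
      exact this
    have h4 := h3 r₁ (Finset.mem_univ _)
    rw [hr₁] at h4
    exact h4.symm

theorem disc_two_mul_sum (d : ℕ) : 2 * ∑ r : Fin d, ((r : ℕ) + 1) = d * (d + 1) := by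
  rw [Fin.sum_univ_eq_sum_range (fun r => r + 1) d]
  induction d with
  | zero => simp
  | succ d ih =>
    rw [Finset.sum_range_succ, mul_add, ih]
    ring

end Fermat.Agent.FFL
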