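/-
Lib/FFL/FB/DiscMat (R4-FB, block DISC, part 3; helper26): the matrices of the discriminant
estimate.

Index type `DIdx E J d = E ⊕ J × Fin d` (`E` = extra columns, `J` = orbits, `Fin d` = position in
the orbit).
* `discMat g c₀ x`  : columns `c₀ · e` (`e : E`) and `g ^ s (x · j)` (`(j, s) : J × Fin d`);
* `discEig g ζ c₀ x`: columns `c₀ · e` and the eigen-components `eigComp g ζ d r (x · j)`;
* `discDFT ζ`       : the block Fourier matrix;  `discMat = discEig * discDFT` (`discMat_eq`);
* `disc_det_mem`    : the determinant of a matrix with entries in `P` is in `P`.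
-/
import Fermat.Agent.Lib.FFL.FB.DiscEig

set_option autoImplicit false

namespace Fermat.Agent.FFL

local notation "Kb" => AlgebraicClosure ℚ
local notation "GK" => (AlgebraicClosure ℚ ≃ₐ[ℚ] AlgebraicClosure ℚ)

variable {p : ℕ} {P : ValuationSubring Kb}

/-- The index type of the matrices: extra columns `E` and `J` orbits of length `d`. -/
abbrev DIdx (E J : Type) (d : ℕ) : Type := E ⊕ J × Fin d

variable {E J : Type} {d : ℕ}

/-- The matrix with columns `c₀ · e` and `g ^ s (x · j)`. -/
noncomputable def discMat (g : GK) (c₀ : DIdx E J d → E → Kb) (x : DIdx E J d → J → Kb) :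
    Matrix (DIdx E J d) (DIdx E J d) Kb :=
  Matrix.of fun i c => Sum.elim (fun e => c₀ i e) (fun js => (g ^ (js.2 : ℕ)) (x i js.1)) c

/-- The matrix with columns `c₀ · e` and the eigen-components of `x · j`. -/
noncomputable def discEig (g : GK) (ζ : Kb) (c₀ : DIdx E J d → E → Kb)
    (x : DIdx E J d → J → Kb) : Matrix (DIdx E J d) (DIdx E J d) Kb :=
  Matrix.of fun i c => Sum.elim (fun e => c₀ i e)
    (fun jr => eigComp g ζ d (jr.2 : ℕ) (x i jr.1)) c

/-- The block Fourier matrix. -/
noncomputable def discDFT (E J : Type) [DecidableEq E] [DecidableEq J] (d : ℕ) (ζ : Kb) :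
    Matrix (DIdx E J d) (DIdx E J d) Kb :=
  Matrix.of fun c c' =>
    Sum.elim
      (fun e => Sum.elim (fun e' => if e = e' then (1 : Kb) else 0) (fun _ => 0) c')
      (fun jr => Sum.elim (fun _ => (0 : Kb))
        (fun js => if jr.1 = js.1 then ζ ^ ((jr.2 : ℕ) * (js.2 : ℕ)) else 0) c') c

@[simp] theorem discMat_inl (g : GK) (c₀ : DIdx E J d → E → Kb) (x : DIdx E J d → J → Kb)
    (i : DIdx E J d) (e : E) : discMat g c₀ x i (Sum.inl e) = c₀ i e := rfl

@[simp] theorem discMat_inr (g : GK) (c₀ : DIdx E J d → E → Kb) (x : DIdx E J d → J → Kb)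
    (i : DIdx E J d) (j : J) (s : Fin d) :
    discMat g c₀ x i (Sum.inr (j, s)) = (g ^ (s : ℕ)) (x i j) := rfl

@[simp] theorem discEig_inl (g : GK) (ζ : Kb) (c₀ : DIdx E J d → E → Kb)
    (x : DIdx E J d → J → Kb) (i : DIdx E J d) (e : E) :
    discEig g ζ c₀ x i (Sum.inl e) = c₀ i e := rfl

@[simp] theorem discEig_inr (g : GK) (ζ : Kb) (c₀ : DIdx E J d → E → Kb)
    (x : DIdx E J d → J → Kb) (i : DIdx E J d) (j : J) (r : Fin d) :
    discEig g ζ c₀ x i (Sum.inr (j, r)) = eigComp g ζ d (r : ℕ) (x i j) := rfl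

section
variable [DecidableEq E] [DecidableEq J]

@[simp] theorem discDFT_inl_inl (ζ : Kb) (e e' : E) :
    discDFT E J d ζ (Sum.inl e) (Sum.inl e') = if e = e' then 1 else 0 := rfl

@[simp] theorem discDFT_inl_inr (ζ : Kb) (e : E) (js : J × Fin d) :
    discDFT E J d ζ (Sum.inl e) (Sum.inr js) = 0 := rfl

@[simp] theorem discDFT_inr_inl (ζ : Kb) (jr : J × Fin d) (e : E) :
    discDFT E J d ζ (Sum.inr jr) (Sum.inl e) = 0 := rfl

@[simp] theorem discDFT_inr_inr (ζ : Kb) (j j' : J) (r s : Fin d) :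
    discDFT E J d ζ (Sum.inr (j, r)) (Sum.inr (j', s)) =
      if j = j' then ζ ^ ((r : ℕ) * (s : ℕ)) else 0 := rfl

/-- **Fourier factorisation** of the matrix. -/
theorem discMat_eq [Fintype E] [Fintype J] (g : GK) {ζ : Kb} (hζ : IsPrimitiveRoot ζ d) (hd0 : d ≠ 0)
    (c₀ : DIdx E J d → E → Kb) (x : DIdx E J d → J → Kb) :
    discMat g c₀ x = discEig g ζ c₀ x * discDFT E J d ζ := by
  ext i c
  rw [Matrix.mul_apply, Fintype.sum_sum_type]
  rcases c with e' | ⟨j', s⟩
  · simp only [discMat_inl, discEig_inl, discDFT_inl_inl, discDFT_inr_inl, mul_zero,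
      Finset.sum_const_zero, add_zero, mul_ite, mul_one]
    rw [Finset.sum_ite_eq' Finset.univ e']
    simp
  · simp only [discMat_inr, discEig_inl, discDFT_inl_inr, mul_zero, Finset.sum_const_zero,
      zero_add]
    rw [Fintype.sum_prod_type]
    simp only [discEig_inr, discDFT_inr_inr, mul_ite, mul_zero]
    rw [Finset.sum_eq_single j']
    · simp only [if_true]
      have h := sum_eigComp g hζ hd0 (x i j') s.2
      rw [← h, ← Fin.sum_univ_eq_sum_range (fun r => ζ ^ (r * (s : ℕ)) *
        eigComp g ζ d r (x i j')) d]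
      exact Finset.sum_congr rfl (fun r _ => mul_comm _ _)
    · intro j _ hj
      simp [hj]
    · intro h
      exact absurd (Finset.mem_univ j') h

/-- The determinant of a matrix with entries in `P` is in `P`. -/
theorem disc_det_mem {n : Type*} [Fintype n] [DecidableEq n] (A : Matrix n n Kb)
    (hA : ∀ i c, A i c ∈ P) : A.det ∈ P := by
  rw [Matrix.det_apply]
  refine sum_mem (fun σ _ => ?_)
  have h1 : ∏ i, A (σ i) i ∈ P := prod_mem (fun i _ => hA _ _)
  rcases Int.units_eq_one_or (Equiv.Perm.sign σ) with h | h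
  · rw [h, one_smul]
    exact h1
  · rw [h, Units.neg_smul, one_smul]
    exact P.neg_mem _ h1

/-- The entries of the Fourier matrix are in `P`. -/
theorem discDFT_mem {ζ : Kb} (hζ : ζ ^ d = 1) (hd0 : d ≠ 0) (c c' : DIdx E J d) :
    discDFT E J d ζ c c' ∈ P := by
  rcases c with e | ⟨j, r⟩ <;> rcases c' with e' | ⟨j', s⟩
  · simp only [discDFT_inl_inl]
    split_ifs
    · exact P.one_mem
    · exact P.zero_mem
  · exact P.zero_mem
  · exact P.zero_mem
  · simp only [discDFT_inr_inr]
    split_ifs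
    · exact ((isPUnit_of_pow_eq_one hd0 hζ).pow _).mem
    · exact P.zero_mem

end

/-- A matrix with a vanishing column has determinant zero. -/
theorem disc_det_eq_zero_of_col {n : Type*} [Fintype n] [DecidableEq n] (A : Matrix n n Kb)
    (c : n) (h : ∀ i, A i c = 0) : A.det = 0 :=
  Matrix.det_eq_zero_of_column_eq_zero c h

end Fermat.Agent.FFL
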