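/-
Lib/FFL/FB/DiscAux (R4-FB, block DISC, part 4; helper26): auxiliary lemmas for the discriminant
estimate: scaling of columns, the exponents of a column of eigen-components.
-/
import Fermat.Agent.Lib.FFL.FB.DiscMat

set_option autoImplicit false

namespace Fermat.Agent.FFL

local notation "Kb" => AlgebraicClosure ℚ
local notation "GK" => (AlgebraicClosure ℚ ≃ₐ[ℚ] AlgebraicClosure ℚ)

variable {p : ℕ} {P : ValuationSubring Kb} {E J : Type} {d : ℕ}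

/-- `z ^ n ∈ P` implies `z ∈ P`. -/
theorem disc_mem_of_pow_mem {z : Kb} {n : ℕ} (hn : n ≠ 0) (h : z ^ n ∈ P) : z ∈ P := by
  rw [← P.valuation_le_one_iff] at h ⊢
  rw [map_pow] at h
  by_contra hlt
  rw [not_le] at hlt
  exact absurd h (not_le.2 (one_lt_pow₀ hlt hn))

/-- `z ^ n ∈ 𝔪_P` implies `z ∈ 𝔪_P`. -/
theorem disc_nonunit_of_pow {z : Kb} {n : ℕ} (h : z ^ n ∈ P.nonunits) : z ∈ P.nonunits := by
  rw [P.mem_nonunits_iff] at h ⊢
  rw [map_pow] at h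
  by_contra hlt
  rw [not_lt] at hlt
  exact absurd h (not_lt.2 (one_le_pow₀ hlt))

theorem disc_pow_nonunit {z : Kb} {n : ℕ} (hn : n ≠ 0) (h : z ∈ P.nonunits) :
    z ^ n ∈ P.nonunits := by
  rw [P.mem_nonunits_iff] at h ⊢
  rw [map_pow]
  exact pow_lt_one₀ zero_le h hn

/-- Scaling the columns: if the entries of the column `(j, r)` are divisible by `ϖ ^ m j r`,
the determinant is divisible by `ϖ ^ ∑ m`. -/
theorem disc_det_scaled [Fintype E] [DecidableEq E] [Fintype J] [DecidableEq J]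
    (Y : Matrix (DIdx E J d) (DIdx E J d) Kb) {ϖ : Kb} (hϖ : ϖ ≠ 0) (m : J → Fin d → ℕ)
    (h0 : ∀ i e, Y i (Sum.inl e) ∈ P)
    (h1 : ∀ i j r, Y i (Sum.inr (j, r)) / ϖ ^ m j r ∈ P) :
    ∃ a ∈ P, Y.det = a * ϖ ^ (∑ j, ∑ r, m j r) := by
  let δ : DIdx E J d → Kb := Sum.elim (fun _ => 1) (fun jr => ϖ ^ m jr.1 jr.2)
  have hδ : ∀ c, δ c ≠ 0 := by
    rintro (e | ⟨j, r⟩)
    · exact one_ne_zero
    · exact pow_ne_zero _ hϖ
  let Y' : Matrix (DIdx E J d) (DIdx E J d) Kb := Matrix.of fun i c => Y i c / δ c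
  have hY : Y = Y' * Matrix.diagonal δ := by
    ext i c
    rw [Matrix.mul_diagonal]
    show Y i c = Y i c / δ c * δ c
    rw [div_mul_cancel₀ _ (hδ c)]
  have hY' : ∀ i c, Y' i c ∈ P := by
    intro i c
    rcases c with e | ⟨j, r⟩
    · show Y i (Sum.inl e) / 1 ∈ P
      rw [div_one]
      exact h0 i e
    · exact h1 i j r
  refine ⟨Y'.det, disc_det_mem Y' hY', ?_⟩
  rw [hY, Matrix.det_mul, Matrix.det_diagonal, Fintype.prod_sum_type, Fintype.prod_prod_type]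
  congr 1
  simp only [δ, Sum.elim_inl, Sum.elim_inr, Finset.prod_const_one, one_mul]
  rw [← Finset.prod_pow_eq_pow_sum]
  refine Finset.prod_congr rfl (fun j _ => ?_)
  rw [Finset.prod_pow_eq_pow_sum]

/-- The `d`-th power of an eigen-component is fixed by inertia. -/
theorem eigComp_pow_fixed (hp : p.Prime) (hP : P.LiesOverPrime p) (hd0 : d ≠ 0) (hd : ¬ p ∣ d)
    {g : GK} {ζ : Kb} (hζ : ζ ^ d = 1) (r : ℕ) {x : Kb} (hgd : (g ^ d) x = x)
    (hI : ∀ σ ∈ P.inertiaSubgroupIn ℚ, ∃ s : ℕ, ∀ t : ℕ, σ ((g ^ t) x) = (g ^ (s + t)) x) :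
    ∀ σ ∈ P.inertiaSubgroupIn ℚ, σ ((eigComp g ζ d r x) ^ d) = (eigComp g ζ d r x) ^ d := by
  intro σ hσ
  obtain ⟨s, hs⟩ := hI σ hσ
  have h1 := eigComp_map hζ (disc_root_fixed hp hP hd0 hd hσ hζ) r hgd hs
  rw [map_pow, h1, mul_pow, ← pow_mul, mul_comm (r * s) d, pow_mul, hζ, one_pow, one_mul]

end Fermat.Agent.FFL
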