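/-
Lib/FFL/FB/Disc (R4-FB, block DISC; helper26): **the discriminant estimate**.

`P` over `p`, `g ∈ I` (inertia), `p ∤ d`.  Let `x i j ∈ 𝔪_P` (`i` a row, `j : J` an orbit) with
`g ^ d (x i j) = x i j`, every `σ ∈ I` acting on the orbits `{g ^ t (x i j)}` as a power of `g`
(uniformly in `i, j`), and let `c₀ i e ∈ P`.  For the matrix `M = discMat g c₀ x` with columns
`c₀ · e` and `g ^ s (x · j)`:
* `disc_main.1` : `v(det M) ≥ |J| (d + 1) / 2`, i.e. `det M ^ 2 / p ^ (|J| (d + 1)) ∈ P`;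
* `disc_main.2` : if equality holds, every orbit `j` has a row `i` with `v(x i j) = 1 / d`,
  i.e. `x i j ^ d / p` is a unit of `P`.
Proof: Fourier factorisation `M = Y * D` (`discMat_eq`); the columns `(j, r)` of `Y` consist of
`ζ ^ r`-eigenvectors of `g` in `𝔪_P`, whose valuations lie in `(1/d) ℤ_{>0}`, in classes modulo `ℤ`
which are pairwise different for fixed `j` (`disc_eigenvalue_eq`): the column minima
`m j r / d` satisfy `∑_r m j r ≥ 1 + 2 + ⋯ + d` (`disc_sum_ge`).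
-/
import Fermat.Agent.Lib.FFL.FB.DiscAux

set_option autoImplicit false

namespace Fermat.Agent.FFL

local notation "Kb" => AlgebraicClosure ℚ
local notation "GK" => (AlgebraicClosure ℚ ≃ₐ[ℚ] AlgebraicClosure ℚ)

variable {p : ℕ} {P : ValuationSubring Kb} {E J : Type} {d : ℕ}

/-- The exponent property of a column of eigen-components. -/
def ColExp (p : ℕ) (P : ValuationSubring Kb) {ι : Type} (y : ι → Kb) (d n : ℕ) : Prop :=
  ∃ (i : ι) (u : Kb), IsPUnit P u ∧ (y i) ^ d = (p : Kb) ^ n * u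

section Column

variable (hp : p.Prime) (hP : P.LiesOverPrime p) (hd0 : d ≠ 0)
include hp hP hd0

/-- A nonzero column in `𝔪_P` with inertia-fixed `d`-th powers has an exponent. -/
theorem colExp_exists {ι : Type} (y : ι → Kb) (hy : ∀ i, y i ∈ P.nonunits)
    (hfix : ∀ i, ∀ σ ∈ P.inertiaSubgroupIn ℚ, σ ((y i) ^ d) = (y i) ^ d)
    (hne : ∃ i, y i ≠ 0) : ∃ n, ColExp p P y d n := by
  obtain ⟨i, hi⟩ := hne
  obtain ⟨k, u, -, hu, hk⟩ := disc_exists_pow_eq hp hP hd0 hi (hy i) (hfix i)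
  exact ⟨k, i, u, hu, hk⟩

omit hp hP in
/-- The exponents of a column in `𝔪_P` are positive. -/
theorem colExp_pos {ι : Type} (y : ι → Kb) (hy : ∀ i, y i ∈ P.nonunits) {n : ℕ}
    (h : ColExp p P y d n) : 1 ≤ n := by
  obtain ⟨i, u, hu, hk⟩ := h
  by_contra hn
  have hn0 : n = 0 := by omega
  rw [hn0, pow_zero, one_mul] at hk
  have h1 : IsPUnit P (y i) := isPUnit_of_pow hd0 (by rw [hk]; exact hu)
  exact h1.not_mem_nonunits (hy i)

/-- The entries of a column are divisible by `ϖ ^ m`, `m` the minimal exponent (`ϖ ^ d = p`). -/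
theorem colExp_div_mem {ι : Type} (y : ι → Kb) (hy : ∀ i, y i ∈ P.nonunits)
    (hfix : ∀ i, ∀ σ ∈ P.inertiaSubgroupIn ℚ, σ ((y i) ^ d) = (y i) ^ d)
    {ϖ : Kb} (hϖ : ϖ ^ d = (p : Kb)) {m : ℕ} (hmin : ∀ n, ColExp p P y d n → m ≤ n) (i : ι) :
    y i / ϖ ^ m ∈ P := by
  have hp0 : (p : Kb) ≠ 0 := Nat.cast_ne_zero.2 hp.ne_zero
  by_cases hi : y i = 0
  · rw [hi, zero_div]
    exact P.zero_mem
  obtain ⟨k, u, -, hu, hk⟩ := disc_exists_pow_eq hp hP hd0 hi (hy i) (hfix i)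
  have hmk : m ≤ k := hmin k ⟨i, u, hu, hk⟩
  apply disc_mem_of_pow_mem hd0
  have h1 : (y i / ϖ ^ m) ^ d = (p : Kb) ^ (k - m) * u := by
    rw [div_pow, ← pow_mul, mul_comm m d, pow_mul, hϖ, hk]
    have : (p : Kb) ^ k = (p : Kb) ^ (k - m) * (p : Kb) ^ m := by
      rw [← pow_add, Nat.sub_add_cancel hmk]
    rw [this]
    field_simp
  rw [h1]
  exact P.mul_mem _ _ (pow_mem (natCast_mem P p) _) hu.mem

end Column

/-- **The discriminant estimate.** -/
theorem disc_main [Fintype E] [DecidableEq E] [Fintype J] [DecidableEq J]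
    (hp : p.Prime) (hP : P.LiesOverPrime p) (hd0 : d ≠ 0) (hd : ¬ p ∣ d)
    {g : GK} (hg : g ∈ P.inertiaSubgroupIn ℚ)
    (c₀ : DIdx E J d → E → Kb) (x : DIdx E J d → J → Kb)
    (hc₀ : ∀ i e, c₀ i e ∈ P) (hx : ∀ i j, x i j ∈ P.nonunits)
    (hI : ∀ σ ∈ P.inertiaSubgroupIn ℚ, ∃ s : ℕ, ∀ i j (t : ℕ),
      σ ((g ^ t) (x i j)) = (g ^ (s + t)) (x i j))
    (hgd : ∀ i j, (g ^ d) (x i j) = x i j) :
    (discMat g c₀ x).det ^ 2 / (p : Kb) ^ (Fintype.card J * (d + 1)) ∈ P ∧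
    ((discMat g c₀ x).det ^ 2 / (p : Kb) ^ (Fintype.card J * (d + 1)) ∉ P.nonunits →
      ∀ j, ∃ i, IsPUnit P ((x i j) ^ d / (p : Kb))) := by
  classical
  have hp0 : (p : Kb) ≠ 0 := Nat.cast_ne_zero.2 hp.ne_zero
  have hdpos : 0 < d := Nat.pos_of_ne_zero hd0
  have : NeZero d := ⟨hd0⟩
  obtain ⟨ζ, hζ⟩ := HasEnoughRootsOfUnity.exists_primitiveRoot Kb d
  have hζd : ζ ^ d = 1 := hζ.pow_eq_one
  obtain ⟨ϖ, hϖ⟩ := IsAlgClosed.exists_pow_nat_eq (p : Kb) hdpos
  have hϖ0 : ϖ ≠ 0 := by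
    rintro rfl
    rw [zero_pow hd0] at hϖ
    exact hp0 hϖ.symm
  have hϖm : ϖ ∈ P.nonunits := disc_nonunit_of_pow (n := d) (by rw [hϖ]; exact hP)
  have hgζ : g ζ = ζ := disc_root_fixed hp hP hd0 hd hg hζd
  -- the eigen-components
  set y : DIdx E J d → J → Fin d → Kb := fun i j r => eigComp g ζ d (r : ℕ) (x i j) with hy
  have hym : ∀ i j r, y i j r ∈ P.nonunits := fun i j r =>
    eigComp_mem_nonunits hp hP hd0 hd hg hζd _ (hx i j)
  have hyfix : ∀ i j r, ∀ σ ∈ P.inertiaSubgroupIn ℚ, σ ((y i j r) ^ d) = (y i j r) ^ d := by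
    intro i j r
    refine eigComp_pow_fixed hp hP hd0 hd hζd _ (hgd i j) (fun σ hσ => ?_)
    obtain ⟨s, hs⟩ := hI σ hσ
    exact ⟨s, fun t => hs i j t⟩
  have hyeig : ∀ i j r, g (y i j r) = ζ ^ (r : ℕ) * y i j r := fun i j r =>
    eigComp_map_self hζd hgζ _ (hgd i j)
  have hxsum : ∀ i j, x i j = ∑ r : Fin d, y i j r := by
    intro i j
    have h := sum_eigComp g hζ hd0 (x i j) hdpos
    rw [pow_zero] at h
    have h2 : (1 : GK) (x i j) = x i j := rfl
    rw [h2] at h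
    rw [← h, ← Fin.sum_univ_eq_sum_range (fun r => ζ ^ (r * 0) * eigComp g ζ d r (x i j)) d]
    refine Finset.sum_congr rfl (fun r _ => ?_)
    rw [mul_zero, pow_zero, one_mul]
  -- Fourier factorisation
  have hM : (discMat g c₀ x).det = (discEig g ζ c₀ x).det * (discDFT E J d ζ).det := by
    rw [discMat_eq g hζ hd0 c₀ x, Matrix.det_mul]
  have hD : (discDFT E J d ζ).det ∈ P := disc_det_mem _ (discDFT_mem hζd hd0)
  by_cases hcol : ∃ j r, ∀ i, y i j r = 0
  · -- a vanishing column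
    obtain ⟨j, r, hjr⟩ := hcol
    have h0 : (discEig g ζ c₀ x).det = 0 :=
      disc_det_eq_zero_of_col _ (Sum.inr (j, r)) (fun i => hjr i)
    have h1 : (discMat g c₀ x).det ^ 2 / (p : Kb) ^ (Fintype.card J * (d + 1)) = 0 := by
      rw [hM, h0, zero_mul, zero_pow two_ne_zero, zero_div]
    rw [h1]
    refine ⟨P.zero_mem, fun h => absurd ?_ h⟩
    rw [P.mem_nonunits_iff, map_zero]
    exact zero_lt_one
  -- all columns are nonzero
  have hne : ∀ j r, ∃ i, y i j r ≠ 0 := by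
    intro j r
    by_contra h
    exact hcol ⟨j, r, fun i => by_contra fun hi => h ⟨i, hi⟩⟩
  have hQ : ∀ j r, ∃ n, ColExp p P (fun i => y i j r) d n := fun j r =>
    colExp_exists hp hP hd0 _ (fun i => hym i j r) (fun i => hyfix i j r) (hne j r)
  set m : J → Fin d → ℕ := fun j r => Nat.find (hQ j r) with hm
  have hmspec : ∀ j r, ColExp p P (fun i => y i j r) d (m j r) := fun j r => Nat.find_spec (hQ j r)
  have hmmin : ∀ j r n, ColExp p P (fun i => y i j r) d n → m j r ≤ n :=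
    fun j r n h => Nat.find_min' (hQ j r) h
  have hm1 : ∀ j r, 1 ≤ m j r := fun j r => colExp_pos hd0 _ (fun i => hym i j r) (hmspec j r)
  have hdiv : ∀ i j r, y i j r / ϖ ^ m j r ∈ P := fun i j r =>
    colExp_div_mem hp hP hd0 (fun i => y i j r) (fun i => hym i j r) (fun i => hyfix i j r) hϖ
      (hmmin j r) i
  have hinj : ∀ j r r', m j r % d = m j r' % d → r = r' := by
    intro j r r' hmod
    obtain ⟨i, u, hu, hk⟩ := hmspec j r
    obtain ⟨i', u', hu', hk'⟩ := hmspec j r'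
    have h1 : (ζ ^ (r : ℕ)) ^ d = 1 := by rw [← pow_mul, mul_comm, pow_mul, hζd, one_pow]
    have h2 : (ζ ^ (r' : ℕ)) ^ d = 1 := by rw [← pow_mul, mul_comm, pow_mul, hζd, one_pow]
    have h3 := disc_eigenvalue_eq hp hP hd0 hd hg h1 h2 (hyeig i j r) (hyeig i' j r') hu hu' hk hk'
      hmod
    exact Fin.ext (hζ.pow_inj r.2 r'.2 h3)
  -- the combinatorial estimate
  set T : ℕ := ∑ r : Fin d, ((r : ℕ) + 1) with hT
  have hTj : ∀ j, T ≤ ∑ r, m j r := fun j => (disc_sum_ge (m j) (hm1 j) (hinj j)).1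
  set S : ℕ := ∑ j, ∑ r, m j r with hS
  have hST : Fintype.card J * T ≤ S := by
    rw [hS, ← smul_eq_mul, ← Finset.card_univ, ← Finset.sum_const]
    exact Finset.sum_le_sum (fun j _ => hTj j)
  have h2T : d * (d + 1) = 2 * T := (disc_two_mul_sum d).symm
  -- the scaled determinant
  obtain ⟨a, ha, hdet⟩ := disc_det_scaled (P := P) (discEig g ζ c₀ x) hϖ0 m
    (fun i e => hc₀ i e) (fun i j r => hdiv i j r)
  have hpow : (p : Kb) ^ (Fintype.card J * (d + 1)) = ϖ ^ (2 * (Fintype.card J * T)) := by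
    rw [← hϖ, ← pow_mul]
    congr 1
    calc d * (Fintype.card J * (d + 1)) = Fintype.card J * (d * (d + 1)) := by ring
      _ = Fintype.card J * (2 * T) := by rw [h2T]
      _ = 2 * (Fintype.card J * T) := by ring
  have hquot : (discMat g c₀ x).det ^ 2 / (p : Kb) ^ (Fintype.card J * (d + 1)) =
      (a * (discDFT E J d ζ).det) ^ 2 * ϖ ^ (2 * (S - Fintype.card J * T)) := by
    rw [hM, hdet, hpow]
    have : ϖ ^ (∑ j, ∑ r, m j r) = ϖ ^ (S - Fintype.card J * T) * ϖ ^ (Fintype.card J * T) := by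
      rw [← pow_add, Nat.sub_add_cancel hST]
    rw [this]
    have h0 : ϖ ^ (Fintype.card J * T) ≠ 0 := pow_ne_zero _ hϖ0
    rw [pow_mul' ϖ 2, pow_mul' ϖ 2]
    generalize ϖ ^ (Fintype.card J * T) = B at h0 ⊢
    generalize ϖ ^ (S - Fintype.card J * T) = A
    field_simp
  have haD : (a * (discDFT E J d ζ).det) ^ 2 ∈ P := pow_mem (P.mul_mem _ _ ha hD) 2
  refine ⟨?_, fun hunit j => ?_⟩
  · rw [hquot]
    exact P.mul_mem _ _ haD (pow_mem (disc_nonunit_mem hϖm) _)
  · -- equality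
    have hSeq : S = Fintype.card J * T := by
      by_contra hne'
      have hlt : Fintype.card J * T < S := lt_of_le_of_ne hST (Ne.symm hne')
      apply hunit
      rw [hquot]
      refine disc_mul_nonunit haD (disc_pow_nonunit ?_ hϖm)
      omega
    have hTeq : ∀ j, ∑ r, m j r = T := by
      have h1 : ∑ j : J, T = ∑ j, ∑ r, m j r := by
        rw [Finset.sum_const, Finset.card_univ, smul_eq_mul, ← hSeq]
      have h2 := (Finset.sum_eq_sum_iff_of_le (fun j _ => hTj j)).1 h1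
      exact fun j => (h2 j (Finset.mem_univ j)).symm
    obtain ⟨r₁, hr₁⟩ := (disc_sum_ge (m j) (hm1 j) (hinj j)).2 (hTeq j) hdpos
    obtain ⟨i, u, hu, hk⟩ := hmspec j r₁
    rw [hr₁, pow_one] at hk
    refine ⟨i, ?_⟩
    -- `x i j / ϖ` is a unit
    have h1 : IsPUnit P (y i j r₁ / ϖ) := by
      apply isPUnit_of_pow hd0
      rw [div_pow, hϖ, hk, mul_comm, mul_div_assoc, div_self hp0, mul_one]
      exact hu
    have h2 : ∀ r, r ≠ r₁ → y i j r / ϖ ∈ P.nonunits := by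
      intro r hr
      have hm2 : 2 ≤ m j r := by
        have h3 : m j r ≠ 1 := by
          intro h4
          apply hr
          apply hinj j
          rw [h4, hr₁]
        have := hm1 j r
        omega
      have h5 : y i j r / ϖ = (y i j r / ϖ ^ m j r) * ϖ ^ (m j r - 1) := by
        have : ϖ ^ m j r = ϖ ^ (m j r - 1) * ϖ := by
          rw [← pow_succ]
          congr 1
          omega
        rw [this]
        field_simp
      rw [h5]
      exact disc_mul_nonunit (hdiv i j r) (disc_pow_nonunit (by omega) hϖm)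
    have h6 : x i j / ϖ = y i j r₁ / ϖ + ∑ r ∈ Finset.univ.erase r₁, y i j r / ϖ := by
      rw [hxsum i j, Finset.sum_div, ← Finset.add_sum_erase Finset.univ _ (Finset.mem_univ r₁)]
    have h7 : IsPUnit P (x i j / ϖ) := by
      rw [h6]
      exact h1.add_nonunit (disc_sum_nonunit _ _
        (fun r hr => h2 r (Finset.ne_of_mem_erase hr)))
    have h8 : (x i j) ^ d / (p : Kb) = (x i j / ϖ) ^ d := by
      rw [div_pow, hϖ]
    rw [h8]
    exact h7.pow d

end Fermat.Agent.FFL
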