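/-
Lib/FFL/FB/ELine (S56-W4 case C, block KT, leaf KT-E; helper41): **the off-diagonal lines**.

`EStatement`: a smooth character `χ` of `N1` with CHEAP and with the quadratic `τ`-relation
`w² χ(τ⁻² g τ²) - t w χ(τ⁻¹ g τ) + n χ(g) = 0` (`X² - t X + n ≡ (X - θ²)(X - θ^(2p))`) has a Kummer
generator `β` with `v(β - 1) ≥ (p² + 1)/(p (p² - 1))`.

Proof (blueprint-W4C-KT): `KumExist` gives a generator in normal form.
* non-unit normal form: `DepthNU` against CHEAP gives `1 / p^(p+1) ∈ P`: impossible;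
* unit normal form of level `s`: `Depth` against CHEAP gives `s ≥ p + 1`; `KumRel` for
  `σ = (τ², τ, 1)`, `w = (w², w, 1)`, `n = (1, -t, n)` gives `(θ^s - θ²)(θ^s - θ^(2p)) ∈ 𝔪`, so
  `s ≡ 2` or `s ≡ 2p` modulo `p² - 1`; with `p + 1 ≤ s < p² + p`, `p ∤ s`: `s = p² + 1`; then
  `GoodOfLevel`.
The other leaves enter as explicit hypotheses.
-/
import Fermat.Agent.Lib.FFL.FB.KTDefs
import Fermat.Agent.Lib.FFL.FB.FieldTame

set_option autoImplicit false
set_option linter.unusedVariables false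

namespace Fermat.Agent.FFL.FB

open Fermat.Agent.FFL

local notation "Kb" => AlgebraicClosure ℚ
local notation "GK" => (AlgebraicClosure ℚ ≃ₐ[ℚ] AlgebraicClosure ℚ)

variable {p : ℕ} {P : ValuationSubring Kb} {π1 : Kb}

/-- `1 / p ^ k` is not in `P` for `k ≥ 1`. -/
theorem el_inv_pow_not_mem (hp : p.Prime) (hP : P.LiesOverPrime p) {k : ℕ} (hk : k ≠ 0) :
    (1 : Kb) / (p : Kb) ^ k ∉ P := by
  intro h
  have hp0 : (p : Kb) ≠ 0 := ar_p_ne_zero hp
  have hv := (P.valuation_le_one_iff _).2 h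
  have hvp : P.valuation (p : Kb) < 1 := ar_val_p_lt hP
  have hvp0 : P.valuation (p : Kb) ≠ 0 := (Valuation.ne_zero_iff _).2 hp0
  rw [map_div₀, map_one, map_pow,
    div_le_iff₀ (pow_pos (zero_lt_iff.2 hvp0) _), one_mul] at hv
  exact absurd (pow_lt_one₀ zero_le hvp hk) (not_lt.2 hv)

/-- `p ^ a / p ^ b ∈ P` forces `b ≤ a`. -/
theorem el_pow_div_pow_mem (hp : p.Prime) (hP : P.LiesOverPrime p) {a b : ℕ}
    (h : (p : Kb) ^ a / (p : Kb) ^ b ∈ P) : b ≤ a := by
  by_contra hlt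
  rw [not_le] at hlt
  have hp0 : (p : Kb) ≠ 0 := ar_p_ne_zero hp
  have h1 : (p : Kb) ^ a / (p : Kb) ^ b = 1 / (p : Kb) ^ (b - a) := by
    rw [div_eq_div_iff (pow_ne_zero _ hp0) (pow_ne_zero _ hp0), one_mul, ← pow_add]
    congr 1
    omega
  rw [h1] at h
  exact el_inv_pow_not_mem hp hP (by omega) h

/-- CHEAP against a depth bound `v(g x - x) ≥ c / (p (p² - 1))`: then `c ≤ p²`. -/
theorem el_cheap_vs_depth (hp : p.Prime) (hP : P.LiesOverPrime p) {y : Kb} (hy : y ≠ 0) {c : ℕ}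
    (hcheap : (p : Kb) ^ p / y ^ (p ^ 2 - 1) ∈ P)
    (hdepth : y ^ (p * (p ^ 2 - 1)) / (p : Kb) ^ c ∈ P) : c ≤ p ^ 2 := by
  apply el_pow_div_pow_mem hp hP
  have hp0 : (p : Kb) ≠ 0 := ar_p_ne_zero hp
  have h1 : (p : Kb) ^ (p ^ 2) / (p : Kb) ^ c =
      ((p : Kb) ^ p / y ^ (p ^ 2 - 1)) ^ p * (y ^ (p * (p ^ 2 - 1)) / (p : Kb) ^ c) := by
    have hy1 : y ^ (p ^ 2 - 1) ≠ 0 := pow_ne_zero _ hy
    have hy2 : y ^ (p * (p ^ 2 - 1)) ≠ 0 := pow_ne_zero _ hy
    rw [div_pow, ← pow_mul, ← pow_mul, mul_comm (p ^ 2 - 1) p, ← sq]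
    field_simp
  rw [h1]
  exact P.mul_mem _ _ (pow_mem hcheap p) hdepth

/-- Arithmetic: `s ≡ 2` modulo `p² - 1`, `p + 1 ≤ s < p² + p` gives `s = p² + 1`. -/
theorem el_arith_two {p s : ℕ} (hp3 : 3 ≤ p) (hs1 : p + 1 ≤ s) (hs2 : s < p ^ 2 + p)
    (h : (p ^ 2 - 1) ∣ (s - 2)) : s = p ^ 2 + 1 := by
  have hq : 3 * p ≤ p ^ 2 := by nlinarith
  obtain ⟨k, hk⟩ := h
  rcases k with _ | _ | k
  · omega
  · omega
  · have h2 : 2 * (p ^ 2 - 1) ≤ (p ^ 2 - 1) * (k + 1 + 1) := by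
      rw [mul_comm 2]
      exact Nat.mul_le_mul_left _ (by omega)
    omega

/-- Arithmetic: `s ≡ 2p` modulo `p² - 1`, `p + 1 ≤ s < p² + p` gives `p ∣ s`. -/
theorem el_arith_twop {p s : ℕ} (hp3 : 3 ≤ p) (hs1 : p + 1 ≤ s) (hs2 : s < p ^ 2 + p)
    (h : (2 * p ≤ s ∧ (p ^ 2 - 1) ∣ (s - 2 * p)) ∨ (s < 2 * p ∧ (p ^ 2 - 1) ∣ (2 * p - s))) :
    p ∣ s := by
  have hq : 3 * p ≤ p ^ 2 := by nlinarith
  rcases h with ⟨h1, k, hk⟩ | ⟨h1, k, hk⟩
  · rcases k with _ | k
    · have : s = 2 * p := by omega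
      rw [this]
      exact dvd_mul_left p 2
    · have h2 : (p ^ 2 - 1) ≤ (p ^ 2 - 1) * (k + 1) := Nat.le_mul_of_pos_right _ (by omega)
      omega
  · rcases k with _ | k
    · omega
    · have h2 : (p ^ 2 - 1) ≤ (p ^ 2 - 1) * (k + 1) := Nat.le_mul_of_pos_right _ (by omega)
      omega

/-- A product of two elements of `P` which is a nonunit has a nonunit factor. -/
theorem el_mul_mem_nonunits {x y : Kb} (hx : x ∈ P) (hy : y ∈ P) (h : x * y ∈ P.nonunits) :
    x ∈ P.nonunits ∨ y ∈ P.nonunits := by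
  by_contra hcon
  rw [not_or, ValuationSubring.mem_nonunits_iff, ValuationSubring.mem_nonunits_iff, not_lt,
    not_lt] at hcon
  rw [ValuationSubring.mem_nonunits_iff, map_mul] at h
  have h1 : P.valuation x = 1 := le_antisymm ((P.valuation_le_one_iff _).2 hx) hcon.1
  have h2 : P.valuation y = 1 := le_antisymm ((P.valuation_le_one_iff _).2 hy) hcon.2
  rw [h1, h2, one_mul] at h
  exact lt_irrefl _ h

/-- A root of unity has valuation `1`. -/
theorem el_val_root {θ : Kb} {e : ℕ} (he : e ≠ 0) (h : θ ^ e = 1) : P.valuation θ = 1 := by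
  have h1 : P.valuation θ ^ e = 1 := by rw [← map_pow, h, map_one]
  exact (pow_eq_one_iff_of_nonneg zero_le he).1 h1

/-- If `θ ^ a (θ ^ b - 1)` is a nonunit (`θ` a root of unity), so is `θ ^ b - 1`. -/
theorem el_root_factor {θ : Kb} {e : ℕ} (he : e ≠ 0) (h : θ ^ e = 1) {a b : ℕ}
    (hm : θ ^ a * (θ ^ b - 1) ∈ P.nonunits) : θ ^ b - 1 ∈ P.nonunits := by
  rw [ValuationSubring.mem_nonunits_iff] at hm ⊢
  rwa [map_mul, map_pow, el_val_root he h, one_pow, one_mul] at hm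

/-- **KT-E**: the off-diagonal line analysis. -/
theorem eLine (hp : p.Prime) (hp2 : p ≠ 2) (hP : P.LiesOverPrime p) (hπ : IsPi1 p π1)
    (hexist : KumExistStatement p P π1) (hdepth : DepthStatement p P π1)
    (hdepthNU : DepthNUStatement p P π1) (hrel : KumRelStatement p P π1)
    (hgood : GoodOfLevelStatement p P π1) : EStatement p P π1 := by
  intro ζ χ τ w t n hζ hχ hsm hτ hτζ hR ht hn hcheap
  have hp3 : 3 ≤ p := by
    have := hp.two_le
    omega
  have hq : 3 * p ≤ p ^ 2 := by nlinarith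
  have hT := tameSetting_of_isPi1 hp hP hπ
  have hπ0 : π1 ≠ 0 := hT.hπ0
  by_cases h0 : ∀ g ∈ stabI P π1, χ g = 0
  · refine ⟨1, ⟨one_ne_zero, fun g hg => ?_⟩, ?_⟩
    · rw [h0 g hg, ZMod.val_zero, pow_zero, mul_one, map_one]
    · rw [sub_self, zero_pow (by
        have : 0 < p * (p ^ 2 - 1) := Nat.mul_pos hp.pos (by omega)
        omega), zero_div]
      exact P.zero_mem
  rw [not_forall] at h0
  obtain ⟨g, h0⟩ := h0
  rw [Classical.not_imp] at h0
  obtain ⟨hg, hχg⟩ := h0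
  obtain ⟨x, hxP, hxfix, hy0, hch⟩ := hcheap g hg hχg
  obtain ⟨β, hβ, hcase⟩ := hexist ζ χ hζ hχ hsm
  rcases hcase with h0 | ⟨m, hm0, hmp, hm1, hm2⟩ | ⟨s, a, hNF⟩
  · exact absurd (h0 g hg) hχg
  · exfalso
    have hd := hdepthNU ζ χ β m hζ hχ hβ hm0 hmp hm1 hm2 x hxP hxfix g hg
    have := el_cheap_vs_depth hp hP hy0 hch hd
    omega
  · have hNF' := hNF
    obtain ⟨hs0, hslt, hps, haR, hau, hlc⟩ := hNF
    have hd := hdepth ζ χ β a s hζ hχ hβ hs0 hslt hps haR hau hlc x hxP hxfix g hg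
    have hc := el_cheap_vs_depth hp hP hy0 hch hd
    have hs1 : p + 1 ≤ s := by omega
    refine ⟨β, hβ, hgood β a s hNF' ?_⟩
    -- the relation
    set θ : Kb := τ π1 / π1 with hθ
    have hτI := hτ.1
    have hτD : τ ∈ P.decompositionSubgroup ℚ := hT.mem_decomp_of_inertia hτI
    have hθe : θ ^ (p ^ 2 - 1) = 1 := hT.tame_pow_eq_one hτI
    have he0 : p ^ 2 - 1 ≠ 0 := by omega
    have hθv : P.valuation θ = 1 := el_val_root he0 hθe
    have hθP : θ ∈ P := (P.valuation_le_one_iff _).1 hθv.le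
    have hθθ : (τ * τ) π1 / π1 = θ * θ := hT.tame_mul hτI hτI
    have haτ : τ a = a := haR.2 τ hτI
    have hrel' := hrel ζ χ β a s hζ hχ hβ hNF' 3 ![τ * τ, τ, 1] ![w * w, w, 1] ![1, -t, n]
      (by
        intro j
        fin_cases j
        · exact mul_mem hτD hτD
        · exact hτD
        · exact one_mem _)
      (by
        intro j
        fin_cases j
        · show (τ * τ) ζ = ζ ^ (w * w)
          rw [AlgEquiv.mul_apply, hτζ, map_pow, hτζ, ← pow_mul]
        · exact hτζ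
        · show (1 : GK) ζ = ζ ^ 1
          rw [pow_one, AlgEquiv.one_apply])
      (by
        intro g' hg'
        have h1 := hR g' hg'
        rw [Fin.sum_univ_three]
        show (1 : ℤ) • (((w * w : ℕ) : ZMod p) * χ ((τ * τ)⁻¹ * g' * (τ * τ))) +
          (-t) • ((w : ZMod p) * χ (τ⁻¹ * g' * τ)) +
          n • (((1 : ℕ) : ZMod p) * χ ((1 : GK)⁻¹ * g' * 1)) = 0
        have h2 : (τ * τ)⁻¹ * g' * (τ * τ) = τ⁻¹ * (τ⁻¹ * g' * τ) * τ := by group
        rw [h2, one_smul, neg_smul, Nat.cast_mul, Nat.cast_one, one_mul, inv_one, one_mul,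
          mul_one, mul_assoc, ← sub_eq_add_neg]
        exact h1)
    rw [Fin.sum_univ_three] at hrel'
    have hrel'' : ((1 : ℤ) : Kb) * (((τ * τ) π1 / π1) ^ s * (τ * τ) a) +
        ((-t : ℤ) : Kb) * ((τ π1 / π1) ^ s * τ a) +
        (n : Kb) * (((1 : GK) π1 / π1) ^ s * (1 : GK) a) ∈ P.nonunits := hrel'
    rw [hθθ, AlgEquiv.mul_apply, haτ, haτ, AlgEquiv.one_apply, AlgEquiv.one_apply,
      div_self hπ0, one_pow, one_mul, Int.cast_one, one_mul, Int.cast_neg] at hrel''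
    have hE : (θ ^ (2 * s) - (t : Kb) * θ ^ s + (n : Kb)) * a ∈ P.nonunits := by
      have : (θ ^ (2 * s) - (t : Kb) * θ ^ s + (n : Kb)) * a =
          (θ * θ) ^ s * a + -(t : Kb) * (θ ^ s * a) + (n : Kb) * a := by ring
      rw [this]
      exact hrel''
    have hav : P.valuation a = 1 := (by
      have h := hau
      rw [ValuationSubring.mem_nonunits_iff, not_lt] at h
      exact le_antisymm ((P.valuation_le_one_iff _).2 haR.1) h)
    have hE' : θ ^ (2 * s) - (t : Kb) * θ ^ s + (n : Kb) ∈ P.nonunits := by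
      rw [ValuationSubring.mem_nonunits_iff] at hE ⊢
      rwa [map_mul, hav, mul_one] at hE
    have hF : (θ ^ s - θ ^ 2) * (θ ^ s - θ ^ (2 * p)) ∈ P.nonunits := by
      have : (θ ^ s - θ ^ 2) * (θ ^ s - θ ^ (2 * p)) =
          (θ ^ (2 * s) - (t : Kb) * θ ^ s + (n : Kb)) +
            (((t : Kb) - (θ ^ 2 + θ ^ (2 * p))) * θ ^ s - ((n : Kb) - θ ^ (2 * p + 2))) := by
        ring
      rw [this]
      exact red_add_mem_nonunits P hE' (red_sub_mem_nonunits P
        (red_mul_mem_nonunits_right P ht (pow_mem hθP s)) hn)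
    rcases el_mul_mem_nonunits (sub_mem (pow_mem hθP _) (pow_mem hθP _))
      (sub_mem (pow_mem hθP _) (pow_mem hθP _)) hF with h2 | h2p
    · -- `θ ^ s ≡ θ ^ 2`
      have h3 : θ ^ 2 * (θ ^ (s - 2) - 1) ∈ P.nonunits := by
        have : θ ^ 2 * (θ ^ (s - 2) - 1) = θ ^ s - θ ^ 2 := by
          rw [mul_sub, mul_one, ← pow_add]
          congr 2
          omega
        rw [this]
        exact h2
      have h4 := hτ.2 (s - 2) (el_root_factor he0 hθe h3)
      have := el_arith_two hp3 hs1 hslt h4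
      omega
    · -- `θ ^ s ≡ θ ^ (2 p)`: impossible
      exfalso
      apply hps
      apply el_arith_twop hp3 hs1 hslt
      rcases le_or_gt (2 * p) s with hle | hlt
      · left
        refine ⟨hle, hτ.2 _ (el_root_factor (a := 2 * p) he0 hθe ?_)⟩
        have : θ ^ (2 * p) * (θ ^ (s - 2 * p) - 1) = θ ^ s - θ ^ (2 * p) := by
          rw [mul_sub, mul_one, ← pow_add]
          congr 2
          omega
        rw [this]
        exact h2p
      · right
        refine ⟨hlt, hτ.2 _ (el_root_factor (a := s) he0 hθe ?_)⟩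
        have : θ ^ s * (θ ^ (2 * p - s) - 1) = -(θ ^ s - θ ^ (2 * p)) := by
          rw [mul_sub, mul_one, ← pow_add, neg_sub]
          congr 2
          omega
        rw [this]
        exact red_neg_mem_nonunits P h2p

end Fermat.Agent.FFL.FB
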