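/-
Lib/FFL/FB/Eis (R4-FB seat EIS, helper70): the EISENSTEIN TWIST.

Blueprint NOTES/blueprint-R4-FB.md.  Setting: `P | p` a valuation subring of `ℚ̄`, `R' = inertiaRing P`,
`π1 ^ e1 = -p`, `N1` a subgroup of the inertia group fixing `π1`, `O1 = eisFix P N1` (the ring of
`N1`-fixed elements of `P`), `Γ ≤ N1`, `OΓ = eisFix P Γ`.

Input from FIELD (as hypotheses, in the unique-representation form `EisPowRep`):
* `hF3` : `O1 = R'[π1]`, basis `1, π1, .., π1^(e1-1)` over `R'`;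
* `hF2` : `OΓ = O1[ϖ]`, basis `1, ϖ, .., ϖ^(d-1)` over `O1`.

Output (`eis_main`): for EVERY `ε ∈ O1` there are a subgroup `ΓE ≤ N1` of finite index `≤ d` and a
ring homomorphism `η : OΓ →+* O_{ΓE} ⧸ (p ε)` which is the identity on `R'` and maps `π1` to
`π1 (1 + ε)`.

Proof: `O1 ≅ R'[Y]/(Y^e1 + p)` and `OΓ ≅ O1[X]/(F)` (universal property of a power generator,
`eisPowRep_lift`, through `AdjoinRoot`); `π1 (1 + ε)` satisfies `Y^e1 + p ≡ 0` modulo `p ε`; the
twisted polynomial `F^τ` is lifted to a monic `G ∈ O1[X]`, `ϖ'` is a root of `G` in `ℚ̄`,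
`ΓE` the stabiliser of `ϖ'` in `N1` (index = size of the orbit `≤ deg G = d`).
-/
import Mathlib
import Fermat.Agent.Lib.FFL.Defs

set_option autoImplicit false

namespace Fermat.Agent.FFL.FB

open Polynomial

/-- `x` is a power generator of `B` over `A` (via `ι`) with `d` powers: every element of `B` is
`∑_{i<d} ι (r i) x ^ i` for a unique `r`. -/
def EisPowRep {A B : Type*} [CommRing A] [CommRing B] (ι : A →+* B) (x : B) (d : ℕ) : Prop :=
  ∀ b : B, ∃! r : Fin d → A, b = ∑ i, ι (r i) * x ^ (i : ℕ)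

section generic

variable {A B T : Type*} [CommRing A] [CommRing B] [CommRing T]

/-- Evaluation of a polynomial of degree `< d` as a sum over `Fin d`. -/
theorem eis_eval₂_eq_sum_fin (ι : A →+* B) (x : B) {d : ℕ} {q : A[X]} (hq : q.natDegree < d) :
    q.eval₂ ι x = ∑ i : Fin d, ι (q.coeff i) * x ^ (i : ℕ) := by
  rw [eval₂_eq_sum_range' ι hq x, Finset.sum_range]

/-- The polynomial with prescribed coefficients below `d`. -/
noncomputable def eisPoly (d : ℕ) (r : Fin d → A) : A[X] :=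
  ∑ i : Fin d, C (r i) * X ^ (i : ℕ)

theorem eisPoly_coeff (d : ℕ) (r : Fin d → A) (i : Fin d) : (eisPoly d r).coeff i = r i := by
  classical
  unfold eisPoly
  rw [finsetSum_coeff]
  rw [Finset.sum_eq_single i]
  · rw [coeff_C_mul, coeff_X_pow, if_pos rfl, mul_one]
  · intro j _ hj
    rw [coeff_C_mul, coeff_X_pow, if_neg, mul_zero]
    intro h
    exact hj (Fin.ext h.symm)
  · intro h
    exact absurd (Finset.mem_univ i) h

theorem eisPoly_degree_lt (d : ℕ) (r : Fin d → A) : (eisPoly d r).degree < d := by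
  unfold eisPoly
  refine lt_of_le_of_lt (degree_sum_le _ _) ?_
  refine (Finset.sup_lt_iff (WithBot.bot_lt_coe d)).2 ?_
  intro i _
  refine lt_of_le_of_lt (degree_C_mul_X_pow_le _ _) ?_
  exact WithBot.coe_lt_coe.2 i.2

theorem eisPoly_eval₂ (ι : A →+* B) (x : B) (d : ℕ) (r : Fin d → A) :
    (eisPoly d r).eval₂ ι x = ∑ i : Fin d, ι (r i) * x ^ (i : ℕ) := by
  unfold eisPoly
  rw [eval₂_finsetSum]
  refine Finset.sum_congr rfl fun i _ => ?_
  rw [eval₂_mul, eval₂_C, eval₂_pow, eval₂_X]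

/-- A power generator is a root of a monic polynomial of degree `d`. -/
theorem eisPowRep_exists_monic [Nontrivial A] (ι : A →+* B) (x : B) (d : ℕ)
    (h : EisPowRep ι x d) :
    ∃ F : A[X], F.Monic ∧ F.natDegree = d ∧ F.eval₂ ι x = 0 := by
  obtain ⟨c, hc, -⟩ := h (x ^ d)
  refine ⟨X ^ d - eisPoly d c, monic_X_pow_sub (eisPoly_degree_lt d c), ?_, ?_⟩
  · have h1 : (X ^ d - eisPoly d c).degree = (d : WithBot ℕ) := by
      rw [degree_sub_eq_left_of_degree_lt]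
      · exact degree_X_pow d
      · rw [degree_X_pow]
        exact eisPoly_degree_lt d c
    exact natDegree_eq_of_degree_eq_some h1
  · rw [eval₂_sub, eval₂_pow, eval₂_X, eisPoly_eval₂, ← hc, sub_self]

/-- **Universal property** of a ring with a power generator. -/
theorem eisPowRep_lift [Nontrivial A] (ι : A →+* B) (x : B) (d : ℕ) (h : EisPowRep ι x d)
    (F : A[X]) (hF : F.Monic) (hFd : F.natDegree = d) (hFx : F.eval₂ ι x = 0)
    (g : A →+* T) (t : T) (ht : F.eval₂ g t = 0) :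
    ∃ ψ : B →+* T, (∀ a, ψ (ι a) = g a) ∧ ψ x = t := by
  classical
  set φ : AdjoinRoot F →+* B := AdjoinRoot.lift ι x hFx with hφ
  have hsurj : Function.Surjective φ := by
    intro b
    obtain ⟨r, hr, -⟩ := h b
    refine ⟨AdjoinRoot.mk F (eisPoly d r), ?_⟩
    rw [hφ, AdjoinRoot.lift_mk, eisPoly_eval₂, ← hr]
  have hinj : Function.Injective φ := by
    rw [injective_iff_map_eq_zero]
    intro y hy
    obtain ⟨q, rfl⟩ := AdjoinRoot.mk_surjective y
    have hq : AdjoinRoot.mk F q = AdjoinRoot.mk F (q %ₘ F) := by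
      rw [AdjoinRoot.mk_eq_mk]
      refine ⟨q /ₘ F, ?_⟩
      have := modByMonic_add_div q F
      linear_combination -this
    rw [hq] at hy ⊢
    have hdeg : (q %ₘ F).natDegree < d ∨ d = 0 := by
      by_cases hF1 : F = 1
      · right
        rw [← hFd, hF1, natDegree_one]
      · left
        rw [← hFd]
        exact natDegree_modByMonic_lt q hF hF1
    rcases hdeg with hdeg | hd0
    · rw [hφ, AdjoinRoot.lift_mk, eis_eval₂_eq_sum_fin ι x hdeg] at hy
      obtain ⟨r, -, hr⟩ := h 0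
      have h1 : (fun i : Fin d => (q %ₘ F).coeff i) = r := hr _ hy.symm
      have h2 : (fun _ : Fin d => (0 : A)) = r := hr _ (by simp)
      have h3 : ∀ i : Fin d, (q %ₘ F).coeff i = 0 := fun i => by
        have := congrFun (h1.trans h2.symm) i
        exact this
      have h4 : q %ₘ F = 0 := by
        ext n
        rw [coeff_zero]
        by_cases hn : n < d
        · exact h3 ⟨n, hn⟩
        · exact coeff_eq_zero_of_natDegree_lt (by omega)
      rw [h4, map_zero]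
    · have hF1 : F = 1 := by
        have : F.natDegree = 0 := by rw [hFd, hd0]
        exact hF.natDegree_eq_zero.1 this
      have : (q %ₘ F) = 0 := by rw [hF1]; exact modByMonic_one q
      rw [this, map_zero]
  let e : AdjoinRoot F ≃+* B := RingEquiv.ofBijective φ ⟨hinj, hsurj⟩
  refine ⟨(AdjoinRoot.lift g t ht).comp e.symm.toRingHom, fun a => ?_, ?_⟩
  · have h1 : e (AdjoinRoot.of F a) = ι a := by
      show φ (AdjoinRoot.of F a) = ι a
      rw [hφ, AdjoinRoot.lift_of]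
    have h2 : e.symm (ι a) = AdjoinRoot.of F a := by
      rw [← h1, RingEquiv.symm_apply_apply]
    show (AdjoinRoot.lift g t ht) (e.symm (ι a)) = g a
    rw [h2, AdjoinRoot.lift_of]
  · have h1 : e (AdjoinRoot.root F) = x := by
      show φ (AdjoinRoot.root F) = x
      rw [hφ, AdjoinRoot.lift_root]
    have h2 : e.symm x = AdjoinRoot.root F := by
      rw [← h1, RingEquiv.symm_apply_apply]
    show (AdjoinRoot.lift g t ht) (e.symm x) = t
    rw [h2, AdjoinRoot.lift_root]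

end generic


section core

variable {K : Type*} [Field K] [IsAlgClosed K]

/-- `d ≠ 0` for a power generator of a nontrivial ring. -/
theorem eisPowRep_dim_ne_zero {A B : Type*} [CommRing A] [CommRing B] [Nontrivial B]
    (ι : A →+* B) (x : B) (d : ℕ) (h : EisPowRep ι x d) : d ≠ 0 := by
  rintro rfl
  obtain ⟨r, hr, -⟩ := h 1
  rw [Finset.univ_eq_empty, Finset.sum_empty] at hr
  exact one_ne_zero hr

/-- **Eisenstein twist, algebraic core.**  `R ≤ O1 ≤ OΓ` subrings of an algebraically closed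
field, `O1 = R[π1]` with `π1 ^ e1 = a ∈ R`, `OΓ = O1[ϖ]` (power generators), `ε ∈ O1`, and
`b ∈ O1` a nonunit dividing `a ε`.  Then there are a monic `G ∈ O1[X]` of degree `d` and a root
`ϖ'` of `G` such that for EVERY subring `OE ⊇ O1` containing `ϖ'` there is a ring homomorphism
`η : OΓ → OE ⧸ (b)` which is the identity on `R` and sends `π1` to `π1 (1 + ε)`. -/
theorem eis_core (R O1 OΓ : Subring K) (hR1 : R ≤ O1) (h1Γ : O1 ≤ OΓ)
    (π1 : O1) (ϖ : OΓ) (e1 d : ℕ)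
    (hb1 : EisPowRep (Subring.inclusion hR1) π1 e1)
    (hb2 : EisPowRep (Subring.inclusion h1Γ) ϖ d)
    (a : R) (hπa : π1 ^ e1 = Subring.inclusion hR1 a) (ε : O1)
    (b : O1) (hb : b ∣ Subring.inclusion hR1 a * ε) (hnt : Ideal.span {b} ≠ ⊤) :
    ∃ (G : O1[X]) (ϖ' : K), G.Monic ∧ G.natDegree = d ∧ G.eval₂ O1.subtype ϖ' = 0 ∧
      ∀ (OE : Subring K) (h1E : O1 ≤ OE), ϖ' ∈ OE →
        ∃ η : OΓ →+* OE ⧸ Ideal.span {Subring.inclusion h1E b},
          (∀ r : R, η (Subring.inclusion (hR1.trans h1Γ) r) =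
            Ideal.Quotient.mk _ (Subring.inclusion (hR1.trans h1E) r)) ∧
          η (Subring.inclusion h1Γ π1) =
            Ideal.Quotient.mk _ (Subring.inclusion h1E (π1 * (1 + ε))) := by
  classical
  set ι1 := Subring.inclusion hR1 with hι1
  set ι2 := Subring.inclusion h1Γ with hι2
  set J1 : Ideal O1 := Ideal.span {b} with hJ1
  have hntq : Nontrivial (O1 ⧸ J1) := Ideal.Quotient.nontrivial_iff.2 hnt
  have he1 : e1 ≠ 0 := eisPowRep_dim_ne_zero ι1 π1 e1 hb1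
  have hd : d ≠ 0 := eisPowRep_dim_ne_zero ι2 ϖ d hb2
  -- step 1: the twisted map on `O1`
  set F1 : R[X] := X ^ e1 - C a with hF1
  have hF1m : F1.Monic := monic_X_pow_sub_C a he1
  have hF1d : F1.natDegree = e1 := natDegree_X_pow_sub_C
  have hF1x : F1.eval₂ ι1 π1 = 0 := by
    rw [hF1, eval₂_sub, eval₂_pow, eval₂_X, eval₂_C, hπa, sub_self]
  set g0 : R →+* O1 ⧸ J1 := (Ideal.Quotient.mk J1).comp ι1 with hg0
  set t1 : O1 ⧸ J1 := Ideal.Quotient.mk J1 (π1 * (1 + ε)) with ht1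
  have hF1t : F1.eval₂ g0 t1 = 0 := by
    rw [hF1, eval₂_sub, eval₂_pow, eval₂_X, eval₂_C, hg0, ht1, RingHom.comp_apply, ← map_pow,
      ← map_sub, Ideal.Quotient.eq_zero_iff_mem, hJ1, Ideal.mem_span_singleton]
    obtain ⟨c, hc⟩ : ε ∣ (1 + ε) ^ e1 - 1 := by
      have := sub_dvd_pow_sub_pow (1 + ε) 1 e1
      rwa [add_sub_cancel_left, one_pow] at this
    obtain ⟨b', hb'⟩ := hb
    refine ⟨b' * c, ?_⟩
    rw [mul_pow, hπa]
    linear_combination (ι1 a) * hc + c * hb'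
  obtain ⟨φ1, hφ1, hφ1π⟩ := eisPowRep_lift ι1 π1 e1 hb1 F1 hF1m hF1d hF1x g0 t1 hF1t
  -- step 2: the twisted polynomial
  obtain ⟨F, hFm, hFd, hFx⟩ := eisPowRep_exists_monic ι2 ϖ d hb2
  have hlift : F.map φ1 ∈ lifts (Ideal.Quotient.mk J1) :=
    (mem_lifts _).2 (map_surjective _ Ideal.Quotient.mk_surjective _)
  obtain ⟨G, hGF, hGd, hGm⟩ := lifts_and_natDegree_eq_and_monic hlift (hFm.map φ1)
  have hGd' : G.natDegree = d := by rw [hGd, hFm.natDegree_map, hFd]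
  -- step 3: a root
  have hdeg : (G.map O1.subtype).degree ≠ 0 := by
    rw [degree_eq_natDegree (hGm.map O1.subtype).ne_zero, hGm.natDegree_map, hGd']
    exact_mod_cast hd
  obtain ⟨ϖ', hϖ'⟩ := IsAlgClosed.exists_root (G.map O1.subtype) hdeg
  have hϖ'0 : G.eval₂ O1.subtype ϖ' = 0 := by
    rw [eval₂_eq_eval_map]
    exact hϖ'
  refine ⟨G, ϖ', hGm, hGd', hϖ'0, fun OE h1E hϖE => ?_⟩
  set ιE := Subring.inclusion h1E with hιE
  set JE : Ideal OE := Ideal.span {ιE b} with hJE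
  have hle : J1 ≤ Ideal.comap ιE JE := by
    rw [hJ1, Ideal.span_le, Set.singleton_subset_iff]
    exact Ideal.subset_span (Set.mem_singleton _)
  set κ : O1 ⧸ J1 →+* OE ⧸ JE := Ideal.quotientMap JE ιE hle with hκ
  set g1 : O1 →+* OE ⧸ JE := κ.comp φ1 with hg1
  set t : OE ⧸ JE := Ideal.Quotient.mk JE ⟨ϖ', hϖE⟩ with ht
  have hκmk : κ.comp (Ideal.Quotient.mk J1) = (Ideal.Quotient.mk JE).comp ιE := by
    ext x
    simp [hκ]
  have hG0 : G.eval₂ ιE ⟨ϖ', hϖE⟩ = 0 := by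
    apply Subtype.ext
    have h1 : OE.subtype (G.eval₂ ιE ⟨ϖ', hϖE⟩) = G.eval₂ (OE.subtype.comp ιE) (OE.subtype ⟨ϖ', hϖE⟩) :=
      hom_eval₂ G ιE OE.subtype _
    have h2 : OE.subtype.comp ιE = O1.subtype := by
      ext x
      rfl
    rw [h2] at h1
    show OE.subtype (G.eval₂ ιE ⟨ϖ', hϖE⟩) = 0
    rw [h1]
    exact hϖ'0
  have hFt : F.eval₂ g1 t = 0 := by
    rw [hg1, ← eval₂_map, ← hGF, eval₂_map, hκmk, ht, ← hom_eval₂, hG0, map_zero]
  obtain ⟨η, hη, hηϖ⟩ := eisPowRep_lift ι2 ϖ d hb2 F hFm hFd hFx g1 t hFt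
  refine ⟨η, fun r => ?_, ?_⟩
  · have h1 : Subring.inclusion (hR1.trans h1Γ) r = ι2 (ι1 r) := rfl
    rw [h1, hη, hg1, RingHom.comp_apply, hφ1, hg0, RingHom.comp_apply]
    show κ ((Ideal.Quotient.mk J1) (ι1 r)) = _
    rw [hκ, Ideal.quotientMap_mk]
    rfl
  · rw [hη, hg1, RingHom.comp_apply, hφ1π, ht1, hκ, Ideal.quotientMap_mk]

end core

section wiring

local notation "Kb" => AlgebraicClosure ℚ
local notation "GK" => (AlgebraicClosure ℚ ≃ₐ[ℚ] AlgebraicClosure ℚ)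

/-- The ring of `Γ`-fixed elements of `P`. -/
def eisFix (P : ValuationSubring Kb) (Γ : Subgroup GK) : Subring Kb where
  carrier := {a | a ∈ P ∧ ∀ σ ∈ Γ, σ a = a}
  mul_mem' := fun {a b} ha hb => ⟨P.mul_mem _ _ ha.1 hb.1, fun σ hσ => by
    rw [map_mul, ha.2 σ hσ, hb.2 σ hσ]⟩
  one_mem' := ⟨P.one_mem, fun σ _ => map_one σ⟩
  add_mem' := fun {a b} ha hb => ⟨P.add_mem _ _ ha.1 hb.1, fun σ hσ => by
    rw [map_add, ha.2 σ hσ, hb.2 σ hσ]⟩
  zero_mem' := ⟨P.zero_mem, fun σ _ => map_zero σ⟩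
  neg_mem' := fun {a} ha => ⟨P.neg_mem _ ha.1, fun σ hσ => by rw [map_neg, ha.2 σ hσ]⟩

theorem mem_eisFix {P : ValuationSubring Kb} {Γ : Subgroup GK} {a : Kb} :
    a ∈ eisFix P Γ ↔ a ∈ P ∧ ∀ σ ∈ Γ, σ a = a := Iff.rfl

theorem eisFix_mono (P : ValuationSubring Kb) {Γ Γ' : Subgroup GK} (h : Γ ≤ Γ') :
    eisFix P Γ' ≤ eisFix P Γ :=
  fun _ ha => ⟨ha.1, fun σ hσ => ha.2 σ (h hσ)⟩

theorem inertiaRing_le_eisFix (P : ValuationSubring Kb) {Γ : Subgroup GK}
    (h : Γ ≤ P.inertiaSubgroupIn ℚ) : Fermat.Agent.FFL.inertiaRing P ≤ eisFix P Γ :=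
  fun _ ha => ⟨ha.1, fun σ hσ => ha.2 σ (h hσ)⟩

/-- A root of a monic polynomial over a subring of `P` lies in `P`. -/
theorem eis_mem_of_root (P : ValuationSubring Kb) (O : Subring Kb) (hO : O ≤ P.toSubring)
    (G : O[X]) (hG : G.Monic) (x : Kb) (hx : G.eval₂ O.subtype x = 0) : x ∈ P := by
  have hint : IsIntegral P x := by
    refine ⟨G.map (Subring.inclusion hO), hG.map _, ?_⟩
    rw [eval₂_map]
    have : (algebraMap P Kb).comp (Subring.inclusion hO) = O.subtype := by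
      ext y
      rfl
    rw [this]
    exact hx
  obtain ⟨y, hy⟩ := IsIntegrallyClosed.isIntegral_iff.1 hint
  rw [← hy]
  exact y.2

/-- The stabiliser in `N1` of a root of a monic polynomial with `N1`-fixed coefficients has
finite index, at most the degree. -/
theorem eis_relIndex_stab (N1 : Subgroup GK) (O : Subring Kb)
    (hfix : ∀ x ∈ O, ∀ σ ∈ N1, σ x = x) (G : O[X]) (hG : G.Monic) (x : Kb)
    (hx : G.eval₂ O.subtype x = 0) :
    (N1 ⊓ MulAction.stabilizer GK x).relIndex N1 ≠ 0 ∧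
      (N1 ⊓ MulAction.stabilizer GK x).relIndex N1 ≤ G.natDegree := by
  classical
  have h1 : (N1 ⊓ MulAction.stabilizer GK x).relIndex N1 = (MulAction.orbit N1 x).ncard := by
    rw [Subgroup.inf_relIndex_left, ← MulAction.index_stabilizer]
    rfl
  set G' : Kb[X] := G.map O.subtype with hG'
  have hG'0 : G' ≠ 0 := (hG.map O.subtype).ne_zero
  have hsub : MulAction.orbit N1 x ⊆ (G'.roots.toFinset : Set Kb) := by
    rintro _ ⟨σ, rfl⟩
    rw [Finset.mem_coe, Multiset.mem_toFinset, mem_roots hG'0, IsRoot, hG', eval_map]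
    have h2 := hom_eval₂ G O.subtype ((σ : GK) : Kb →+* Kb) x
    have h3 : (((σ : GK) : Kb →+* Kb)).comp O.subtype = O.subtype := by
      ext y
      exact hfix y y.2 σ σ.2
    rw [h3, hx, map_zero] at h2
    exact h2.symm
  have hfin : (MulAction.orbit N1 x).Finite := (Finset.finite_toSet _).subset hsub
  rw [h1]
  refine ⟨Set.ncard_ne_zero_of_mem (MulAction.mem_orbit_self x) hfin, ?_⟩
  calc (MulAction.orbit N1 x).ncard ≤ (G'.roots.toFinset : Set Kb).ncard :=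
        Set.ncard_le_ncard hsub (Finset.finite_toSet _)
    _ = G'.roots.toFinset.card := Set.ncard_coe_finset _
    _ ≤ G'.roots.card := Multiset.toFinset_card_le _
    _ ≤ G'.natDegree := card_roots' _
    _ = G.natDegree := hG.natDegree_map _


/-- `p ε` generates a proper ideal of `eisFix P Γ`. -/
theorem eis_span_ne_top {p : ℕ} (P : ValuationSubring Kb) (hP : P.LiesOverPrime p)
    (Γ : Subgroup GK) (b : eisFix P Γ) (c : Kb) (hc : c ∈ P) (hb : (b : Kb) = (p : Kb) * c) :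
    Ideal.span {b} ≠ ⊤ := by
  intro h
  have h1 : (1 : eisFix P Γ) ∈ Ideal.span {b} := by rw [h]; exact Submodule.mem_top
  obtain ⟨y, hy⟩ := Ideal.mem_span_singleton.1 h1
  have h2 : (1 : Kb) = (p : Kb) * (c * (y : Kb)) := by
    have := congrArg (Subtype.val) hy
    rw [Subring.coe_mul, hb] at this
    rw [← mul_assoc]
    exact this
  have h3 : P.valuation ((p : Kb) * (c * (y : Kb))) < 1 := by
    rw [map_mul]
    have hp1 : P.valuation (p : Kb) < 1 := (P.mem_nonunits_iff).1 hP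
    have hc1 : P.valuation (c * (y : Kb)) ≤ 1 :=
      (P.valuation_le_one_iff _).2 (P.mul_mem _ _ hc y.2.1)
    calc P.valuation (p : Kb) * P.valuation (c * (y : Kb))
        ≤ P.valuation (p : Kb) * 1 := mul_le_mul_right hc1 _
      _ = P.valuation (p : Kb) := mul_one _
      _ < 1 := hp1
  rw [← h2, map_one] at h3
  exact lt_irrefl _ h3

/-- **EIS (Eisenstein twist)**, from the two FIELD facts `hF3` (`O1 = R'[π1]`) and `hF2`
(`OΓ = O1[ϖ]`).  `N1` is any subgroup of the inertia group fixing `π1`, `π1 ^ e1 = -p`; `ε ∈ O1`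
is arbitrary.  There is a subgroup `ΓE ≤ N1` of finite index `≤ d` and, for every presentation
`y` of `p ε` in `eisFix P ΓE`, a ring homomorphism `η : OΓ → O_{ΓE} ⧸ (p ε)` which is the identity
on `R'` and sends `π1` to `π1 (1 + ε)`. -/
theorem eis_main (p : ℕ) (P : ValuationSubring Kb) (hP : P.LiesOverPrime p) (π1 : Kb) (e1 : ℕ)
    (hπ1 : π1 ^ e1 = -(p : Kb)) (N1 : Subgroup GK) (hN1 : N1 ≤ P.inertiaSubgroupIn ℚ)
    (hπ1N : π1 ∈ eisFix P N1)
    (hF3 : EisPowRep (Subring.inclusion (inertiaRing_le_eisFix P hN1)) ⟨π1, hπ1N⟩ e1)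
    (Γ : Subgroup GK) (hΓ : Γ ≤ N1) (d : ℕ)
    (hF2 : ∃ ϖ : eisFix P Γ, EisPowRep (Subring.inclusion (eisFix_mono P hΓ)) ϖ d)
    (ε : Kb) (hε : ε ∈ eisFix P N1) :
    ∃ ΓE : Subgroup GK, ΓE ≤ N1 ∧ ΓE.relIndex N1 ≠ 0 ∧ ΓE.relIndex N1 ≤ d ∧
      ∀ y : eisFix P ΓE, (y : Kb) = (p : Kb) * ε →
        ∃ η : eisFix P Γ →+* eisFix P ΓE ⧸ Ideal.span {y},
          (∀ (r : eisFix P Γ) (r' : eisFix P ΓE), (r : Kb) ∈ Fermat.Agent.FFL.inertiaRing P →
            (r' : Kb) = r → η r = Ideal.Quotient.mk _ r') ∧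
          (∀ (x : eisFix P Γ) (x' : eisFix P ΓE), (x : Kb) = π1 →
            (x' : Kb) = π1 * (1 + ε) → η x = Ideal.Quotient.mk _ x') := by
  classical
  obtain ⟨ϖ, hϖ⟩ := hF2
  have hpR : (p : Kb) ∈ Fermat.Agent.FFL.inertiaRing P := natCast_mem _ p
  obtain ⟨a, ha⟩ : ∃ a : Fermat.Agent.FFL.inertiaRing P, (a : Kb) = -(p : Kb) :=
    ⟨⟨-(p : Kb), neg_mem hpR⟩, rfl⟩
  have hR1 : Fermat.Agent.FFL.inertiaRing P ≤ eisFix P N1 := inertiaRing_le_eisFix P hN1
  have h1Γ : eisFix P N1 ≤ eisFix P Γ := eisFix_mono P hΓ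
  have hpO1 : (p : Kb) ∈ eisFix P N1 := natCast_mem _ p
  obtain ⟨b, hb⟩ : ∃ b : eisFix P N1, (b : Kb) = (p : Kb) * ε :=
    ⟨⟨(p : Kb) * ε, mul_mem hpO1 hε⟩, rfl⟩
  have hπa : (⟨π1, hπ1N⟩ : eisFix P N1) ^ e1 = Subring.inclusion hR1 a := by
    apply Subtype.ext
    rw [SubmonoidClass.coe_pow]
    show π1 ^ e1 = (a : Kb)
    rw [ha, hπ1]
  have hbdvd : b ∣ Subring.inclusion hR1 a * ⟨ε, hε⟩ := by
    refine ⟨-1, Subtype.ext ?_⟩
    rw [Subring.coe_mul, Subring.coe_mul, Subring.coe_neg, Subring.coe_one, hb]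
    show (a : Kb) * ε = (p : Kb) * ε * (-1 : Kb)
    rw [ha]
    ring
  have hnt : Ideal.span {b} ≠ ⊤ := eis_span_ne_top P hP N1 b ε hε.1 hb
  obtain ⟨G, ϖ', hGm, hGd, hG0, hη⟩ :=
    eis_core (Fermat.Agent.FFL.inertiaRing P) (eisFix P N1) (eisFix P Γ) hR1 h1Γ ⟨π1, hπ1N⟩ ϖ e1 d
      hF3 hϖ a hπa ⟨ε, hε⟩ b hbdvd hnt
  have hO1P : eisFix P N1 ≤ P.toSubring := fun x hx => hx.1
  have hϖ'P : ϖ' ∈ P := eis_mem_of_root P (eisFix P N1) hO1P G hGm ϖ' hG0
  have hfix : ∀ x ∈ eisFix P N1, ∀ σ ∈ N1, σ x = x := fun x hx σ hσ => hx.2 σ hσ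
  obtain ⟨hidx0, hidx⟩ := eis_relIndex_stab N1 (eisFix P N1) hfix G hGm ϖ' hG0
  rw [hGd] at hidx
  set ΓE : Subgroup GK := N1 ⊓ MulAction.stabilizer GK ϖ' with hΓE
  have hΓE1 : ΓE ≤ N1 := inf_le_left
  have h1E : eisFix P N1 ≤ eisFix P ΓE := eisFix_mono P hΓE1
  have hϖ'E : ϖ' ∈ eisFix P ΓE := ⟨hϖ'P, fun σ hσ => hσ.2⟩
  refine ⟨ΓE, hΓE1, hidx0, hidx, fun y hy => ?_⟩
  obtain rfl : y = Subring.inclusion h1E b := Subtype.ext (hy.trans hb.symm)
  obtain ⟨η, hηR, hηπ⟩ := hη (eisFix P ΓE) h1E hϖ'E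
  refine ⟨η, fun r r' hr hrr' => ?_, fun x x' hx hx' => ?_⟩
  · have e1 : r = Subring.inclusion (hR1.trans h1Γ) ⟨(r : Kb), hr⟩ := Subtype.ext rfl
    have e2 : r' = Subring.inclusion (hR1.trans h1E) ⟨(r : Kb), hr⟩ := Subtype.ext hrr'
    rw [e1, e2]
    exact hηR _
  · have e1 : x = Subring.inclusion h1Γ ⟨π1, hπ1N⟩ := Subtype.ext hx
    have e2 : x' = Subring.inclusion h1E ((⟨π1, hπ1N⟩ : eisFix P N1) * (1 + ⟨ε, hε⟩)) :=
      Subtype.ext hx'
    rw [e1, e2]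
    exact hηπ

end wiring

end Fermat.Agent.FFL.FB
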