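/-
Lib/FFL/FB, block KT of S56-W4 case C, leaf KT-ETA (helper71; sub-architect helper91).

`etaLine : EtaStatement p P π1` (the diagonal line), from the leaves `U1aStatement`,
`KumExistStatement`, `KumUniqueStatement`, `KumRelStatement`, `CycTameStatement`, `DepthStatement`,
`DepthNUStatement`, taken as explicit hypotheses.

Proof.  Let `χ ∈ X` be nonzero on `N1`.
* (A) `KumExist` gives a generator in normal form; CHEAP^p · DEPTH gives `p^(p²) / p^(p²+p+1-s) ∈ P`,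
  so `s ≥ p + 1` (`etaL_level_ge`), and the non-unit normal form is impossible
  (`etaL_not_nonunitNF`).
* (B) `KumRel` with `σ = (τ, 1)`, `n = (1, -w)`: `θ(τ)^s ≡ w ≡ θ(τ)^(p+1)` (`CycTame`), so
  `s = p + 1` (`etaL_level_eq`).
* (C) `KumRel` with `σ = (φ, 1)`, `n = (1, w_φ)`: `ξ^(p+1) a^p + w_φ a ∈ 𝔪` (`etaL_frob_rel`).
* (D) for two nonzero members: `(a / a₁)^p ≡ a / a₁`, so `a ≡ n a₁` for an integer `n`
  (`etaL_lc_prop`, `etaL_congr_nat`, `etaL_frob_fixed`); then `β / β₁^n` is a generator of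
  `χ - n χ₁ ∈ X` of level `≥ p + 2` (`etaL_gen_sub`, `etaL_level_sub`), so `χ = n χ₁` on `N1` by
  (A), (B) and `KumUnique`.
* (E) so `χ₁` generates the family on `N1`: SHARP^p · DEPTH (`s = p + 1`) gives
  `p^p / p^(p²) ∈ P`: false.
-/
import Mathlib
import Fermat.Agent.Lib.FFL.Base
import Fermat.Agent.Lib.FFL.FB.KTDefs

set_option autoImplicit false
set_option linter.style.haveILetI false
set_option linter.unusedSectionVars false

namespace Fermat.Agent.FFL.FB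

open Fermat.Agent.FFL Polynomial

local notation "Kb" => AlgebraicClosure ℚ
local notation "GK" => (AlgebraicClosure ℚ ≃ₐ[ℚ] AlgebraicClosure ℚ)

variable {p : ℕ} {P : ValuationSubring Kb} {π1 : Kb}

/-! ### Elementary facts on the maximal ideal -/

theorem etaL_mem {x : Kb} (hx : x ∈ P.nonunits) : x ∈ P := by
  rw [ValuationSubring.mem_nonunits_iff] at hx
  exact (P.valuation_le_one_iff x).1 hx.le

theorem etaL_add {x y : Kb} (hx : x ∈ P.nonunits) (hy : y ∈ P.nonunits) :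
    x + y ∈ P.nonunits := by
  rw [ValuationSubring.mem_nonunits_iff] at hx hy ⊢
  exact lt_of_le_of_lt (P.valuation.map_add x y) (max_lt hx hy)

theorem etaL_neg {x : Kb} (hx : x ∈ P.nonunits) : -x ∈ P.nonunits := by
  rw [ValuationSubring.mem_nonunits_iff] at hx ⊢
  rwa [Valuation.map_neg]

theorem etaL_sub {x y : Kb} (hx : x ∈ P.nonunits) (hy : y ∈ P.nonunits) :
    x - y ∈ P.nonunits := by
  rw [sub_eq_add_neg]
  exact etaL_add hx (etaL_neg hy)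

theorem etaL_mul_left {x y : Kb} (hx : x ∈ P) (hy : y ∈ P.nonunits) :
    x * y ∈ P.nonunits := by
  rw [ValuationSubring.mem_nonunits_iff] at hy ⊢
  rw [map_mul]
  exact mul_lt_one_of_nonneg_of_lt_one_right ((P.valuation_le_one_iff x).2 hx) zero_le hy

theorem etaL_mul_right {x y : Kb} (hx : x ∈ P.nonunits) (hy : y ∈ P) :
    x * y ∈ P.nonunits := by
  rw [mul_comm]
  exact etaL_mul_left hy hx

theorem etaL_one_not_mem : (1 : Kb) ∉ P.nonunits := by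
  rw [ValuationSubring.mem_nonunits_iff, map_one]
  exact lt_irrefl _

/-- Cancelling a unit. -/
theorem etaL_cancel {u x : Kb} (hu : u ∈ P) (hu' : u ∉ P.nonunits) (hx : u * x ∈ P.nonunits) :
    x ∈ P.nonunits := by
  have hinv : u⁻¹ ∈ P := base_inv_mem_of_not_mem_nonunits hu hu'
  have hu0 : u ≠ 0 := by
    rintro rfl
    apply hu'
    rw [ValuationSubring.mem_nonunits_iff, map_zero]
    exact zero_lt_one
  have : x = u⁻¹ * (u * x) := by
    rw [← mul_assoc, inv_mul_cancel₀ hu0, one_mul]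
  rw [this]
  exact etaL_mul_left hinv hx

/-- Units are closed under products. -/
theorem etaL_unit_mul {u v : Kb} (hu : u ∈ P) (hu' : u ∉ P.nonunits) (hv' : v ∉ P.nonunits) :
    u * v ∉ P.nonunits := fun h => hv' (etaL_cancel hu hu' h)

theorem etaL_unit_pow {u : Kb} (hu : u ∈ P) (hu' : u ∉ P.nonunits) (n : ℕ) :
    u ^ n ∉ P.nonunits := by
  induction n with
  | zero => rw [pow_zero]; exact etaL_one_not_mem
  | succ n ih => rw [pow_succ']; exact etaL_unit_mul hu hu' ih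

/-- A root of unity is a unit of `P`. -/
theorem etaL_unit_of_pow_eq_one {x : Kb} {n : ℕ} (hn : 0 < n) (h : x ^ n = 1) :
    x ∈ P ∧ x ∉ P.nonunits := by
  have hv : P.valuation x ^ n = 1 := by rw [← map_pow, h, map_one]
  have h1 : P.valuation x = 1 := by
    rcases lt_trichotomy (P.valuation x) 1 with hlt | heq | hgt
    · exact absurd hv (ne_of_lt (pow_lt_one₀ zero_le hlt hn.ne'))
    · exact heq
    · exact absurd hv (ne_of_gt (one_lt_pow₀ hgt hn.ne'))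
  constructor
  · exact (P.valuation_le_one_iff x).1 h1.le
  · rw [ValuationSubring.mem_nonunits_iff, h1]
    exact lt_irrefl _

theorem etaL_p_ne_zero (hp : p.Prime) : (p : Kb) ≠ 0 := Nat.cast_ne_zero.2 hp.ne_zero

theorem etaL_pi_ne_zero (hp : p.Prime) (hπ : IsPi1 p π1) : π1 ≠ 0 := by
  rintro rfl
  have h0 : p ^ 2 - 1 ≠ 0 := by
    have := hp.two_le
    have : 4 ≤ p ^ 2 := by nlinarith
    omega
  unfold IsPi1 at hπ
  rw [zero_pow h0] at hπ
  exact etaL_p_ne_zero hp (neg_eq_zero.1 hπ.symm)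

/-- `θ(σ) = σ π1 / π1` is a `(p² - 1)`-th root of unity. -/
theorem etaL_theta_pow (hp : p.Prime) (hπ : IsPi1 p π1) (σ : GK) :
    (σ π1 / π1) ^ (p ^ 2 - 1) = 1 := by
  have hπ0 := etaL_pi_ne_zero hp hπ
  unfold IsPi1 at hπ
  rw [div_pow, ← map_pow, hπ, map_neg, map_natCast]
  exact div_self (neg_ne_zero.2 (etaL_p_ne_zero hp))

theorem etaL_theta_unit (hp : p.Prime) (hπ : IsPi1 p π1) (σ : GK) :
    σ π1 / π1 ∈ P ∧ σ π1 / π1 ∉ P.nonunits := by
  have h0 : 0 < p ^ 2 - 1 := by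
    have := hp.two_le
    have : 4 ≤ p ^ 2 := by nlinarith
    omega
  exact etaL_unit_of_pow_eq_one h0 (etaL_theta_pow hp hπ σ)

/-- The inertia group is contained in the decomposition group. -/
theorem etaL_inertia_le {σ : GK} (hσ : σ ∈ P.inertiaSubgroupIn ℚ) :
    σ ∈ P.decompositionSubgroup ℚ := by
  obtain ⟨σ', -, rfl⟩ := Subgroup.mem_map.1 hσ
  exact σ'.2

/-- In a field of characteristic `p`, a fixed point of Frobenius is the image of an integer. -/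
theorem etaL_frob_fixed {k : Type*} [Field k] (hp : p.Prime) [CharP k p] {x : k}
    (hx : x ^ p = x) : ∃ n : ℕ, x = (n : k) := by
  classical
  haveI : Fact p.Prime := ⟨hp⟩
  letI : Algebra (ZMod p) k := ZMod.algebra k p
  have hroots : (X ^ p - X : (ZMod p)[X]).roots = Finset.univ.val := by
    have := FiniteField.roots_X_pow_card_sub_X (ZMod p)
    rwa [ZMod.card] at this
  have hmonic : (X ^ p - X : (ZMod p)[X]).Monic := by
    apply Polynomial.monic_X_pow_sub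
    rw [degree_X]
    exact_mod_cast hp.one_lt
  have hdeg : (X ^ p - X : (ZMod p)[X]).natDegree = p :=
    FiniteField.X_pow_card_sub_X_natDegree_eq _ hp.one_lt
  have hprod : (∏ a : ZMod p, (X - C a)) = (X ^ p - X : (ZMod p)[X]) := by
    have h := Polynomial.prod_multiset_X_sub_C_of_monic_of_roots_card_eq hmonic (by
      rw [hroots, hdeg]
      simp [ZMod.card])
    rw [hroots] at h
    exact h
  have hmap := congrArg (Polynomial.map (algebraMap (ZMod p) k)) hprod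
  rw [Polynomial.map_prod] at hmap
  have hev := congrArg (Polynomial.eval x) hmap
  rw [Polynomial.eval_prod] at hev
  simp only [Polynomial.map_sub, Polynomial.map_X, Polynomial.map_C, Polynomial.map_pow,
    eval_sub, eval_X, eval_C, eval_pow] at hev
  rw [hx, sub_self, Finset.prod_eq_zero_iff] at hev
  obtain ⟨a, -, ha⟩ := hev
  refine ⟨a.val, ?_⟩
  rw [sub_eq_zero] at ha
  rw [ha]
  have : (algebraMap (ZMod p) k) a = (algebraMap (ZMod p) k) ((a.val : ℕ) : ZMod p) := by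
    rw [ZMod.natCast_zmod_val]
  rw [this, map_natCast]

/-- If `c ∈ P` and `c ^ p ≡ c` modulo the maximal ideal, then `c` is congruent to an integer. -/
theorem etaL_congr_nat (hp : p.Prime) (hP : P.LiesOverPrime p) {c : Kb} (hc : c ∈ P)
    (h : c ^ p - c ∈ P.nonunits) : ∃ n : ℕ, c - (n : Kb) ∈ P.nonunits := by
  have hpk : ((p : ℕ) : IsLocalRing.ResidueField P) = 0 := by
    have h1 : (IsLocalRing.residue P) ((p : ℕ) : P) = 0 := by
      rw [IsLocalRing.residue_eq_zero_iff]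
      have := (P.mem_nonunits_iff_exists_mem_maximalIdeal (a := (p : Kb))).1 hP
      obtain ⟨ha, hm⟩ := this
      exact hm
    rwa [map_natCast] at h1
  haveI : CharP (IsLocalRing.ResidueField P) p :=
    (CharP.charP_iff_prime_eq_zero hp).2 hpk
  have hx : (IsLocalRing.residue P ⟨c, hc⟩) ^ p = IsLocalRing.residue P ⟨c, hc⟩ := by
    rw [← map_pow, ← sub_eq_zero, ← map_sub, IsLocalRing.residue_eq_zero_iff]
    obtain ⟨ha, hm⟩ := (P.mem_nonunits_iff_exists_mem_maximalIdeal (a := c ^ p - c)).1 h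
    exact hm
  obtain ⟨n, hn⟩ := etaL_frob_fixed hp hx
  refine ⟨n, ?_⟩
  rw [P.mem_nonunits_iff_exists_mem_maximalIdeal]
  refine ⟨sub_mem hc (natCast_mem P n), ?_⟩
  rw [← IsLocalRing.residue_eq_zero_iff]
  have : (⟨c - (n : Kb), sub_mem hc (natCast_mem P n)⟩ : P) = ⟨c, hc⟩ - ((n : ℕ) : P) := by
    apply Subtype.ext
    simp
  rw [this, map_sub, hn, map_natCast, sub_self]

/-! ### Powers of `ζ` -/

theorem etaL_zeta_congr {ζ : Kb} (hζ : ζ ^ p = 1) {m n : ℕ}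
    (h : ((m : ℕ) : ZMod p) = ((n : ℕ) : ZMod p)) : ζ ^ m = ζ ^ n := by
  rw [pow_eq_pow_mod m hζ, pow_eq_pow_mod n hζ]
  rw [ZMod.natCast_eq_natCast_iff'] at h
  rw [h]

/-- The existence of the exponent of `σ` on `ζ`. -/
theorem etaL_exists_exp (hp : p.Prime) {ζ : Kb} (hζ : IsPrimitiveRoot ζ p) (σ : GK) :
    ∃ w : ℕ, σ ζ = ζ ^ w := by
  haveI : NeZero p := ⟨hp.ne_zero⟩
  have h1 : (σ ζ) ^ p = 1 := by rw [← map_pow, hζ.pow_eq_one, map_one]
  obtain ⟨i, -, hi⟩ := hζ.eq_pow_of_pow_eq_one h1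
  exact ⟨i, hi.symm⟩

/-- A Kummer generator of `χ - n χ₁`. -/
theorem etaL_gen_sub (hp : p.Prime) {N : Set GK} {ζ : Kb} (hζ : IsPrimitiveRoot ζ p)
    {χ χ₁ : GK → ZMod p} {β β₁ : Kb} (hβ : IsKummerGen p N ζ χ β)
    (hβ₁ : IsKummerGen p N ζ χ₁ β₁) (n : ℕ) :
    IsKummerGen p N ζ (fun g => χ g - (n : ℤ) • χ₁ g) (β / β₁ ^ n) := by
  haveI : NeZero p := ⟨hp.ne_zero⟩
  refine ⟨div_ne_zero hβ.1 (pow_ne_zero _ hβ₁.1), fun g hg => ?_⟩
  have hζ0 : ζ ≠ 0 := hζ.ne_zero hp.ne_zero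
  rw [map_div₀, map_pow, hβ.2 g hg, hβ₁.2 g hg, mul_pow]
  have key : ζ ^ (χ g).val = ζ ^ (χ g - (n : ℤ) • χ₁ g).val * (ζ ^ (χ₁ g).val) ^ n := by
    rw [← pow_mul, ← pow_add]
    apply etaL_zeta_congr hζ.pow_eq_one
    push_cast
    rw [ZMod.natCast_zmod_val, ZMod.natCast_zmod_val, ZMod.natCast_zmod_val]
    simp only [zsmul_eq_mul, Int.cast_natCast]
    ring
  rw [key]
  have h1 : (ζ ^ (χ₁ g).val) ^ n ≠ 0 := pow_ne_zero _ (pow_ne_zero _ hζ0)
  have h2 : β₁ ^ n ≠ 0 := pow_ne_zero _ hβ₁.1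
  field_simp

/-! ### Leading coefficients -/

theorem etaL_lc_one (i : ℕ) : LcAt P π1 i 1 0 := by
  unfold LcAt
  rw [sub_self, zero_mul, sub_zero, zero_div]
  exact P.zero_mem

theorem etaL_lc_pow (hU : U1aStatement P π1) {i : ℕ} (hi : 0 < i) {u a : Kb} (ha : a ∈ P)
    (h : LcAt P π1 i u a) (n : ℕ) : LcAt P π1 i (u ^ n) ((n : Kb) * a) := by
  induction n with
  | zero =>
    rw [pow_zero, Nat.cast_zero, zero_mul]
    exact etaL_lc_one i
  | succ n ih =>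
    have h1 := hU.2.2.2.2.1 i (u ^ n) u ((n : Kb) * a) a hi
      (P.mul_mem _ _ (natCast_mem P n) ha) ha ih h
    rw [pow_succ]
    have : ((n + 1 : ℕ) : Kb) * a = (n : Kb) * a + a := by
      push_cast
      ring
    rw [this]
    exact h1

/-- The level of the generator of `χ - n χ₁` rises when `a ≡ n a₁`. -/
theorem etaL_level_sub (hU : U1aStatement P π1) {i : ℕ} (hi : 0 < i) {β β₁ a a₁ : Kb}
    (ha : a ∈ inertiaRing P) (ha₁ : a₁ ∈ inertiaRing P)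
    (h : LcAt P π1 i (β ^ p) a) (h₁ : LcAt P π1 i (β₁ ^ p) a₁) (n : ℕ)
    (hn : a - (n : Kb) * a₁ ∈ P.nonunits) :
    InU P π1 (i + 1) ((β / β₁ ^ n) ^ p) := by
  have haP : a ∈ P := (mem_inertiaRing.1 ha).1
  have ha₁P : a₁ ∈ P := (mem_inertiaRing.1 ha₁).1
  have hnaP : (n : Kb) * a₁ ∈ P := P.mul_mem _ _ (natCast_mem P n) ha₁P
  have h2 := etaL_lc_pow hU hi ha₁P h₁ n
  have h3 := hU.2.2.2.2.2 i ((β₁ ^ p) ^ n) ((n : Kb) * a₁) hi hnaP h2
  have h4 := hU.2.2.2.2.1 i (β ^ p) (((β₁ ^ p) ^ n)⁻¹) a (-((n : Kb) * a₁)) hi haP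
    (P.neg_mem _ hnaP) h h3
  have heq : (β / β₁ ^ n) ^ p = β ^ p * ((β₁ ^ p) ^ n)⁻¹ := by
    rw [div_pow, div_eq_mul_inv, ← pow_mul, ← pow_mul, mul_comm n p]
  rw [heq, hU.2.2.2.1]
  have hR : a + -((n : Kb) * a₁) ∈ inertiaRing P :=
    (inertiaRing P).add_mem ha ((inertiaRing P).neg_mem
      ((inertiaRing P).mul_mem (natCast_mem _ n) ha₁))
  refine hU.2.1 i _ (a + -((n : Kb) * a₁)) 0 hR (inertiaRing P).zero_mem h4 ?_
  rw [sub_zero, ← sub_eq_add_neg]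
  exact hn

/-! ### Step A: CHEAP + DEPTH give level `≥ p + 1` -/

theorem etaL_sq_ge (hp : p.Prime) : 4 ≤ p ^ 2 := by
  have := hp.two_le
  nlinarith

/-- `(p ^ a / y ^ b) ^ p` in the form used below. -/
theorem etaL_div_pow_mem {y : Kb} {a b : ℕ} (h : (p : Kb) ^ a / y ^ b ∈ P) :
    (p : Kb) ^ (p * a) / y ^ (p * b) ∈ P := by
  have h1 := pow_mem h p
  rwa [div_pow, ← pow_mul, ← pow_mul, mul_comm a p, mul_comm b p] at h1

theorem etaL_level_ge (hp : p.Prime) (hP : P.LiesOverPrime p) (hD : DepthStatement p P π1)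
    {ζ : Kb} {χ : GK → ZMod p} {β a : Kb} {s : ℕ} (hζ : IsPrimitiveRoot ζ p)
    (hχ : IsCharOn p (stabI P π1) χ) (hβ : IsKummerGen p (stabI P π1 : Set GK) ζ χ β)
    (hNF : UnitNF p P π1 s a (β ^ p)) (hC : CheapAt p P π1 χ)
    {g : GK} (hg : g ∈ stabI P π1) (hgχ : χ g ≠ 0) : p + 1 ≤ s := by
  obtain ⟨x, hxP, hxfix, hne, hcheap⟩ := hC g hg hgχ
  obtain ⟨hs0, hs1, hs2, haR, hau, hlc⟩ := hNF
  have hd := hD ζ χ β a s hζ hχ hβ hs0 hs1 hs2 haR hau hlc x hxP hxfix g hg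
  have hc := etaL_div_pow_mem hcheap
  have hy : (g x - x) ^ (p * (p ^ 2 - 1)) ≠ 0 := pow_ne_zero _ hne
  have hle := le_of_div_mem_of_div_mem hp.ne_zero hP hy hd hc
  have h4 := etaL_sq_ge hp
  have hpp : p * p = p ^ 2 := by ring
  rw [hpp] at hle
  generalize p ^ 2 = q at hle h4 hs1
  omega

theorem etaL_not_nonunitNF (hp : p.Prime) (hP : P.LiesOverPrime p)
    (hDN : DepthNUStatement p P π1)
    {ζ : Kb} {χ : GK → ZMod p} {β : Kb} {m : ℕ} (hζ : IsPrimitiveRoot ζ p)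
    (hχ : IsCharOn p (stabI P π1) χ) (hβ : IsKummerGen p (stabI P π1 : Set GK) ζ χ β)
    (hNF : NonunitNF p P π1 m (β ^ p)) (hC : CheapAt p P π1 χ)
    {g : GK} (hg : g ∈ stabI P π1) (hgχ : χ g ≠ 0) : False := by
  obtain ⟨x, hxP, hxfix, hne, hcheap⟩ := hC g hg hgχ
  obtain ⟨hm0, hm1, hm2, hm3⟩ := hNF
  have hd := hDN ζ χ β m hζ hχ hβ hm0 hm1 hm2 hm3 x hxP hxfix g hg
  have hc := etaL_div_pow_mem hcheap
  have hy : (g x - x) ^ (p * (p ^ 2 - 1)) ≠ 0 := pow_ne_zero _ hne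
  have hle := le_of_div_mem_of_div_mem hp.ne_zero hP hy hd hc
  have hpp : p * p = p ^ 2 := by ring
  rw [hpp] at hle
  omega

/-! ### Step B: `τ`-invariance gives level `= p + 1` -/

theorem etaL_level_eq (hp : p.Prime) (hπ : IsPi1 p π1)
    (hKR : KumRelStatement p P π1) (hCT : CycTameStatement p P π1)
    {ζ : Kb} {χ : GK → ZMod p} {β a : Kb} {s : ℕ} {τ : GK} (hζ : IsPrimitiveRoot ζ p)
    (hχ : IsCharOn p (stabI P π1) χ) (hβ : IsKummerGen p (stabI P π1 : Set GK) ζ χ β)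
    (hNF : UnitNF p P π1 s a (β ^ p)) (hτ : TameGen p P π1 τ)
    (hτχ : ∀ g ∈ stabI P π1, χ (τ⁻¹ * g * τ) = χ g) (hs : p + 1 ≤ s) : s = p + 1 := by
  have hπ0 := etaL_pi_ne_zero hp hπ
  obtain ⟨w, hw⟩ := etaL_exists_exp hp hζ τ
  have hrel := hKR ζ χ β a s hζ hχ hβ hNF 2 ![τ, 1] ![w, 1] ![1, -(w : ℤ)]
    (by
      intro j
      fin_cases j
      · exact etaL_inertia_le hτ.1
      · exact one_mem _)
    (by
      intro j
      fin_cases j
      · exact hw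
      · show (1 : GK) ζ = ζ ^ 1
        rw [pow_one]
        rfl)
    (by
      intro g hg
      rw [Fin.sum_univ_two]
      simp only [Matrix.cons_val_zero, Matrix.cons_val_one, Matrix.cons_val_fin_one]
      rw [hτχ g hg, inv_one, one_mul, mul_one]
      simp only [zsmul_eq_mul, Int.cast_one, Int.cast_neg, Int.cast_natCast, Nat.cast_one]
      ring)
  rw [Fin.sum_univ_two] at hrel
  simp only [Matrix.cons_val_zero, Matrix.cons_val_one, Matrix.cons_val_fin_one] at hrel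
  obtain ⟨hs0, hs1, hs2, haR, hau, hlc⟩ := hNF
  have haP : a ∈ P := (mem_inertiaRing.1 haR).1
  have hτa : τ a = a := (mem_inertiaRing.1 haR).2 τ hτ.1
  have h1 : ((1 : GK) π1) = π1 := rfl
  have h1a : ((1 : GK) a) = a := rfl
  rw [hτa, h1, h1a, div_self hπ0, one_pow, one_mul] at hrel
  have hθ := etaL_theta_unit (P := P) hp hπ τ
  have h2 : a * ((τ π1 / π1) ^ s - (w : Kb)) ∈ P.nonunits := by
    have : a * ((τ π1 / π1) ^ s - (w : Kb)) =
        ((1 : ℤ) : Kb) * ((τ π1 / π1) ^ s * a) + ((-(w : ℤ) : ℤ) : Kb) * a := by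
      push_cast
      ring
    rw [this]
    exact hrel
  have h3 : (τ π1 / π1) ^ s - (w : Kb) ∈ P.nonunits := etaL_cancel haP hau h2
  have h4 := hCT ζ τ w hζ hτ.1 hw
  have h5 : (τ π1 / π1) ^ s - (τ π1 / π1) ^ (p + 1) ∈ P.nonunits := by
    have := etaL_add h3 h4
    rwa [sub_add_sub_cancel] at this
  have h6 : (τ π1 / π1) ^ (p + 1) * ((τ π1 / π1) ^ (s - (p + 1)) - 1) ∈ P.nonunits := by
    have : (τ π1 / π1) ^ (p + 1) * ((τ π1 / π1) ^ (s - (p + 1)) - 1) =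
        (τ π1 / π1) ^ s - (τ π1 / π1) ^ (p + 1) := by
      rw [mul_sub, mul_one, ← pow_add, Nat.add_sub_cancel' hs]
    rw [this]
    exact h5
  have h7 := etaL_cancel (pow_mem hθ.1 _) (etaL_unit_pow hθ.1 hθ.2 _) h6
  have h8 := hτ.2 _ h7
  have h4' := etaL_sq_ge hp
  have h9 : s - (p + 1) = 0 := by
    apply Nat.eq_zero_of_dvd_of_lt h8
    generalize p ^ 2 = q at h4' hs1 ⊢
    omega
  omega

/-! ### Step C: the Frobenius relation -/

theorem etaL_frob_rel (hp : p.Prime) (hπ : IsPi1 p π1)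
    (hKR : KumRelStatement p P π1)
    {ζ : Kb} {χ : GK → ZMod p} {β a : Kb} {s : ℕ} {φ : GK} {w : ℕ}
    (hζ : IsPrimitiveRoot ζ p)
    (hχ : IsCharOn p (stabI P π1) χ) (hβ : IsKummerGen p (stabI P π1 : Set GK) ζ χ β)
    (hNF : UnitNF p P π1 s a (β ^ p)) (hφ : φ ∈ P.decompositionSubgroup ℚ)
    (hφF : ∀ a ∈ inertiaRing P, φ a - a ^ p ∈ P.nonunits)
    (hφχ : ∀ g ∈ stabI P π1, χ (φ⁻¹ * g * φ) = -χ g) (hw : φ ζ = ζ ^ w) :
    (φ π1 / π1) ^ s * a ^ p + (w : Kb) * a ∈ P.nonunits := by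
  have hπ0 := etaL_pi_ne_zero hp hπ
  have hrel := hKR ζ χ β a s hζ hχ hβ hNF 2 ![φ, 1] ![w, 1] ![1, (w : ℤ)]
    (by
      intro j
      fin_cases j
      · exact hφ
      · exact one_mem _)
    (by
      intro j
      fin_cases j
      · exact hw
      · show (1 : GK) ζ = ζ ^ 1
        rw [pow_one]
        rfl)
    (by
      intro g hg
      rw [Fin.sum_univ_two]
      simp only [Matrix.cons_val_zero, Matrix.cons_val_one, Matrix.cons_val_fin_one]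
      rw [hφχ g hg, inv_one, one_mul, mul_one]
      simp only [zsmul_eq_mul, Int.cast_one, Int.cast_natCast, Nat.cast_one]
      ring)
  rw [Fin.sum_univ_two] at hrel
  simp only [Matrix.cons_val_zero, Matrix.cons_val_one, Matrix.cons_val_fin_one] at hrel
  obtain ⟨hs0, hs1, hs2, haR, hau, hlc⟩ := hNF
  have h1 : ((1 : GK) π1) = π1 := rfl
  have h1a : ((1 : GK) a) = a := rfl
  rw [h1, h1a, div_self hπ0, one_pow, one_mul] at hrel
  have hθ := etaL_theta_unit (P := P) hp hπ φ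
  have hF := hφF a haR
  have h2 : (φ π1 / π1) ^ s * (φ a - a ^ p) ∈ P.nonunits :=
    etaL_mul_left (pow_mem hθ.1 _) hF
  have h3 := etaL_sub hrel h2
  have : ((1 : ℤ) : Kb) * ((φ π1 / π1) ^ s * φ a) + (((w : ℤ) : ℤ) : Kb) * a -
      (φ π1 / π1) ^ s * (φ a - a ^ p) = (φ π1 / π1) ^ s * a ^ p + (w : Kb) * a := by
    push_cast
    ring
  rw [this] at h3
  exact h3

/-! ### Step D + E: two leading coefficients are proportional modulo the maximal ideal -/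

theorem etaL_lc_prop (hp : p.Prime) (hP : P.LiesOverPrime p) {ξ a a₁ w : Kb}
    (hξ : ξ ∈ P) (hξu : ξ ∉ P.nonunits) (ha : a ∈ P)
    (ha₁ : a₁ ∈ P) (ha₁u : a₁ ∉ P.nonunits)
    (h : ξ * a ^ p + w * a ∈ P.nonunits) (h₁ : ξ * a₁ ^ p + w * a₁ ∈ P.nonunits) :
    ∃ n : ℕ, a - (n : Kb) * a₁ ∈ P.nonunits := by
  have ha₁inv : a₁⁻¹ ∈ P := base_inv_mem_of_not_mem_nonunits ha₁ ha₁u
  have ha₁0 : a₁ ≠ 0 := by
    rintro rfl
    apply ha₁u
    rw [ValuationSubring.mem_nonunits_iff, map_zero]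
    exact zero_lt_one
  -- `ξ a a₁ (a^(p-1) - a₁^(p-1)) ∈ 𝔪`
  have h1 : a₁ * (ξ * a ^ p + w * a) - a * (ξ * a₁ ^ p + w * a₁) ∈ P.nonunits :=
    etaL_sub (etaL_mul_left ha₁ h) (etaL_mul_left ha h₁)
  have hp1 : p = (p - 1) + 1 := by have := hp.one_lt; omega
  have h2 : a₁ * (ξ * a ^ p + w * a) - a * (ξ * a₁ ^ p + w * a₁) =
      ξ * (a₁ * (a₁ ^ p * ((a * a₁⁻¹) ^ p - a * a₁⁻¹))) := by
    have e1 : a₁ ^ p * (a * a₁⁻¹) ^ p = a ^ p := by
      rw [← mul_pow, mul_comm a₁, mul_assoc, inv_mul_cancel₀ ha₁0, mul_one]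
    have e2 : a₁ ^ p * (a * a₁⁻¹) = a₁ ^ (p - 1) * a := by
      conv_lhs => rw [hp1, pow_succ]
      rw [mul_assoc, mul_comm a, ← mul_assoc a₁, mul_inv_cancel₀ ha₁0, one_mul]
    have e3 : a * a₁ ^ p = a₁ * (a₁ ^ (p - 1) * a) := by
      conv_lhs => rw [hp1, pow_succ]
      ring
    rw [mul_sub, e1, e2, mul_sub, ← e3]
    ring
  rw [h2] at h1
  have h3 := etaL_cancel hξ hξu h1
  have h3' := etaL_cancel ha₁ ha₁u h3
  have h4 := etaL_cancel (pow_mem ha₁ p) (etaL_unit_pow ha₁ ha₁u p) h3'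
  obtain ⟨n, hn⟩ := etaL_congr_nat hp hP (P.mul_mem _ _ ha ha₁inv) h4
  refine ⟨n, ?_⟩
  have : a - (n : Kb) * a₁ = a₁ * (a * a₁⁻¹ - (n : Kb)) := by
    rw [mul_sub, mul_comm a₁ (a * a₁⁻¹), mul_assoc, inv_mul_cancel₀ ha₁0, mul_one, mul_comm a₁]
  rw [this]
  exact etaL_mul_left ha₁ hn

/-! ### The normal form of a nonzero member of the family -/

theorem etaL_normal_form (hp : p.Prime) (hP : P.LiesOverPrime p) (hπ : IsPi1 p π1)
    (hKE : KumExistStatement p P π1) (hKR : KumRelStatement p P π1)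
    (hCT : CycTameStatement p P π1) (hD : DepthStatement p P π1)
    (hDN : DepthNUStatement p P π1)
    {ζ : Kb} (hζ : IsPrimitiveRoot ζ p) {χ : GK → ZMod p}
    (hχ : IsCharOn p (stabI P π1) χ) (hsm : IsSmoothChar p χ) {τ : GK}
    (hτ : TameGen p P π1 τ) (hτχ : ∀ g ∈ stabI P π1, χ (τ⁻¹ * g * τ) = χ g)
    (hC : CheapAt p P π1 χ) {g : GK} (hg : g ∈ stabI P π1) (hgχ : χ g ≠ 0) :
    ∃ β a : Kb, IsKummerGen p (stabI P π1 : Set GK) ζ χ β ∧
      UnitNF p P π1 (p + 1) a (β ^ p) := by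
  obtain ⟨β, hβ, h⟩ := hKE ζ χ hζ hχ hsm
  rcases h with h0 | ⟨m, hm⟩ | ⟨s, a, hNF⟩
  · exact absurd (h0 g hg) hgχ
  · exact (etaL_not_nonunitNF hp hP hDN hζ hχ hβ hm hC hg hgχ).elim
  · have hs := etaL_level_ge hp hP hD hζ hχ hβ hNF hC hg hgχ
    have hs' := etaL_level_eq hp hπ hKR hCT hζ hχ hβ hNF hτ hτχ hs
    rw [hs'] at hNF
    exact ⟨β, a, hβ, hNF⟩

/-! ### The diagonal line -/

/-- **KT-ETA**: the `η`-line statement, from the Kummer leaves. -/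
theorem etaLine (hp : p.Prime) (_hp2 : p ≠ 2) (hP : P.LiesOverPrime p) (hπ : IsPi1 p π1)
    (hU : U1aStatement P π1) (hKE : KumExistStatement p P π1)
    (hKU : KumUniqueStatement p P π1) (hKR : KumRelStatement p P π1)
    (hCT : CycTameStatement p P π1) (hD : DepthStatement p P π1)
    (hDN : DepthNUStatement p P π1) : EtaStatement p P π1 := by
  intro ζ X τ φ hζ hX hcl hτ hτX hφ hφF hφX hCheap hSharp
  by_contra hne
  push Not at hne
  obtain ⟨χ₁, hχ₁X, g₁, hg₁, hg₁χ⟩ := hne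
  have hNFall : ∀ χ ∈ X, (∃ g ∈ stabI P π1, χ g ≠ 0) →
      ∃ β a : Kb, IsKummerGen p (stabI P π1 : Set GK) ζ χ β ∧
        UnitNF p P π1 (p + 1) a (β ^ p) := by
    rintro χ hχX ⟨g, hg, hgχ⟩
    exact etaL_normal_form hp hP hπ hKE hKR hCT hD hDN hζ (hX χ hχX).1 (hX χ hχX).2 hτ
      (hτX χ hχX) (hCheap χ hχX) hg hgχ
  obtain ⟨wφ, hwφ⟩ := etaL_exists_exp hp hζ φ
  obtain ⟨β₁, a₁, hβ₁, hNF₁⟩ := hNFall χ₁ hχ₁X ⟨g₁, hg₁, hg₁χ⟩
  have hθφ := etaL_theta_unit (P := P) hp hπ φ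
  have hprop : ∀ χ ∈ X, ∃ n : ℤ, ∀ g ∈ stabI P π1, χ g = n • χ₁ g := by
    intro χ hχX
    by_cases hχ0 : ∃ g ∈ stabI P π1, χ g ≠ 0
    · obtain ⟨β, a, hβ, hNF⟩ := hNFall χ hχX hχ0
      have hr := etaL_frob_rel hp hπ hKR hζ (hX χ hχX).1 hβ hNF hφ hφF (hφX χ hχX) hwφ
      have hr₁ := etaL_frob_rel hp hπ hKR hζ (hX χ₁ hχ₁X).1 hβ₁ hNF₁ hφ hφF (hφX χ₁ hχ₁X) hwφ
      have haR := hNF.2.2.2.1
      have ha₁R := hNF₁.2.2.2.1
      obtain ⟨n, hn⟩ := etaL_lc_prop hp hP (pow_mem hθφ.1 (p + 1))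
        (etaL_unit_pow hθφ.1 hθφ.2 (p + 1)) (mem_inertiaRing.1 haR).1
        (mem_inertiaRing.1 ha₁R).1 hNF₁.2.2.2.2.1 hr hr₁
      refine ⟨(n : ℤ), ?_⟩
      by_contra hcon
      push Not at hcon
      obtain ⟨g, hg, hgne⟩ := hcon
      have hχ'X := hcl χ₁ hχ₁X χ hχX (n : ℤ)
      obtain ⟨β'', a'', hβ'', hNF''⟩ := hNFall _ hχ'X ⟨g, hg, sub_ne_zero.2 hgne⟩
      have hgen := etaL_gen_sub hp hζ hβ hβ₁ n
      have hlev := etaL_level_sub hU (Nat.succ_pos p) haR ha₁R hNF.2.2.2.2.2 hNF₁.2.2.2.2.2 n hn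
      exact hKU ζ _ β'' (β / β₁ ^ n) a'' (p + 1) hζ hβ'' hgen hNF'' hlev
    · push Not at hχ0
      exact ⟨0, fun g hg => by rw [zero_smul]; exact hχ0 g hg⟩
  obtain ⟨x, hxP, hxfix, hxne, hsharp⟩ := hSharp χ₁ hχ₁X hprop g₁ hg₁ hg₁χ
  obtain ⟨hs0, hs1, hs2, haR, hau, hlc⟩ := hNF₁
  have hd := hD ζ χ₁ β₁ a₁ (p + 1) hζ (hX χ₁ hχ₁X).1 hβ₁ hs0 hs1 hs2 haR hau hlc x hxP hxfix
    g₁ hg₁
  have hc : (p : Kb) ^ (p * 1) / (g₁ x - x) ^ (p * (p ^ 2 - 1)) ∈ P :=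
    etaL_div_pow_mem (a := 1) (by rwa [pow_one])
  have hy : (g₁ x - x) ^ (p * (p ^ 2 - 1)) ≠ 0 := pow_ne_zero _ hxne
  have hle := le_of_div_mem_of_div_mem hp.ne_zero hP hy hd hc
  have h2 := hp.two_le
  have hpp : p ^ 2 = p * p := by ring
  have : 2 * p ≤ p * p := Nat.mul_le_mul_right p h2
  rw [hpp] at hle
  omega

end Fermat.Agent.FFL.FB
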