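/-
Lib/FFL/FB, block KT of S56-W4 case C, leaf KT-EXIST (helper50):
a smooth character of `N1 = stabI P π1` has a Kummer generator `β` with `β ^ p` in normal form
(`kumExist : KumStatement → U6Statement p P π1 N1 → KumExistStatement p P π1`).

Steps: `Γ = N1 ∩ ker χ` is normal of finite index in `N1`, and CLOSED in `N1` at finite level
(`kumExist_closed`: orbit polynomial of a primitive element of the field through which `χ`
factors); `KumStatement` gives a generator `a₀`; `U6Statement` normalises `a₀ ^ p`; in the case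
`a₀ ^ p = z ^ p` the generator is a root of unity, so `χ = 0` on `N1` (`ζ ∈ K1`).
-/
import Fermat.Agent.Lib.FFL.FB.KTDefs
import Fermat.Agent.Lib.FFL.FB.CycTame

set_option autoImplicit false
set_option linter.style.haveILetI false

namespace Fermat.Agent.FFL.FB

open Fermat.Agent.FFL Polynomial

local notation "Kb" => AlgebraicClosure ℚ
local notation "GK" => (AlgebraicClosure ℚ ≃ₐ[ℚ] AlgebraicClosure ℚ)

/-! ### Closedness at finite level -/

/-- An automorphism fixing a primitive element of `F` fixes `F`. -/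
theorem kumExist_mem_fixingSubgroup (F : IntermediateField ℚ Kb) (α : F)
    (hα : IntermediateField.adjoin ℚ {α} = ⊤) (σ : GK) (h2 : σ ((α : F) : Kb) = ((α : F) : Kb)) :
    σ ∈ F.fixingSubgroup := by
  rw [IntermediateField.mem_fixingSubgroup_iff]
  intro y hy
  have h3 : (⟨y, hy⟩ : F) ∈ IntermediateField.adjoin ℚ {α} := by
    rw [hα]; exact IntermediateField.mem_top
  obtain ⟨r, s, hrs⟩ := (IntermediateField.mem_adjoin_simple_iff ℚ _).mp h3
  have e : ∀ r : ℚ[X], ((Polynomial.aeval α r : F) : Kb) = Polynomial.aeval ((α : F) : Kb) r :=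
    fun r => (Polynomial.aeval_algHom_apply F.val α r).symm
  have e2 : ∀ r : ℚ[X], σ (Polynomial.aeval ((α : F) : Kb) r) =
      Polynomial.aeval (σ ((α : F) : Kb)) r :=
    fun r => (Polynomial.aeval_algHom_apply (σ : Kb →ₐ[ℚ] Kb) ((α : F) : Kb) r).symm
  have h4 : y = Polynomial.aeval ((α : F) : Kb) r / Polynomial.aeval ((α : F) : Kb) s := by
    have h5 : ((⟨y, hy⟩ : F) : Kb) = ((Polynomial.aeval α r / Polynomial.aeval α s : F) : Kb) :=
      congrArg (fun z : F => (z : Kb)) hrs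
    rw [IntermediateField.coe_div, e, e] at h5
    exact h5
  show σ y = y
  rw [h4, map_div₀, e2, e2, h2]

/-- The orbit of an element under a subgroup of the Galois group is finite. -/
theorem kumExist_orbit_finite (Γ : Subgroup GK) (θ : Kb) : {s : Kb | ∃ g ∈ Γ, g θ = s}.Finite := by
  have hQ : Algebra.IsAlgebraic ℚ Kb := AlgebraicClosure.isAlgebraic ℚ
  have hθ : IsIntegral ℚ θ := (Algebra.IsAlgebraic.isAlgebraic (R := ℚ) θ).isIntegral
  refine (Polynomial.rootSet_finite (minpoly ℚ θ) Kb).subset ?_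
  rintro s ⟨g, -, rfl⟩
  rw [Polynomial.mem_rootSet]
  refine ⟨minpoly.ne_zero hθ, ?_⟩
  have h1 := Polynomial.aeval_algHom_apply (g : Kb →ₐ[ℚ] Kb) θ (minpoly ℚ θ)
  rw [minpoly.aeval, map_zero] at h1
  exact h1

/-- **Closedness at finite level**: if `Γ ≤ N` contains `N ∩ Gal(ℚ̄/F)` for a finite extension
`F` of `ℚ`, an element of `N` fixing the fixed field of `Γ` lies in `Γ`. -/
theorem kumExist_closed (N Γ : Subgroup GK) (F : IntermediateField ℚ Kb)
    [FiniteDimensional ℚ F] (hF : ∀ h ∈ N, h ∈ F.fixingSubgroup → h ∈ Γ) (hΓN : Γ ≤ N)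
    {σ : GK} (hσ : σ ∈ N) (hfix : ∀ x : Kb, FixedBy Γ x → σ x = x) : σ ∈ Γ := by
  classical
  obtain ⟨α, hα⟩ := Field.exists_primitive_element ℚ F
  set θ : Kb := ((α : F) : Kb) with hθdef
  have hfin := kumExist_orbit_finite Γ θ
  set T : Finset Kb := hfin.toFinset with hT
  have hmemT : ∀ s, s ∈ T ↔ ∃ g ∈ Γ, g θ = s := fun s => by
    rw [hT, Set.Finite.mem_toFinset]; rfl
  set f : Kb[X] := ∏ s ∈ T, (X - C s) with hf
  -- `Γ` permutes `T`
  have himage : ∀ g ∈ Γ, T.image (fun s => g s) = T := by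
    intro g hg
    refine Finset.eq_of_subset_of_card_le ?_ ?_
    · intro s hs
      rw [Finset.mem_image] at hs
      obtain ⟨s', hs', rfl⟩ := hs
      obtain ⟨g', hg', rfl⟩ := (hmemT s').1 hs'
      exact (hmemT _).2 ⟨g * g', mul_mem hg hg', rfl⟩
    · rw [Finset.card_image_of_injective _ (fun a b hab => g.injective hab)]
  have hmap : ∀ g ∈ Γ, f.map (g : Kb →+* Kb) = f := by
    intro g hg
    rw [hf, Polynomial.map_prod]
    have h1 : ∀ s ∈ T, (X - C s : Kb[X]).map (g : Kb →+* Kb) = X - C (g s) := by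
      intro s _
      simp
    rw [Finset.prod_congr rfl h1]
    conv_rhs => rw [← himage g hg]
    rw [Finset.prod_image (fun a _ b _ hab => g.injective hab)]
  have hcoeff : ∀ n, FixedBy Γ (f.coeff n) := by
    intro n g hg
    have := congrArg (fun q : Kb[X] => q.coeff n) (hmap g hg)
    simpa [Polynomial.coeff_map] using this
  have hσf : f.map (σ : Kb →+* Kb) = f := by
    ext n
    rw [Polynomial.coeff_map]
    exact hfix _ (hcoeff n)
  have hθT : θ ∈ T := (hmemT θ).2 ⟨1, one_mem _, rfl⟩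
  have hθroot : f.eval θ = 0 := by
    rw [hf, Polynomial.eval_prod]
    exact Finset.prod_eq_zero hθT (by simp)
  have hσroot : f.eval (σ θ) = 0 := by
    have h1 : (f.map (σ : Kb →+* Kb)).eval ((σ : Kb →+* Kb) θ) = (σ : Kb →+* Kb) (f.eval θ) :=
      Polynomial.eval_map_apply (σ : Kb →+* Kb) θ
    rw [hσf, hθroot, map_zero] at h1
    exact h1
  rw [hf, Polynomial.eval_prod, Finset.prod_eq_zero_iff] at hσroot
  obtain ⟨s, hs, hs0⟩ := hσroot
  obtain ⟨γ, hγ, rfl⟩ := (hmemT s).1 hs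
  have hγσ : γ θ = σ θ := by
    have : σ θ - γ θ = 0 := by simpa using hs0
    exact (sub_eq_zero.1 this).symm
  have h2 : (γ⁻¹ * σ) θ = θ := by
    rw [AlgEquiv.mul_apply, ← hγσ, ← AlgEquiv.mul_apply, inv_mul_cancel, AlgEquiv.one_apply]
  have h3 : γ⁻¹ * σ ∈ Γ :=
    hF _ (mul_mem (inv_mem (hΓN hγ)) hσ) (kumExist_mem_fixingSubgroup F α hα _ h2)
  have : σ = γ * (γ⁻¹ * σ) := by group
  rw [this]
  exact mul_mem hγ h3

/-! ### The kernel of a character -/

section Ker

variable {p : ℕ} {N : Subgroup GK} {χ : GK → ZMod p}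

theorem kumExist_char_one (h : IsCharOn p N χ) : χ 1 = 0 := by
  have := h 1 (one_mem N) 1 (one_mem N)
  rw [mul_one] at this
  exact left_eq_add.1 this

theorem kumExist_char_inv (h : IsCharOn p N χ) {g : GK} (hg : g ∈ N) : χ g⁻¹ = -χ g := by
  have := h g hg g⁻¹ (inv_mem hg)
  rw [mul_inv_cancel, kumExist_char_one h] at this
  exact eq_neg_of_add_eq_zero_right this.symm

/-- The kernel of `χ` in `N`. -/
def kumExistKer (p : ℕ) (N : Subgroup GK) (χ : GK → ZMod p) (h : IsCharOn p N χ) : Subgroup GK where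
  carrier := {g | g ∈ N ∧ χ g = 0}
  mul_mem' := fun {a b} ha hb => ⟨mul_mem ha.1 hb.1, by rw [h a ha.1 b hb.1, ha.2, hb.2, add_zero]⟩
  one_mem' := ⟨one_mem N, kumExist_char_one h⟩
  inv_mem' := fun {a} ha => ⟨inv_mem ha.1, by rw [kumExist_char_inv h ha.1, ha.2, neg_zero]⟩

theorem kumExistKer_mem (h : IsCharOn p N χ) {g : GK} : g ∈ kumExistKer p N χ h ↔ g ∈ N ∧ χ g = 0 :=
  Iff.rfl

theorem kumExistKer_le (h : IsCharOn p N χ) : kumExistKer p N χ h ≤ N := fun _ hg => hg.1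

/-- The character as a homomorphism on `N`. -/
def kumExistHom (p : ℕ) (N : Subgroup GK) (χ : GK → ZMod p) (h : IsCharOn p N χ) :
    N →* Multiplicative (ZMod p) where
  toFun g := Multiplicative.ofAdd (χ g.1)
  map_one' := by
    show Multiplicative.ofAdd (χ 1) = 1
    rw [kumExist_char_one h]; rfl
  map_mul' a b := by
    show Multiplicative.ofAdd (χ (a.1 * b.1)) = _
    rw [h a.1 a.2 b.1 b.2]; rfl

theorem kumExistKer_subgroupOf (h : IsCharOn p N χ) :
    (kumExistKer p N χ h).subgroupOf N = (kumExistHom p N χ h).ker := by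
  ext g
  rw [Subgroup.mem_subgroupOf, MonoidHom.mem_ker, kumExistKer_mem]
  constructor
  · intro hg
    show Multiplicative.ofAdd (χ g.1) = 1
    rw [hg.2]; rfl
  · intro hg
    refine ⟨g.2, ?_⟩
    have : Multiplicative.ofAdd (χ g.1) = Multiplicative.ofAdd 0 := hg
    exact Multiplicative.ofAdd.injective this

theorem kumExistKer_normal (h : IsCharOn p N χ) : ((kumExistKer p N χ h).subgroupOf N).Normal := by
  rw [kumExistKer_subgroupOf]
  exact MonoidHom.normal_ker _

theorem kumExistKer_finiteIndex [NeZero p] (h : IsCharOn p N χ) :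
    ((kumExistKer p N χ h).subgroupOf N).FiniteIndex := by
  rw [kumExistKer_subgroupOf]
  infer_instance

end Ker

/-! ### Powers of a root of unity indexed by `ℤ/p` -/

theorem kumExist_pow_val_add {p : ℕ} [NeZero p] {ζ : Kb} (hζ : ζ ^ p = 1) (a b : ZMod p) :
    ζ ^ (a + b).val = ζ ^ a.val * ζ ^ b.val := by
  rw [ZMod.val_add, ← pow_add, ← pow_eq_pow_mod _ hζ]

/-! ### KT-EXIST -/

/-- **KT-EXIST**. -/
theorem kumExist {p : ℕ} {P : ValuationSubring Kb} {π1 : Kb} (hp : p.Prime)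
    (hP : P.LiesOverPrime p) (hπ : IsPi1 p π1) (hKum : KumStatement)
    (hU6 : U6Statement p P π1 (stabI P π1)) : KumExistStatement p P π1 := by
  intro ζ χ hζ hχ hsm
  haveI : NeZero p := ⟨hp.ne_zero⟩
  obtain ⟨F, hFfin, hF⟩ := hsm
  have hζp : ζ ^ p = 1 := hζ.pow_eq_one
  have hζ0 : ζ ≠ 0 := by
    intro h
    rw [h, zero_pow hp.ne_zero] at hζp
    exact zero_ne_one hζp
  set N : Subgroup GK := stabI P π1 with hN
  set Γ : Subgroup GK := kumExistKer p N χ hχ with hΓ
  -- the multiplicative character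
  obtain ⟨a₀, ha₀, -, ha₀N⟩ := hKum N Γ (kumExistKer_le hχ) (kumExistKer_normal hχ)
    (kumExistKer_finiteIndex hχ)
    (fun σ hσ hfix => kumExist_closed N Γ F (fun h hh hhF => ⟨hh, hF h hhF⟩) (kumExistKer_le hχ)
      hσ hfix)
    (fun σ => ζ ^ (χ σ).val) (fun σ _ => pow_ne_zero _ hζ0)
    (fun σ hσ τ hτ => by
      show ζ ^ (χ (σ * τ)).val = _
      rw [hχ σ hσ τ hτ, kumExist_pow_val_add hζp])
    (fun σ _ τ hτ => by
      show τ (ζ ^ (χ σ).val) = _
      rw [map_pow, zeta_fixed_of_stabI hp hP hπ hζp hτ])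
    (fun γ hγ => by
      show ζ ^ (χ γ).val = 1
      rw [hγ.2, ZMod.val_zero, pow_zero])
  -- `u₀ = a₀ ^ p` is in `K1`
  have hu₀N : FixedBy N (a₀ ^ p) := by
    intro σ hσ
    rw [map_pow, ha₀N σ hσ, mul_pow, ← pow_mul, mul_comm (χ σ).val p, pow_mul, hζp, one_pow,
      one_mul]
  obtain ⟨z, hzN, hz0, hcases⟩ := hU6 (a₀ ^ p) (pow_ne_zero _ ha₀) hu₀N
  have hβp : (a₀ / z) ^ p = a₀ ^ p / z ^ p := div_pow _ _ _
  have hgen : IsKummerGen p (stabI P π1 : Set GK) ζ χ (a₀ / z) := by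
    refine ⟨div_ne_zero ha₀ hz0, fun g hg => ?_⟩
    rw [map_div₀, ha₀N g hg, hzN g hg, mul_div_assoc]
  refine ⟨a₀ / z, hgen, ?_⟩
  rcases hcases with ⟨m, hm0, hmp, h1, h2⟩ | hpow | ⟨i, a, hi0, hi, hpi, haR, hau, hlc⟩
  · right; left
    exact ⟨m, hm0, hmp, by rw [hβp]; exact h1, by rw [hβp]; exact h2⟩
  · left
    intro g hg
    have hβ1 : (a₀ / z) ^ p = 1 := by
      rw [hβp, hpow, div_self (pow_ne_zero _ hz0)]
    have h1 : g (a₀ / z) = a₀ / z := zeta_fixed_of_stabI hp hP hπ hβ1 hg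
    have h2 := hgen.2 g hg
    rw [h1] at h2
    have h3 : ζ ^ (χ g).val = 1 := by
      have h4 : (1 : Kb) * (a₀ / z) = ζ ^ (χ g).val * (a₀ / z) := by rw [one_mul]; exact h2
      exact (mul_right_cancel₀ hgen.1 h4).symm
    have h5 : p ∣ (χ g).val := (hζ.pow_eq_one_iff_dvd _).1 h3
    have h6 : (χ g).val = 0 := Nat.eq_zero_of_dvd_of_lt h5 (ZMod.val_lt _)
    exact (ZMod.val_eq_zero _).1 h6
  · right; right
    exact ⟨i, a, hi0, hi, hpi, haR, hau, by rw [hβp]; exact hlc⟩

end Fermat.Agent.FFL.FB
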