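/-
Lib/FFL/FB/KumGood (block KT of S56-W4 case C, leaf KT-GOOD; helper70).

`goodOfLevel : GoodOfLevelStatement p P π1` (all primes `p`): if `β ^ p` is in unit normal form
of level `s ≥ p² + 1`, then `v(β - 1) ≥ (p² + 1) / (p (p² - 1))`.

Proof: `v(β - 1)^p = v(π1)^s` (`depth_rootlevel`, Lib/FFL/FB/Depth.lean), so
`v(β - 1)^(p (p² - 1)) = v(p)^s ≤ v(p)^(p² + 1)`.
-/
import Fermat.Agent.Lib.FFL.FB.Depth

set_option autoImplicit false

namespace Fermat.Agent.FFL.FB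

open Fermat.Agent.FFL

local notation "Kb" => AlgebraicClosure ℚ
local notation "GK" => (AlgebraicClosure ℚ ≃ₐ[ℚ] AlgebraicClosure ℚ)

variable {p : ℕ} {P : ValuationSubring Kb}

/-- The exact valuation of `β - 1` for `β ^ p` in unit normal form of level `s`:
`v(β - 1)^(p (p² - 1)) = v(p)^s`. -/
theorem kumGood_val_eq (hp : p.Prime) (hP : P.LiesOverPrime p) {π1 : Kb} (hπ : IsPi1 p π1)
    {β a : Kb} {s : ℕ} (h : UnitNF p P π1 s a (β ^ p)) :
    P.valuation (β - 1) ^ (p * (p ^ 2 - 1)) = P.valuation (p : Kb) ^ s := by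
  obtain ⟨hs0, hsp, -, ha, hau, hlc⟩ := h
  have hπ' : π1 ^ (p ^ 2 - 1) = -(p : Kb) := hπ
  have hvu := depth_val_of_lcAt hp hP hπ' ha.1 hau hlc
  have hB := depth_rootlevel hp hP hπ' hs0 hsp hvu
  rw [pow_mul, hB, ← pow_mul, mul_comm, pow_mul, depth_val_pi_pow hπ']

/-- **KT-GOOD**. -/
theorem goodOfLevel (hp : p.Prime) (hP : P.LiesOverPrime p) {π1 : Kb} (hπ : IsPi1 p π1) :
    GoodOfLevelStatement p P π1 := by
  intro β a s h hs
  apply depth_div_mem hp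
  rw [kumGood_val_eq hp hP hπ h]
  exact pow_le_pow_of_le_one (depth_val_p_pos hp).le (ar_val_p_lt hP).le hs

end Fermat.Agent.FFL.FB
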