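/-
Lib/FFL/FB/KumRel (block KT of S56-W4 case C, leaf KT-REL; helper70).

`kumRel : U1aStatement → U3Statement → U5Statement → KumConjStatement → KumRelStatement p P π1`.

If `∑_j n_j · w_j · χ(σ_j⁻¹ g σ_j) = 0` on `N1 = stabI P π1` (`σ_j` in the decomposition group,
`σ_j ζ = ζ ^ w_j`) and `u = β ^ p` is in unit normal form of level `s` with leading coefficient
`a`, then `∑_j n_j θ(σ_j)^s σ_j(a) ≡ 0` modulo the maximal ideal.

Proof: `z = ∏_j (σ_j β)^(n_j)` is `N1`-fixed (KumConj + the relation), `z ^ p = ∏_j (σ_j u)^(n_j)`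
has the leading coefficient `∑_j n_j θ_j^s σ_j a` at level `s` (U5, U1a), and a `p`-th power of
`K1` of level `≥ s` has level `≥ s + 1` (U3(a)): the leading coefficient is a nonunit (U1a).
-/
import Fermat.Agent.Lib.FFL.FB.KTDefs
import Fermat.Agent.Lib.FFL.FB.FieldTeich

set_option autoImplicit false

namespace Fermat.Agent.FFL.FB

open Fermat.Agent.FFL

local notation "Kb" => AlgebraicClosure ℚ
local notation "GK" => (AlgebraicClosure ℚ ≃ₐ[ℚ] AlgebraicClosure ℚ)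

variable {p : ℕ} {P : ValuationSubring Kb} {π1 : Kb}

/-- `1` has leading coefficient `0` at every level. -/
theorem kumRel_lcAt_one (P : ValuationSubring Kb) (π1 : Kb) (s : ℕ) : LcAt P π1 s 1 0 := by
  unfold LcAt
  rw [sub_self, zero_mul, sub_zero, zero_div]
  exact P.zero_mem

/-- Leading coefficients of natural powers. -/
theorem kumRel_lcAt_pow (hU : U1aStatement P π1) {s : ℕ} (hs : 0 < s) {u A : Kb} (hA : A ∈ P)
    (h : LcAt P π1 s u A) (n : ℕ) : LcAt P π1 s (u ^ n) ((n : Kb) * A) := by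
  induction n with
  | zero =>
    rw [pow_zero, Nat.cast_zero, zero_mul]
    exact kumRel_lcAt_one P π1 s
  | succ n ih =>
    have h5 := hU.2.2.2.2.1 s (u ^ n) u ((n : Kb) * A) A hs
      (P.mul_mem _ _ (natCast_mem P n) hA) hA ih h
    rw [pow_succ, Nat.cast_succ, add_mul, one_mul]
    exact h5

/-- Leading coefficients of integer powers. -/
theorem kumRel_lcAt_zpow (hU : U1aStatement P π1) {s : ℕ} (hs : 0 < s) {u A : Kb} (hA : A ∈ P)
    (h : LcAt P π1 s u A) (n : ℤ) : LcAt P π1 s (u ^ n) ((n : Kb) * A) := by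
  rcases Int.eq_nat_or_neg n with ⟨k, rfl | rfl⟩
  · rw [zpow_natCast, Int.cast_natCast]
    exact kumRel_lcAt_pow hU hs hA h k
  · have h1 := kumRel_lcAt_pow hU hs hA h k
    have h6 := hU.2.2.2.2.2 s (u ^ k) ((k : Kb) * A) hs (P.mul_mem _ _ (natCast_mem P k) hA) h1
    rw [zpow_neg, zpow_natCast, Int.cast_neg, Int.cast_natCast, neg_mul]
    exact h6

/-- Leading coefficients of finite products. -/
theorem kumRel_lcAt_prod (hU : U1aStatement P π1) {s : ℕ} (hs : 0 < s) {ι : Type*}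
    (S : Finset ι) (U B : ι → Kb) (hB : ∀ j ∈ S, B j ∈ P)
    (h : ∀ j ∈ S, LcAt P π1 s (U j) (B j)) :
    LcAt P π1 s (∏ j ∈ S, U j) (∑ j ∈ S, B j) := by
  classical
  induction S using Finset.induction_on with
  | empty =>
    rw [Finset.prod_empty, Finset.sum_empty]
    exact kumRel_lcAt_one P π1 s
  | insert j S hj ih =>
    rw [Finset.prod_insert hj, Finset.sum_insert hj]
    have hBS : ∑ i ∈ S, B i ∈ P := sum_mem fun i hi => hB i (Finset.mem_insert_of_mem hi)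
    exact hU.2.2.2.2.1 s (U j) (∏ i ∈ S, U i) (B j) (∑ i ∈ S, B i) hs
      (hB j (Finset.mem_insert_self j S)) hBS (h j (Finset.mem_insert_self j S))
      (ih (fun i hi => hB i (Finset.mem_insert_of_mem hi))
        (fun i hi => h i (Finset.mem_insert_of_mem hi)))

/-- `ζ ^ n = 1` (integer exponent) when `n ≡ 0` modulo `p`. -/
theorem kumRel_zpow_eq_one {ζ : Kb} (hζ : IsPrimitiveRoot ζ p) {n : ℤ}
    (hn : ((n : ℤ) : ZMod p) = 0) : ζ ^ n = 1 := by
  rw [ZMod.intCast_zmod_eq_zero_iff_dvd] at hn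
  obtain ⟨k, rfl⟩ := hn
  rw [zpow_mul, zpow_natCast, hζ.pow_eq_one, one_zpow]

/-- A product of integer powers of `ζ`. -/
theorem kumRel_prod_zpow {ζ : Kb} (hζ0 : ζ ≠ 0) {ι : Type*} (S : Finset ι) (f : ι → ℤ) :
    ∏ j ∈ S, ζ ^ (f j) = ζ ^ (∑ j ∈ S, f j) := by
  classical
  induction S using Finset.induction_on with
  | empty => rw [Finset.prod_empty, Finset.sum_empty, zpow_zero]
  | insert j S hj ih => rw [Finset.prod_insert hj, Finset.sum_insert hj, ih, zpow_add₀ hζ0]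

/-- **KT-REL**. -/
theorem kumRel (hp : p.Prime) (hU1a : U1aStatement P π1)
    (hU3 : U3Statement p P π1 (stabI P π1)) (hU5 : U5Statement P π1)
    (hConj : KumConjStatement p P π1) : KumRelStatement p P π1 := by
  classical
  intro ζ χ β a s hζ hχ hβ hNF r σ w n hσD hσζ hrel
  obtain ⟨hs0, hsp, hps, ha, hau, hlc⟩ := hNF
  have hfact : Fact p.Prime := ⟨hp⟩
  have hβ0 : β ≠ 0 := hβ.1
  -- the leading coefficients of the conjugates
  set A : Fin r → Kb := fun j => (σ j π1 / π1) ^ s * σ j a with hA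
  have hσP : ∀ j, ∀ x ∈ P, σ j x ∈ P := fun j x hx => mem_of_decomp (hσD j) hx
  have hθP : ∀ j, σ j π1 / π1 ∈ P := by
    intro j
    by_cases hπ0 : π1 = 0
    · rw [hπ0, div_zero]; exact P.zero_mem
    · rw [← P.valuation_le_one_iff, map_div₀, val_decomp (hσD j),
        div_self ((Valuation.ne_zero_iff _).2 hπ0)]
  have hAP : ∀ j, A j ∈ P := fun j =>
    P.mul_mem _ _ (pow_mem (hθP j) s) (hσP j a ha.1)
  have hlcj : ∀ j, LcAt P π1 s (σ j (β ^ p)) (A j) := fun j =>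
    hU5 (σ j) (hσP j) s (β ^ p) a hlc
  have hlcz : ∀ j, LcAt P π1 s ((σ j (β ^ p)) ^ (n j)) ((n j : Kb) * A j) := fun j =>
    kumRel_lcAt_zpow hU1a hs0 (hAP j) (hlcj j) (n j)
  have hprod := kumRel_lcAt_prod hU1a hs0 Finset.univ
    (fun j => (σ j (β ^ p)) ^ (n j)) (fun j => (n j : Kb) * A j)
    (fun j _ => P.mul_mem _ _ (intCast_mem P (n j)) (hAP j)) (fun j _ => hlcz j)
  -- the element `z`
  set z : Kb := ∏ j, (σ j β) ^ (n j) with hz
  have hzp : z ^ p = ∏ j, (σ j (β ^ p)) ^ (n j) := by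
    rw [hz, ← Finset.prod_pow]
    refine Finset.prod_congr rfl fun j _ => ?_
    rw [map_pow, ← zpow_natCast ((σ j β) ^ n j) p, ← zpow_mul, mul_comm, zpow_mul, zpow_natCast]
  have hzfix : FixedBy (stabI P π1) z := by
    intro g hg
    have hgj : ∀ j, g (σ j β) =
        ζ ^ (((w j : ZMod p) * χ ((σ j)⁻¹ * g * σ j)).val) * σ j β := fun j =>
      (hConj ζ χ β (σ j) (w j) hζ (hσD j) (hσζ j) hβ).2 g hg
    rw [hz, map_prod]
    have h1 : ∀ j, g ((σ j β) ^ (n j)) =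
        (ζ ^ (((w j : ZMod p) * χ ((σ j)⁻¹ * g * σ j)).val : ℤ)) ^ (n j) * (σ j β) ^ (n j) := by
      intro j
      rw [map_zpow₀, hgj j, mul_zpow, zpow_natCast]
    rw [Finset.prod_congr rfl (fun j _ => h1 j), Finset.prod_mul_distrib]
    have h2 : ∏ j, (ζ ^ (((w j : ZMod p) * χ ((σ j)⁻¹ * g * σ j)).val : ℤ)) ^ (n j) = 1 := by
      have hζ0 : ζ ≠ 0 := hζ.ne_zero hp.ne_zero
      have h3 : ∀ j, (ζ ^ (((w j : ZMod p) * χ ((σ j)⁻¹ * g * σ j)).val : ℤ)) ^ (n j) =
          ζ ^ ((((w j : ZMod p) * χ ((σ j)⁻¹ * g * σ j)).val : ℤ) * n j) := fun j => by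
        rw [← zpow_mul]
      rw [Finset.prod_congr rfl (fun j _ => h3 j), kumRel_prod_zpow hζ0]
      apply kumRel_zpow_eq_one hζ
      rw [Int.cast_sum, ← hrel g hg]
      refine Finset.sum_congr rfl fun j _ => ?_
      rw [Int.cast_mul, Int.cast_natCast, ZMod.natCast_zmod_val, zsmul_eq_mul, mul_comm]
    rw [h2, one_mul]
  -- level `s + 1`
  have hInU : InU P π1 s (z ^ p) := by
    rw [hzp]
    exact hU1a.2.2.1 s _ _
      (sum_mem fun j _ => P.mul_mem _ _ (intCast_mem P (n j)) (hAP j)) hprod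
  have hInU1 := hU3.1 s z hps hsp hzfix hInU
  have hlc0 : LcAt P π1 s (z ^ p) 0 := (hU1a.2.2.2.1 s (z ^ p)).1 hInU1
  rw [← hzp] at hprod
  have := hU1a.1 s (z ^ p) _ 0 hprod hlc0
  rwa [sub_zero] at this

end Fermat.Agent.FFL.FB
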