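/-
Lib/FFL/FB/KumUniq (S56 W4-C block KT, leaf KT-UNIQ; helper78):
**uniqueness of the level of a Kummer generator, and conjugation of Kummer generators**.

* `conj_mem_inertia_of_decomp` : the inertia group is normal in the decomposition group;
* `TameSetting.stabI_conj_mem`, `stabI_conj_mem_of_isPi1` : `N = stabI P π` is normal in the
  decomposition group when `π ^ e` is fixed by it (`π1 ^ (p² - 1) = -p`);
* `kumConj   : KumConjStatement p P π1`;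
* `kumUnique : U1aStatement P π1 → U3Statement p P π1 (stabI P π1) → KumUniqueStatement p P π1`.
-/
import Fermat.Agent.Lib.FFL.FB.FieldTame
import Fermat.Agent.Lib.FFL.FB.KTDefs
import Fermat.Agent.Lib.KFin.Inertia

set_option autoImplicit false
set_option linter.style.haveILetI false
set_option linter.unusedSectionVars false
set_option linter.unusedVariables false

namespace Fermat.Agent.FFL.FB

open Fermat.Agent.FFL Fermat.Agent.Cyclo Polynomial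

open scoped Pointwise

local notation "Kb" => AlgebraicClosure ℚ
local notation "GK" => (AlgebraicClosure ℚ ≃ₐ[ℚ] AlgebraicClosure ℚ)

variable {p : ℕ} {P : ValuationSubring Kb} {π1 : Kb}

/-- The inertia group is normal in the decomposition group. -/
theorem conj_mem_inertia_of_decomp {δ τ : GK} (hδ : δ ∈ P.decompositionSubgroup ℚ)
    (hτ : τ ∈ P.inertiaSubgroupIn ℚ) : δ * τ * δ⁻¹ ∈ P.inertiaSubgroupIn ℚ := by
  have h := Fermat.Agent.KFin.kf_conj_mem_inertiaSubgroupIn (K := ℚ) P δ τ hτ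
  have hδP : δ • P = P := hδ
  rwa [hδP] at h

theorem conj_mem_inertia_of_decomp' {δ τ : GK} (hδ : δ ∈ P.decompositionSubgroup ℚ)
    (hτ : τ ∈ P.inertiaSubgroupIn ℚ) : δ⁻¹ * τ * δ ∈ P.inertiaSubgroupIn ℚ := by
  have h := conj_mem_inertia_of_decomp (inv_mem hδ) hτ
  rwa [inv_inv] at h

/-- `N = stabI P π` is normal in the decomposition group, if `π ^ e` is fixed by it. -/
theorem TameSetting.stabI_conj_mem {e : ℕ} {π : Kb} (S : TameSetting p P e π)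
    (hD : ∀ δ ∈ P.decompositionSubgroup ℚ, δ (π ^ e) = π ^ e) {δ τ : GK}
    (hδ : δ ∈ P.decompositionSubgroup ℚ) (hτ : τ ∈ stabI P π) : δ⁻¹ * τ * δ ∈ stabI P π := by
  refine ⟨conj_mem_inertia_of_decomp' hδ hτ.1, ?_⟩
  have hξe : (δ π / π) ^ e = 1 := by
    rw [div_pow, ← map_pow, hD δ hδ, div_self (pow_ne_zero _ S.hπ0)]
  have hξfix : τ (δ π / π) = δ π / π := root_fixed_of_inertia S.hp S.hP S.he hξe hτ.1
  have hδπ : δ π = (δ π / π) * π := by rw [div_mul_cancel₀ _ S.hπ0]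
  have h1 : τ (δ π) = δ π := by
    conv_lhs => rw [hδπ, map_mul, hξfix, hτ.2, ← hδπ]
  rw [AlgEquiv.mul_apply, AlgEquiv.mul_apply, h1, ← AlgEquiv.mul_apply, inv_mul_cancel,
    AlgEquiv.one_apply]

/-- `N1 = stabI P π1` is normal in the decomposition group. -/
theorem stabI_conj_mem_of_isPi1 (hp : p.Prime) (hP : P.LiesOverPrime p) (hπ : IsPi1 p π1)
    {δ τ : GK} (hδ : δ ∈ P.decompositionSubgroup ℚ) (hτ : τ ∈ stabI P π1) :
    δ⁻¹ * τ * δ ∈ stabI P π1 := by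
  refine (tameSetting_of_isPi1 hp hP hπ).stabI_conj_mem (fun δ _ => ?_) hδ hτ
  have hπ' : π1 ^ (p ^ 2 - 1) = -(p : Kb) := hπ
  rw [hπ', map_neg, map_natCast]

theorem stabI_conj_mem_of_isPi1' (hp : p.Prime) (hP : P.LiesOverPrime p) (hπ : IsPi1 p π1)
    {δ τ : GK} (hδ : δ ∈ P.decompositionSubgroup ℚ) (hτ : τ ∈ stabI P π1) :
    δ * τ * δ⁻¹ ∈ stabI P π1 := by
  have h := stabI_conj_mem_of_isPi1 hp hP hπ (inv_mem hδ) hτ
  rwa [inv_inv] at h

/-- `ζ ^ ((w : ZMod p) * c).val = (ζ ^ w) ^ c.val` for a `p`-th root of unity. -/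
theorem zeta_pow_val_mul {ζ : Kb} (hζ : ζ ^ p = 1) (w : ℕ) (c : ZMod p) :
    ζ ^ ((w : ZMod p) * c).val = (ζ ^ w) ^ c.val := by
  rw [← pow_mul, ZMod.val_mul, ZMod.val_natCast, Nat.mod_mul_mod, ← pow_eq_pow_mod _ hζ]

/-- **KUM-CONJ**: for `σ` in the decomposition group with `σ ζ = ζ ^ w`, `σ β` is a Kummer
generator of `g ↦ w · χ(σ⁻¹ g σ)`. -/
theorem kumConj (hp : p.Prime) (hp2 : p ≠ 2) (hP : P.LiesOverPrime p) (hπ : IsPi1 p π1) :
    KumConjStatement p P π1 := by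
  intro ζ χ β σ w hζ hσ hσζ hβ
  obtain ⟨hβ0, hβ⟩ := hβ
  refine ⟨fun h => hβ0 ((map_eq_zero_iff σ σ.injective).1 h), fun g hg => ?_⟩
  have hconj : σ⁻¹ * g * σ ∈ stabI P π1 := stabI_conj_mem_of_isPi1 hp hP hπ hσ hg
  have h1 := hβ _ hconj
  have h2 : g (σ β) = σ ((σ⁻¹ * g * σ) β) := by
    rw [AlgEquiv.mul_apply, AlgEquiv.mul_apply, ← AlgEquiv.mul_apply σ σ⁻¹, mul_inv_cancel,
      AlgEquiv.one_apply]
  rw [h2, h1, map_mul, map_pow, hσζ]
  show (ζ ^ w) ^ (χ (σ⁻¹ * g * σ)).val * σ β =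
    ζ ^ ((w : ZMod p) * χ (σ⁻¹ * g * σ)).val * σ β
  rw [zeta_pow_val_mul hζ.pow_eq_one]

/-- **KUM-UNIQUE**: if one generator of `χ` is in unit normal form of level `s`, no generator of
`χ` has level `≥ s + 1`. -/
theorem kumUnique (hp : p.Prime) (hp2 : p ≠ 2) (hP : P.LiesOverPrime p) (hπ : IsPi1 p π1)
    (hU1a : U1aStatement P π1) (hU3 : U3Statement p P π1 (stabI P π1)) :
    KumUniqueStatement p P π1 := by
  intro ζ χ β β' a s hζ hβ hβ' hNF hInU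
  obtain ⟨hβ0, hβ⟩ := hβ
  obtain ⟨hβ'0, hβ'⟩ := hβ'
  obtain ⟨hs0, hs, hps, haR, hau, hlc⟩ := hNF
  obtain ⟨h1, h2, h3, h4, h5, h6⟩ := hU1a
  obtain ⟨hU3a, -⟩ := hU3
  have hzfix : FixedBy (stabI P π1) (β / β') := by
    intro g hg
    rw [map_div₀, hβ g hg, hβ' g hg]
    have hζ0 : ζ ^ (χ g).val ≠ 0 := pow_ne_zero _ (hζ.ne_zero hp.ne_zero)
    field_simp
  have hlc' : LcAt P π1 s (β' ^ p) 0 := (h4 s _).1 hInU
  have hlcinv : LcAt P π1 s (β' ^ p)⁻¹ (-0) := h6 s _ 0 hs0 P.zero_mem hlc'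
  have hlcz : LcAt P π1 s (β ^ p * (β' ^ p)⁻¹) (a + -0) :=
    h5 s _ _ a (-0) hs0 haR.1 (by rw [neg_zero]; exact P.zero_mem) hlc hlcinv
  have hzp : (β / β') ^ p = β ^ p * (β' ^ p)⁻¹ := by rw [div_pow, div_eq_mul_inv]
  rw [← hzp, neg_zero, add_zero] at hlcz
  have hInUz : InU P π1 s ((β / β') ^ p) := h3 s _ a haR.1 hlcz
  have hInUz' : InU P π1 (s + 1) ((β / β') ^ p) := hU3a s (β / β') hps hs hzfix hInUz
  have hlc0 : LcAt P π1 s ((β / β') ^ p) 0 := (h4 s _).1 hInUz'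
  have hcon := h1 s _ a 0 hlcz hlc0
  rw [sub_zero] at hcon
  exact hau hcon

end Fermat.Agent.FFL.FB
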