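/-
Lib/FFL/FB, seat KT-KUM (W4-C block KT; owner helper91): `kum : KumStatement`.

Kummer generators via Lagrange resolvents: for `Γ ≤ N` normal of finite index and closed in `N`,
and a character `χ` of `N` trivial on `Γ` with `N`-fixed values, the resolvent
`a = ∑_{q ∈ N/Γ} χ(q)⁻¹ · q(b)` satisfies `σ a = χ σ · a`; it is nonzero for a suitable
`Γ`-fixed `b` by Dedekind's independence of characters.
-/
import Fermat.Agent.Lib.FFL.FB.UnitDefs

set_option autoImplicit false

namespace Fermat.Agent.FFL.FB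

open Fermat.Agent.FFL

local notation "Kb" => AlgebraicClosure ℚ
local notation "GK" => (AlgebraicClosure ℚ ≃ₐ[ℚ] AlgebraicClosure ℚ)

/-- The multiplicative monoid of `Γ`-fixed elements. -/
def kumFixed (Γ : Subgroup GK) : Submonoid Kb where
  carrier := {x | FixedBy Γ x}
  mul_mem' := fun {x y} hx hy σ hσ => by rw [map_mul, hx σ hσ, hy σ hσ]
  one_mem' := fun σ _ => map_one σ

theorem mem_kumFixed {Γ : Subgroup GK} {x : Kb} : x ∈ kumFixed Γ ↔ FixedBy Γ x := Iff.rfl

/-- Restriction of an automorphism to the `Γ`-fixed elements, as a monoid hom to `ℚ̄`. -/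
noncomputable def kumRes (Γ : Subgroup GK) (σ : GK) : kumFixed Γ →* Kb where
  toFun := fun x => σ (x : Kb)
  map_one' := by simp
  map_mul' := fun x y => by simp

@[simp] theorem kumRes_apply (Γ : Subgroup GK) (σ : GK) (x : kumFixed Γ) :
    kumRes Γ σ x = σ (x : Kb) := rfl

theorem kum : KumStatement := by
  intro N Γ hΓN hnorm hfin hclosed χ hχ0 hχmul hχfix hχΓ
  classical
  let _ : Fintype (N ⧸ Γ.subgroupOf N) := Subgroup.fintypeQuotientOfFiniteIndex
  -- representatives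
  set rep : N ⧸ Γ.subgroupOf N → GK := fun q => ((Quotient.out q : N) : GK) with hrep
  have hrepN : ∀ q, rep q ∈ N := fun q => (Quotient.out q : N).2
  -- the distinct restrictions
  have hinj : Function.Injective (fun q : N ⧸ Γ.subgroupOf N => kumRes Γ (rep q)) := by
    intro q q' h
    have hx : ∀ x : Kb, FixedBy Γ x → ((rep q)⁻¹ * rep q') x = x := by
      intro x hx
      have := DFunLike.congr_fun h ⟨x, hx⟩
      simp only [kumRes_apply] at this
      rw [AlgEquiv.mul_apply, ← this]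
      exact (rep q).symm_apply_apply x
    have hmem : (rep q)⁻¹ * rep q' ∈ Γ :=
      hclosed _ (N.mul_mem (N.inv_mem (hrepN q)) (hrepN q')) hx
    have : (QuotientGroup.mk (Quotient.out q : N) : N ⧸ Γ.subgroupOf N) =
        QuotientGroup.mk (Quotient.out q' : N) := by
      rw [QuotientGroup.eq]
      exact hmem
    simpa using this
  have hli : LinearIndependent Kb
      (fun q : N ⧸ Γ.subgroupOf N => (kumRes Γ (rep q) : kumFixed Γ → Kb)) :=
    (linearIndependent_monoidHom (kumFixed Γ) Kb).comp _ hinj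
  -- a suitable `b`
  obtain ⟨b, hb⟩ : ∃ b : kumFixed Γ,
      ∑ q : N ⧸ Γ.subgroupOf N, (χ (rep q))⁻¹ * rep q (b : Kb) ≠ 0 := by
    by_contra hcon
    push Not at hcon
    have hzero : ∑ q : N ⧸ Γ.subgroupOf N,
        (χ (rep q))⁻¹ • (kumRes Γ (rep q) : kumFixed Γ → Kb) = 0 := by
      funext b
      simp only [Finset.sum_apply, Pi.smul_apply, smul_eq_mul, kumRes_apply, Pi.zero_apply]
      exact hcon b
    have := Fintype.linearIndependent_iff.mp hli _ hzero
      (QuotientGroup.mk (1 : N) : N ⧸ Γ.subgroupOf N)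
    exact inv_ne_zero (hχ0 _ (hrepN _)) this
  refine ⟨_, hb, ?_⟩
  -- equivariance
  have hequi : ∀ σ ∈ N, σ (∑ q : N ⧸ Γ.subgroupOf N, (χ (rep q))⁻¹ * rep q (b : Kb)) =
      χ σ * ∑ q : N ⧸ Γ.subgroupOf N, (χ (rep q))⁻¹ * rep q (b : Kb) := by
    intro σ hσ
    rw [map_sum, Finset.mul_sum]
    rw [← Equiv.sum_comp (MulAction.toPerm (⟨σ, hσ⟩ : N))
      (fun q => χ σ * ((χ (rep q))⁻¹ * rep q (b : Kb)))]
    refine Finset.sum_congr rfl fun q _ => ?_
    -- `rep (σ • q) = σ * rep q * γ`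
    have hq : (⟨σ, hσ⟩ : N) • q = QuotientGroup.mk ((⟨σ, hσ⟩ : N) * Quotient.out q) := by
      conv_lhs => rw [← QuotientGroup.out_eq' q]
      rfl
    obtain ⟨γ, hγ⟩ := QuotientGroup.mk_out_eq_mul (Γ.subgroupOf N)
      ((⟨σ, hσ⟩ : N) * Quotient.out q)
    have hγΓ : ((γ : N) : GK) ∈ Γ := Subgroup.mem_subgroupOf.mp γ.2
    have hrep' : rep ((⟨σ, hσ⟩ : N) • q) = σ * rep q * ((γ : N) : GK) := by
      simp only [hrep]
      rw [hq, hγ]
      rfl
    simp only [MulAction.toPerm_apply]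
    rw [hrep']
    have hχ1 : χ (σ * rep q * ((γ : N) : GK)) = χ σ * χ (rep q) := by
      rw [hχmul _ (N.mul_mem hσ (hrepN q)) _ (hΓN hγΓ), hχΓ _ hγΓ, mul_one,
        hχmul _ hσ _ (hrepN q)]
    have hb1 : (σ * rep q * ((γ : N) : GK)) (b : Kb) = σ (rep q (b : Kb)) := by
      rw [AlgEquiv.mul_apply, b.2 _ hγΓ, AlgEquiv.mul_apply]
    rw [hχ1, hb1, map_mul, map_inv₀, hχfix _ (hrepN q) σ hσ]
    have h1 := hχ0 σ hσ
    have h2 := hχ0 _ (hrepN q)
    field_simp
  refine ⟨fun γ hγ => ?_, hequi⟩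
  rw [hequi γ (hΓN hγ), hχΓ γ hγ, one_mul]

end Fermat.Agent.FFL.FB
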