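/-
Lib/FFL/FB (R4-FB = S56-W4 case C), seat LL (helper50): EXACT STATEMENTS of the lifting lemma
`LL`, the separation lemma `INJ` and the comparison `(P_m)` = `PM`, as `Prop`s.
They are PROVED in `Lib/FFL/FB/Lift.lean` (`ll : LLStatement`, `inj : INJStatement`,
`pm : PMStatement`).

Setting: `P` a valuation subring of `ℚ̄` over `p`, `W` a finite Galois module with a Hopf order
`O` (Lib/FlatMod), `p W = 0`, `Γ` a subgroup of the decomposition group of `P`.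
The ring `S = intRing P Γ = {a ∈ P : σ a = a ∀ σ ∈ Γ}` enters as ANY `S : Subring ℚ̄` with
`hS : ∀ a, a ∈ S ↔ a ∈ P ∧ ∀ σ ∈ Γ, σ a = a` (so the statements do not depend on the file in which
`intRing` is defined: use `S := intRing P Γ`, `hS := fun _ => Iff.rfl`).

"`v(λ) > 1/(p-1)`" is written `λ ^ (p - 1) / p ∈ P.nonunits`.
-/
import Fermat.Agent.Lib.FFL.Defs

set_option autoImplicit false

namespace Fermat.Agent.FFL.FB

open Fermat.Agent.FlatMod GaloisRep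

local notation "Kb" => AlgebraicClosure ℚ
local notation "GK" => (AlgebraicClosure ℚ ≃ₐ[ℚ] AlgebraicClosure ℚ)

/-- **LL** (lifting lemma): a ring homomorphism `x : O.alg → S / p λ` is congruent modulo `λ` to
the evaluation at a `Γ`-fixed point `w` of `W`: for every `f ∈ O.alg` and every lift `s ∈ S` of
`x f`, `f w - s ∈ λ S`. -/
def LLStatement : Prop :=
  ∀ (p : ℕ) (_ : p.Prime) (P : ValuationSubring Kb) (_ : P.LiesOverPrime p)
    (W : Type) [AddCommGroup W] (act : GK → W → W) (O : HopfOrder p W act)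
    (_ : ∀ w : W, p • w = 0)
    (Γ : Subgroup GK) (_ : Γ ≤ P.decompositionSubgroup ℚ)
    (S : Subring Kb) (_ : ∀ a, a ∈ S ↔ a ∈ P ∧ ∀ σ ∈ Γ, σ a = a)
    (lam : S) (_ : (lam : Kb) ^ (p - 1) / (p : Kb) ∈ P.nonunits)
    (x : O.alg →+* S ⧸ Ideal.span {(p : S) * lam}),
    ∃ w : W, (∀ σ ∈ Γ, act σ w = w) ∧
      ∀ (f : O.alg) (s : S), Ideal.Quotient.mk (Ideal.span {(p : S) * lam}) s = x f →
        ∃ t : S, (f : W → Kb) w - (s : Kb) = (lam : Kb) * (t : Kb)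

/-- **INJ** (separation): two distinct points of `W` are separated by some `f ∈ O.alg` at level
`≤ 1/(p-1)`: `v(f w - f w') ≤ 1/(p-1)`. -/
def INJStatement : Prop :=
  ∀ (p : ℕ) (_ : p.Prime) (P : ValuationSubring Kb) (_ : P.LiesOverPrime p)
    (W : Type) [AddCommGroup W] (act : GK → W → W) (O : HopfOrder p W act)
    (_ : ∀ w : W, p • w = 0) (w w' : W), w ≠ w' →
    ∃ f ∈ O.alg, ¬ ((f w - f w') ^ (p - 1) / (p : Kb) ∈ P.nonunits)

/-- **PM** = `(P_m)`: if `Γ'` acts trivially on `W` and there is a ring homomorphism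
`η : intRing P Γ' → intRing P Γ / p λ` with `v(λ) > 1/(p-1)`, then `Γ` acts trivially on `W`. -/
def PMStatement : Prop :=
  ∀ (p : ℕ) (_ : p.Prime) (P : ValuationSubring Kb) (_ : P.LiesOverPrime p)
    (W : Type) [AddCommGroup W] (act : GK → W → W) (_ : HopfOrder p W act)
    (_ : ∀ w : W, p • w = 0)
    (Γ' Γ : Subgroup GK) (_ : Γ ≤ P.decompositionSubgroup ℚ)
    (S' S : Subring Kb) (_ : ∀ a, a ∈ S' ↔ a ∈ P ∧ ∀ σ ∈ Γ', σ a = a)
    (_ : ∀ a, a ∈ S ↔ a ∈ P ∧ ∀ σ ∈ Γ, σ a = a)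
    (lam : S) (_ : (lam : Kb) ^ (p - 1) / (p : Kb) ∈ P.nonunits)
    (_ : S' →+* S ⧸ Ideal.span {(p : S) * lam}),
    (∀ σ ∈ Γ', ∀ w : W, act σ w = w) → ∀ σ ∈ Γ, ∀ w : W, act σ w = w

end Fermat.Agent.FFL.FB
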