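/-
R4-FB leaf LINE (helper41): the inertia characters of a flat module killed by `p` are `1` and `ω`
(Oort–Tate exponents).  The proof is in `Lib/FFL/OortTate.lean` (`inertia_eigen_char`); this file
gives the statement in the form used by R4-FB: an inertia-eigenline `N = ⟨x⟩` with character
`σ ↦ θ σ` (natural numbers modulo `p`) in a flat module killed by `p` has `θ ≡ 1` on inertia or
`θ ≡ ω` on inertia, `ω` the cyclotomic character (`σ ζ = ζ ^ ω σ` on the `p`-th roots of unity).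
-/
import Fermat.Agent.Lib.FFL.OortTate

set_option autoImplicit false

namespace Fermat.Agent.FFL.FB

open Fermat.Agent.FlatMod GaloisRep

local notation "Kb" => AlgebraicClosure ℚ
local notation "GK" => (AlgebraicClosure ℚ ≃ₐ[ℚ] AlgebraicClosure ℚ)

/-- **LINE**, statement. -/
def LineStatement (p : ℕ) (P : ValuationSubring Kb) : Prop :=
  ∀ (W : Type) [AddCommGroup W] (act : GK → W → W) (_ : HopfOrder p W act),
    (∀ w : W, p • w = 0) → ∀ x : W, x ≠ 0 → ∀ θ : GK → ℕ,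
      (∀ σ ∈ P.inertiaSubgroupIn ℚ, act σ x = θ σ • x) →
      (∀ σ ∈ P.inertiaSubgroupIn ℚ, act σ x = x) ∨
        (∀ σ ∈ P.inertiaSubgroupIn ℚ, ∀ ξ : Kb, ξ ^ p = 1 → σ ξ = ξ ^ θ σ)

/-- **LINE**. -/
theorem lineStatement {p : ℕ} (hp : p.Prime) (hp2 : p ≠ 2) (P : ValuationSubring Kb)
    (hP : P.LiesOverPrime p) : LineStatement p P :=
  fun _ _ _ O hpW _ hx θ hθ => inertia_eigen_char hp hp2 P hP O hpW hx θ hθ

theorem line_modEq_of_pow_eq {p : ℕ} (hp0 : p ≠ 0) {ζ : Kb} (hprim : IsPrimitiveRoot ζ p)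
    {a b : ℕ} (h : ζ ^ a = ζ ^ b) : a ≡ b [MOD p] := by
  have hζ0 : ζ ≠ 0 := by
    rintro rfl
    have := hprim.pow_eq_one
    rw [zero_pow hp0] at this
    exact zero_ne_one this
  wlog hab : a ≤ b generalizing a b
  · exact (this h.symm (le_of_not_ge hab)).symm
  obtain ⟨c, rfl⟩ := Nat.exists_eq_add_of_le hab
  have h1 : ζ ^ c = 1 := by
    rw [pow_add] at h
    have h2 : ζ ^ a * (ζ ^ c - 1) = 0 := by linear_combination -h
    rcases mul_eq_zero.1 h2 with h3 | h3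
    · exact absurd h3 (pow_ne_zero _ hζ0)
    · exact sub_eq_zero.1 h3
  have h4 : p ∣ c := (hprim.pow_eq_one_iff_dvd c).1 h1
  exact (Nat.modEq_iff_dvd' (Nat.le_add_right a c)).2 (by simpa using h4)

/-- **LINE**, congruence form: if `ω : GK → ℕ` is a cyclotomic exponent on inertia
(`σ ζ = ζ ^ ω σ` for one `p`-th root of unity `ζ ≠ 1`), then `θ σ ≡ 1` for all `σ` in inertia, or
`θ σ ≡ ω σ` for all `σ` in inertia (modulo `p`). -/
theorem line_modEq {p : ℕ} (hp : p.Prime) (hp2 : p ≠ 2) (P : ValuationSubring Kb)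
    (hP : P.LiesOverPrime p) {W : Type} [AddCommGroup W] {act : GK → W → W}
    (O : HopfOrder p W act) (hpW : ∀ w : W, p • w = 0) {x : W} (hx : x ≠ 0)
    (θ : GK → ℕ) (hθ : ∀ σ ∈ P.inertiaSubgroupIn ℚ, act σ x = θ σ • x)
    (ω : GK → ℕ) {ζ : Kb} (hζ1 : ζ ≠ 1) (hζp : ζ ^ p = 1)
    (hω : ∀ σ ∈ P.inertiaSubgroupIn ℚ, σ ζ = ζ ^ ω σ) :
    (∀ σ ∈ P.inertiaSubgroupIn ℚ, θ σ ≡ 1 [MOD p]) ∨
      (∀ σ ∈ P.inertiaSubgroupIn ℚ, θ σ ≡ ω σ [MOD p]) := by
  have : Fact p.Prime := ⟨hp⟩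
  rcases inertia_eigen_char hp hp2 P hP O hpW hx θ hθ with h | h
  · left
    intro σ hσ
    -- `θ σ • x = x` with `x ≠ 0` of order `p`
    have h1 : θ σ • x = x := by rw [← hθ σ hσ]; exact h σ hσ
    have hord : addOrderOf x = p := by
      have h2 : addOrderOf x ∣ p := addOrderOf_dvd_of_nsmul_eq_zero (hpW x)
      rcases (Nat.dvd_prime hp).1 h2 with h3 | h3
      · exact absurd (AddMonoid.addOrderOf_eq_one_iff.1 h3) hx
      · exact h3
    have h4 : θ σ • x = 1 • x := by rw [h1, one_smul]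
    have h5 := (nsmul_eq_nsmul_iff_modEq).1 h4
    rwa [hord] at h5
  · right
    intro σ hσ
    have h1 : ζ ^ θ σ = ζ ^ ω σ := by rw [← h σ hσ ζ hζp, hω σ hσ]
    have hprim : IsPrimitiveRoot ζ p := OT.isPrimitiveRoot_of_ne_one hζ1 hζp
    exact line_modEq_of_pow_eq hp.ne_zero hprim h1

end Fermat.Agent.FFL.FB
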