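/-
Lib/FFL/FB (R4-FB, Fontaine's bound in function language), file 3 (helper50):
the pairing of the group algebra `ℚ̄[V]` with the functions `V → ℚ̄`, and the LATTICE SUBRING
`fbLat P F = {u ∈ ℚ̄[V] : ⟨u, f⟩ ∈ P ∀ f ∈ F}` of a comultiplication-closed set `F` of functions
(for `F` a Hopf order this is the `P`-points of the Cartier dual order, as a convolution ring).

* `FBD P c x`    : `x ∈ c P` (scalars);
* `fbPair f u`   : `∑ v, u_v f(v)`; `fbPair_mul`: `⟨u u', f⟩ = ∑ i ⟨u, g i⟩ ⟨u', h i⟩` if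
  `f (w + w') = ∑ i, g i w * h i w'`;
* `fbLat`, `fbLat_stable`, `fbLat_cg_iff` : `u ∈ c • fbLat ↔ ⟨u, f⟩ ∈ c P ∀ f ∈ F`;
* `fbTens F` (the functions `g ⊠ h` on `V × V`), `fbDiag`, `fbInl`, `fbInr` and their pairings.
-/
import Fermat.Agent.Lib.FFL.FB.Filt
import Fermat.Agent.Lib.FFL.Defs

set_option autoImplicit false
set_option linter.unusedSectionVars false

namespace Fermat.Agent.FFL.FB

open Fermat.Agent.FlatMod GaloisRep

local notation "Kb" => AlgebraicClosure ℚ

/-! ### Divisibility of scalars in `P` -/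

section Dvd

variable {P : ValuationSubring Kb}

/-- `x ∈ c P`. -/
def FBD (P : ValuationSubring Kb) (c x : Kb) : Prop := ∃ r ∈ P, x = c * r

theorem FBD.zero (c : Kb) : FBD P c 0 := ⟨0, P.zero_mem, by simp⟩

theorem FBD.self (c : Kb) : FBD P c c := ⟨1, P.one_mem, by simp⟩

theorem FBD.add {c x y : Kb} (hx : FBD P c x) (hy : FBD P c y) : FBD P c (x + y) := by
  obtain ⟨r, hr, rfl⟩ := hx
  obtain ⟨s, hs, rfl⟩ := hy
  exact ⟨r + s, P.add_mem _ _ hr hs, by ring⟩

theorem FBD.neg {c x : Kb} (hx : FBD P c x) : FBD P c (-x) := by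
  obtain ⟨r, hr, rfl⟩ := hx
  exact ⟨-r, P.neg_mem _ hr, by ring⟩

theorem FBD.sub {c x y : Kb} (hx : FBD P c x) (hy : FBD P c y) : FBD P c (x - y) := by
  obtain ⟨r, hr, rfl⟩ := hx
  obtain ⟨s, hs, rfl⟩ := hy
  exact ⟨r - s, sub_mem hr hs, by ring⟩

theorem FBD.mul_left {c x a : Kb} (hx : FBD P c x) (ha : a ∈ P) : FBD P c (a * x) := by
  obtain ⟨r, hr, rfl⟩ := hx
  exact ⟨a * r, P.mul_mem _ _ ha hr, by ring⟩

theorem FBD.mul_right {c x a : Kb} (hx : FBD P c x) (ha : a ∈ P) : FBD P c (x * a) := by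
  rw [mul_comm]; exact hx.mul_left ha

theorem FBD.mul {c c' x y : Kb} (hx : FBD P c x) (hy : FBD P c' y) : FBD P (c * c') (x * y) := by
  obtain ⟨r, hr, rfl⟩ := hx
  obtain ⟨s, hs, rfl⟩ := hy
  exact ⟨r * s, P.mul_mem _ _ hr hs, by ring⟩

theorem FBD.sum {ι : Type*} (s : Finset ι) {c : Kb} {x : ι → Kb} (hx : ∀ i ∈ s, FBD P c (x i)) :
    FBD P c (∑ i ∈ s, x i) := by
  classical
  induction s using Finset.induction_on with
  | empty => simpa using FBD.zero c
  | insert a s ha ih =>
    rw [Finset.sum_insert ha]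
    exact (hx a (Finset.mem_insert_self a s)).add
      (ih (fun i hi => hx i (Finset.mem_insert_of_mem hi)))

theorem FBD.mono {c c' a x : Kb} (ha : a ∈ P) (h : c = c' * a) (hx : FBD P c x) : FBD P c' x := by
  obtain ⟨r, hr, rfl⟩ := hx
  exact ⟨a * r, P.mul_mem _ _ ha hr, by rw [h]; ring⟩

theorem FBD.congr {c x y : Kb} (hx : FBD P c x) (h : y = x) : FBD P c y := h ▸ hx

theorem FBD.mem {c x : Kb} (hc : c ∈ P) (hx : FBD P c x) : x ∈ P := by
  obtain ⟨r, hr, rfl⟩ := hx
  exact P.mul_mem _ _ hc hr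

theorem FBD.of_mem {x : Kb} (hx : x ∈ P) : FBD P 1 x := ⟨x, hx, by simp⟩

theorem FBD.of_mul {a c x : Kb} (ha : a ≠ 0) (hx : FBD P (a * c) (a * x)) : FBD P c x := by
  obtain ⟨r, hr, h⟩ := hx
  refine ⟨r, hr, ?_⟩
  have : a * x = a * (c * r) := by rw [h]; ring
  exact mul_left_cancel₀ ha this

/-- Congruent factors have congruent products. -/
theorem FBD.mul_sub_mul {c x y x' y' : Kb} (hx : FBD P c (x - x')) (hy : FBD P c (y - y'))
    (hy' : y ∈ P) (hx' : x' ∈ P) : FBD P c (x * y - x' * y') := by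
  have : x * y - x' * y' = (x - x') * y + x' * (y - y') := by ring
  rw [this]
  exact (hx.mul_right hy').add (hy.mul_left hx')

end Dvd

/-! ### The pairing -/

section Pair

variable {V : Type} [AddCommGroup V] [Fintype V]

/-- The pairing of the group algebra with the functions: `⟨u, f⟩ = ∑ v, u_v f(v)`. -/
noncomputable def fbPair (f : V → Kb) (u : AddMonoidAlgebra Kb V) : Kb := ∑ v, u.coeff v * f v

theorem fbPair_zero (f : V → Kb) : fbPair f 0 = 0 := by simp [fbPair]

theorem fbPair_add (f : V → Kb) (u u' : AddMonoidAlgebra Kb V) :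
    fbPair f (u + u') = fbPair f u + fbPair f u' := by
  simp [fbPair, AddMonoidAlgebra.coeff_add, add_mul, Finset.sum_add_distrib]

theorem fbPair_neg (f : V → Kb) (u : AddMonoidAlgebra Kb V) : fbPair f (-u) = -fbPair f u := by
  simp [fbPair, AddMonoidAlgebra.coeff_neg]

theorem fbPair_sub (f : V → Kb) (u u' : AddMonoidAlgebra Kb V) :
    fbPair f (u - u') = fbPair f u - fbPair f u' := by
  rw [sub_eq_add_neg, fbPair_add, fbPair_neg, sub_eq_add_neg]

theorem fbPair_smul (f : V → Kb) (c : Kb) (u : AddMonoidAlgebra Kb V) :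
    fbPair f (c • u) = c * fbPair f u := by
  simp [fbPair, AddMonoidAlgebra.coeff_smul, Finset.mul_sum, mul_assoc]

theorem fbPair_algebraMap_mul (f : V → Kb) (c : Kb) (u : AddMonoidAlgebra Kb V) :
    fbPair f (algebraMap Kb (AddMonoidAlgebra Kb V) c * u) = c * fbPair f u := by
  rw [← Algebra.smul_def, fbPair_smul]

theorem fbPair_single (f : V → Kb) (w : V) (c : Kb) :
    fbPair f (AddMonoidAlgebra.single w c) = c * f w := by
  classical
  unfold fbPair
  rw [Finset.sum_eq_single w]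
  · simp [AddMonoidAlgebra.coeff_single]
  · intro v _ hv
    simp [AddMonoidAlgebra.coeff_single, Ne.symm hv]
  · intro h; exact absurd (Finset.mem_univ w) h

theorem fbPair_one (f : V → Kb) : fbPair f 1 = f 0 := by
  rw [AddMonoidAlgebra.one_def, fbPair_single, one_mul]

theorem fbPair_fun_add (f f' : V → Kb) (u : AddMonoidAlgebra Kb V) :
    fbPair (f + f') u = fbPair f u + fbPair f' u := by
  simp [fbPair, mul_add, Finset.sum_add_distrib]

theorem fbPair_fun_zero (u : AddMonoidAlgebra Kb V) : fbPair (0 : V → Kb) u = 0 := by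
  simp [fbPair]

theorem fbPair_fun_smul (c : Kb) (f : V → Kb) (u : AddMonoidAlgebra Kb V) :
    fbPair (c • f) u = c * fbPair f u := by
  simp only [fbPair, Pi.smul_apply, smul_eq_mul, Finset.mul_sum]
  exact Finset.sum_congr rfl (fun v _ => by ring)

theorem fbPair_fun_mul_const (c : Kb) (f : V → Kb) (u : AddMonoidAlgebra Kb V) :
    fbPair (fun v => c * f v) u = c * fbPair f u := fbPair_fun_smul c f u

theorem fbPair_fun_sub (f f' : V → Kb) (u : AddMonoidAlgebra Kb V) :
    fbPair (f - f') u = fbPair f u - fbPair f' u := by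
  simp [fbPair, mul_sub, Finset.sum_sub_distrib]

theorem fbPair_fun_sum {ι : Type*} (s : Finset ι) (f : ι → V → Kb) (u : AddMonoidAlgebra Kb V) :
    fbPair (∑ i ∈ s, f i) u = ∑ i ∈ s, fbPair (f i) u := by
  classical
  induction s using Finset.induction_on with
  | empty => simpa using fbPair_fun_zero u
  | insert a s ha ih => rw [Finset.sum_insert ha, Finset.sum_insert ha, fbPair_fun_add, ih]

theorem fbPair_fun_sum' {ι : Type*} (s : Finset ι) (f : ι → V → Kb)
    (u : AddMonoidAlgebra Kb V) :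
    fbPair (fun v => ∑ i ∈ s, f i v) u = ∑ i ∈ s, fbPair (f i) u := by
  rw [← fbPair_fun_sum]
  congr 1
  funext v
  simp

/-- Pairing with an indicator function. -/
theorem fbPair_indicator [DecidableEq V] (w : V) (c : Kb) (u : AddMonoidAlgebra Kb V) :
    fbPair (fun v => if v = w then c else 0) u = c * u.coeff w := by
  unfold fbPair
  rw [Finset.sum_eq_single w]
  · simp [mul_comm]
  · intro v _ hv
    simp [hv]
  · intro h; exact absurd (Finset.mem_univ w) h

/-- The pairing is multiplicative with respect to a comultiplication formula. -/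
theorem fbPair_mul {ι : Type*} (s : Finset ι) {f : V → Kb} {g h : ι → V → Kb}
    (hf : ∀ w w', f (w + w') = ∑ i ∈ s, g i w * h i w') (u u' : AddMonoidAlgebra Kb V) :
    fbPair f (u * u') = ∑ i ∈ s, fbPair (g i) u * fbPair (h i) u' := by
  induction u using AddMonoidAlgebra.induction_linear with
  | zero => simp [fbPair_zero]
  | add a b ha hb =>
    rw [add_mul, fbPair_add, ha, hb, ← Finset.sum_add_distrib]
    exact Finset.sum_congr rfl (fun i _ => by rw [fbPair_add]; ring)
  | single w c =>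
    induction u' using AddMonoidAlgebra.induction_linear with
    | zero => simp [fbPair_zero]
    | add a b ha hb =>
      rw [mul_add, fbPair_add, ha, hb, ← Finset.sum_add_distrib]
      exact Finset.sum_congr rfl (fun i _ => by rw [fbPair_add]; ring)
    | single w' c' =>
      rw [AddMonoidAlgebra.single_mul_single, fbPair_single, hf, Finset.mul_sum]
      exact Finset.sum_congr rfl (fun i _ => by rw [fbPair_single, fbPair_single]; ring)

/-- The pairing with a character is multiplicative (the Fourier transform is a ring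
homomorphism for the convolution). -/
theorem fbPair_mul_char {y : V → Kb} (hy : ∀ w w', y (w + w') = y w * y w')
    (u u' : AddMonoidAlgebra Kb V) : fbPair y (u * u') = fbPair y u * fbPair y u' := by
  have h := fbPair_mul (ι := Unit) Finset.univ (f := y) (g := fun _ => y) (h := fun _ => y)
    (fun w w' => by simp [hy]) u u'
  simpa using h

/-- Pairing of a function with a product in terms of its values: `⟨u, f⟩ = ∑ v, u_v f(v)`. -/
theorem fbPair_def (f : V → Kb) (u : AddMonoidAlgebra Kb V) :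
    fbPair f u = ∑ v, u.coeff v * f v := rfl

/-- An element of the group algebra is determined by its pairings with a spanning set. -/
theorem fbPair_eq_zero_of_span {F : Set (V → Kb)} (hF : Submodule.span Kb F = ⊤)
    {u : AddMonoidAlgebra Kb V} (hu : ∀ f ∈ F, fbPair f u = 0) : u = 0 := by
  classical
  have h1 : ∀ f : V → Kb, fbPair f u = 0 := by
    intro f
    have hf : f ∈ Submodule.span Kb F := by rw [hF]; exact Submodule.mem_top
    induction hf using Submodule.span_induction with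
    | mem f hf => exact hu f hf
    | zero => exact fbPair_fun_zero u
    | add f g _ _ hf hg => rw [fbPair_fun_add, hf, hg, add_zero]
    | smul a f _ hf => rw [fbPair_fun_smul, hf, mul_zero]
  rw [← AddMonoidAlgebra.coeff_inj]
  ext w
  have h2 := h1 (fun v => if v = w then 1 else 0)
  rw [fbPair_indicator, one_mul] at h2
  simpa using h2

end Pair

/-! ### The lattice subring -/

section Lat

variable {V : Type} [AddCommGroup V] [Fintype V]

/-- Comultiplication-closed sets of functions (sums over any finite index set). -/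
def FBComul (F : Set (V → Kb)) : Prop :=
  ∀ f ∈ F, ∃ (ι : Type) (s : Finset ι) (g h : ι → V → Kb), (∀ i ∈ s, g i ∈ F) ∧
    (∀ i ∈ s, h i ∈ F) ∧ ∀ w w', f (w + w') = ∑ i ∈ s, g i w * h i w'

theorem fbComul_of_comulClosed {F : Set (V → Kb)} (hF : ComulClosed F) : FBComul F := by
  intro f hf
  obtain ⟨n, g, h, hg, hh, hfg⟩ := hF f hf
  exact ⟨Fin n, Finset.univ, g, h, fun i _ => hg i, fun i _ => hh i, hfg⟩

/-- The lattice of a comultiplication-closed set of functions with respect to ANY subring `R` of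
`ℚ̄`: `{u : ⟨u, f⟩ ∈ R ∀ f ∈ F}`, a subring of the group algebra (convolution). -/
def fbLatR (R : Subring Kb) (F : Set (V → Kb)) (hF : FBComul F)
    (h0 : ∀ f ∈ F, f 0 ∈ R) : Subring (AddMonoidAlgebra Kb V) where
  carrier := {u | ∀ f ∈ F, fbPair f u ∈ R}
  mul_mem' := by
    intro u u' hu hu' f hf
    obtain ⟨ι, s, g, h, hg, hh, hfg⟩ := hF f hf
    rw [fbPair_mul s hfg]
    exact sum_mem (fun i hi => R.mul_mem (hu _ (hg i hi)) (hu' _ (hh i hi)))
  one_mem' := fun f hf => by rw [fbPair_one]; exact h0 f hf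
  add_mem' := by
    intro u u' hu hu' f hf
    rw [fbPair_add]
    exact R.add_mem (hu f hf) (hu' f hf)
  zero_mem' := fun f _ => by rw [fbPair_zero]; exact R.zero_mem
  neg_mem' := by
    intro u hu f hf
    rw [fbPair_neg]
    exact R.neg_mem (hu f hf)

theorem mem_fbLatR {R : Subring Kb} {F : Set (V → Kb)} {hF : FBComul F}
    {h0 : ∀ f ∈ F, f 0 ∈ R} {u : AddMonoidAlgebra Kb V} :
    u ∈ fbLatR R F hF h0 ↔ ∀ f ∈ F, fbPair f u ∈ R := Iff.rfl

/-- The lattice is stable under multiplication by `R`. -/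
theorem fbLatR_smul_mem {R : Subring Kb} {F : Set (V → Kb)} {hF : FBComul F}
    {h0 : ∀ f ∈ F, f 0 ∈ R} {a : Kb} (ha : a ∈ R) {u : AddMonoidAlgebra Kb V}
    (hu : u ∈ fbLatR R F hF h0) : a • u ∈ fbLatR R F hF h0 := by
  intro f hf
  rw [fbPair_smul]
  exact R.mul_mem ha (hu f hf)

/-- The lattice with respect to a valuation subring `P`. -/
abbrev fbLat (P : ValuationSubring Kb) (F : Set (V → Kb)) (hF : FBComul F)
    (h0 : ∀ f ∈ F, f 0 ∈ P) : Subring (AddMonoidAlgebra Kb V) :=
  fbLatR P.toSubring F hF h0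

variable {P : ValuationSubring Kb} {F : Set (V → Kb)} {hF : FBComul F}
  {h0 : ∀ f ∈ F, f 0 ∈ P}

theorem mem_fbLat {u : AddMonoidAlgebra Kb V} :
    u ∈ fbLat P F hF h0 ↔ ∀ f ∈ F, fbPair f u ∈ P := Iff.rfl

theorem fbLat_stable : FBStable P (fbLat P F hF h0) := by
  intro a ha u hu f hf
  rw [fbPair_algebraMap_mul]
  exact P.mul_mem _ _ ha (hu f hf)

theorem fbLat_pair_of_cg {c : Kb} {u : AddMonoidAlgebra Kb V} (hu : FBCg (fbLat P F hF h0) c u)
    {f : V → Kb} (hf : f ∈ F) : FBD P c (fbPair f u) := by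
  obtain ⟨r, hr, rfl⟩ := hu
  exact ⟨fbPair f r, hr f hf, fbPair_algebraMap_mul f c r⟩

theorem fbLat_cg_of_pair (hspan : Submodule.span Kb F = ⊤) {c : Kb}
    {u : AddMonoidAlgebra Kb V} (hu : ∀ f ∈ F, FBD P c (fbPair f u)) :
    FBCg (fbLat P F hF h0) c u := by
  by_cases hc : c = 0
  · have : u = 0 := by
      refine fbPair_eq_zero_of_span hspan (fun f hf => ?_)
      obtain ⟨r, _, h⟩ := hu f hf
      rw [h, hc, zero_mul]
    rw [this]
    exact FBCg.zero c
  · refine ⟨c⁻¹ • u, fun f hf => ?_, ?_⟩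
    · obtain ⟨r, hr, h⟩ := hu f hf
      rw [fbPair_smul, h, ← mul_assoc, inv_mul_cancel₀ hc, one_mul]
      exact hr
    · rw [← Algebra.smul_def, smul_smul, mul_inv_cancel₀ hc, one_smul]

theorem fbLat_cg_iff (hspan : Submodule.span Kb F = ⊤) {c : Kb} {u : AddMonoidAlgebra Kb V} :
    FBCg (fbLat P F hF h0) c u ↔ ∀ f ∈ F, FBD P c (fbPair f u) :=
  ⟨fun hu _ hf => fbLat_pair_of_cg hu hf, fbLat_cg_of_pair hspan⟩

end Lat

/-! ### The square -/

section Tens

variable {W : Type} [AddCommGroup W] [Fintype W]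

/-- The functions `g ⊠ h` on `W × W`, `g, h ∈ F`. -/
def fbTens (F : Set (W → Kb)) : Set (W × W → Kb) :=
  {f | ∃ g ∈ F, ∃ h ∈ F, f = fun a => g a.1 * h a.2}

theorem fbTens_mem {F : Set (W → Kb)} {g h : W → Kb} (hg : g ∈ F) (hh : h ∈ F) :
    (fun a : W × W => g a.1 * h a.2) ∈ fbTens F := ⟨g, hg, h, hh, rfl⟩

theorem fbTens_comul {F : Set (W → Kb)} (hF : FBComul F) : FBComul (fbTens F) := by
  rintro _ ⟨g, hg, h, hh, rfl⟩
  obtain ⟨ι, s, g1, g2, hg1, hg2, hgg⟩ := hF g hg
  obtain ⟨κ, t, h1, h2, hh1, hh2, hhh⟩ := hF h hh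
  refine ⟨ι × κ, s ×ˢ t, fun i a => g1 i.1 a.1 * h1 i.2 a.2, fun i a => g2 i.1 a.1 * h2 i.2 a.2,
    ?_, ?_, ?_⟩
  · intro i hi
    rw [Finset.mem_product] at hi
    exact fbTens_mem (hg1 _ hi.1) (hh1 _ hi.2)
  · intro i hi
    rw [Finset.mem_product] at hi
    exact fbTens_mem (hg2 _ hi.1) (hh2 _ hi.2)
  · intro a b
    show g (a.1 + b.1) * h (a.2 + b.2) = _
    rw [hgg, hhh, Finset.sum_mul_sum, Finset.sum_product]
    refine Finset.sum_congr rfl (fun i _ => Finset.sum_congr rfl (fun j _ => ?_))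
    ring

theorem fbTens_zero {P : ValuationSubring Kb} {F : Set (W → Kb)} (h0 : ∀ f ∈ F, f 0 ∈ P) :
    ∀ f ∈ fbTens F, f 0 ∈ P := by
  rintro _ ⟨g, hg, h, hh, rfl⟩
  exact P.mul_mem _ _ (h0 g hg) (h0 h hh)

/-- The diagonal `ℚ̄[W] → ℚ̄[W × W]`. -/
noncomputable def fbDiag : AddMonoidAlgebra Kb W →ₐ[Kb] AddMonoidAlgebra Kb (W × W) :=
  AddMonoidAlgebra.mapDomainAlgHom Kb Kb ((AddMonoidHom.id W).prod (AddMonoidHom.id W))

/-- The first inclusion `ℚ̄[W] → ℚ̄[W × W]`. -/
noncomputable def fbInl : AddMonoidAlgebra Kb W →ₐ[Kb] AddMonoidAlgebra Kb (W × W) :=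
  AddMonoidAlgebra.mapDomainAlgHom Kb Kb (AddMonoidHom.inl W W)

/-- The second inclusion `ℚ̄[W] → ℚ̄[W × W]`. -/
noncomputable def fbInr : AddMonoidAlgebra Kb W →ₐ[Kb] AddMonoidAlgebra Kb (W × W) :=
  AddMonoidAlgebra.mapDomainAlgHom Kb Kb (AddMonoidHom.inr W W)

theorem fbDiag_single (w : W) (c : Kb) :
    fbDiag (AddMonoidAlgebra.single w c) = AddMonoidAlgebra.single (w, w) c := by
  simp [fbDiag]

theorem fbInl_single (w : W) (c : Kb) :
    fbInl (AddMonoidAlgebra.single w c) = AddMonoidAlgebra.single (w, 0) c := by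
  simp [fbInl]

theorem fbInr_single (w : W) (c : Kb) :
    fbInr (AddMonoidAlgebra.single w c) = AddMonoidAlgebra.single (0, w) c := by
  simp [fbInr]

theorem fbPair_diag (g h : W → Kb) (u : AddMonoidAlgebra Kb W) :
    fbPair (fun a : W × W => g a.1 * h a.2) (fbDiag u) = fbPair (g * h) u := by
  induction u using AddMonoidAlgebra.induction_linear with
  | zero => simp [fbPair_zero]
  | add a b ha hb => rw [map_add, fbPair_add, fbPair_add, ha, hb]
  | single w c => rw [fbDiag_single, fbPair_single, fbPair_single]; rfl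

theorem fbPair_inl_mul_inr (g h : W → Kb) (u u' : AddMonoidAlgebra Kb W) :
    fbPair (fun a : W × W => g a.1 * h a.2) (fbInl u * fbInr u') = fbPair g u * fbPair h u' := by
  induction u using AddMonoidAlgebra.induction_linear with
  | zero => simp [fbPair_zero]
  | add a b ha hb => rw [map_add, add_mul, fbPair_add, fbPair_add, ha, hb, add_mul]
  | single w c =>
    induction u' using AddMonoidAlgebra.induction_linear with
    | zero => simp [fbPair_zero]
    | add a b ha hb => rw [map_add, mul_add, fbPair_add, fbPair_add, ha, hb, mul_add]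
    | single w' c' =>
      rw [fbInl_single, fbInr_single, AddMonoidAlgebra.single_mul_single, fbPair_single,
        fbPair_single, fbPair_single]
      have e : ((w, (0 : W)) + ((0 : W), w')) = (w, w') := by simp
      rw [e]
      ring

theorem fbPair_inl (g h : W → Kb) (u : AddMonoidAlgebra Kb W) :
    fbPair (fun a : W × W => g a.1 * h a.2) (fbInl u) = fbPair g u * h 0 := by
  have := fbPair_inl_mul_inr g h u 1
  rwa [map_one, mul_one, fbPair_one] at this

theorem fbPair_inr (g h : W → Kb) (u : AddMonoidAlgebra Kb W) :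
    fbPair (fun a : W × W => g a.1 * h a.2) (fbInr u) = g 0 * fbPair h u := by
  have := fbPair_inl_mul_inr g h 1 u
  rwa [map_one, one_mul, fbPair_one] at this

end Tens

end Fermat.Agent.FFL.FB
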