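/-
Lib/FFL/FB/PeuAbs (row 38, blocks D / T; helper91): ABSTRACT form of `PeuMono.lean`.

`Γ1` a subgroup of the decomposition group whose fixed field `K1` has the uniformiser `π1`
(`hunif`), `v(π1)^(p-1) = v(p)`; `θ ∈ ℚ̄` with `v(θ)^p = v(p)` whose `Γ1`-orbit has at most `p`
elements (e.g. `θ = α - 1`, `α^p = 1 + p z`; or `θ = t(τ)`, `[p] τ = e₁` in a formal group of
height one).  Then `M = K1(θ)` is totally ramified of degree `p` over `K1` with uniformiser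
`ϖ = π1 / θ` (`AbsPeuSetting.monoSetting`), and an `s ∈ Γ1` with `v(s θ - θ) = v(π1)` has
`v(s ϖ - ϖ) = v(ϖ)^2` (ramification break `1`).
-/
import Fermat.Agent.Lib.FFL.FB.PeuMono

set_option autoImplicit false
set_option linter.unusedSectionVars false
set_option linter.unusedVariables false

namespace Fermat.Agent.FFL.FB

open Fermat.Agent.FFL Polynomial

local notation "Kb" => AlgebraicClosure ℚ
local notation "GK" => (AlgebraicClosure ℚ ≃ₐ[ℚ] AlgebraicClosure ℚ)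

variable {p : ℕ} {P : ValuationSubring Kb}

/-- The stabiliser of `θ` in `Γ1`. -/
noncomputable def absStab (Γ1 : Subgroup GK) (θ : Kb) : Subgroup GK where
  carrier := {σ | σ ∈ Γ1 ∧ σ θ = θ}
  mul_mem' := fun {a b} ha hb => ⟨mul_mem ha.1 hb.1, by
    rw [AlgEquiv.mul_apply, hb.2, ha.2]⟩
  one_mem' := ⟨one_mem _, rfl⟩
  inv_mem' := fun {a} ha => ⟨inv_mem ha.1, by
    have h := congrArg (a⁻¹ : GK) ha.2
    rw [← AlgEquiv.mul_apply, inv_mul_cancel, AlgEquiv.one_apply] at h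
    exact h.symm⟩

theorem mem_absStab {Γ1 : Subgroup GK} {θ : Kb} {σ : GK} :
    σ ∈ absStab Γ1 θ ↔ σ ∈ Γ1 ∧ σ θ = θ := Iff.rfl

theorem absStab_le (Γ1 : Subgroup GK) (θ : Kb) : absStab Γ1 θ ≤ Γ1 := fun _ h => h.1

/-- The abstract peu ramifiée setting. -/
structure AbsPeuSetting (p : ℕ) (P : ValuationSubring Kb) (Γ1 : Subgroup GK) (π1 θ : Kb) :
    Prop where
  hp : p.Prime
  hp2 : p ≠ 2
  hP : P.LiesOverPrime p
  hΓ1 : Γ1 ≤ P.decompositionSubgroup ℚ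
  hπ1fix : ∀ σ ∈ Γ1, σ π1 = π1
  hunif : ∀ x ∈ P.nonunits, (∀ σ ∈ Γ1, σ x = x) → x / π1 ∈ P
  hπ1val : P.valuation π1 ^ (p - 1) = P.valuation (p : Kb)
  hθval : P.valuation θ ^ p = P.valuation (p : Kb)
  horb : ∃ T : Finset Kb, T.card ≤ p ∧ ∀ σ ∈ Γ1, σ θ ∈ T

namespace AbsPeuSetting

variable {Γ1 : Subgroup GK} {π1 θ : Kb} (S : AbsPeuSetting p P Γ1 π1 θ)
include S

theorem val_p_ne_zero : P.valuation (p : Kb) ≠ 0 :=
  (Valuation.ne_zero_iff _).2 (ar_p_ne_zero S.hp)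

theorem p_sub_one_ne_zero : p - 1 ≠ 0 := by
  have := S.hp.two_le
  omega

theorem val_π1_ne_zero : P.valuation π1 ≠ 0 := by
  intro h
  have := S.hπ1val
  rw [h, zero_pow S.p_sub_one_ne_zero] at this
  exact S.val_p_ne_zero this.symm

theorem π1_ne_zero : π1 ≠ 0 := (Valuation.ne_zero_iff _).1 S.val_π1_ne_zero

theorem val_π1_lt : P.valuation π1 < 1 := by
  by_contra h
  rw [not_lt] at h
  have h1 : 1 ≤ P.valuation π1 ^ (p - 1) := one_le_pow₀ h
  rw [S.hπ1val] at h1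
  exact absurd (ar_val_p_lt S.hP) (not_lt.2 h1)

theorem π1_mem_nonunits : π1 ∈ P.nonunits := (P.mem_nonunits_iff).2 S.val_π1_lt

theorem val_θ_ne_zero : P.valuation θ ≠ 0 := by
  intro h
  have := S.hθval
  rw [h, zero_pow S.hp.ne_zero] at this
  exact S.val_p_ne_zero this.symm

theorem θ_ne_zero : θ ≠ 0 := (Valuation.ne_zero_iff _).1 S.val_θ_ne_zero

/-- The uniformiser `ϖ = π1 / θ`: `v ϖ ^ p = v π1`. -/
theorem val_unif_pow_p : P.valuation (π1 / θ) ^ p = P.valuation π1 := by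
  have hp1 : p - 1 + 1 = p := Nat.sub_add_cancel S.hp.pos
  rw [map_div₀, div_pow, S.hθval, ← S.hπ1val, div_eq_iff (pow_ne_zero _ S.val_π1_ne_zero),
    ← pow_succ', hp1]

theorem val_unif_ne_zero : P.valuation (π1 / θ) ≠ 0 :=
  (Valuation.ne_zero_iff _).2 (div_ne_zero S.π1_ne_zero S.θ_ne_zero)

theorem unif_ne_zero : π1 / θ ≠ 0 := div_ne_zero S.π1_ne_zero S.θ_ne_zero

theorem val_unif_lt : P.valuation (π1 / θ) < 1 := by
  by_contra h
  rw [not_lt] at h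
  have h1 : 1 ≤ P.valuation (π1 / θ) ^ p := one_le_pow₀ h
  rw [S.val_unif_pow_p] at h1
  exact absurd S.val_π1_lt (not_lt.2 h1)

theorem unif_mem : π1 / θ ∈ P := (P.valuation_le_one_iff _).1 S.val_unif_lt.le

theorem val_unif : P.valuation (π1 / θ) ^ (p * (p - 1)) = P.valuation (p : Kb) := by
  rw [pow_mul, S.val_unif_pow_p, S.hπ1val]

theorem unif_fixed : ∀ σ ∈ absStab Γ1 θ, σ (π1 / θ) = π1 / θ := by
  intro σ hσ
  rw [map_div₀, S.hπ1fix σ hσ.1, hσ.2]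

theorem subgroupOf_eq_stabilizer :
    (absStab Γ1 θ).subgroupOf Γ1 = MulAction.stabilizer ↥Γ1 θ := by
  ext σ
  rw [Subgroup.mem_subgroupOf, MulAction.mem_stabilizer_iff, mem_absStab]
  constructor
  · rintro ⟨_, h1⟩
    exact h1
  · intro h
    exact ⟨σ.2, h⟩

/-- `[Γ1 : H] = p`. -/
theorem relIndex_eq : (absStab Γ1 θ).relIndex Γ1 = p := by
  classical
  obtain ⟨T, hT, hTo⟩ := S.horb
  have hsub : MulAction.orbit ↥Γ1 θ ⊆ ↑T := by
    rintro _ ⟨σ, rfl⟩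
    exact hTo σ.1 σ.2
  have hfin : (MulAction.orbit ↥Γ1 θ).Finite := Set.Finite.subset (Finset.finite_toSet _) hsub
  have hidx : (absStab Γ1 θ).relIndex Γ1 = (MulAction.orbit ↥Γ1 θ).ncard := by
    rw [Subgroup.relIndex, S.subgroupOf_eq_stabilizer, MulAction.index_stabilizer]
  have hD0 : (absStab Γ1 θ).relIndex Γ1 ≠ 0 := by
    rw [hidx]
    exact Set.ncard_ne_zero_of_mem (MulAction.mem_orbit_self _) hfin
  have hDle : (absStab Γ1 θ).relIndex Γ1 ≤ p := by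
    rw [hidx]
    refine (Set.ncard_le_ncard hsub (Finset.finite_toSet _)).trans ?_
    rw [Set.ncard_coe_finset]
    exact hT
  -- the stabiliser of `ϖ`
  have hle : (absStab Γ1 θ).subgroupOf Γ1 ≤ MulAction.stabilizer ↥Γ1 (π1 / θ) := by
    intro σ hσ
    rw [MulAction.mem_stabilizer_iff]
    exact S.unif_fixed σ.1 (Subgroup.mem_subgroupOf.1 hσ)
  have hdvd := Subgroup.index_dvd_of_le hle
  rw [MulAction.index_stabilizer] at hdvd
  have hD : ((absStab Γ1 θ).subgroupOf Γ1).index = (absStab Γ1 θ).relIndex Γ1 := rfl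
  rw [hD] at hdvd
  have hn0 : (MulAction.orbit ↥Γ1 (π1 / θ)).ncard ≠ 0 := by
    intro h
    rw [h, zero_dvd_iff] at hdvd
    exact hD0 hdvd
  have hfin' := Set.finite_of_ncard_ne_zero hn0
  obtain ⟨m, hm⟩ := pm_orbit_val S.hp S.hP Γ1 S.hΓ1 S.π1_ne_zero S.π1_mem_nonunits
    S.hπ1fix S.hunif S.unif_mem S.unif_ne_zero hfin'
  rw [← S.val_unif_pow_p, ← pow_mul] at hm
  have hinj := pow_right_injective₀ (zero_lt_iff.2 S.val_unif_ne_zero) S.val_unif_lt.ne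
  have hnm : (MulAction.orbit ↥Γ1 (π1 / θ)).ncard = p * m := hinj hm
  have hdD : p ∣ (absStab Γ1 θ).relIndex Γ1 := (Dvd.intro m hnm.symm).trans hdvd
  exact le_antisymm hDle (Nat.le_of_dvd (Nat.pos_of_ne_zero hD0) hdD)

/-- `M = K1(θ)` is totally ramified of degree `p` over `K1` with uniformiser `ϖ = π1 / θ`. -/
theorem monoSetting : MonoSetting p P Γ1 (absStab Γ1 θ) p π1 (π1 / θ) where
  hp := S.hp
  hP := S.hP
  hΓ0 := S.hΓ1
  hΓ := absStab_le Γ1 θ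
  hd := S.relIndex_eq
  hd0 := S.hp.ne_zero
  hπ0 := S.π1_ne_zero
  hπ0m := S.π1_mem_nonunits
  hπ0fix := S.hπ1fix
  hunif := S.hunif
  hϖfix := S.unif_fixed
  hϖ1 := by
    rw [← P.valuation_le_one_iff, map_div₀, map_pow, S.val_unif_pow_p,
      div_self S.val_π1_ne_zero]
  hϖ2 := by
    rw [P.mem_nonunits_iff, map_div₀, map_pow, S.val_unif_pow_p, div_self S.val_π1_ne_zero]
    exact lt_irrefl _

/-- Some element of `Γ1` moves `θ`. -/
theorem exists_moves : ∃ s ∈ Γ1, s θ ≠ θ := by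
  by_contra hcon
  push Not at hcon
  have h : Γ1 ≤ absStab Γ1 θ := fun σ hσ => ⟨hσ, hcon σ hσ⟩
  have h1 := Subgroup.relIndex_eq_one.2 h
  rw [S.relIndex_eq] at h1
  exact S.hp.one_lt.ne' h1

/-- **BREAK** for the uniformiser: if `v (s θ - θ) = v π1` then `v (s ϖ - ϖ) = v ϖ ^ 2`. -/
theorem val_smul_unif_sub {s : GK} (hs : s ∈ Γ1)
    (hsθ : P.valuation (s θ - θ) = P.valuation π1) :
    P.valuation (s (π1 / θ) - π1 / θ) = P.valuation (π1 / θ) ^ 2 := by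
  have hθ0 := S.θ_ne_zero
  have hsθ0 : s θ ≠ 0 := (map_ne_zero_iff s s.injective).2 hθ0
  have hvs : P.valuation (s θ) = P.valuation θ := val_decomp (S.hΓ1 hs) θ
  have h1 : s (π1 / θ) - π1 / θ = -(π1 * (s θ - θ) / (θ * s θ)) := by
    rw [map_div₀, S.hπ1fix s hs]
    field_simp
    ring
  rw [h1, Valuation.map_neg, map_div₀, map_mul, map_mul, hsθ, hvs, map_div₀, div_pow, pow_two,
    pow_two]

/-- `v p ≤ v ϖ ^ (p + 1)`: `v_M(p) = p (p - 1) ≥ p + 1`. -/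
theorem val_p_le : P.valuation (p : Kb) ≤ P.valuation (π1 / θ) ^ (p + 1) := by
  rw [← S.val_unif]
  refine pow_le_pow_of_le_one zero_le S.val_unif_lt.le ?_
  have h3 : 3 ≤ p := by
    have := S.hp.two_le
    have := S.hp2
    omega
  obtain ⟨q, rfl⟩ : ∃ q, p = q + 3 := ⟨p - 3, by omega⟩
  have : (q + 3) * (q + 3 - 1) = q * q + 5 * q + 6 := by
    have : q + 3 - 1 = q + 2 := by omega
    rw [this]; ring
  rw [this]
  nlinarith

end AbsPeuSetting

end Fermat.Agent.FFL.FB
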