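/-
Lib/FFL/FB, seat (TR) of the "DISC + translation" route for S56-W4 case C (helper82's note,
tested by helper25): the TRANSLATION FORMULA for comultiplication-closed families of functions,
its SHARP consequence and the NORM TRICK (CHEAP).  Owner: helper25.

Setting (abstract): `L` a field, `P` a valuation subring of `L`, `W` an additive commutative
group, `B` a set of functions `W → L` with `ComulClosed B` (Lib/FFL/Defs).  A point `w` is
"in the kernel of reduction" if `f w - f 0 ∈ P.nonunits` for all `f ∈ B` (for `L = ℚ̄` this is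
`w ∈ redKer P B`).

* `tr_formula` : `X (w + a) - X w - (X a - X 0) = ∑ i, c i * (Y i a - Y i 0)` with
  `c i ∈ P.nonunits`, `Y i ∈ B`.
* `sharp` : if `π ≠ 0` divides all `Y a - Y 0` (`Y ∈ B`) in `P` and `(Z a - Z 0) / π` is a unit
  of `P`, then `(Z (w + a) - Z w) / π` is a unit of `P`.
* `esymmFun Z S j u` : the `j`-th elementary symmetric function of the values `Z (u + s)`,
  `s ∈ S`; `esymmFun_add` : it is invariant under translation by `S` when `S` is stable under
  translations by its elements.
* `cheap` : the norm trick: for a finite set `S ∋ 0` of translations such that `sharp` applies to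
  every base point `w + s` and translation `a - s`, some `esymmFun Z S j` (`1 ≤ j ≤ #S`) has
  `(esymmFun Z S j (w + a) - esymmFun Z S j w) / π ^ #S ∉ P.nonunits`.
-/
import Fermat.Agent.Lib.FFL.Defs

set_option autoImplicit false

namespace Fermat.Agent.FFL.TR

open Fermat.Agent.FFL Polynomial

variable {L : Type*} [Field L] {W : Type*} [AddCommGroup W]

/-! ### Valuation arithmetic -/

theorem mul_mem_nonunits (P : ValuationSubring L) {c y : L} (hc : c ∈ P.nonunits)
    (hy : y ∈ P) : c * y ∈ P.nonunits := by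
  rw [ValuationSubring.mem_nonunits_iff] at hc ⊢
  rw [← ValuationSubring.valuation_le_one_iff] at hy
  rw [map_mul]
  calc P.valuation c * P.valuation y ≤ P.valuation c * 1 := by gcongr
    _ = P.valuation c := mul_one _
    _ < 1 := hc

theorem sum_mem_nonunits (P : ValuationSubring L) {ι : Type*} (s : Finset ι) (f : ι → L)
    (hf : ∀ i ∈ s, f i ∈ P.nonunits) : ∑ i ∈ s, f i ∈ P.nonunits := by
  rw [ValuationSubring.mem_nonunits_iff]
  exact P.valuation.map_sum_lt one_ne_zero
    (fun i hi => (ValuationSubring.mem_nonunits_iff P).1 (hf i hi))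

/-- `x` is a unit of `P`: it lies in `P` and is not a nonunit. -/
def IsUnitOf (P : ValuationSubring L) (x : L) : Prop := x ∈ P ∧ x ∉ P.nonunits

theorem isUnitOf_iff (P : ValuationSubring L) (x : L) :
    IsUnitOf P x ↔ P.valuation x = 1 := by
  unfold IsUnitOf
  rw [ValuationSubring.mem_nonunits_iff, ← ValuationSubring.valuation_le_one_iff, not_lt]
  exact ⟨fun h => le_antisymm h.1 h.2, fun h => ⟨h.le, h.ge⟩⟩

theorem IsUnitOf.add_nonunit {P : ValuationSubring L} {u m : L} (hu : IsUnitOf P u)
    (hm : m ∈ P.nonunits) : IsUnitOf P (u + m) := by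
  rw [isUnitOf_iff] at hu ⊢
  rw [ValuationSubring.mem_nonunits_iff] at hm
  rw [Valuation.map_add_eq_of_lt_left _ (by rw [hu]; exact hm), hu]

theorem IsUnitOf.mul {P : ValuationSubring L} {u u' : L} (hu : IsUnitOf P u)
    (hu' : IsUnitOf P u') : IsUnitOf P (u * u') := by
  rw [isUnitOf_iff] at hu hu' ⊢
  rw [map_mul, hu, hu', mul_one]

theorem isUnitOf_one (P : ValuationSubring L) : IsUnitOf P 1 := by
  rw [isUnitOf_iff, map_one]

theorem isUnitOf_prod (P : ValuationSubring L) {ι : Type*} (s : Finset ι) (f : ι → L)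
    (hf : ∀ i ∈ s, IsUnitOf P (f i)) : IsUnitOf P (∏ i ∈ s, f i) := by
  classical
  induction s using Finset.induction_on with
  | empty => simpa using isUnitOf_one P
  | insert i s hi ih =>
    rw [Finset.prod_insert hi]
    exact (hf i (Finset.mem_insert_self _ _)).mul
      (ih fun j hj => hf j (Finset.mem_insert_of_mem hj))

/-! ### The translation formula -/

/-- **(TR)** the translation formula. -/
theorem tr_formula (P : ValuationSubring L) {B : Set (W → L)} (hB : ComulClosed B)
    {w : W} (hw : ∀ f ∈ B, f w - f 0 ∈ P.nonunits) (a : W) {X : W → L} (hX : X ∈ B) :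
    ∃ (n : ℕ) (c : Fin n → L) (Y : Fin n → (W → L)), (∀ i, c i ∈ P.nonunits) ∧ (∀ i, Y i ∈ B) ∧
      X (w + a) - X w - (X a - X 0) = ∑ i, c i * (Y i a - Y i 0) := by
  obtain ⟨n, g, h, hg, hh, hf⟩ := hB X hX
  refine ⟨n, fun i => g i w - g i 0, h, fun i => hw _ (hg i), hh, ?_⟩
  have h1 : X (w + a) = ∑ i, g i w * h i a := hf w a
  have h2 : X w = ∑ i, g i w * h i 0 := by
    have := hf w 0
    rwa [add_zero] at this
  have h3 : X a = ∑ i, g i 0 * h i a := by
    have := hf 0 a
    rwa [zero_add] at this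
  have h4 : X 0 = ∑ i, g i 0 * h i 0 := by
    have := hf 0 0
    rwa [add_zero] at this
  rw [h1, h2, h3, h4, ← Finset.sum_sub_distrib, ← Finset.sum_sub_distrib,
    ← Finset.sum_sub_distrib]
  refine Finset.sum_congr rfl fun i _ => ?_
  ring

/-- **(TR)** for `L = ℚ̄` and a point of `redKer`. -/
theorem tr_formula_redKer (P : ValuationSubring (AlgebraicClosure ℚ))
    {B : Set (W → AlgebraicClosure ℚ)} (hB : ComulClosed B)
    {w : W} (hw : w ∈ redKer P B) (a : W) {X : W → AlgebraicClosure ℚ} (hX : X ∈ B) :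
    ∃ (n : ℕ) (c : Fin n → AlgebraicClosure ℚ) (Y : Fin n → (W → AlgebraicClosure ℚ)),
      (∀ i, c i ∈ P.nonunits) ∧ (∀ i, Y i ∈ B) ∧
      X (w + a) - X w - (X a - X 0) = ∑ i, c i * (Y i a - Y i 0) :=
  tr_formula P hB hw a hX

/-- **(SHARP)**: if `π` divides all `Y a - Y 0` and `(Z a - Z 0) / π` is a unit, then
`(Z (w + a) - Z w) / π` is a unit, for every point `w` of the kernel of reduction. -/
theorem sharp (P : ValuationSubring L) {B : Set (W → L)} (hB : ComulClosed B)
    {w a : W} (hw : ∀ f ∈ B, f w - f 0 ∈ P.nonunits) {π : L}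
    (hY : ∀ Y ∈ B, (Y a - Y 0) / π ∈ P) {Z : W → L} (hZ : Z ∈ B)
    (hZa : IsUnitOf P ((Z a - Z 0) / π)) :
    IsUnitOf P ((Z (w + a) - Z w) / π) := by
  obtain ⟨n, c, Y, hc, hYB, h⟩ := tr_formula P hB hw a hZ
  have h' : (Z (w + a) - Z w) / π = (Z a - Z 0) / π + ∑ i, c i * ((Y i a - Y i 0) / π) := by
    have : Z (w + a) - Z w = (Z a - Z 0) + ∑ i, c i * (Y i a - Y i 0) := by
      rw [← h]; ring
    rw [this, add_div, Finset.sum_div]
    congr 1
    refine Finset.sum_congr rfl fun i _ => ?_
    rw [mul_div_assoc]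
  rw [h']
  exact hZa.add_nonunit (sum_mem_nonunits P _ _ fun i _ =>
    mul_mem_nonunits P (hc i) (hY _ (hYB i)))

/-! ### The norm trick -/

/-- The `j`-th elementary symmetric function of the values `Z (u + s)`, `s ∈ S`. -/
noncomputable def esymmFun (Z : W → L) (S : Finset W) (j : ℕ) (u : W) : L :=
  (S.val.map fun s => Z (u + s)).esymm j

theorem esymmFun_zero (Z : W → L) (S : Finset W) (u : W) : esymmFun Z S 0 u = 1 := by
  unfold esymmFun
  simp [Multiset.esymm]

/-- `esymmFun Z S j` is invariant under the translations which permute `S`. -/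
theorem esymmFun_add [DecidableEq W] (Z : W → L) (S : Finset W) (j : ℕ) (u s₀ : W)
    (hS : ∀ s ∈ S, s₀ + s ∈ S) : esymmFun Z S j (u + s₀) = esymmFun Z S j u := by
  unfold esymmFun
  have himg : S.image (fun s => s₀ + s) = S := by
    refine Finset.eq_of_subset_of_card_le ?_ ?_
    · intro x hx
      obtain ⟨s, hs, rfl⟩ := Finset.mem_image.1 hx
      exact hS s hs
    · rw [Finset.card_image_of_injective _ (add_right_injective s₀)]
  have hval : S.val = S.val.map (fun s => s₀ + s) := by
    conv_lhs => rw [← himg]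
    rw [Finset.image_val_of_injOn (fun x _ y _ h => add_right_injective s₀ h)]
  conv_rhs => rw [hval]
  rw [Multiset.map_map]
  congr 1
  refine Multiset.map_congr rfl fun s _ => ?_
  simp only [Function.comp_apply, add_assoc]

/-- The polynomial identity behind the norm trick, evaluated at `t`. -/
theorem prod_sub_eq_sum_esymmFun (Z : W → L) (S : Finset W) (u : W) (t : L) :
    ∏ s ∈ S, (t - Z (u + s)) =
      ∑ j ∈ Finset.range (S.card + 1), (-1) ^ j * (esymmFun Z S j u * t ^ (S.card - j)) := by
  have h := Multiset.prod_X_sub_X_eq_sum_esymm (S.val.map fun s => Z (u + s))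
  have h2 := congrArg (Polynomial.eval t) h
  rw [Multiset.map_map, Polynomial.eval_multiset_prod, Multiset.map_map,
    Polynomial.eval_finsetSum] at h2
  simp only [Function.comp_apply, eval_sub, eval_X, eval_C, Multiset.card_map, eval_mul,
    eval_pow, eval_neg, eval_one, Finset.card_val] at h2
  rw [Finset.prod_eq_multiset_prod]
  exact h2

/-- **(CHEAP)** the norm trick.  `S ∋ 0` a finite set of translations; for every `s ∈ S` the
point `w + s` is in the kernel of reduction, `π` divides `Y (a - s) - Y 0` for all `Y ∈ B`, and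
`(Z (a - s) - Z 0) / π` is a unit.  Then some elementary symmetric function of the translates
`Z (· + s)` moves by at most `π ^ #S` (in valuation) under translation by `a`. -/
theorem cheap (P : ValuationSubring L) {B : Set (W → L)} (hB : ComulClosed B)
    {w a : W} (S : Finset W) (h0 : (0 : W) ∈ S) {π : L} (hπ : π ≠ 0)
    (hw : ∀ s ∈ S, ∀ f ∈ B, f (w + s) - f 0 ∈ P.nonunits)
    (hY : ∀ s ∈ S, ∀ Y ∈ B, (Y (a - s) - Y 0) / π ∈ P) {Z : W → L} (hZ : Z ∈ B)
    (hZa : ∀ s ∈ S, IsUnitOf P ((Z (a - s) - Z 0) / π)) (ht : Z (w + a) ∈ P) :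
    ∃ j, 1 ≤ j ∧ j ≤ S.card ∧
      (esymmFun Z S j (w + a) - esymmFun Z S j w) / π ^ S.card ∉ P.nonunits := by
  classical
  by_contra hcon
  replace hcon : ∀ j, 1 ≤ j → j ≤ S.card →
      (esymmFun Z S j (w + a) - esymmFun Z S j w) / π ^ S.card ∈ P.nonunits := by
    intro j h1 h2
    by_contra h3
    exact hcon ⟨j, h1, h2, h3⟩
  set t : L := Z (w + a) with ht_def
  -- the left side is a unit times `π ^ #S`
  have hfac : ∀ s ∈ S, IsUnitOf P ((t - Z (w + s)) / π) := by
    intro s hs
    have := sharp P hB (w := w + s) (a := a - s) (hw s hs) (hY s hs) hZ (hZa s hs)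
    have e : w + s + (a - s) = w + a := by abel
    rwa [e] at this
  have hL : IsUnitOf P ((∏ s ∈ S, (t - Z (w + s))) / π ^ S.card) := by
    have : (∏ s ∈ S, (t - Z (w + s))) / π ^ S.card = ∏ s ∈ S, ((t - Z (w + s)) / π) := by
      rw [Finset.prod_div_distrib, Finset.prod_const]
    rw [this]
    exact isUnitOf_prod P S _ hfac
  -- the product for `w + a` vanishes
  have hzero : ∏ s ∈ S, (t - Z (w + a + s)) = 0 :=
    Finset.prod_eq_zero h0 (by rw [add_zero]; exact sub_self _)
  have e1 := prod_sub_eq_sum_esymmFun Z S w t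
  have e2 := prod_sub_eq_sum_esymmFun Z S (w + a) t
  rw [hzero] at e2
  have e3 : ∏ s ∈ S, (t - Z (w + s)) =
      ∑ j ∈ Finset.range (S.card + 1),
        (-1) ^ (j + 1) * ((esymmFun Z S j (w + a) - esymmFun Z S j w) * t ^ (S.card - j)) := by
    have : ∏ s ∈ S, (t - Z (w + s)) = ∏ s ∈ S, (t - Z (w + s)) - 0 := (sub_zero _).symm
    rw [this, e1, e2, ← Finset.sum_sub_distrib]
    refine Finset.sum_congr rfl fun j _ => ?_
    ring
  have hR : (∏ s ∈ S, (t - Z (w + s))) / π ^ S.card ∈ P.nonunits := by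
    rw [e3, Finset.sum_div]
    refine sum_mem_nonunits P _ _ fun j hj => ?_
    rcases Nat.eq_zero_or_pos j with hj0 | hjpos
    · subst hj0
      rw [esymmFun_zero, esymmFun_zero, sub_self, zero_mul, mul_zero, zero_div]
      exact (ValuationSubring.mem_nonunits_iff P).2 (by rw [map_zero]; exact zero_lt_one)
    · have hjle : j ≤ S.card := Nat.lt_succ_iff.1 (Finset.mem_range.1 hj)
      have hmem := hcon j hjpos hjle
      have e : (-1) ^ (j + 1) * ((esymmFun Z S j (w + a) - esymmFun Z S j w) * t ^ (S.card - j))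
          / π ^ S.card = (esymmFun Z S j (w + a) - esymmFun Z S j w) / π ^ S.card *
            ((-1) ^ (j + 1) * t ^ (S.card - j)) := by
        field_simp
      rw [e]
      refine mul_mem_nonunits P hmem (P.mul_mem _ _ ?_ (P.pow_mem ht _))
      exact P.pow_mem (P.neg_mem _ P.one_mem) _
  exact hL.2 hR

end Fermat.Agent.FFL.TR
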